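/-
S42, block ALG (pure algebra): FROZEN interfaces of the work packages.  Owner: helper4.  Do not edit.

Goal (`alg_MainStatement`, delivered as `alg_two_dim` in `Fermat/Agent/S42/Alg.lean`):
a nonzero finite-dimensional representation `W` of `G` over an algebraically closed field on which a
covering family `g i` satisfies `x^2 - a i x + χ(g i) = 0` yields a 2-dimensional representation with
`tr ρ(g i) = a i`, `det ρ(g i) = χ(g i)`.

Proof plan.  (Pow) every `h : G` satisfies `ρW h ^2 - b • ρW h + χ h = 0` for some `b` (powers of a root of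
a quadratic).  (Simple) minimal nonzero invariant subspace `W0`.  (Burnside) `span (range ρ0) = ⊤`.
(Anti) `X*Y + Y*X = t Y • X + t X • Y + u • 1` for a linear `t` (extend from a basis of group elements,
using `ρ h * ρ k + ρ k * ρ h = b k • ρ h + b h • ρ k + (b (h*k) - b h * b k) • 1`).
(Dim) hence `finrank W0 ≤ 2` (test on `E₁₂, E₂₃`).  (Two) `finrank = 2`: trace/det as wanted.
(One) `finrank = 1`: `ψ ⊕ χ ψ⁻¹`.
-/
import Mathlib

set_option autoImplicit false

namespace Fermat.Agent.S42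

/-- (ALG-Pow) If `x^2 - a x + d = 0` then every power `x^n` satisfies `Y^2 - b Y + d^n = 0` for some
scalar `b`. -/
def alg_PowStatement : Prop :=
  ∀ (K : Type) [Field K] [IsAlgClosed K] (W : Type) [AddCommGroup W] [Module K W]
    (x : W →ₗ[K] W) (a d : K), x * x - a • x + d • (1 : W →ₗ[K] W) = 0 →
    ∀ n : ℕ, ∃ b : K, x ^ n * x ^ n - b • x ^ n + d ^ n • (1 : W →ₗ[K] W) = 0

/-- (ALG-Simple) A nonzero finite-dimensional representation contains a minimal nonzero invariant
subspace. -/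
def alg_SimpleStatement : Prop :=
  ∀ (K G : Type) [Field K] [Group G] (W : Type) [AddCommGroup W] [Module K W]
    [FiniteDimensional K W] [Nontrivial W] (ρ : Representation K G W),
    ∃ W0 : Submodule K W, W0 ≠ ⊥ ∧ (∀ g : G, ∀ w ∈ W0, ρ g w ∈ W0) ∧
      ∀ U : Submodule K W, U ≤ W0 → (∀ g : G, ∀ u ∈ U, ρ g u ∈ U) → U = ⊥ ∨ U = W0

/-- (ALG-Burnside) Burnside's theorem: an irreducible finite-dimensional representation over an
algebraically closed field spans the whole endomorphism algebra. -/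
def alg_BurnsideStatement : Prop :=
  ∀ (K G : Type) [Field K] [IsAlgClosed K] [Group G] (V : Type) [AddCommGroup V] [Module K V]
    [FiniteDimensional K V] [Nontrivial V] (ρ : Representation K G V),
    (∀ U : Submodule K V, (∀ g : G, ∀ u ∈ U, ρ g u ∈ U) → U = ⊥ ∨ U = ⊤) →
    Submodule.span K (Set.range (fun g : G => ρ g)) = ⊤

/-- (ALG-Anti) The anticommutator identity on the span of the group. -/
def alg_AntiStatement : Prop :=
  ∀ (K G : Type) [Field K] [Group G] (V : Type) [AddCommGroup V] [Module K V]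
    [FiniteDimensional K V] (ρ : Representation K G V) (χ : G →* Kˣ) (b : G → K),
    Submodule.span K (Set.range (fun g : G => ρ g)) = ⊤ →
    (∀ g : G, ρ g * ρ g - b g • ρ g + ((χ g : Kˣ) : K) • (1 : V →ₗ[K] V) = 0) →
    ∃ t : (V →ₗ[K] V) →ₗ[K] K, ∀ X Y : V →ₗ[K] V, ∃ u : K,
      X * Y + Y * X = t Y • X + t X • Y + u • (1 : V →ₗ[K] V)

/-- (ALG-Dim) The anticommutator identity forces dimension `≤ 2`. -/
def alg_DimStatement : Prop :=
  ∀ (K : Type) [Field K] (V : Type) [AddCommGroup V] [Module K V] [FiniteDimensional K V],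
    (∃ t : (V →ₗ[K] V) →ₗ[K] K, ∀ X Y : V →ₗ[K] V, ∃ u : K,
      X * Y + Y * X = t Y • X + t X • Y + u • (1 : V →ₗ[K] V)) →
    Module.finrank K V ≤ 2

/-- (ALG-Two) In an irreducible 2-dimensional representation all of whose elements satisfy a quadratic
with constant term `χ`, a quadratic relation `x^2 - a x + χ = 0` for `ρ h` forces `tr = a`, `det = χ`. -/
def alg_TwoStatement : Prop :=
  ∀ (K G : Type) [Field K] [Group G] (V : Type) [AddCommGroup V] [Module K V]
    (ρ : Representation K G V) (χ : G →* Kˣ),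
    Module.finrank K V = 2 →
    (∀ U : Submodule K V, (∀ g : G, ∀ u ∈ U, ρ g u ∈ U) → U = ⊥ ∨ U = ⊤) →
    (∀ h : G, ∃ b : K, ρ h * ρ h - b • ρ h + ((χ h : Kˣ) : K) • (1 : V →ₗ[K] V) = 0) →
    ∀ (h : G) (a : K), ρ h * ρ h - a • ρ h + ((χ h : Kˣ) : K) • (1 : V →ₗ[K] V) = 0 →
      LinearMap.trace K V (ρ h) = a ∧ LinearMap.det (ρ h) = ((χ h : Kˣ) : K)

/-- (ALG-One) A 1-dimensional representation `ψ` satisfying the quadratics gives `ψ ⊕ χ ψ⁻¹`. -/
def alg_OneStatement : Prop :=
  ∀ (K G ι : Type) [Field K] [Group G] (V0 : Type) [AddCommGroup V0] [Module K V0]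
    (ρ0 : Representation K G V0) (χ : G →* Kˣ) (H : Subgroup G) (g : ι → G) (a : ι → K),
    Module.finrank K V0 = 1 →
    (∀ h ∈ H, ρ0 h = 1) → (∀ h ∈ H, χ h = 1) →
    (∀ i, ρ0 (g i) * ρ0 (g i) - a i • ρ0 (g i) + ((χ (g i) : Kˣ) : K) • (1 : V0 →ₗ[K] V0) = 0) →
    ∃ (V : Type) (_ : AddCommGroup V) (_ : Module K V) (ρ : Representation K G V),
      Module.finrank K V = 2 ∧ (∀ h ∈ H, ρ h = 1) ∧
      ∀ i, LinearMap.trace K V (ρ (g i)) = a i ∧ LinearMap.det (ρ (g i)) = ((χ (g i) : Kˣ) : K)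

/-- (ALG-Main) The statement of `alg_two_dim` (signature fixed by the lead). -/
def alg_MainStatement : Prop :=
  ∀ {K G ι : Type} [Field K] [IsAlgClosed K] [Group G]
    {W : Type} [AddCommGroup W] [Module K W] [FiniteDimensional K W] [Nontrivial W]
    (ρW : Representation K G W) (χ : G →* Kˣ) (H : Subgroup G) [H.Normal]
    (_hH : ∀ h ∈ H, ρW h = 1) (_hχ : ∀ h ∈ H, χ h = 1)
    (g : ι → G) (a : ι → K)
    (_hquad : ∀ i, ρW (g i) * ρW (g i) - a i • ρW (g i) +
      ((χ (g i) : Kˣ) : K) • (1 : W →ₗ[K] W) = 0)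
    (_hcov : ∀ h : G, ∃ i, ∃ n : ℕ, h⁻¹ * g i ^ n ∈ H),
    ∃ (V : Type) (_ : AddCommGroup V) (_ : Module K V) (ρ : Representation K G V),
      Module.finrank K V = 2 ∧ (∀ h ∈ H, ρ h = 1) ∧
      ∀ i, LinearMap.trace K V (ρ (g i)) = a i ∧ LinearMap.det (ρ (g i)) = ((χ (g i) : Kˣ) : K)

/-- (ALG-Asm) The assembly to be proved in `AlgAsm*.lean`. -/
def alg_AsmStatement : Prop :=
  alg_PowStatement → alg_SimpleStatement → alg_BurnsideStatement → alg_AntiStatement →
    alg_DimStatement → alg_TwoStatement → alg_OneStatement → alg_MainStatement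

end Fermat.Agent.S42
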