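/-
S42, block ALG, package ALG-Anti (twin A): the anticommutator identity on the span of the group.

If the operators `ρ g` span `End V` and every `ρ g` satisfies `x^2 - b g • x + χ g = 0`, then there
is a linear form `t` on `End V` with `X * Y + Y * X = t Y • X + t X • Y + u • 1` for all `X`, `Y`
(`u` a scalar depending on `X`, `Y`).
-/
import Mathlib
import Fermat.Agent.S42.AlgInterfaces

set_option autoImplicit false

namespace Fermat.Agent.S42

/-- From `A * A - c • A + d • 1 = 0` and `A * A' = 1`: `d • A' = c • 1 - A`. -/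
theorem alganta_inv_formula {K E : Type} [Field K] [Ring E] [Algebra K E] (A A' : E) (c d : K)
    (hAA' : A * A' = 1) (hq : A * A - c • A + d • (1 : E) = 0) :
    d • A' = c • (1 : E) - A := by
  have h1 : (A * A - c • A + d • (1 : E)) * A' = 0 := by rw [hq, zero_mul]
  have h2 : (A * A - c • A + d • (1 : E)) * A' = A - c • (1 : E) + d • A' := by
    rw [add_mul, sub_mul, mul_assoc, hAA', mul_one, smul_mul_assoc, hAA', smul_mul_assoc, one_mul]
  rw [h2] at h1
  have h3 := eq_neg_of_add_eq_zero_right h1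
  rw [h3, neg_sub]

/-- The anticommutator formula for two invertible elements satisfying quadratic equations whose
product also satisfies one (with multiplicative constant terms). -/
theorem alganta_anticomm_formula {K E : Type} [Field K] [Ring E] [Algebra K E]
    (A B A' B' : E) (a b c da db : K)
    (hAA' : A * A' = 1) (hBB' : B * B' = 1)
    (hA : A * A - a • A + da • (1 : E) = 0) (hB : B * B - b • B + db • (1 : E) = 0)
    (hAB : (A * B) * (A * B) - c • (A * B) + (da * db) • (1 : E) = 0) :
    A * B + B * A = b • A + a • B + (c - a * b) • (1 : E) := by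
  have e1 : da • A' = a • (1 : E) - A := alganta_inv_formula A A' a da hAA' hA
  have e2 : db • B' = b • (1 : E) - B := alganta_inv_formula B B' b db hBB' hB
  have hinv : (A * B) * (B' * A') = 1 := by
    rw [mul_assoc, ← mul_assoc B B' A', hBB', one_mul, hAA']
  have e3 : (da * db) • (B' * A') = c • (1 : E) - A * B :=
    alganta_inv_formula (A * B) (B' * A') c (da * db) hinv hAB
  have e4 : (da * db) • (B' * A') = (db • B') * (da • A') := by
    rw [smul_mul_smul_comm, mul_comm db da]
  have e5 : (b • (1 : E) - B) * (a • (1 : E) - A) =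
      (b * a) • (1 : E) - b • A - a • B + B * A := by
    rw [sub_mul, mul_sub, mul_sub, smul_mul_smul_comm, one_mul, smul_mul_assoc, one_mul,
      mul_smul_comm, mul_one]
    abel
  have e6 : c • (1 : E) - A * B = (b * a) • (1 : E) - b • A - a • B + B * A := by
    rw [← e3, e4, e1, e2, e5]
  have e7 : (c - a * b) • (1 : E) = c • (1 : E) - (b * a) • (1 : E) := by
    rw [sub_smul, mul_comm a b]
  rw [e7]
  have e8 : A * B = c • (1 : E) - ((b * a) • (1 : E) - b • A - a • B + B * A) := by
    rw [← e6]
    abel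
  rw [e8]
  abel

/-- The anticommutator formula for the operators of two group elements. -/
theorem alganta_group_formula {K G V : Type} [Field K] [Group G] [AddCommGroup V] [Module K V]
    (ρ : Representation K G V) (χ : G →* Kˣ) (b : G → K)
    (hquad : ∀ g : G, ρ g * ρ g - b g • ρ g + ((χ g : Kˣ) : K) • (1 : V →ₗ[K] V) = 0)
    (h k : G) :
    ρ h * ρ k + ρ k * ρ h =
      b k • ρ h + b h • ρ k + (b (h * k) - b h * b k) • (1 : V →ₗ[K] V) := by
  have hhh : ρ h * ρ h⁻¹ = 1 := by rw [← map_mul, mul_inv_cancel, map_one]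
  have hkk : ρ k * ρ k⁻¹ = 1 := by rw [← map_mul, mul_inv_cancel, map_one]
  have hhk := hquad (h * k)
  rw [map_mul, map_mul, Units.val_mul] at hhk
  exact alganta_anticomm_formula (ρ h) (ρ k) (ρ h⁻¹) (ρ k⁻¹) (b h) (b k) (b (h * k))
    ((χ h : Kˣ) : K) ((χ k : Kˣ) : K) hhh hkk (hquad h) (hquad k) hhk

/-- The anticommutator identity for a pair `X`, `Y`, with respect to the linear form `t`. -/
def alganta_P {K E : Type} [Field K] [Ring E] [Algebra K E] (t : E →ₗ[K] K) (X Y : E) : Prop :=
  ∃ u : K, X * Y + Y * X = t Y • X + t X • Y + u • (1 : E)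

theorem alganta_P_symm {K E : Type} [Field K] [Ring E] [Algebra K E] (t : E →ₗ[K] K) {X Y : E}
    (h : alganta_P t X Y) : alganta_P t Y X := by
  obtain ⟨u, hu⟩ := h
  refine ⟨u, ?_⟩
  rw [add_comm (Y * X) (X * Y), hu, add_comm (t Y • X) (t X • Y)]

theorem alganta_P_zero {K E : Type} [Field K] [Ring E] [Algebra K E] (t : E →ₗ[K] K) (Y : E) :
    alganta_P t 0 Y := by
  refine ⟨0, ?_⟩
  rw [zero_mul, mul_zero, map_zero, smul_zero, zero_smul, zero_smul, add_zero, add_zero]

theorem alganta_P_add {K E : Type} [Field K] [Ring E] [Algebra K E] (t : E →ₗ[K] K)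
    {X₁ X₂ Y : E} (h₁ : alganta_P t X₁ Y) (h₂ : alganta_P t X₂ Y) :
    alganta_P t (X₁ + X₂) Y := by
  obtain ⟨u₁, hu₁⟩ := h₁
  obtain ⟨u₂, hu₂⟩ := h₂
  refine ⟨u₁ + u₂, ?_⟩
  have e : (X₁ + X₂) * Y + Y * (X₁ + X₂) = (X₁ * Y + Y * X₁) + (X₂ * Y + Y * X₂) := by
    rw [add_mul, mul_add]
    abel
  rw [e, hu₁, hu₂, map_add, smul_add, add_smul, add_smul]
  abel

theorem alganta_P_smul {K E : Type} [Field K] [Ring E] [Algebra K E] (t : E →ₗ[K] K)
    (a : K) {X Y : E} (h : alganta_P t X Y) : alganta_P t (a • X) Y := by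
  obtain ⟨u, hu⟩ := h
  refine ⟨a * u, ?_⟩
  have e : (a • X) * Y + Y * (a • X) = a • (X * Y + Y * X) := by
    rw [smul_mul_assoc, mul_smul_comm, smul_add]
  rw [e, hu, map_smul, smul_eq_mul, smul_add, smul_add, smul_smul, smul_smul, smul_smul,
    smul_smul, mul_comm a (t Y)]

/-- WP `ALG-Anti`. -/
theorem alganta_main : alg_AntiStatement := by
  intro K G _ _ V _ _ _ ρ χ b hspan hquad
  classical
  obtain ⟨s, hs_sub, hs_span, hs_li⟩ :=
    exists_linearIndependent K (Set.range (fun g : G => ρ g))
  rw [hspan] at hs_span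
  have hs_top : ⊤ ≤ Submodule.span K (Set.range ((↑) : s → (V →ₗ[K] V))) := by
    rw [Subtype.range_coe]
    exact hs_span.ge
  have hB : ∀ i : s, Module.Basis.mk hs_li hs_top i = (i : V →ₗ[K] V) :=
    fun i => Module.Basis.mk_apply hs_li hs_top i
  have hg : ∀ i : s, ∃ g : G, ρ g = (i : V →ₗ[K] V) := fun i => hs_sub i.2
  choose gg hgg using hg
  have ht : ∀ i : s,
      (Module.Basis.mk hs_li hs_top).constr K (fun i => b (gg i)) (i : V →ₗ[K] V) = b (gg i) := by
    intro i
    have h1 := (Module.Basis.mk hs_li hs_top).constr_basis K (fun i => b (gg i)) i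
    rw [hB] at h1
    exact h1
  refine ⟨(Module.Basis.mk hs_li hs_top).constr K (fun i => b (gg i)), ?_⟩
  have hbase : ∀ i j : s, alganta_P ((Module.Basis.mk hs_li hs_top).constr K (fun i => b (gg i)))
      (i : V →ₗ[K] V) (j : V →ₗ[K] V) := by
    intro i j
    have h1 := alganta_group_formula ρ χ b hquad (gg i) (gg j)
    rw [hgg i, hgg j] at h1
    refine ⟨b (gg i * gg j) - b (gg i) * b (gg j), ?_⟩
    rw [ht i, ht j]
    exact h1
  have hstep1 : ∀ (j : s) (X : V →ₗ[K] V),
      alganta_P ((Module.Basis.mk hs_li hs_top).constr K (fun i => b (gg i))) X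
        (j : V →ₗ[K] V) := by
    intro j X
    have hX : X ∈ Submodule.span K s := by
      rw [hs_span]
      exact Submodule.mem_top
    induction hX using Submodule.span_induction with
    | mem x hx => exact hbase ⟨x, hx⟩ j
    | zero => exact alganta_P_zero _ _
    | add x y _ _ ihx ihy => exact alganta_P_add _ ihx ihy
    | smul a x _ ih => exact alganta_P_smul _ a ih
  intro X Y
  have hY : Y ∈ Submodule.span K s := by
    rw [hs_span]
    exact Submodule.mem_top
  induction hY using Submodule.span_induction with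
  | mem y hy => exact hstep1 ⟨y, hy⟩ X
  | zero => exact alganta_P_symm _ (alganta_P_zero _ X)
  | add x y _ _ ihx ihy =>
    exact alganta_P_symm _ (alganta_P_add _ (alganta_P_symm _ ihx) (alganta_P_symm _ ihy))
  | smul a x _ ih => exact alganta_P_symm _ (alganta_P_smul _ a (alganta_P_symm _ ih))

end Fermat.Agent.S42
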