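/-
S42, block ALG, package ALG-Burnside (twin A): Burnside's theorem via the Jacobson density theorem.

Let `A` be the subalgebra of `End_K V` generated by the image of `ρ`.  Then `V` is a simple
`A`-module; by Schur's lemma over an algebraically closed field every `A`-linear endomorphism of `V`
is a scalar (it has an eigenvalue, and the eigenspace is an invariant subspace), so every `K`-linear
endomorphism `T` of `V` commutes with `End_A V`, and the density theorem (`jacobson_density`)
applied to a finite spanning set of `V` gives `T ∈ A`.  Finally `A` is the span of the image of `ρ`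
since this image is a submonoid.
-/
import Mathlib
import Fermat.Agent.S42.AlgInterfaces

set_option autoImplicit false

namespace Fermat.Agent.S42

/-- A subalgebra of `End_K V` (`K` algebraically closed, `V` finite-dimensional and nonzero) without
nontrivial invariant subspaces is everything. -/
theorem algburnsidea_dense {K V : Type} [Field K] [IsAlgClosed K] [AddCommGroup V] [Module K V]
    [FiniteDimensional K V] [Nontrivial V] (A : Subalgebra K (Module.End K V))
    (hA : ∀ U : Submodule K V, (∀ a ∈ A, ∀ u ∈ U, a u ∈ U) → U = ⊥ ∨ U = ⊤)
    (T : Module.End K V) : T ∈ A := by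
  classical
  -- `V` is a simple `A`-module
  have hsimple : IsSimpleModule A V := by
    refine (isSimpleModule_iff A V).mpr ⟨fun N => ?_⟩
    let U : Submodule K V :=
      { carrier := N
        add_mem' := N.add_mem
        zero_mem' := N.zero_mem
        smul_mem' := fun c x hx => by
          have h := N.smul_mem (⟨algebraMap K (Module.End K V) c, A.algebraMap_mem c⟩ : A) hx
          exact h }
    rcases hA U (fun a ha u hu => N.smul_mem (⟨a, ha⟩ : A) hu) with h | h
    · left
      exact (Submodule.eq_bot_iff N).mpr fun x hx =>
        (Submodule.mem_bot K).mp (h ▸ (show x ∈ U from hx))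
    · right
      exact Submodule.eq_top_iff'.mpr fun x => (show x ∈ U from h ▸ Submodule.mem_top)
  -- Schur's lemma: `A`-linear endomorphisms are scalars
  have hschur : ∀ φ : Module.End A V, ∃ c : K, ∀ v : V, φ v = c • v := by
    intro φ
    let φK : V →ₗ[K] V :=
      { toFun := φ
        map_add' := φ.map_add
        map_smul' := fun c x =>
          φ.map_smul (⟨algebraMap K (Module.End K V) c, A.algebraMap_mem c⟩ : A) x }
    obtain ⟨c, hc⟩ := Module.End.exists_eigenvalue φK
    refine ⟨c, ?_⟩
    have hE : Module.End.eigenspace φK c = ⊤ := by
      rcases hA (Module.End.eigenspace φK c) (fun a ha u hu => by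
          rw [Module.End.mem_eigenspace_iff] at hu ⊢
          have h := φ.map_smul (⟨a, ha⟩ : A) u
          change φ (a u) = a (φ u) at h
          change φ (a u) = c • a u
          have hu' : φ u = c • u := hu
          rw [h, hu', map_smul]) with h | h
      · exact absurd h hc
      · exact h
    intro v
    have hv : v ∈ Module.End.eigenspace φK c := hE ▸ Submodule.mem_top
    exact Module.End.mem_eigenspace_iff.mp hv
  -- the density theorem
  obtain ⟨s, hs⟩ := Module.Finite.fg_top (R := K) (M := V)
  let f : Module.End (Module.End A V) V :=
    { toFun := T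
      map_add' := T.map_add
      map_smul' := fun φ v => by
        obtain ⟨c, hc⟩ := hschur φ
        change T (φ v) = φ (T v)
        rw [hc v, hc (T v), map_smul] }
  obtain ⟨r, hr⟩ := jacobson_density f s
  have hT : T = (r : Module.End K V) := LinearMap.ext_on hs fun m hm => hr m hm
  rw [hT]
  exact r.2

/-- (ALG-Burnside) Burnside's theorem. -/
theorem algburnsidea_main : alg_BurnsideStatement := by
  intro K G _ _ _ V _ _ _ _ ρ hirr
  rw [eq_top_iff]
  intro T _
  have hT : T ∈ Algebra.adjoin K (Set.range ρ) := by
    apply algburnsidea_dense
    intro U hU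
    exact hirr U fun g u hu => hU (ρ g) (Algebra.subset_adjoin ⟨g, rfl⟩) u hu
  have hT' : T ∈ Subalgebra.toSubmodule (Algebra.adjoin K (Set.range ρ)) := hT
  rw [Algebra.adjoin_eq_span] at hT'
  have hcl : (Submonoid.closure (Set.range ρ) : Set (Module.End K V)) = Set.range ρ := by
    rw [← MonoidHom.coe_mrange, Submonoid.closure_eq]
  rw [hcl] at hT'
  exact hT'

end Fermat.Agent.S42
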