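/-
S42, block ALG, package ALG-Dim (twin A): the anticommutator identity
`X * Y + Y * X = t Y • X + t X • Y + u • 1` forces `finrank ≤ 2`.

Proof: if `3 ≤ finrank`, take a basis `e` and the elementary endomorphisms `X = E₀₁`
(`X e₁ = e₀`) and `Y = E₁₂` (`Y e₂ = e₁`).  Evaluating the identity at `e₂` gives
`e₀ = t X • e₁ + u • e₂`, contradicting the linear independence of `e₀, e₁, e₂`.
-/
import Mathlib
import Fermat.Agent.S42.AlgInterfaces

set_option autoImplicit false

namespace Fermat.Agent.S42

/-- (ALG-Dim) The anticommutator identity forces dimension `≤ 2`. -/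
theorem algdima_main : alg_DimStatement := by
  intro K _ V _ _ _ ⟨t, ht⟩
  by_contra hlt
  rw [not_le] at hlt
  classical
  let e := Module.finBasis K V
  let i0 : Fin (Module.finrank K V) := ⟨0, by omega⟩
  let i1 : Fin (Module.finrank K V) := ⟨1, by omega⟩
  let i2 : Fin (Module.finrank K V) := ⟨2, by omega⟩
  have h10 : i1 ≠ i0 := fun h => absurd (congrArg Fin.val h) (by simp [i0, i1])
  have h20 : i2 ≠ i0 := fun h => absurd (congrArg Fin.val h) (by simp [i0, i2])
  have h21 : i2 ≠ i1 := fun h => absurd (congrArg Fin.val h) (by simp [i1, i2])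
  let X : V →ₗ[K] V := e.constr K (fun i => if i = i1 then e i0 else 0)
  let Y : V →ₗ[K] V := e.constr K (fun i => if i = i2 then e i1 else 0)
  have hX1 : X (e i1) = e i0 := by
    show e.constr K (fun i => if i = i1 then e i0 else 0) (e i1) = e i0
    rw [Module.Basis.constr_basis, if_pos rfl]
  have hX2 : X (e i2) = 0 := by
    show e.constr K (fun i => if i = i1 then e i0 else 0) (e i2) = 0
    rw [Module.Basis.constr_basis, if_neg h21]
  have hY2 : Y (e i2) = e i1 := by
    show e.constr K (fun i => if i = i2 then e i1 else 0) (e i2) = e i1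
    rw [Module.Basis.constr_basis, if_pos rfl]
  obtain ⟨u, hu⟩ := ht X Y
  have h : (X * Y + Y * X) (e i2) = (t Y • X + t X • Y + u • (1 : V →ₗ[K] V)) (e i2) := by
    rw [hu]
  rw [LinearMap.add_apply, Module.End.mul_apply, Module.End.mul_apply, hY2, hX1, hX2, map_zero,
    add_zero, LinearMap.add_apply, LinearMap.add_apply, LinearMap.smul_apply,
    LinearMap.smul_apply, LinearMap.smul_apply, hX2, hY2, smul_zero, zero_add,
    Module.End.one_apply] at h
  -- `h : e i0 = t X • e i1 + u • e i2`
  have h' : e.repr (e i0) i0 = e.repr (t X • e i1 + u • e i2) i0 := by rw [h]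
  rw [map_add, map_smul, map_smul, Module.Basis.repr_self, Module.Basis.repr_self,
    Module.Basis.repr_self, Finsupp.add_apply, Finsupp.smul_apply, Finsupp.smul_apply,
    Finsupp.single_eq_same, Finsupp.single_eq_of_ne h10.symm, Finsupp.single_eq_of_ne h20.symm,
    smul_zero, smul_zero, add_zero] at h'
  exact one_ne_zero h'

end Fermat.Agent.S42
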