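/-
S42, block ALG, package ALG-One (twin B): a `1`-dimensional representation `ψ` satisfying the
quadratics `x^2 - a i x + χ (g i) = 0` gives the `2`-dimensional representation `ψ ⊕ χ ψ⁻¹`.
-/
import Mathlib
import Fermat.Agent.S42.AlgInterfaces

set_option autoImplicit false

namespace Fermat.Agent.S42

/-- In dimension one every representation is given by a character. -/
theorem algoneb_scalar (K G : Type) [Field K] [Group G] (V0 : Type) [AddCommGroup V0]
    [Module K V0] (ρ0 : Representation K G V0) (h1 : Module.finrank K V0 = 1) :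
    ∃ ψ : G →* K, (∀ h : G, ρ0 h = ψ h • (1 : V0 →ₗ[K] V0)) ∧
      ∀ c d : K, c • (1 : V0 →ₗ[K] V0) = d • (1 : V0 →ₗ[K] V0) → c = d := by
  obtain ⟨v, hv, hspan⟩ := finrank_eq_one_iff'.1 h1
  choose c hc using fun h : G => hspan (ρ0 h v)
  have key : ∀ (h : G) (w : V0), ρ0 h w = c h • w := by
    intro h w
    obtain ⟨d, rfl⟩ := hspan w
    rw [map_smul, ← hc h, smul_comm]
  have hinj : Function.Injective fun x : K => x • v := smul_left_injective K hv
  refine ⟨{ toFun := c, map_one' := ?_, map_mul' := ?_ }, ?_, ?_⟩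
  · apply hinj
    show c 1 • v = (1 : K) • v
    rw [hc 1, map_one, Module.End.one_apply, one_smul]
  · intro h k
    apply hinj
    show c (h * k) • v = (c h * c k) • v
    rw [hc (h * k), map_mul, Module.End.mul_apply, key k v, map_smul, key h v, smul_smul,
      mul_comm]
  · intro h
    ext w
    rw [key h w]
    rfl
  · intro x y hxy
    apply hinj
    have h := LinearMap.congr_fun hxy v
    simpa using h

/-- The representation `ψ ⊕ θ` on `K × K`. -/
noncomputable def algoneb_rep {K G : Type} [Field K] [Group G] (ψ θ : G →* K) :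
    Representation K G (K × K) where
  toFun h := LinearMap.prodMap (ψ h • (1 : K →ₗ[K] K)) (θ h • (1 : K →ₗ[K] K))
  map_one' := by
    rw [map_one, map_one, one_smul, LinearMap.prodMap_one]
  map_mul' h k := by
    rw [LinearMap.prodMap_mul, map_mul, map_mul, smul_mul_smul_comm, smul_mul_smul_comm,
      mul_one]

theorem algoneb_rep_apply {K G : Type} [Field K] [Group G] (ψ θ : G →* K) (h : G) :
    algoneb_rep ψ θ h =
      LinearMap.prodMap (ψ h • (1 : K →ₗ[K] K)) (θ h • (1 : K →ₗ[K] K)) := rfl

theorem algoneb_trace {K G : Type} [Field K] [Group G] (ψ θ : G →* K) (h : G) :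
    LinearMap.trace K (K × K) (algoneb_rep ψ θ h) = ψ h + θ h := by
  rw [algoneb_rep_apply, LinearMap.trace_prodMap', map_smul, map_smul, LinearMap.trace_one,
    Module.finrank_self, Nat.cast_one, smul_eq_mul, smul_eq_mul, mul_one, mul_one]

theorem algoneb_det {K G : Type} [Field K] [Group G] (ψ θ : G →* K) (h : G) :
    LinearMap.det (algoneb_rep ψ θ h) = ψ h * θ h := by
  rw [algoneb_rep_apply, LinearMap.det_prodMap, LinearMap.det_smul, LinearMap.det_smul,
    Module.finrank_self, pow_one, pow_one, map_one, mul_one, mul_one]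

/-- (ALG-One). -/
theorem algoneb_main : alg_OneStatement := by
  intro K G ι _ _ V0 _ _ ρ0 χ H g a h1 hH hχ hquad
  obtain ⟨ψ, hψ, hinj⟩ := algoneb_scalar K G V0 ρ0 h1
  let ψu : G →* Kˣ := ψ.toHomUnits
  have hψu : ∀ h : G, ((ψu h : Kˣ) : K) = ψ h := fun h => rfl
  let θ : G →* K := (Units.coeHom K).comp (χ * ψu⁻¹)
  have hθ : ∀ h : G, θ h = ((χ h : Kˣ) : K) * (ψ h)⁻¹ := by
    intro h
    show (((χ * ψu⁻¹) h : Kˣ) : K) = ((χ h : Kˣ) : K) * (ψ h)⁻¹
    rw [MonoidHom.mul_apply, MonoidHom.inv_apply, Units.val_mul, Units.val_inv_eq_inv_val, hψu]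
  refine ⟨K × K, inferInstance, inferInstance, algoneb_rep ψ θ, ?_, ?_, ?_⟩
  · rw [Module.finrank_prod, Module.finrank_self]
  · intro h hh
    have h1' : ψ h = 1 := by
      apply hinj
      rw [← hψ h, hH h hh, one_smul]
    have h2' : θ h = 1 := by
      rw [hθ h, hχ h hh, h1', Units.val_one, inv_one, mul_one]
    rw [algoneb_rep_apply, h1', h2', one_smul, LinearMap.prodMap_one]
  · intro i
    have hc0 : ψ (g i) ≠ 0 := by
      rw [← hψu]
      exact Units.ne_zero _
    have hq : ψ (g i) * ψ (g i) - a i * ψ (g i) + ((χ (g i) : Kˣ) : K) = 0 := by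
      apply hinj
      have h := hquad i
      rw [hψ (g i), smul_mul_smul_comm, mul_one, smul_smul, ← sub_smul, ← add_smul] at h
      rw [h, zero_smul]
    constructor
    · rw [algoneb_trace, hθ]
      field_simp
      linear_combination hq
    · rw [algoneb_det, hθ]
      field_simp

end Fermat.Agent.S42
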