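/-
S42, block ALG, package ALG-Pow (twin A): if `x^2 - a x + d = 0` then every power `x^n` satisfies
`Y^2 - b Y + d^n = 0` for some scalar `b`.

Proof: pick a root `α` of `X^2 - a X + d` and put `β = a - α`, so `X^2 - a X + d = (X - α)(X - β)`;
this polynomial divides `(X^n - α^n)(X^n - β^n) = X^{2n} - (α^n + β^n) X^n + d^n`; evaluate at `x`.
-/
import Mathlib
import Fermat.Agent.S42.AlgInterfaces

set_option autoImplicit false

namespace Fermat.Agent.S42

open Polynomial

/-- (ALG-Pow). -/
theorem algpowa_main : alg_PowStatement := by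
  intro K _ _ W _ _ x a d hx n
  -- a root `α` of `X^2 - a X + d`
  have hdeg : (C (1 : K) * X ^ 2 + C (-a) * X + C d).degree ≠ 0 := by
    rw [Polynomial.degree_quadratic one_ne_zero]
    decide
  obtain ⟨α, hα⟩ := IsAlgClosed.exists_root _ hdeg
  have hα' : α ^ 2 - a * α + d = 0 := by
    have h := hα
    simp only [IsRoot.def, eval_add, eval_mul, eval_C, eval_pow, eval_X] at h
    linear_combination h
  have hd : d = α * (a - α) := by linear_combination hα'
  -- polynomial identities
  have hCa : (C a : K[X]) = C α + C (a - α) := by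
    rw [← map_add]
    congr 1
    ring
  have hCd : (C d : K[X]) = C α * C (a - α) := by
    rw [← map_mul, ← hd]
  have hp : (X - C α) * (X - C (a - α)) = X * X - C a * X + C d := by
    rw [hCa, hCd]
    ring
  have hq : (X ^ n - C α ^ n) * (X ^ n - C (a - α) ^ n)
      = X ^ n * X ^ n - C (α ^ n + (a - α) ^ n) * X ^ n + C (d ^ n) := by
    rw [map_add, map_pow, map_pow, map_pow, hCd]
    ring
  obtain ⟨s, hs⟩ : (X - C α) * (X - C (a - α)) ∣ (X ^ n - C α ^ n) * (X ^ n - C (a - α) ^ n) :=
    mul_dvd_mul (sub_dvd_pow_sub_pow _ _ n) (sub_dvd_pow_sub_pow _ _ n)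
  refine ⟨α ^ n + (a - α) ^ n, ?_⟩
  have h1 : Polynomial.aeval x (X * X - C a * X + C d) = 0 := by
    rw [← hx]
    simp only [map_add, map_sub, map_mul, aeval_X, aeval_C, Algebra.smul_def, mul_one]
  have h2 := congrArg (Polynomial.aeval x) hs
  rw [hq, hp, map_mul, h1, zero_mul] at h2
  rw [← h2]
  simp only [map_add, map_sub, map_mul, map_pow, aeval_X, aeval_C, Algebra.smul_def, mul_one]

end Fermat.Agent.S42
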