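/-
S42, block ALG, package ALG-Simple (twin A): a nonzero finite-dimensional representation contains a
minimal nonzero invariant subspace (take an invariant nonzero subspace of minimal dimension).
-/
import Mathlib
import Fermat.Agent.S42.AlgInterfaces

set_option autoImplicit false

namespace Fermat.Agent.S42

/-- (ALG-Simple) A nonzero finite-dimensional representation contains a minimal nonzero invariant
subspace. -/
theorem algsimplea_main : alg_SimpleStatement := by
  intro K G _ _ W _ _ _ _ ρ
  classical
  have hex : ∃ n : ℕ, ∃ W0 : Submodule K W, W0 ≠ ⊥ ∧ (∀ g : G, ∀ w ∈ W0, ρ g w ∈ W0) ∧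
      Module.finrank K W0 = n :=
    ⟨Module.finrank K (⊤ : Submodule K W), ⊤, top_ne_bot, fun _ _ _ => Submodule.mem_top, rfl⟩
  obtain ⟨W0, hW0, hinv, hfr⟩ := Nat.find_spec hex
  refine ⟨W0, hW0, hinv, fun U hU hUinv => ?_⟩
  by_cases hUb : U = ⊥
  · exact Or.inl hUb
  · right
    have hmin : Nat.find hex ≤ Module.finrank K U := Nat.find_min' hex ⟨U, hUb, hUinv, rfl⟩
    exact Submodule.eq_of_le_of_finrank_le hU (by rw [hfr]; exact hmin)

end Fermat.Agent.S42
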