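/-
S42, block ALG, package ALG-Two (twin A): in an irreducible 2-dimensional representation all of
whose elements satisfy a quadratic with constant term `χ`, a quadratic relation
`x^2 - a x + χ = 0` for `ρ h` forces `tr = a`, `det = χ`.
-/
import Mathlib
import Fermat.Agent.S42.AlgInterfaces

set_option autoImplicit false

namespace Fermat.Agent.S42

/-- Cayley–Hamilton for `2 × 2` matrices. -/
theorem algtwoa_ch_matrix {K : Type} [Field K] (M : Matrix (Fin 2) (Fin 2) K) :
    M * M - M.trace • M + M.det • (1 : Matrix (Fin 2) (Fin 2) K) = 0 := by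
  ext i j
  fin_cases i <;> fin_cases j <;>
    simp [Matrix.mul_apply, Fin.sum_univ_two, Matrix.trace_fin_two, Matrix.det_fin_two] <;> ring

/-- Cayley–Hamilton in dimension `2`. -/
theorem algtwoa_ch {K : Type} [Field K] {V : Type} [AddCommGroup V] [Module K V]
    (hV : Module.finrank K V = 2) (T : V →ₗ[K] V) :
    T * T - LinearMap.trace K V T • T + LinearMap.det T • (1 : V →ₗ[K] V) = 0 := by
  have hfin : Module.Finite K V := Module.finite_of_finrank_pos (by rw [hV]; norm_num)
  let b : Module.Basis (Fin 2) K V := Module.finBasisOfFinrankEq K V hV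
  have h := algtwoa_ch_matrix (LinearMap.toMatrix b b T)
  rw [← LinearMap.trace_eq_matrix_trace K b T, LinearMap.det_toMatrix b T] at h
  apply (LinearMap.toMatrix b b).injective
  rw [map_zero, map_add, map_sub, LinearMap.toMatrix_mul, map_smul, map_smul,
    LinearMap.toMatrix_one]
  exact h

/-- A scalar multiple of the identity vanishes only for the zero scalar. -/
theorem algtwoa_smul_one_eq_zero {K : Type} [Field K] {V : Type} [AddCommGroup V] [Module K V]
    [Nontrivial V] (r : K) (h : r • (1 : V →ₗ[K] V) = 0) : r = 0 := by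
  obtain ⟨v, hv⟩ := exists_ne (0 : V)
  have h2 := LinearMap.congr_fun h v
  rw [LinearMap.smul_apply, Module.End.one_apply, LinearMap.zero_apply] at h2
  exact (smul_eq_zero.mp h2).resolve_right hv

/-- The identity and a non-scalar endomorphism are linearly independent. -/
theorem algtwoa_indep {K : Type} [Field K] {V : Type} [AddCommGroup V] [Module K V]
    [Nontrivial V] (S : V →ₗ[K] V) (hS : ∀ c : K, S ≠ c • (1 : V →ₗ[K] V)) (p r : K)
    (h : p • S + r • (1 : V →ₗ[K] V) = 0) : p = 0 ∧ r = 0 := by
  have hp : p = 0 := by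
    by_contra hp
    apply hS (-(p⁻¹ * r))
    have h' : p • S = -(r • (1 : V →ₗ[K] V)) := eq_neg_of_add_eq_zero_left h
    calc S = p⁻¹ • (p • S) := by rw [smul_smul, inv_mul_cancel₀ hp, one_smul]
      _ = -(p⁻¹ * r) • (1 : V →ₗ[K] V) := by rw [h', smul_neg, smul_smul, neg_smul]
  refine ⟨hp, ?_⟩
  rw [hp, zero_smul, zero_add] at h
  exact algtwoa_smul_one_eq_zero r h

/-- (ALG-Two). -/
theorem algtwoa_main : alg_TwoStatement := by
  intro K G _ _ V _ _ ρ χ hV hirr hquad h a ha
  have hfin : Module.Finite K V := Module.finite_of_finrank_pos (by rw [hV]; norm_num)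
  have hnt : Nontrivial V := Module.nontrivial_of_finrank_pos (R := K) (by rw [hV]; norm_num)
  have hCH := algtwoa_ch hV (ρ h)
  by_cases hsc : ∃ c : K, ρ h = c • (1 : V →ₗ[K] V)
  · -- `ρ h` is a scalar `c`
    obtain ⟨c, hc⟩ := hsc
    -- some `ρ k` is not a scalar
    have hk : ∃ k : G, ∀ c' : K, ρ k ≠ c' • (1 : V →ₗ[K] V) := by
      by_contra hcon
      push Not at hcon
      obtain ⟨v, hv⟩ := exists_ne (0 : V)
      have hU := hirr (Submodule.span K {v}) (by
        intro g u hu
        obtain ⟨c', hc'⟩ := hcon g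
        rw [hc', LinearMap.smul_apply, Module.End.one_apply]
        exact Submodule.smul_mem _ _ hu)
      rcases hU with hU | hU
      · exact hv (Submodule.span_singleton_eq_bot.mp hU)
      · have h1 : Module.finrank K (Submodule.span K {v}) = 1 := finrank_span_singleton hv
        rw [hU, finrank_top, hV] at h1
        norm_num at h1
    obtain ⟨k, hk⟩ := hk
    obtain ⟨b, hb⟩ := hquad k
    obtain ⟨b', hb'⟩ := hquad (h * k)
    have hρ : ρ (h * k) = c • ρ k := by rw [map_mul, hc, smul_mul_assoc, one_mul]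
    have hχ : ((χ (h * k) : Kˣ) : K) = ((χ h : Kˣ) : K) * ((χ k : Kˣ) : K) := by
      rw [map_mul, Units.val_mul]
    rw [hρ, hχ] at hb'
    have e1 : (c * c * b - b' * c) • ρ k +
        (((χ h : Kˣ) : K) * ((χ k : Kˣ) : K) - c * c * ((χ k : Kˣ) : K)) • (1 : V →ₗ[K] V)
          = 0 := by
      have e2 : (c • ρ k) * (c • ρ k) = (c * c) • (ρ k * ρ k) := by rw [smul_mul_smul_comm]
      rw [e2] at hb'
      linear_combination (norm := module) hb' - (c * c) • hb
    obtain ⟨-, h2⟩ := algtwoa_indep (ρ k) hk _ _ e1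
    have hχk : ((χ k : Kˣ) : K) ≠ 0 := Units.ne_zero _
    have hcc : c * c = ((χ h : Kˣ) : K) := by
      have h3 : (((χ h : Kˣ) : K) - c * c) * ((χ k : Kˣ) : K) = 0 := by linear_combination h2
      rcases mul_eq_zero.mp h3 with h4 | h4
      · linear_combination -h4
      · exact absurd h4 hχk
    -- the quadratic relation for the scalar `c`
    rw [hc] at ha
    have e3 : (c * c - a * c + ((χ h : Kˣ) : K)) • (1 : V →ₗ[K] V) = 0 := by
      have e4 : (c • (1 : V →ₗ[K] V)) * (c • (1 : V →ₗ[K] V)) = (c * c) • (1 : V →ₗ[K] V) := by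
        rw [smul_mul_smul_comm, one_mul]
      rw [e4] at ha
      linear_combination (norm := module) ha
    have h5 : c * c - a * c + ((χ h : Kˣ) : K) = 0 := algtwoa_smul_one_eq_zero _ e3
    have hc0 : c ≠ 0 := by
      rintro rfl
      rw [mul_zero] at hcc
      exact Units.ne_zero _ hcc.symm
    have ha2 : a = c * 2 := by
      have h6 : c * (c * 2 - a) = 0 := by linear_combination h5 + hcc
      rcases mul_eq_zero.mp h6 with h7 | h7
      · exact absurd h7 hc0
      · linear_combination -h7
    constructor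
    · rw [hc, map_smul, LinearMap.trace_one, hV, ha2]
      simp
    · rw [hc, LinearMap.det_smul, hV, map_one, mul_one, ← hcc]
      ring
  · -- `ρ h` is not a scalar
    push Not at hsc
    have e1 : (LinearMap.trace K V (ρ h) - a) • ρ h +
        (((χ h : Kˣ) : K) - LinearMap.det (ρ h)) • (1 : V →ₗ[K] V) = 0 := by
      linear_combination (norm := module) ha - hCH
    obtain ⟨h1, h2⟩ := algtwoa_indep (ρ h) hsc _ _ e1
    exact ⟨by linear_combination h1, by linear_combination -h2⟩

end Fermat.Agent.S42
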