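/-
S42, block ALG: the two-dimensional representation lemma `alg_two_dim` (signature fixed by the lead),
assembled from the work packages (see `AlgInterfaces.lean` for the plan).
-/
import Mathlib
import Fermat.Agent.S42.AlgInterfaces
import Fermat.Agent.S42.AlgPowA
import Fermat.Agent.S42.AlgSimpleA
import Fermat.Agent.S42.AlgBurnsideA
import Fermat.Agent.S42.AlgAntiA
import Fermat.Agent.S42.AlgDimA
import Fermat.Agent.S42.AlgTwoA
import Fermat.Agent.S42.AlgOneB
import Fermat.Agent.S42.AlgAsmA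

set_option autoImplicit false

namespace Fermat.Agent.S42

theorem alg_two_dim {K G ι : Type} [Field K] [IsAlgClosed K] [Group G]
    {W : Type} [AddCommGroup W] [Module K W] [FiniteDimensional K W] [Nontrivial W]
    (ρW : Representation K G W) (χ : G →* Kˣ) (H : Subgroup G) [H.Normal]
    (hH : ∀ h ∈ H, ρW h = 1) (hχ : ∀ h ∈ H, χ h = 1)
    (g : ι → G) (a : ι → K)
    (hquad : ∀ i, ρW (g i) * ρW (g i) - a i • ρW (g i) + ((χ (g i) : Kˣ) : K) • (1 : W →ₗ[K] W) = 0)
    (hcov : ∀ h : G, ∃ i, ∃ n : ℕ, h⁻¹ * g i ^ n ∈ H) :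
    ∃ (V : Type) (_ : AddCommGroup V) (_ : Module K V) (ρ : Representation K G V),
      Module.finrank K V = 2 ∧ (∀ h ∈ H, ρ h = 1) ∧
      ∀ i, LinearMap.trace K V (ρ (g i)) = a i ∧ LinearMap.det (ρ (g i)) = ((χ (g i) : Kˣ) : K) :=
  algasma_main algpowa_main algsimplea_main algburnsidea_main alganta_main algdima_main
    algtwoa_main algoneb_main ρW χ H hH hχ g a hquad hcov

end Fermat.Agent.S42
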