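/-
S42, block CHEB (Frobenius-power cover): FROZEN interfaces of the work packages.  Owner: helper4.
Do not edit.

Goal (`cheb_MainStatement`, delivered as `frobenius_power_cover` in `Fermat/Agent/S42/Cheb.lean`):
for a finite Galois `F/ℚ` inside `AlgebraicClosure ℚ`, a finite set `S0` of primes and `h ∈ Gal(ℚ̄/ℚ)`
there are a prime `ℓ ∉ S0`, a valuation subring `A` over `ℓ`, a Frobenius `τ` at `A` and `n` with
`τ ^ n = h` on `F`.

Proof plan.
* (Lift) reduce to the number field `F`: find `ℓ ∉ S0` unramified in `F` and a prime `𝔔 ∣ ℓ` of `𝓞 F`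
  fixed by `h0 = h|_F` (`cheb_FixStatement`); then every Frobenius at `𝔔` generates the decomposition
  group, which contains `h0` (`cheb_DecStatement`).
* (Fix) by contradiction, with `C = ⟨h0⟩`, `n = |C|`, `R = rad n`, `U_m = ⟨h0^m⟩`, `N_m = F^{U_m}` for `m ∣ R`:
  if `h0` fixes no prime above any good `p`, then at every good `p` the local Euler factors satisfy
  `∏_{m ∣ R} zloc(N_m, p, s) ^ (μ(m) R/m) = 1`  (`cheb_SubStatement` + `cheb_CombStatement`), so
  `∏_m ζ_{N_m}(s) ^ (μ(m) R/m)` stays bounded as `s → 1⁺` (`cheb_EulerStatement`, `cheb_ZlocBoundStatement`),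
  contradicting the simple poles (S14 `z_pole`) since `∑_m μ(m) R/m = φ(R) > 0`
  (`cheb_PoleContraStatement`, `cheb_ArithStatement`).
-/
import Mathlib
import Fermat.Prelude.Def_EllipticCurve_FrobeniusTrace
import Fermat.Prelude.Def_FLTPrelim_Ramification

set_option autoImplicit false

open NumberField

namespace Fermat.Agent.S42

noncomputable section

/-- The primes of `𝓞 M` containing the rational prime `p`. -/
def cheb_primesAbove (M : Type) [Field M] [NumberField M] (p : ℕ) : Set (Ideal (𝓞 M)) :=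
  {𝔓 | 𝔓.IsPrime ∧ (p : 𝓞 M) ∈ 𝔓}

/-- The local Euler factor of the Dedekind zeta function of `M` at `p`. -/
def cheb_zloc (M : Type) [Field M] [NumberField M] (p : ℕ) (s : ℝ) : ℝ :=
  ∏ᶠ 𝔓 ∈ cheb_primesAbove M p, (1 - (Ideal.absNorm 𝔓 : ℝ) ^ (-s))⁻¹

/-- The ideal sum `∑_I N(I)^{-s}` (the zero ideal contributes `0`). -/
def cheb_zeta (M : Type) [Field M] [NumberField M] (s : ℝ) : ℝ :=
  ∑' I : Ideal (𝓞 M), (Ideal.absNorm I : ℝ) ^ (-s)

/-- `p` is unramified in `F`: no prime above `p` contains `p` to the second power. -/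
def cheb_unram (F : Type) [Field F] [NumberField F] (p : ℕ) : Prop :=
  ∀ 𝔔 : Ideal (𝓞 F), 𝔔.IsPrime → (p : 𝓞 F) ∈ 𝔔 → (p : 𝓞 F) ∉ 𝔔 ^ 2

/-- The index `[Stab_G x : Stab_U x]` (as a quotient of cardinalities). -/
def cheb_kexp {G X : Type} [Group G] [MulAction G X] (U : Subgroup G) (x : X) : ℕ :=
  Nat.card (MulAction.stabilizer G x) / Nat.card (MulAction.stabilizer U x)

/-! ## Analytic packages -/

/-- (CHEB-Mult) The number of ideals of given norm is multiplicative on coprime integers. -/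
def cheb_MultStatement : Prop :=
  ∀ (M : Type) [Field M] [NumberField M] (m n : ℕ), m.Coprime n →
    Nat.card {I : Ideal (𝓞 M) // Ideal.absNorm I = m * n} =
      Nat.card {I : Ideal (𝓞 M) // Ideal.absNorm I = m} *
        Nat.card {I : Ideal (𝓞 M) // Ideal.absNorm I = n}

/-- (CHEB-Local) The generating series of ideals of `p`-power norm is the local Euler factor. -/
def cheb_LocalStatement : Prop :=
  ∀ (M : Type) [Field M] [NumberField M] (p : ℕ), p.Prime → ∀ s : ℝ, 0 < s →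
    Summable (fun k : ℕ => (Nat.card {I : Ideal (𝓞 M) // Ideal.absNorm I = p ^ k} : ℝ) *
        ((p ^ k : ℕ) : ℝ) ^ (-s)) ∧
      ∑' k : ℕ, (Nat.card {I : Ideal (𝓞 M) // Ideal.absNorm I = p ^ k} : ℝ) *
        ((p ^ k : ℕ) : ℝ) ^ (-s) = cheb_zloc M p s

/-- (CHEB-Euler) Euler product of the ideal sum over the rational primes. -/
def cheb_EulerStatement : Prop :=
  ∀ (M : Type) [Field M] [NumberField M] (s : ℝ), 1 < s →
    HasProd (fun p : Nat.Primes => cheb_zloc M (p : ℕ) s) (cheb_zeta M s)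

/-- (CHEB-EulerAsm) Assembly of the Euler product. -/
def cheb_EulerAsmStatement : Prop :=
  cheb_MultStatement → cheb_LocalStatement → cheb_EulerStatement

/-- (CHEB-ZlocBound) Uniform bounds for the local factors. -/
def cheb_ZlocBoundStatement : Prop :=
  ∀ (M : Type) [Field M] [NumberField M], ∃ C : ℝ, ∀ p : ℕ, p.Prime → ∀ s : ℝ, 1 ≤ s →
    1 ≤ cheb_zloc M p s ∧ cheb_zloc M p s ≤ C

/-- (CHEB-PoleContra) Abstract pole-order contradiction. -/
def cheb_PoleContraStatement : Prop :=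
  ∀ (ι : Type) [Fintype ι] (c : ι → ℤ) (Z : ι → ℝ → ℝ) (Zloc : ι → ℕ → ℝ → ℝ)
    (B : Finset ℕ) (Cb : ℝ),
    (∀ i, ∀ s : ℝ, 1 < s → HasProd (fun p : Nat.Primes => Zloc i (p : ℕ) s) (Z i s)) →
    (∀ i, ∀ p : ℕ, p.Prime → ∀ s : ℝ, 1 < s → 1 ≤ Zloc i p s ∧ Zloc i p s ≤ Cb) →
    (∀ i, ∃ r : ℝ, 0 < r ∧
      Filter.Tendsto (fun s : ℝ => (s - 1) * Z i s) (nhdsWithin 1 (Set.Ioi 1)) (nhds r)) →
    (∀ p : ℕ, p.Prime → p ∉ B → ∀ s : ℝ, 1 < s → ∏ i, (Zloc i p s) ^ (c i) = 1) →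
    0 < ∑ i, c i → False

/-- (CHEB-Arith) `∑_{m ∣ R} μ(m) R/m > 0` for the radical `R` of `n ≥ 1`. -/
def cheb_ArithStatement : Prop :=
  ∀ n : ℕ, 0 < n →
    0 < ∑ m ∈ Nat.divisors (∏ q ∈ n.primeFactors, q),
      ArithmeticFunction.moebius m * (((∏ q ∈ n.primeFactors, q) / m : ℕ) : ℤ)

/-! ## Arithmetic packages -/

/-- (CHEB-RamFin) Only finitely many primes ramify in a number field. -/
def cheb_RamFinStatement : Prop :=
  ∀ (F : Type) [Field F] [NumberField F], {p : ℕ | p.Prime ∧ ¬ cheb_unram F p}.Finite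

/-- (CHEB-Sub) Splitting law in the fixed field of a subgroup `U` at an unramified prime `p`:
the primes of `F^U` above `p` correspond to the `U`-orbits on the primes of `F` above `p`, and the
residue degree of the prime for the orbit of `𝔔` is `[Stab_G 𝔔 : Stab_U 𝔔]`. -/
def cheb_SubStatement : Prop :=
  ∀ (F : Type) [Field F] [NumberField F] [IsGalois ℚ F] (p : ℕ), p.Prime → cheb_unram F p →
    ∀ (U : Subgroup (F ≃ₐ[ℚ] F)) (s : ℝ),
      cheb_zloc (IntermediateField.fixedField U) p s =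
        ∏ᶠ O : MulAction.orbitRel.Quotient U ((Ideal.span {(p : ℤ)}).primesOver (𝓞 F)),
          (1 - (p : ℝ) ^ (-((cheb_kexp U O.out : ℕ) : ℝ) * s))⁻¹

/-- (CHEB-Comb) Combinatorial cancellation: if `h` has no fixed point on the finite `G`-set `X`, then
with `R = rad (orderOf h)` the Möbius-weighted product over the orbit spaces of `⟨h^m⟩`, `m ∣ R`,
is trivial. -/
def cheb_CombStatement : Prop :=
  ∀ (G X : Type) [Group G] [Finite G] [MulAction G X] [Finite X] (h : G),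
    (∀ x : X, h • x ≠ x) → ∀ Φ : ℕ → ℝ, (∀ k : ℕ, 0 < k → 0 < Φ k) →
    ∏ m ∈ Nat.divisors (∏ q ∈ (orderOf h).primeFactors, q),
      (∏ᶠ O : MulAction.orbitRel.Quotient (Subgroup.zpowers (h ^ m)) X,
        Φ (cheb_kexp (Subgroup.zpowers (h ^ m)) O.out)) ^
        (ArithmeticFunction.moebius m *
          (((∏ q ∈ (orderOf h).primeFactors, q) / m : ℕ) : ℤ)) = 1

/-- (CHEB-Fix) Some prime above an unramified `ℓ ∉ S0` is fixed by `h0`. -/
def cheb_FixStatement : Prop :=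
  ∀ (F : Type) [Field F] [NumberField F] [IsGalois ℚ F] (S0 : Finset ℕ) (h0 : F ≃ₐ[ℚ] F),
    ∃ ℓ : ℕ, ℓ.Prime ∧ ℓ ∉ S0 ∧ cheb_unram F ℓ ∧
      ∃ 𝔔 : (Ideal.span {(ℓ : ℤ)}).primesOver (𝓞 F), h0 • 𝔔 = 𝔔

/-- (CHEB-FixAsm) Assembly of `cheb_FixStatement` (uses S14 `z_pole` in addition). -/
def cheb_FixAsmStatement : Prop :=
  cheb_EulerStatement → cheb_ZlocBoundStatement → cheb_PoleContraStatement → cheb_ArithStatement →
    cheb_RamFinStatement → cheb_SubStatement → cheb_CombStatement → cheb_FixStatement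

/-- (CHEB-Dec) At an unramified prime, an element satisfying the Frobenius congruence generates the
decomposition group. -/
def cheb_DecStatement : Prop :=
  ∀ (F : Type) [Field F] [NumberField F] [IsGalois ℚ F] (ℓ : ℕ), ℓ.Prime → cheb_unram F ℓ →
    ∀ (𝔔 : (Ideal.span {(ℓ : ℤ)}).primesOver (𝓞 F)) (h0 σ : F ≃ₐ[ℚ] F), h0 • 𝔔 = 𝔔 →
      (∀ x : 𝓞 F, ∃ y ∈ (𝔔 : Ideal (𝓞 F)), σ (x : F) - (x : F) ^ ℓ = ((y : 𝓞 F) : F)) →
      ∃ n : ℕ, σ ^ n = h0

/-- (CHEB-Main) The statement of `frobenius_power_cover` (signature fixed by the lead). -/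
def cheb_MainStatement : Prop :=
  ∀ (F : IntermediateField ℚ (AlgebraicClosure ℚ))
    (_hF : FiniteDimensional ℚ F) (_hG : IsGalois ℚ F) (S0 : Finset ℕ)
    (h : AlgebraicClosure ℚ ≃ₐ[ℚ] AlgebraicClosure ℚ),
    ∃ ℓ : ℕ, ℓ.Prime ∧ ℓ ∉ S0 ∧ ∃ A : ValuationSubring (AlgebraicClosure ℚ), A.LiesOverPrime ℓ ∧
      ∃ τ : AlgebraicClosure ℚ ≃ₐ[ℚ] AlgebraicClosure ℚ, A.IsFrobeniusAt τ ℓ ∧
        ∃ n : ℕ, h⁻¹ * τ ^ n ∈ F.fixingSubgroup

/-- (CHEB-Lift) From the number-field statements to `AlgebraicClosure ℚ`. -/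
def cheb_LiftStatement : Prop :=
  cheb_FixStatement → cheb_DecStatement → cheb_MainStatement

end

end Fermat.Agent.S42
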