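/-
S42, block CHEB, package CHEB-Arith (twin A): `∑_{m ∣ R} μ(m) R/m = φ(R) > 0` for `R > 0`, in
particular for the radical `R` of `n ≥ 1` (Möbius inversion of `∑_{d ∣ n} φ(d) = n`).
-/
import Mathlib
import Fermat.Agent.S42.ChebInterfaces

set_option autoImplicit false

namespace Fermat.Agent.S42

/-- `∑_{m ∣ R} μ(m) R/m = φ(R)` for `R > 0`. -/
theorem chebaritha_sum_eq_totient (R : ℕ) (hR : 0 < R) :
    ∑ m ∈ Nat.divisors R, ArithmeticFunction.moebius m * ((R / m : ℕ) : ℤ) =
      (Nat.totient R : ℤ) := by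
  have h := (ArithmeticFunction.sum_eq_iff_sum_mul_moebius_eq (R := ℤ)
    (f := fun m => (Nat.totient m : ℤ)) (g := fun m => (m : ℤ))).mp
    (fun n _ => by rw [← Nat.cast_sum, Nat.sum_totient]) R hR
  rw [← h, Nat.sum_divisorsAntidiagonal
    (f := fun i j => (Int.cast (ArithmeticFunction.moebius i) : ℤ) * (j : ℤ))]
  exact Finset.sum_congr rfl fun m _ => by rw [Int.cast_id]

/-- (CHEB-Arith) `∑_{m ∣ R} μ(m) R/m > 0` for the radical `R` of `n ≥ 1`. -/
theorem chebaritha_main : cheb_ArithStatement := by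
  intro n _
  have hR : 0 < ∏ q ∈ n.primeFactors, q :=
    Finset.prod_pos fun q hq => Nat.pos_of_mem_primeFactors hq
  rw [chebaritha_sum_eq_totient _ hR]
  exact_mod_cast Nat.totient_pos.mpr hR

end Fermat.Agent.S42
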