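/-
S42, block CHEB, package CHEB-Comb (twin A): combinatorial Möbius cancellation for the orbit
spaces of the subgroups `⟨h^m⟩`, `m ∣ rad (orderOf h)`, when `h` has no fixed point.

Strategy: take logarithms; write the sum over the `⟨h^m⟩`-orbits as a sum over the points `x`
with weights `1 / |⟨h^m⟩ x|`; for a fixed point `x` choose a prime `p` dividing the period `g > 1`
of `x` under `h`, and pair `m ↔ p m`: the index `cheb_kexp` is the same for `m` and `p m`, the orbit
for `m` is `p` times as large as the orbit for `p m`, `μ (p m) = - μ m` and `R / m = p (R / (p m))`.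
-/
import Mathlib
import Fermat.Agent.S42.ChebInterfaces

set_option autoImplicit false

namespace Fermat.Agent.S42

open MulAction

/-! ### Arithmetic: cancellation by the pairing `m ↔ p * m` -/

theorem chebcomba_pairing (R p : ℕ) (hR : Squarefree R) (hp : p.Prime) (hpR : p ∣ R)
    (F : ℕ → ℝ) (hF : ∀ m : ℕ, m ∣ R → ¬ p ∣ m → p * m ∣ R → F (p * m) = - F m) :
    ∑ m ∈ R.divisors, F m = 0 := by
  have hR0 : R ≠ 0 := hR.ne_zero
  have hsq : ∀ m : ℕ, m ∣ R → p ∣ m → ¬ p ∣ m / p := by
    intro m hm hpm hpmp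
    obtain ⟨k, rfl⟩ := hpm
    rw [Nat.mul_div_cancel_left k hp.pos] at hpmp
    obtain ⟨j, rfl⟩ := hpmp
    have h1 : p * p ∣ R := Dvd.dvd.trans ⟨j, by ring⟩ hm
    exact hp.ne_one (Nat.isUnit_iff.mp (hR p h1))
  refine Finset.sum_involution (fun m _ => if p ∣ m then m / p else p * m) ?_ ?_ ?_ ?_
  · intro m hm
    have hmR : m ∣ R := Nat.dvd_of_mem_divisors hm
    by_cases hpm : p ∣ m
    · rw [if_pos hpm]
      have hk : m / p ∣ R := (Nat.div_dvd_of_dvd hpm).trans hmR
      have h2 := hF (m / p) hk (hsq m hmR hpm) (by rw [Nat.mul_div_cancel' hpm]; exact hmR)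
      rw [Nat.mul_div_cancel' hpm] at h2
      rw [h2]
      ring
    · rw [if_neg hpm]
      have hpmR : p * m ∣ R :=
        Nat.Coprime.mul_dvd_of_dvd_of_dvd ((Nat.Prime.coprime_iff_not_dvd hp).mpr hpm) hpR hmR
      rw [hF m hmR hpm hpmR]
      ring
  · intro m hm _
    have hm0 : 0 < m := Nat.pos_of_mem_divisors hm
    by_cases hpm : p ∣ m
    · rw [if_pos hpm]
      exact (Nat.div_lt_self hm0 hp.one_lt).ne
    · rw [if_neg hpm]
      exact (lt_mul_of_one_lt_left hm0 hp.one_lt).ne'
  · intro m hm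
    have hmR : m ∣ R := Nat.dvd_of_mem_divisors hm
    by_cases hpm : p ∣ m
    · rw [if_pos hpm]
      exact Nat.mem_divisors.mpr ⟨(Nat.div_dvd_of_dvd hpm).trans hmR, hR0⟩
    · rw [if_neg hpm]
      exact Nat.mem_divisors.mpr
        ⟨Nat.Coprime.mul_dvd_of_dvd_of_dvd ((Nat.Prime.coprime_iff_not_dvd hp).mpr hpm) hpR hmR,
          hR0⟩
  · intro m hm
    have hmR : m ∣ R := Nat.dvd_of_mem_divisors hm
    by_cases hpm : p ∣ m
    · simp only [if_pos hpm, if_neg (hsq m hmR hpm)]
      exact Nat.mul_div_cancel' hpm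
    · simp only [if_neg hpm, if_pos (dvd_mul_right p m)]
      exact Nat.mul_div_cancel_left m hp.pos

/-! ### Group actions: invariance along orbits and sums over orbit spaces -/

theorem chebcomba_card_stab {U Y : Type} [Group U] [MulAction U Y] {x y : Y}
    (h : y ∈ orbit U x) : Nat.card (stabilizer U y) = Nat.card (stabilizer U x) :=
  Nat.card_congr (stabilizerEquivStabilizerOfOrbitRel (orbitRel_apply.mpr h)).toEquiv

theorem chebcomba_kexp_inv {G X : Type} [Group G] [MulAction G X] (U : Subgroup G) {x y : X}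
    (h : y ∈ orbit U x) : cheb_kexp U y = cheb_kexp U x := by
  have hG : y ∈ orbit G x := by
    obtain ⟨u, rfl⟩ := h
    exact ⟨(u : G), rfl⟩
  unfold cheb_kexp
  rw [chebcomba_card_stab hG, chebcomba_card_stab h]

theorem chebcomba_kexp_pos {G X : Type} [Group G] [Finite G] [MulAction G X] (U : Subgroup G)
    (x : X) : 0 < cheb_kexp U x := by
  unfold cheb_kexp
  refine Nat.div_pos ?_ Nat.card_pos
  refine Nat.card_le_card_of_injective
    (fun u : stabilizer U x => (⟨((u : U) : G), u.2⟩ : stabilizer G x)) ?_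
  intro u v huv
  have h1 : ((u : U) : G) = ((v : U) : G) :=
    congrArg (fun w : stabilizer G x => (w : G)) huv
  exact Subtype.ext (Subtype.ext h1)

/-- The logarithm of a product over the orbit space, as a weighted sum over the points. -/
theorem chebcomba_log_finprod {U X : Type} [Group U] [MulAction U X] [Finite X] (F : X → ℝ)
    (hpos : ∀ x, 0 < F x) (hinv : ∀ x y : X, y ∈ orbit U x → F y = F x) :
    0 < ∏ᶠ O : orbitRel.Quotient U X, F O.out ∧
      Real.log (∏ᶠ O : orbitRel.Quotient U X, F O.out) =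
        ∑ᶠ x : X, Real.log (F x) / (Nat.card (orbit U x) : ℝ) := by
  classical
  have : Fintype X := Fintype.ofFinite X
  have : Fintype (orbitRel.Quotient U X) := Fintype.ofFinite _
  have hiff : ∀ (O : orbitRel.Quotient U X) (x : X),
      (Quotient.mk'' x : orbitRel.Quotient U X) = O ↔ x ∈ orbit U O.out := by
    intro O x
    rw [← orbitRel.Quotient.orbit_eq_orbit_out O Quotient.out_eq']
    exact orbitRel.Quotient.mem_orbit.symm
  rw [finprod_eq_prod_of_fintype, finsum_eq_sum_of_fintype]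
  refine ⟨Finset.prod_pos (fun O _ => hpos _), ?_⟩
  rw [Real.log_prod (fun O _ => (hpos _).ne')]
  rw [← Finset.sum_fiberwise Finset.univ (fun x : X => (Quotient.mk'' x : orbitRel.Quotient U X))
    (fun x => Real.log (F x) / (Nat.card (orbit U x) : ℝ))]
  refine Finset.sum_congr rfl (fun O _ => ?_)
  have hO : ∀ x ∈ Finset.univ.filter
      (fun x : X => (Quotient.mk'' x : orbitRel.Quotient U X) = O),
      Real.log (F x) / (Nat.card (orbit U x) : ℝ) =
        Real.log (F O.out) / (Nat.card (orbit U O.out) : ℝ) := by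
    intro x hx
    rw [Finset.mem_filter] at hx
    have hx' : x ∈ orbit U O.out := (hiff O x).mp hx.2
    rw [hinv _ _ hx', orbit_eq_iff.mpr hx']
  rw [Finset.sum_congr rfl hO, Finset.sum_const, nsmul_eq_mul]
  have hcard : (Finset.univ.filter
      (fun x : X => (Quotient.mk'' x : orbitRel.Quotient U X) = O)).card =
      Nat.card (orbit U O.out) := by
    rw [← Fintype.card_subtype, ← Nat.card_eq_fintype_card]
    exact Nat.card_congr (Equiv.subtypeEquivRight (hiff O))
  rw [hcard]
  have hne : (Nat.card (orbit U O.out) : ℝ) ≠ 0 := by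
    have : 0 < Nat.card (orbit U O.out) :=
      Nat.card_pos_iff.mpr ⟨⟨⟨O.out, mem_orbit_self _⟩⟩, inferInstance⟩
    exact_mod_cast this.ne'
  field_simp

/-! ### The subgroups `⟨h ^ m⟩` -/

theorem chebcomba_card_orbit {G X : Type} [Group G] [MulAction G X] (h : G) (x : X) {m : ℕ}
    (hm : m ≠ 0) :
    Nat.card (orbit (Subgroup.zpowers (h ^ m)) x) = period h x / Nat.gcd (period h x) m := by
  rw [Nat.card_congr (orbitZPowersEquiv (h ^ m) x), Nat.card_zmod]
  have e : (fun y : X => h ^ m • y) = (fun y : X => h • y)^[m] := (smul_iterate h m).symm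
  rw [e, Function.minimalPeriod_iterate_eq_div_gcd hm]
  rfl

theorem chebcomba_card_zpowers {G : Type} [Group G] [Finite G] (h : G) (m : ℕ) :
    Nat.card (Subgroup.zpowers (h ^ m)) = orderOf h / Nat.gcd (orderOf h) m := by
  rw [Nat.card_zpowers, orderOf_pow]

theorem chebcomba_orbit_stab {U X : Type} [Group U] [MulAction U X] (x : X) :
    Nat.card (orbit U x) * Nat.card (stabilizer U x) = Nat.card U := by
  rw [← Nat.card_prod]
  exact Nat.card_congr (orbitProdStabilizerEquivGroup U x)

/-- Pure arithmetic: `a = p * b * k` gives `a / b = p * (a / (p * b))`. -/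
theorem chebcomba_div_aux {a b p : ℕ} (hp : 0 < p) (hb : 0 < b) (h : p * b ∣ a) :
    a / b = p * (a / (p * b)) := by
  obtain ⟨k, rfl⟩ := h
  rw [Nat.mul_div_cancel_left k (Nat.mul_pos hp hb)]
  have e : p * b * k = b * (p * k) := by ring
  rw [e, Nat.mul_div_cancel_left _ hb]

/-- The cancellation at a point `x` which is not fixed by `h`. -/
theorem chebcomba_point {G X : Type} [Group G] [Finite G] [MulAction G X] [Finite X] (h : G)
    (x : X) (hx : h • x ≠ x) (L : ℕ → ℝ) :
    ∑ m ∈ Nat.divisors (∏ q ∈ (orderOf h).primeFactors, q),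
      ((ArithmeticFunction.moebius m *
          (((∏ q ∈ (orderOf h).primeFactors, q) / m : ℕ) : ℤ) : ℤ) : ℝ) *
        (L (cheb_kexp (Subgroup.zpowers (h ^ m)) x) /
          (Nat.card (orbit (Subgroup.zpowers (h ^ m)) x) : ℝ)) = 0 := by
  have hn0 : orderOf h ≠ 0 := (orderOf_pos h).ne'
  have hRn : (∏ q ∈ (orderOf h).primeFactors, q) ∣ orderOf h := Nat.prod_primeFactors_dvd _
  have hRsq : Squarefree (∏ q ∈ (orderOf h).primeFactors, q) := by
    rw [← Nat.radical_eq_prod_primeFactors]
    exact UniqueFactorizationMonoid.squarefree_radical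
  have hgn : period h x ∣ orderOf h := period_dvd_orderOf h x
  have hg1 : period h x ≠ 1 := fun h1 => hx (period_eq_one_iff.mp h1)
  have hp : (period h x).minFac.Prime := Nat.minFac_prime hg1
  have hpg : (period h x).minFac ∣ period h x := Nat.minFac_dvd _
  have hpn : (period h x).minFac ∣ orderOf h := hpg.trans hgn
  have hpR : (period h x).minFac ∣ ∏ q ∈ (orderOf h).primeFactors, q :=
    Finset.dvd_prod_of_mem _ (Nat.mem_primeFactors.mpr ⟨hp, hpn, hn0⟩)
  generalize (period h x).minFac = p at hp hpg hpn hpR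
  generalize hR : (∏ q ∈ (orderOf h).primeFactors, q) = R at hRn hRsq hpR
  refine chebcomba_pairing R p hRsq hp hpR (fun m => ((ArithmeticFunction.moebius m *
      ((R / m : ℕ) : ℤ) : ℤ) : ℝ) * (L (cheb_kexp (Subgroup.zpowers (h ^ m)) x) /
        (Nat.card (orbit (Subgroup.zpowers (h ^ m)) x) : ℝ))) ?_
  intro m hmR hpm hpmR
  have hR0 : R ≠ 0 := hRsq.ne_zero
  have hm0 : m ≠ 0 := fun h0 => hR0 (by rw [h0] at hmR; exact zero_dvd_iff.mp hmR)
  have hpm0 : p * m ≠ 0 := mul_ne_zero hp.ne_zero hm0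
  have hcop : Nat.Coprime p m := (Nat.Prime.coprime_iff_not_dvd hp).mpr hpm
  -- Möbius
  have hμ : ArithmeticFunction.moebius (p * m) = - ArithmeticFunction.moebius m := by
    rw [ArithmeticFunction.isMultiplicative_moebius.map_mul_of_coprime hcop,
      ArithmeticFunction.moebius_apply_prime hp]
    ring
  -- `R / m = p * (R / (p * m))`
  have hRm : R / m = p * (R / (p * m)) :=
    chebcomba_div_aux hp.pos (Nat.pos_of_ne_zero hm0) hpmR
  -- orbits
  have horb : Nat.card (orbit (Subgroup.zpowers (h ^ m)) x) =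
      p * Nat.card (orbit (Subgroup.zpowers (h ^ (p * m))) x) := by
    rw [chebcomba_card_orbit h x hm0, chebcomba_card_orbit h x hpm0]
    obtain ⟨g', hg'⟩ := hpg
    rw [hg', Nat.gcd_mul_left, Nat.Coprime.gcd_mul_left_cancel g' hcop,
      Nat.mul_div_mul_left _ _ hp.pos, Nat.mul_div_assoc _ (Nat.gcd_dvd_left g' m)]
  -- group orders
  have hU : Nat.card (Subgroup.zpowers (h ^ m)) =
      p * Nat.card (Subgroup.zpowers (h ^ (p * m))) := by
    rw [chebcomba_card_zpowers, chebcomba_card_zpowers,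
      Nat.gcd_eq_right (hmR.trans hRn), Nat.gcd_eq_right (hpmR.trans hRn)]
    exact chebcomba_div_aux hp.pos (Nat.pos_of_ne_zero hm0) (hpmR.trans hRn)
  -- stabilizers
  have horbpos : 0 < Nat.card (orbit (Subgroup.zpowers (h ^ (p * m))) x) :=
    Nat.card_pos_iff.mpr ⟨⟨⟨x, mem_orbit_self x⟩⟩, inferInstance⟩
  have hstab : Nat.card (stabilizer (Subgroup.zpowers (h ^ (p * m))) x) =
      Nat.card (stabilizer (Subgroup.zpowers (h ^ m)) x) := by
    have h1 := chebcomba_orbit_stab (U := Subgroup.zpowers (h ^ m)) x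
    have h2 := chebcomba_orbit_stab (U := Subgroup.zpowers (h ^ (p * m))) x
    rw [hU, horb, ← h2, mul_assoc] at h1
    exact (Nat.eq_of_mul_eq_mul_left horbpos (Nat.eq_of_mul_eq_mul_left hp.pos h1)).symm
  have hk : cheb_kexp (Subgroup.zpowers (h ^ (p * m))) x =
      cheb_kexp (Subgroup.zpowers (h ^ m)) x := by
    unfold cheb_kexp
    rw [hstab]
  show ((ArithmeticFunction.moebius (p * m) * ((R / (p * m) : ℕ) : ℤ) : ℤ) : ℝ) *
      (L (cheb_kexp (Subgroup.zpowers (h ^ (p * m))) x) /
        (Nat.card (orbit (Subgroup.zpowers (h ^ (p * m))) x) : ℝ)) =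
    -(((ArithmeticFunction.moebius m * ((R / m : ℕ) : ℤ) : ℤ) : ℝ) *
      (L (cheb_kexp (Subgroup.zpowers (h ^ m)) x) /
        (Nat.card (orbit (Subgroup.zpowers (h ^ m)) x) : ℝ)))
  rw [hk, hμ, hRm, horb]
  have hp0 : (p : ℝ) ≠ 0 := Nat.cast_ne_zero.mpr hp.ne_zero
  have horb0 : (Nat.card (orbit (Subgroup.zpowers (h ^ (p * m))) x) : ℝ) ≠ 0 :=
    Nat.cast_ne_zero.mpr horbpos.ne'
  push_cast
  field_simp

/-! ### The main statement -/

/-- (CHEB-Comb) Combinatorial cancellation. -/
theorem chebcomba_main : cheb_CombStatement := by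
  intro G X _ _ _ _ h hfix Φ hΦ
  classical
  have : Fintype X := Fintype.ofFinite X
  -- the inner products are positive, with an explicit logarithm
  have hP : ∀ m : ℕ,
      0 < ∏ᶠ O : orbitRel.Quotient (Subgroup.zpowers (h ^ m)) X,
        Φ (cheb_kexp (Subgroup.zpowers (h ^ m)) O.out) ∧
      Real.log (∏ᶠ O : orbitRel.Quotient (Subgroup.zpowers (h ^ m)) X,
        Φ (cheb_kexp (Subgroup.zpowers (h ^ m)) O.out)) =
        ∑ x : X, Real.log (Φ (cheb_kexp (Subgroup.zpowers (h ^ m)) x)) /
          (Nat.card (orbit (Subgroup.zpowers (h ^ m)) x) : ℝ) := by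
    intro m
    have key := chebcomba_log_finprod (U := Subgroup.zpowers (h ^ m))
      (fun x : X => Φ (cheb_kexp (Subgroup.zpowers (h ^ m)) x))
      (fun x => hΦ _ (chebcomba_kexp_pos _ x))
      (fun x y hy => congrArg Φ (chebcomba_kexp_inv _ hy))
    rw [finsum_eq_sum_of_fintype] at key
    exact key
  apply Real.eq_one_of_pos_of_log_eq_zero
  · exact Finset.prod_pos (fun m _ => zpow_pos (hP m).1 _)
  · rw [Real.log_prod (fun m _ => (zpow_pos (hP m).1 _).ne')]
    have e : ∀ m ∈ Nat.divisors (∏ q ∈ (orderOf h).primeFactors, q),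
        Real.log ((∏ᶠ O : orbitRel.Quotient (Subgroup.zpowers (h ^ m)) X,
          Φ (cheb_kexp (Subgroup.zpowers (h ^ m)) O.out)) ^
            (ArithmeticFunction.moebius m *
              (((∏ q ∈ (orderOf h).primeFactors, q) / m : ℕ) : ℤ))) =
          ∑ x : X, ((ArithmeticFunction.moebius m *
              (((∏ q ∈ (orderOf h).primeFactors, q) / m : ℕ) : ℤ) : ℤ) : ℝ) *
            (Real.log (Φ (cheb_kexp (Subgroup.zpowers (h ^ m)) x)) /
              (Nat.card (orbit (Subgroup.zpowers (h ^ m)) x) : ℝ)) := by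
      intro m _
      rw [Real.log_zpow, (hP m).2, Finset.mul_sum]
    rw [Finset.sum_congr rfl e, Finset.sum_comm]
    refine Finset.sum_eq_zero (fun x _ => ?_)
    exact chebcomba_point h x (hfix x) (fun k => Real.log (Φ k))

end Fermat.Agent.S42
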