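/-
S42, block CHEB, package CHEB-Dec (twin B): at an unramified prime, an element of the Galois group
satisfying the Frobenius congruence at `𝔔` generates the decomposition group of `𝔔`.
-/
import Mathlib
import Fermat.Agent.S42.ChebInterfaces

set_option autoImplicit false

open NumberField

namespace Fermat.Agent.S42

open scoped Pointwise

/-- A finite integral domain all of whose elements satisfy `a ^ n = a` (`n ≥ 2`) has at most `n`
elements. -/
theorem chebdecb_card_le {R : Type*} [CommRing R] [IsDomain R] [Finite R] (n : ℕ) (hn : 1 < n)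
    (h : ∀ a : R, a ^ n = a) : Nat.card R ≤ n := by
  classical
  have := Fintype.ofFinite R
  have hdeg : (Polynomial.X ^ n - Polynomial.X : Polynomial R).natDegree = n := by
    rw [Polynomial.natDegree_sub_eq_left_of_natDegree_lt]
    · exact Polynomial.natDegree_X_pow n
    · rw [Polynomial.natDegree_X_pow, Polynomial.natDegree_X]
      exact hn
  have hne : (Polynomial.X ^ n - Polynomial.X : Polynomial R) ≠ 0 := by
    intro h0
    rw [h0, Polynomial.natDegree_zero] at hdeg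
    omega
  have hsub : (Finset.univ : Finset R).val ⊆
      (Polynomial.X ^ n - Polynomial.X : Polynomial R).roots := by
    intro a _
    rw [Polynomial.mem_roots hne, Polynomial.IsRoot.def]
    simp [h a]
  have h1 := Polynomial.card_le_degree_of_subset_roots hsub
  rw [hdeg, Finset.card_univ] at h1
  rwa [Nat.card_eq_fintype_card]

/-- An element of the Galois group mapping a maximal ideal into itself fixes it. -/
theorem chebdecb_smul_eq {F : Type} [Field F] [NumberField F] (P : Ideal (𝓞 F))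
    [hPprime : P.IsPrime] (hPmax : P.IsMaximal) (g : F ≃ₐ[ℚ] F) (h : ∀ x ∈ P, g • x ∈ P) :
    g • P = P := by
  have hle : P ≤ g⁻¹ • P := by
    intro x hx
    rw [Ideal.mem_inv_pointwise_smul_iff]
    exact h x hx
  have hne : g⁻¹ • P ≠ ⊤ := Ideal.IsPrime.ne_top inferInstance
  have heq := hPmax.eq_of_le hne hle
  calc g • P = g • (g⁻¹ • P) := by rw [← heq]
    _ = P := smul_inv_smul g P

/-- (CHEB-Dec). -/
theorem chebdecb_main : cheb_DecStatement := by
  intro F _ _ _ ℓ hℓ hunr 𝔔 h0 σ hh0 hσ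
  obtain ⟨P, hPmem⟩ := 𝔔
  have hPprime : P.IsPrime := hPmem.1
  have hPover : P.LiesOver (Ideal.span {(ℓ : ℤ)}) := hPmem.2
  have hℓ0 : (ℓ : ℤ) ≠ 0 := by exact_mod_cast hℓ.ne_zero
  have hp : (Ideal.span {(ℓ : ℤ)}).IsPrime := by
    rw [Ideal.span_singleton_prime hℓ0]
    exact Nat.prime_iff_prime_int.mp hℓ
  have hpbot : Ideal.span {(ℓ : ℤ)} ≠ ⊥ := by
    rw [Ne, Ideal.span_singleton_eq_bot]
    exact hℓ0
  -- `ℓ ∈ P`
  have hℓP : (ℓ : 𝓞 F) ∈ P := by
    have h1 : (ℓ : ℤ) ∈ Ideal.span {(ℓ : ℤ)} := Ideal.mem_span_singleton_self _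
    rw [hPover.over, Ideal.under_def, Ideal.mem_comap] at h1
    simpa using h1
  have hPbot : P ≠ ⊥ := by
    intro h
    rw [h, Ideal.mem_bot] at hℓP
    exact hℓ.ne_zero (by exact_mod_cast hℓP)
  have hPmax : P.IsMaximal := hPprime.isMaximal hPbot
  -- the Frobenius congruence inside `𝓞 F`
  have hσ' : ∀ x : 𝓞 F, σ • x - x ^ ℓ ∈ P := by
    intro x
    obtain ⟨y, hy, hxy⟩ := hσ x
    have e : σ • x - x ^ ℓ = y := by
      apply RingOfIntegers.ext
      have e2 : algebraMap (𝓞 F) F (σ • x - x ^ ℓ) = algebraMap (𝓞 F) F y := by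
        rw [map_sub, map_pow]
        exact hxy
      exact e2
    rw [e]
    exact hy
  -- `σ` and `h0` fix `P`
  have hσP : σ • P = P := by
    refine chebdecb_smul_eq P hPmax σ (fun x hx => ?_)
    have h2 : σ • x = (σ • x - x ^ ℓ) + x ^ ℓ := by ring
    rw [h2]
    exact P.add_mem (hσ' x) (Ideal.pow_mem_of_mem P hx ℓ hℓ.pos)
  have hh0P : h0 • P = P := by
    refine chebdecb_smul_eq P hPmax h0 (fun x hx => ?_)
    have h1 : Ideal.map (galRestrict ℤ ℚ F (𝓞 F) h0) P = P := congrArg Subtype.val hh0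
    have h2 : h0 • x = galRestrict ℤ ℚ F (𝓞 F) h0 x := by
      apply RingOfIntegers.ext
      exact (algebraMap_galRestrict_apply ℤ h0 x).symm
    rw [h2, ← h1]
    exact Ideal.mem_map_of_mem _ hx
  -- the decomposition group has `f` elements
  have hcard : Nat.card (MulAction.stabilizer (F ≃ₐ[ℚ] F) P) = P.inertiaDeg ℤ := by
    rw [Ideal.card_stabilizer_eq (Ideal.span {(ℓ : ℤ)}) P,
      Ideal.ramificationIdxIn_eq_ramificationIdx (Ideal.span {(ℓ : ℤ)}) P (F ≃ₐ[ℚ] F),
      Ideal.inertiaDegIn_eq_inertiaDeg (Ideal.span {(ℓ : ℤ)}) P (F ≃ₐ[ℚ] F),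
      ← Ideal.ramificationIdx'_eq_ramificationIdx (Ideal.span {(ℓ : ℤ)}) P hpbot,
      Ideal.ramificationIdx'_spec (n := 1) ?_ ?_, one_mul]
    · rw [pow_one, Ideal.map_span, Set.image_singleton, Ideal.span_singleton_le_iff_mem]
      simpa using hℓP
    · rw [Ideal.map_span, Set.image_singleton, Ideal.span_singleton_le_iff_mem]
      simpa using hunr P hPprime hℓP
  -- iterating the Frobenius congruence
  have hmk : ∀ x : 𝓞 F, Ideal.Quotient.mk P (σ • x) = Ideal.Quotient.mk P x ^ ℓ := by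
    intro x
    rw [← map_pow]
    exact Ideal.Quotient.eq.mpr (hσ' x)
  have hpow : ∀ (k : ℕ) (x : 𝓞 F),
      Ideal.Quotient.mk P ((σ ^ k) • x) = Ideal.Quotient.mk P x ^ (ℓ ^ k) := by
    intro k
    induction k with
    | zero =>
      intro x
      rw [pow_zero, one_smul, pow_zero, pow_one]
    | succ k ih =>
      intro x
      rw [pow_succ, mul_smul, ih, hmk x, ← pow_mul, ← pow_succ']
  -- the order of `σ` is at least `f`
  have hord : P.inertiaDeg ℤ ≤ orderOf σ := by
    have hk : 0 < orderOf σ := orderOf_pos σ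
    have hall : ∀ a : 𝓞 F ⧸ P, a ^ (ℓ ^ orderOf σ) = a := by
      intro a
      obtain ⟨x, rfl⟩ := Ideal.Quotient.mk_surjective a
      rw [← hpow, pow_orderOf_eq_one, one_smul]
    have : Finite (𝓞 F ⧸ P) := Ideal.finiteQuotientOfFreeOfNeBot P hPbot
    have h1 := chebdecb_card_le (ℓ ^ orderOf σ) (Nat.one_lt_pow hk.ne' hℓ.one_lt) hall
    have h2 : Nat.card (𝓞 F ⧸ P) = ℓ ^ P.inertiaDeg ℤ := by
      rw [Ideal.pow_inertiaDeg ℓ P, Ideal.absNorm_apply, Submodule.cardQuot_apply]
    rw [h2] at h1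
    exact (Nat.pow_le_pow_iff_right hℓ.one_lt).mp h1
  -- conclusion
  have hσD : σ ∈ MulAction.stabilizer (F ≃ₐ[ℚ] F) P := hσP
  have hh0D : h0 ∈ MulAction.stabilizer (F ≃ₐ[ℚ] F) P := hh0P
  have hle : Subgroup.zpowers σ ≤ MulAction.stabilizer (F ≃ₐ[ℚ] F) P :=
    (Subgroup.zpowers_le).mpr hσD
  have heq : Subgroup.zpowers σ = MulAction.stabilizer (F ≃ₐ[ℚ] F) P :=
    Subgroup.eq_of_le_of_card_ge hle (by rw [hcard, Nat.card_zpowers]; exact hord)
  have hmem : h0 ∈ Subgroup.zpowers σ := by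
    rw [heq]
    exact hh0D
  have hmem' := (isOfFinOrder_of_finite σ).mem_powers_iff_mem_zpowers.mpr hmem
  obtain ⟨n, hn⟩ := (Submonoid.mem_powers_iff _ _).mp hmem'
  exact ⟨n, hn⟩

end Fermat.Agent.S42
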