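/-
S42, block CHEB, package CHEB-FixAsm (twin C): assembly of `cheb_FixStatement`.

Sketch (by contradiction).  Let `n = orderOf h0`, `R = rad n`, and for `m ∣ R` let
`N_m = F^{⟨h0^m⟩}`.  If `h0` fixes no prime above any unramified `p ∉ S0`, then at every such `p`
the local Euler factors satisfy `∏_{m ∣ R} zloc(N_m, p, s) ^ (μ(m) R/m) = 1` (`Sub` + `Comb`), and
the abstract pole-order argument (`PoleContra`, with `Euler`, `ZlocBound`, S14's `z_pole` and
`Arith`) gives a contradiction.
-/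
import Mathlib
import Fermat.Agent.S42.ChebInterfaces
import Fermat.Agent.S14.ZMainPole

set_option autoImplicit false

open NumberField

namespace Fermat.Agent.S42

/-- The local factor `(1 - p^(-k s))⁻¹` is positive for `k > 0`, `p` prime, `s > 1`. -/
theorem chebfixc_phi_pos (p : ℕ) (hp : p.Prime) (s : ℝ) (hs : 1 < s) (k : ℕ) (hk : 0 < k) :
    0 < (1 - (p : ℝ) ^ (-(k : ℝ) * s))⁻¹ := by
  have hp1 : (1 : ℝ) < (p : ℝ) := by exact_mod_cast hp.one_lt
  have hk' : (0 : ℝ) < (k : ℝ) := by exact_mod_cast hk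
  have hneg : -(k : ℝ) * s < 0 := by nlinarith
  have hlt : (p : ℝ) ^ (-(k : ℝ) * s) < 1 := Real.rpow_lt_one_of_one_lt_of_neg hp1 hneg
  exact inv_pos.mpr (by linarith)

/-- The ideal generated by a prime number is maximal. -/
theorem chebfixc_isMaximal (p : ℕ) (hp : p.Prime) : (Ideal.span {(p : ℤ)}).IsMaximal := by
  have hprime : Prime (p : ℤ) := Nat.prime_iff_prime_int.mp hp
  have hIsPrime : (Ideal.span {(p : ℤ)}).IsPrime :=
    (Ideal.span_singleton_prime hprime.ne_zero).mpr hprime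
  exact hIsPrime.isMaximal (fun h => hprime.ne_zero (Ideal.span_singleton_eq_bot.mp h))

/-- (CHEB-FixAsm) The assembly. -/
theorem chebfixc_main : cheb_FixAsmStatement := by
  intro hEuler hBound hPole hArith hRam hSub hComb F _ _ _ S0 h0
  by_contra hcon
  have hnofix : ∀ ℓ : ℕ, ℓ.Prime → ℓ ∉ S0 → cheb_unram F ℓ →
      ∀ 𝔔 : (Ideal.span {(ℓ : ℤ)}).primesOver (𝓞 F), h0 • 𝔔 ≠ 𝔔 :=
    fun ℓ hℓ hS hu 𝔔 h => hcon ⟨ℓ, hℓ, hS, hu, 𝔔, h⟩
  -- (4) the local identity at the good primes
  have hloc : ∀ p : ℕ, p.Prime → p ∉ S0 → cheb_unram F p → ∀ s : ℝ, 1 < s →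
      ∏ m ∈ Nat.divisors (∏ q ∈ (orderOf h0).primeFactors, q),
        (cheb_zloc (IntermediateField.fixedField (Subgroup.zpowers (h0 ^ m))) p s) ^
          (ArithmeticFunction.moebius m *
            (((∏ q ∈ (orderOf h0).primeFactors, q) / m : ℕ) : ℤ)) = 1 := by
    intro p hp hpS hpu s hs
    have : (Ideal.span {(p : ℤ)}).IsMaximal := chebfixc_isMaximal p hp
    have h₀ := hComb (F ≃ₐ[ℚ] F) ((Ideal.span {(p : ℤ)}).primesOver (𝓞 F)) h0
    have h := h₀ (fun x => hnofix p hp hpS hpu x) (fun k => (1 - (p : ℝ) ^ (-(k : ℝ) * s))⁻¹)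
      (chebfixc_phi_pos p hp s hs)
    refine (Finset.prod_congr rfl fun m _ => ?_).trans h
    rw [hSub F p hp hpu (Subgroup.zpowers (h0 ^ m)) s]
  -- (5) the sum of the exponents is positive
  have harith : 0 < ∑ m ∈ Nat.divisors (∏ q ∈ (orderOf h0).primeFactors, q),
      ArithmeticFunction.moebius m * (((∏ q ∈ (orderOf h0).primeFactors, q) / m : ℕ) : ℤ) :=
    hArith (orderOf h0) (orderOf_pos h0)
  generalize (∏ q ∈ (orderOf h0).primeFactors, q) = R at hloc harith
  -- the uniform bound for the local factors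
  choose C hC using fun m : ℕ =>
    hBound (IntermediateField.fixedField (Subgroup.zpowers (h0 ^ m)))
  -- the pole-order contradiction
  refine hPole {m // m ∈ R.divisors}
    (fun m => ArithmeticFunction.moebius (m : ℕ) * (((R / (m : ℕ) : ℕ)) : ℤ))
    (fun m s => cheb_zeta (IntermediateField.fixedField (Subgroup.zpowers (h0 ^ (m : ℕ)))) s)
    (fun m p s => cheb_zloc (IntermediateField.fixedField (Subgroup.zpowers (h0 ^ (m : ℕ)))) p s)
    (S0 ∪ (hRam F).toFinset) (∑ m ∈ R.divisors, |C m|) ?_ ?_ ?_ ?_ ?_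
  · -- (1) Euler products
    intro i s hs
    exact hEuler (IntermediateField.fixedField (Subgroup.zpowers (h0 ^ (i : ℕ)))) s hs
  · -- (2) bounds
    intro i p hp s hs
    refine ⟨(hC (i : ℕ) p hp s hs.le).1, (hC (i : ℕ) p hp s hs.le).2.trans ?_⟩
    exact (le_abs_self _).trans
      (Finset.single_le_sum (f := fun m => |C m|) (fun j _ => abs_nonneg (C j)) i.2)
  · -- (3) simple poles
    intro i
    exact (Fermat.Agent.S14.z_pole
      (IntermediateField.fixedField (Subgroup.zpowers (h0 ^ (i : ℕ))))).2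
  · -- (4) the local identity
    intro p hp hpB s hs
    have hpS : p ∉ S0 := fun h => hpB (Finset.mem_union_left _ h)
    have hpu : cheb_unram F p := by
      by_contra hnu
      exact hpB (Finset.mem_union_right _ ((hRam F).mem_toFinset.mpr ⟨hp, hnu⟩))
    rw [Finset.prod_coe_sort R.divisors (fun m =>
      (cheb_zloc (IntermediateField.fixedField (Subgroup.zpowers (h0 ^ m))) p s) ^
        (ArithmeticFunction.moebius m * (((R / m : ℕ)) : ℤ)))]
    exact hloc p hp hpS hpu s hs
  · -- (5) the exponent sum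
    rw [Finset.sum_coe_sort R.divisors (fun m =>
      ArithmeticFunction.moebius m * (((R / m : ℕ)) : ℤ))]
    exact harith

end Fermat.Agent.S42
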