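/-
S42, block CHEB, package CHEB-Lift (twin B): from the number-field statements to
`AlgebraicClosure ℚ`.
-/
import Mathlib
import Fermat.Agent.S42.ChebInterfaces
import Fermat.Agent.Lib.FrobeniusExists

set_option autoImplicit false

open NumberField

namespace Fermat.Agent.S42

noncomputable section

/-- A valuation subring of `AlgebraicClosure ℚ` cutting out a given prime of the ring of integers
of a number field embedded into `AlgebraicClosure ℚ`. -/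
theorem chebliftb_key (E : Type) [Field E] [NumberField E] [Algebra E (AlgebraicClosure ℚ)]
    (ℓ : ℕ) (hℓ : ℓ.Prime) (𝔔 : Ideal (𝓞 E)) (h𝔔 : 𝔔.IsPrime) (hℓ𝔔 : (ℓ : 𝓞 E) ∈ 𝔔) :
    ∃ A : ValuationSubring (AlgebraicClosure ℚ), A.LiesOverPrime ℓ ∧
      ∀ y : 𝓞 E, (y ∈ 𝔔 ↔ algebraMap E (AlgebraicClosure ℚ) (y : E) ∈ A.nonunits) := by
  obtain ⟨j, hj⟩ : ∃ j : 𝓞 E →+* AlgebraicClosure ℚ,
      ∀ y : 𝓞 E, j y = algebraMap E (AlgebraicClosure ℚ) (y : E) :=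
    ⟨(algebraMap E (AlgebraicClosure ℚ)).comp (algebraMap (𝓞 E) E), fun _ => rfl⟩
  have hjinj : Function.Injective j := by
    intro a b hab
    rw [hj, hj] at hab
    exact RingOfIntegers.coe_injective ((algebraMap E (AlgebraicClosure ℚ)).injective hab)
  have hI : Ideal.map j.rangeRestrict 𝔔 ≠ ⊤ := by
    intro htop
    have h1 : (1 : j.range) ∈ Ideal.map j.rangeRestrict 𝔔 := by
      rw [htop]
      trivial
    obtain ⟨x, hx, hx1⟩ :=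
      (Ideal.mem_map_iff_of_surjective j.rangeRestrict j.rangeRestrict_surjective).mp h1
    have h2 : j x = 1 := congrArg Subtype.val hx1
    have h3 : x = 1 := hjinj (by rw [h2, map_one])
    exact h𝔔.ne_top ((Ideal.eq_top_iff_one _).mpr (h3 ▸ hx))
  obtain ⟨A, hRA, hA⟩ := Ideal.image_subset_nonunits_valuationSubring _ hI
  have hmem1 : ∀ y ∈ 𝔔, j y ∈ A.nonunits := by
    intro y hy
    exact hA ⟨j.rangeRestrict y, Ideal.mem_map_of_mem _ hy, rfl⟩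
  have hjA : ∀ y : 𝓞 E, j y ∈ A := fun y => hRA ⟨y, rfl⟩
  have hℓ0 : (ℓ : 𝓞 E) ≠ 0 := Nat.cast_ne_zero.mpr hℓ.ne_zero
  have hmax : 𝔔.IsMaximal := h𝔔.isMaximal (by
    intro h0
    rw [h0] at hℓ𝔔
    exact hℓ0 hℓ𝔔)
  have hJ : 𝔔 = Ideal.comap (j.codRestrict A hjA) (IsLocalRing.maximalIdeal A) := by
    refine hmax.eq_of_le (Ideal.comap_ne_top _ (IsLocalRing.maximalIdeal.isMaximal A).ne_top) ?_
    intro y hy
    rw [Ideal.mem_comap, ← A.coe_mem_nonunits_iff]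
    exact hmem1 y hy
  refine ⟨A, ?_, fun y => ?_⟩
  · have h1 := hmem1 _ hℓ𝔔
    rwa [map_natCast] at h1
  · rw [← hj]
    constructor
    · exact hmem1 y
    · intro hy
      rw [hJ, Ideal.mem_comap, ← A.coe_mem_nonunits_iff]
      exact hy

/-- The Frobenius congruence on the valuation ring. -/
theorem chebliftb_frob (A : ValuationSubring (AlgebraicClosure ℚ))
    (τ : AlgebraicClosure ℚ ≃ₐ[ℚ] AlgebraicClosure ℚ) (ℓ : ℕ) (hτ : A.IsFrobeniusAt τ ℓ)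
    (a : AlgebraicClosure ℚ) (ha : a ∈ A) : τ a - a ^ ℓ ∈ A.nonunits := by
  obtain ⟨hmem, hfrob⟩ := hτ
  have h2 := hfrob (IsLocalRing.residue A ⟨a, ha⟩)
  rw [← IsLocalRing.ResidueField.residue_smul, ← map_pow] at h2
  have h3 : (⟨τ, hmem⟩ : A.decompositionSubgroup ℚ) • (⟨a, ha⟩ : A) - ⟨a, ha⟩ ^ ℓ ∈
      IsLocalRing.maximalIdeal A := by
    rw [← IsLocalRing.residue_eq_zero_iff, map_sub, h2, sub_self]
  exact A.coe_mem_nonunits_iff.mpr h3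

/-- (CHEB-Lift) From the number-field statements to `AlgebraicClosure ℚ`. -/
theorem chebliftb_main : cheb_LiftStatement := by
  intro hFix hDec F hF hG S0 h
  have hNF : NumberField ↥F := { to_charZero := inferInstance, to_finiteDimensional := hF }
  obtain ⟨h0, hh0⟩ : ∃ h0 : ↥F ≃ₐ[ℚ] ↥F, h0 = AlgEquiv.restrictNormalHom (↥F) h := ⟨_, rfl⟩
  obtain ⟨ℓ, hℓ, hℓS, hunram, 𝔔, hfix⟩ := hFix (↥F) S0 h0
  have h𝔔prime : (𝔔 : Ideal (𝓞 ↥F)).IsPrime := 𝔔.2.1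
  have hℓ𝔔 : (ℓ : 𝓞 ↥F) ∈ (𝔔 : Ideal (𝓞 ↥F)) := by
    have hover : (𝔔 : Ideal (𝓞 ↥F)).LiesOver (Ideal.span {(ℓ : ℤ)}) := 𝔔.2.2
    have h1 : (ℓ : ℤ) ∈ Ideal.span {(ℓ : ℤ)} := Ideal.subset_span rfl
    rw [hover.over, Ideal.under_def, Ideal.mem_comap] at h1
    simpa using h1
  obtain ⟨A, hA, hAmem⟩ := chebliftb_key (↥F) ℓ hℓ 𝔔.1 h𝔔prime hℓ𝔔
  obtain ⟨τ, hτ⟩ := Fermat.Agent.Lib.FrobeniusExists.exists_isFrobeniusAt ℓ hℓ A hA
  obtain ⟨σ, hσ⟩ : ∃ σ : ↥F ≃ₐ[ℚ] ↥F, σ = AlgEquiv.restrictNormalHom (↥F) τ := ⟨_, rfl⟩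
  have hcong : ∀ x : 𝓞 ↥F, ∃ y ∈ (𝔔 : Ideal (𝓞 ↥F)),
      σ (x : ↥F) - (x : ↥F) ^ ℓ = ((y : 𝓞 ↥F) : ↥F) := by
    intro x
    have hxint : IsIntegral ℤ (x : ↥F) := RingOfIntegers.isIntegral_coe x
    have hint : IsIntegral ℤ (σ (x : ↥F) - (x : ↥F) ^ ℓ) :=
      (map_isIntegral_int σ hxint).sub (hxint.pow ℓ)
    obtain ⟨y, hy⟩ : ∃ y : 𝓞 ↥F, (y : ↥F) = σ (x : ↥F) - (x : ↥F) ^ ℓ := ⟨⟨_, hint⟩, rfl⟩
    refine ⟨y, ?_, hy.symm⟩
    rw [hAmem, hy]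
    have e : algebraMap ↥F (AlgebraicClosure ℚ) (σ (x : ↥F) - (x : ↥F) ^ ℓ) =
        τ (algebraMap ↥F (AlgebraicClosure ℚ) (x : ↥F)) -
          (algebraMap ↥F (AlgebraicClosure ℚ) (x : ↥F)) ^ ℓ := by
      rw [map_sub, map_pow, hσ]
      congr 1
      exact AlgEquiv.restrictNormal_commutes τ (↥F) _
    rw [e]
    refine chebliftb_frob A τ ℓ hτ _ (Fermat.Agent.Lib.FrobeniusExists.mem_of_isIntegral_int A ?_)
    exact map_isIntegral_int (algebraMap ↥F (AlgebraicClosure ℚ)) hxint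
  obtain ⟨n, hn⟩ := hDec (↥F) ℓ hℓ hunram 𝔔 h0 σ hfix hcong
  refine ⟨ℓ, hℓ, hℓS, A, hA, τ, hτ, n, ?_⟩
  rw [IntermediateField.mem_fixingSubgroup_iff]
  intro x hx
  have e1 : AlgEquiv.restrictNormalHom (↥F) (τ ^ n) = AlgEquiv.restrictNormalHom (↥F) h := by
    rw [map_pow, ← hσ, hn, hh0]
  have e2 : (τ ^ n) x = h x := by
    have h1 := AlgEquiv.restrictNormal_commutes (τ ^ n) (↥F) ⟨x, hx⟩
    have h2 := AlgEquiv.restrictNormal_commutes h (↥F) ⟨x, hx⟩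
    have h3 : (τ ^ n).restrictNormal (↥F) = h.restrictNormal (↥F) := e1
    rw [h3, h2] at h1
    exact h1.symm
  rw [AlgEquiv.mul_apply, e2]
  exact h.symm_apply_apply x

end

end Fermat.Agent.S42
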