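/-
S42, block CHEB, package CHEB-Local (twin A).  Owner: helper176.

`cheblocala_main : cheb_LocalStatement`: for a number field `M`, a rational prime `p` and `s > 0`,
`∑_k #{I ⊆ 𝓞 M : N(I) = p ^ k} · (p ^ k) ^ (-s) = ∏_{𝔓 ∣ p} (1 - N(𝔓) ^ (-s))⁻¹`.

Proof: the ideals of `p`-power norm are exactly the products `∏_{𝔓 ∣ p} 𝔓 ^ v 𝔓` (unique
factorisation), so the series is a rearrangement of the multi-geometric series
`∑_{v : {𝔓 ∣ p} → ℕ} ∏_𝔓 (N(𝔓) ^ (-s)) ^ v 𝔓 = ∏_𝔓 (1 - N(𝔓) ^ (-s))⁻¹`.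
-/
import Mathlib
import Fermat.Agent.S42.ChebInterfaces

set_option autoImplicit false

open NumberField

namespace Fermat.Agent.S42

theorem cheblocala_finite (M : Type) [Field M] [NumberField M] (p : ℕ) (hp : p.Prime) :
    (cheb_primesAbove M p).Finite := by
  classical
  have hne : Ideal.span {(p : 𝓞 M)} ≠ ⊥ := by
    simp [hp.ne_zero]
  refine Set.Finite.subset
    (UniqueFactorizationMonoid.normalizedFactors (Ideal.span {(p : 𝓞 M)})).toFinset.finite_toSet ?_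
  intro 𝔓 h𝔓
  simp only [Finset.mem_coe, Multiset.mem_toFinset]
  rw [Ideal.mem_normalizedFactors_iff hne]
  exact ⟨h𝔓.1, by rw [Ideal.span_singleton_le_iff_mem]; exact h𝔓.2⟩

theorem cheblocala_absNorm_prime (M : Type) [Field M] [NumberField M] (p : ℕ) (hp : p.Prime)
    (𝔓 : Ideal (𝓞 M)) (h𝔓 : 𝔓 ∈ cheb_primesAbove M p) :
    ∃ f : ℕ, 0 < f ∧ Ideal.absNorm 𝔓 = p ^ f := by
  have hle : Ideal.span {(p : 𝓞 M)} ≤ 𝔓 := by
    rw [Ideal.span_singleton_le_iff_mem]; exact h𝔓.2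
  have hdvd := Ideal.absNorm_dvd_absNorm_of_le hle
  rw [Ideal.absNorm_span_singleton] at hdvd
  have hnorm : (Algebra.norm ℤ (p : 𝓞 M)).natAbs = p ^ (Module.finrank ℤ (𝓞 M)) := by
    have h1 : (p : 𝓞 M) = algebraMap ℤ (𝓞 M) (p : ℤ) := by simp
    rw [h1, Algebra.norm_algebraMap]
    simp [Int.natAbs_pow]
  rw [hnorm] at hdvd
  obtain ⟨f, -, hfeq⟩ := (Nat.dvd_prime_pow hp).mp hdvd
  refine ⟨f, ?_, hfeq⟩
  rcases Nat.eq_zero_or_pos f with h0 | h0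
  · exfalso
    rw [h0, pow_zero, Ideal.absNorm_eq_one_iff] at hfeq
    exact h𝔓.1.ne_top hfeq
  · exact h0

theorem cheblocala_ne_bot (M : Type) [Field M] [NumberField M] (p : ℕ) (hp : p.Prime)
    (I : Ideal (𝓞 M)) (k : ℕ) (hI : Ideal.absNorm I = p ^ k) : I ≠ ⊥ := by
  rintro rfl
  rw [Ideal.absNorm_bot] at hI
  exact (pow_ne_zero k hp.ne_zero) hI.symm

open Classical in
theorem cheblocala_factor_mem (M : Type) [Field M] [NumberField M] (p : ℕ) (hp : p.Prime)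
    (I : Ideal (𝓞 M)) (k : ℕ) (hI : Ideal.absNorm I = p ^ k)
    (𝔔 : Ideal (𝓞 M)) (h𝔔 : 𝔔 ∈ UniqueFactorizationMonoid.normalizedFactors I) :
    𝔔 ∈ cheb_primesAbove M p := by
  have hI0 : I ≠ ⊥ := cheblocala_ne_bot M p hp I k hI
  rw [Ideal.mem_normalizedFactors_iff hI0] at h𝔔
  refine ⟨h𝔔.1, ?_⟩
  have h1 : (Ideal.absNorm I : 𝓞 M) ∈ I := Ideal.absNorm_mem I
  have h2 : ((p ^ k : ℕ) : 𝓞 M) ∈ 𝔔 := by rw [← hI]; exact h𝔔.2 h1
  rw [Nat.cast_pow] at h2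
  exact h𝔔.1.mem_of_pow_mem k h2

open Classical in
theorem cheblocala_prod_count (M : Type) [Field M] [NumberField M]
    (I : Ideal (𝓞 M)) (hI0 : I ≠ ⊥) (T : Finset (Ideal (𝓞 M)))
    (hT : ∀ 𝔔 ∈ UniqueFactorizationMonoid.normalizedFactors I, 𝔔 ∈ T) :
    ∏ 𝔔 : ↥T, (𝔔 : Ideal (𝓞 M)) ^
      (Multiset.count (𝔔 : Ideal (𝓞 M)) (UniqueFactorizationMonoid.normalizedFactors I)) = I := by
  have h1 := Ideal.prod_normalizedFactors_eq_self hI0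
  rw [Finset.prod_multiset_count] at h1
  rw [Finset.prod_coe_sort T
    (fun 𝔔 => 𝔔 ^ Multiset.count 𝔔 (UniqueFactorizationMonoid.normalizedFactors I))]
  rw [← Finset.prod_subset (s₁ := (UniqueFactorizationMonoid.normalizedFactors I).toFinset) (s₂ := T)]
  · exact h1
  · intro 𝔔 h𝔔
    exact hT 𝔔 (Multiset.mem_toFinset.mp h𝔔)
  · intro 𝔔 _ h𝔔
    rw [Multiset.mem_toFinset] at h𝔔
    rw [Multiset.count_eq_zero_of_notMem h𝔔, pow_zero]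

open Classical in
theorem cheblocala_count_prod (M : Type) [Field M] [NumberField M]
    (T : Finset (Ideal (𝓞 M))) (hT : ∀ 𝔔 ∈ T, 𝔔.IsPrime ∧ 𝔔 ≠ ⊥) (v : ↥T → ℕ) (𝔓 : ↥T) :
    Multiset.count (𝔓 : Ideal (𝓞 M)) (UniqueFactorizationMonoid.normalizedFactors
      (∏ 𝔔 : ↥T, (𝔔 : Ideal (𝓞 M)) ^ v 𝔔)) = v 𝔓 := by
  have h1 : (∏ 𝔔 : ↥T, (𝔔 : Ideal (𝓞 M)) ^ v 𝔔)
      = (∑ 𝔔 : ↥T, Multiset.replicate (v 𝔔) (𝔔 : Ideal (𝓞 M))).prod := by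
    rw [Multiset.prod_sum]
    simp only [Multiset.prod_replicate]
  rw [h1, UniqueFactorizationMonoid.normalizedFactors_prod_of_prime]
  · rw [Multiset.count_sum']
    simp only [Multiset.count_replicate]
    have h2 : ∀ 𝔔 : ↥T, (if (𝔔 : Ideal (𝓞 M)) = (𝔓 : Ideal (𝓞 M)) then v 𝔔 else 0)
        = if 𝔔 = 𝔓 then v 𝔔 else 0 := by
      intro 𝔔
      by_cases h : 𝔔 = 𝔓
      · simp [h]
      · have h' : (𝔔 : Ideal (𝓞 M)) ≠ (𝔓 : Ideal (𝓞 M)) := fun hh => h (Subtype.ext hh)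
        simp [h, h']
    simp only [h2]
    rw [Finset.sum_ite_eq']
    simp
  · intro 𝔔 h𝔔
    rw [Multiset.mem_sum] at h𝔔
    obtain ⟨𝔔', -, h𝔔'⟩ := h𝔔
    rw [Multiset.mem_replicate] at h𝔔'
    rw [h𝔔'.2]
    have := hT 𝔔'.1 𝔔'.2
    exact Ideal.prime_of_isPrime this.2 this.1

/-- Multi-geometric series over a finite index type. -/
theorem cheblocala_hasSum_pi (ι : Type) [Fintype ι] : ∀ (y : ι → ℝ), (∀ i, 0 ≤ y i) → (∀ i, y i < 1) →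
    HasSum (fun v : ι → ℕ => ∏ i, y i ^ v i) (∏ i, (1 - y i)⁻¹) := by
  refine Fintype.induction_empty_option
    (P := fun (ι : Type) [Fintype ι] => ∀ (y : ι → ℝ), (∀ i, 0 ≤ y i) → (∀ i, y i < 1) →
      HasSum (fun v : ι → ℕ => ∏ i, y i ^ v i) (∏ i, (1 - y i)⁻¹)) ?_ ?_ ?_ ι
  · intro α β _ e ih y h0 h1
    let _ : Fintype α := Fintype.ofEquiv β e.symm
    have h := ih (fun a => y (e a)) (fun a => h0 _) (fun a => h1 _)
    rw [← (Equiv.arrowCongr e (Equiv.refl ℕ)).hasSum_iff]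
    have h3 : (∏ i : β, (1 - y i)⁻¹) = ∏ a : α, (1 - y (e a))⁻¹ :=
      (Fintype.prod_equiv e _ _ (fun a => rfl)).symm
    rw [h3]
    have h4 : ((fun v : β → ℕ => ∏ i, y i ^ v i) ∘ (Equiv.arrowCongr e (Equiv.refl ℕ)))
        = (fun v : α → ℕ => ∏ a, y (e a) ^ v a) := by
      funext v
      simp only [Function.comp_apply]
      refine (Fintype.prod_equiv e _ _ (fun a => ?_)).symm
      simp [Equiv.arrowCongr]
    rw [h4]
    exact h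
  · intro y h0 h1
    simp only [Finset.univ_eq_empty, Finset.prod_empty]
    simp
  · intro α _ ih y h0 h1
    have h := ih (fun a => y (some a)) (fun a => h0 _) (fun a => h1 _)
    have hg := hasSum_geometric_of_lt_one (h0 none) (h1 none)
    have hs : Summable (fun x : ℕ × (α → ℕ) => y none ^ x.1 * ∏ a, y (some a) ^ x.2 a) := by
      refine Summable.mul_of_nonneg (f := fun n : ℕ => y none ^ n)
        (g := fun v : α → ℕ => ∏ a, y (some a) ^ v a) hg.summable h.summable ?_ ?_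
      · intro n
        exact pow_nonneg (h0 none) n
      · intro v
        exact Finset.prod_nonneg (fun a _ => pow_nonneg (h0 _) _)
    have hmul := HasSum.mul hg h hs
    rw [Fintype.prod_option]
    rw [← (Equiv.piOptionEquivProd (β := fun _ : Option α => ℕ)).symm.hasSum_iff]
    have h5 : ((fun v : Option α → ℕ => ∏ i, y i ^ v i) ∘
        (Equiv.piOptionEquivProd (β := fun _ : Option α => ℕ)).symm)
        = (fun x : ℕ × (α → ℕ) => y none ^ x.1 * ∏ a, y (some a) ^ x.2 a) := by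
      funext x
      simp [Fintype.prod_option]
    rw [h5]
    exact hmul


open Classical in
theorem cheblocala_hasSum (M : Type) [Field M] [NumberField M] (p : ℕ) (hp : p.Prime) (s : ℝ)
    (hs : 0 < s) :
    HasSum (fun k : ℕ => (Nat.card {I : Ideal (𝓞 M) // Ideal.absNorm I = p ^ k} : ℝ) *
        ((p ^ k : ℕ) : ℝ) ^ (-s)) (cheb_zloc M p s) := by
  have hfin := cheblocala_finite M p hp
  set T : Finset (Ideal (𝓞 M)) := hfin.toFinset with hTdef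
  have hTmem : ∀ 𝔔 : Ideal (𝓞 M), 𝔔 ∈ T ↔ 𝔔 ∈ cheb_primesAbove M p := fun 𝔔 =>
    Set.Finite.mem_toFinset hfin
  -- the local factor as a finite product
  have hz : cheb_zloc M p s = ∏ 𝔔 : ↥T, (1 - (Ideal.absNorm (𝔔 : Ideal (𝓞 M)) : ℝ) ^ (-s))⁻¹ := by
    unfold cheb_zloc
    rw [finprod_mem_eq_finite_toFinset_prod _ hfin]
    rw [Finset.prod_coe_sort T (fun 𝔔 => (1 - (Ideal.absNorm 𝔔 : ℝ) ^ (-s))⁻¹)]
  -- norms of the primes
  have hnorm : ∀ 𝔔 : ↥T, ∃ f : ℕ, 0 < f ∧ Ideal.absNorm (𝔔 : Ideal (𝓞 M)) = p ^ f := fun 𝔔 =>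
    cheblocala_absNorm_prime M p hp 𝔔.1 ((hTmem _).mp 𝔔.2)
  choose f hfpos hf using hnorm
  have hTprime : ∀ 𝔔 ∈ T, 𝔔.IsPrime ∧ 𝔔 ≠ ⊥ := by
    intro 𝔔 h𝔔
    have h1 := (hTmem 𝔔).mp h𝔔
    refine ⟨h1.1, ?_⟩
    obtain ⟨f', -, hf'⟩ := cheblocala_absNorm_prime M p hp 𝔔 h1
    exact cheblocala_ne_bot M p hp 𝔔 f' hf'
  have hp1 : (1 : ℝ) < p := by exact_mod_cast hp.one_lt
  have hy0 : ∀ 𝔔 : ↥T, 0 ≤ (Ideal.absNorm (𝔔 : Ideal (𝓞 M)) : ℝ) ^ (-s) := fun 𝔔 =>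
    Real.rpow_nonneg (Nat.cast_nonneg _) _
  have hy1 : ∀ 𝔔 : ↥T, (Ideal.absNorm (𝔔 : Ideal (𝓞 M)) : ℝ) ^ (-s) < 1 := by
    intro 𝔔
    apply Real.rpow_lt_one_of_one_lt_of_neg
    · rw [hf 𝔔]
      push_cast
      exact one_lt_pow₀ hp1 (hfpos 𝔔).ne'
    · linarith
  have hE := cheblocala_hasSum_pi (↥T) (fun 𝔔 => (Ideal.absNorm (𝔔 : Ideal (𝓞 M)) : ℝ) ^ (-s))
    hy0 hy1
  rw [← hz] at hE
  -- the bijection
  let F : (Σ k : ℕ, {I : Ideal (𝓞 M) // Ideal.absNorm I = p ^ k}) → (↥T → ℕ) := fun x 𝔔 =>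
    Multiset.count (𝔔 : Ideal (𝓞 M)) (UniqueFactorizationMonoid.normalizedFactors (x.2 : Ideal (𝓞 M)))
  have hprod : ∀ x : (Σ k : ℕ, {I : Ideal (𝓞 M) // Ideal.absNorm I = p ^ k}),
      ∏ 𝔔 : ↥T, (𝔔 : Ideal (𝓞 M)) ^ F x 𝔔 = (x.2 : Ideal (𝓞 M)) := by
    intro x
    refine cheblocala_prod_count M x.2.1 (cheblocala_ne_bot M p hp x.2.1 x.1 x.2.2) T ?_
    intro 𝔔 h𝔔
    exact (hTmem 𝔔).mpr (cheblocala_factor_mem M p hp x.2.1 x.1 x.2.2 𝔔 h𝔔)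
  have hFinj : Function.Injective F := by
    intro x x' hxx
    have h1 : (x.2 : Ideal (𝓞 M)) = (x'.2 : Ideal (𝓞 M)) := by
      rw [← hprod x, ← hprod x', hxx]
    have h2 : p ^ x.1 = p ^ x'.1 := by
      rw [← x.2.2, ← x'.2.2, h1]
    exact Sigma.subtype_ext (Nat.pow_right_injective hp.two_le h2) h1
  have hFsurj : Function.Surjective F := by
    intro v
    have hnormI : Ideal.absNorm (∏ 𝔔 : ↥T, (𝔔 : Ideal (𝓞 M)) ^ v 𝔔) = p ^ (∑ 𝔔 : ↥T, f 𝔔 * v 𝔔) := by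
      rw [map_prod, ← Finset.prod_pow_eq_pow_sum]
      refine Finset.prod_congr rfl (fun 𝔔 _ => ?_)
      rw [map_pow, hf 𝔔, pow_mul]
    refine ⟨⟨∑ 𝔔 : ↥T, f 𝔔 * v 𝔔, ∏ 𝔔 : ↥T, (𝔔 : Ideal (𝓞 M)) ^ v 𝔔, hnormI⟩, ?_⟩
    funext 𝔓
    exact cheblocala_count_prod M T hTprime v 𝔓
  have hterm : ∀ x : (Σ k : ℕ, {I : Ideal (𝓞 M) // Ideal.absNorm I = p ^ k}),
      ∏ 𝔔 : ↥T, ((Ideal.absNorm (𝔔 : Ideal (𝓞 M)) : ℝ) ^ (-s)) ^ F x 𝔔
        = ((p ^ x.1 : ℕ) : ℝ) ^ (-s) := by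
    intro x
    have h1 : ((p ^ x.1 : ℕ) : ℝ) = ∏ 𝔔 : ↥T, (Ideal.absNorm (𝔔 : Ideal (𝓞 M)) : ℝ) ^ F x 𝔔 := by
      rw [← x.2.2]
      conv_lhs => rw [← hprod x]
      rw [map_prod, Nat.cast_prod]
      refine Finset.prod_congr rfl (fun 𝔔 _ => ?_)
      rw [map_pow, Nat.cast_pow]
    rw [h1, ← Real.finsetProd_rpow _ _ (fun 𝔔 _ => pow_nonneg (Nat.cast_nonneg _) _)]
    refine Finset.prod_congr rfl (fun 𝔔 _ => ?_)
    exact Real.rpow_pow_comm (Nat.cast_nonneg _) _ _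
  have hsig : HasSum (fun x : (Σ k : ℕ, {I : Ideal (𝓞 M) // Ideal.absNorm I = p ^ k}) =>
      ((p ^ x.1 : ℕ) : ℝ) ^ (-s)) (cheb_zloc M p s) := by
    have h1 := (Equiv.ofBijective F ⟨hFinj, hFsurj⟩).hasSum_iff.mpr hE
    have h2 : ((fun v : ↥T → ℕ => ∏ 𝔔 : ↥T, ((Ideal.absNorm (𝔔 : Ideal (𝓞 M)) : ℝ) ^ (-s)) ^ v 𝔔) ∘
        (Equiv.ofBijective F ⟨hFinj, hFsurj⟩))
        = (fun x : (Σ k : ℕ, {I : Ideal (𝓞 M) // Ideal.absNorm I = p ^ k}) =>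
            ((p ^ x.1 : ℕ) : ℝ) ^ (-s)) := by
      funext x
      exact hterm x
    rw [h2] at h1
    exact h1
  refine hsig.sigma (fun k => ?_)
  have hfinite : Finite {I : Ideal (𝓞 M) // Ideal.absNorm I = p ^ k} :=
    (Ideal.finite_setOfPred_absNorm_eq (S := 𝓞 M) (p ^ k)).to_subtype
  have hfintype : Fintype {I : Ideal (𝓞 M) // Ideal.absNorm I = p ^ k} := Fintype.ofFinite _
  have h3 := hasSum_fintype (fun _ : {I : Ideal (𝓞 M) // Ideal.absNorm I = p ^ k} =>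
    ((p ^ k : ℕ) : ℝ) ^ (-s))
  rw [Finset.sum_const, Finset.card_univ, nsmul_eq_mul, ← Nat.card_eq_fintype_card] at h3
  exact h3

theorem cheblocala_main : cheb_LocalStatement := by
  intro M _ _ p hp s hs
  have h := cheblocala_hasSum M p hp s hs
  exact ⟨h.summable, h.tsum_eq⟩

end Fermat.Agent.S42
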