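/-
S42, block CHEB, package CHEB-Mult (twin B): the number of ideals of given norm in the ring of
integers of a number field is multiplicative on coprime integers.

The map `(J₁, J₂) ↦ J₁ * J₂` is a bijection from pairs of ideals of norms `m`, `n` onto the ideals
of norm `m * n` (`m`, `n` coprime): the inverse is `I ↦ (I ⊔ (m), I ⊔ (n))`.
-/
import Mathlib
import Fermat.Agent.S42.ChebInterfaces

set_option autoImplicit false

open NumberField

namespace Fermat.Agent.S42

/-- Arithmetic: a factorisation `a * b = m * n` with `m`, `n` coprime, `a` dividing a power of `m`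
and `b` dividing a power of `n` is the trivial one. -/
theorem chebmultb_nat {a b m n d e : ℕ} (hmn : m.Coprime n) (ha : a ∣ m ^ d) (hb : b ∣ n ^ e)
    (hab : a * b = m * n) : a = m ∧ b = n := by
  have han : a.Coprime n := Nat.Coprime.coprime_dvd_left ha (hmn.pow_left d)
  have hbm : b.Coprime m := Nat.Coprime.coprime_dvd_left hb (hmn.symm.pow_left e)
  have h1 : a ∣ m * n := hab ▸ dvd_mul_right a b
  have h2 : b ∣ m * n := hab ▸ dvd_mul_left b a
  have h3 : m ∣ a * b := hab.symm ▸ dvd_mul_right m n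
  have h4 : n ∣ a * b := hab.symm ▸ dvd_mul_left n m
  exact ⟨Nat.dvd_antisymm (han.dvd_of_dvd_mul_right h1) (hbm.symm.dvd_of_dvd_mul_right h3),
    Nat.dvd_antisymm (hbm.dvd_of_dvd_mul_left h2) (han.symm.dvd_of_dvd_mul_left h4)⟩

/-- Ideals containing coprime integers are coprime. -/
theorem chebmultb_sup_eq_top {R : Type} [CommRing R] {m n : ℕ} (hmn : m.Coprime n)
    {A B : Ideal R} (hA : (m : R) ∈ A) (hB : (n : R) ∈ B) : A ⊔ B = ⊤ := by
  rw [Ideal.eq_top_iff_one]
  obtain ⟨a, b, hab⟩ := Nat.isCoprime_iff_coprime.mpr hmn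
  have h1 : (1 : R) = (a : R) * (m : R) + (b : R) * (n : R) := by
    have h2 := congrArg (Int.cast : ℤ → R) hab
    push_cast at h2
    exact h2.symm
  rw [h1]
  exact Submodule.add_mem_sup (A.mul_mem_left _ hA) (B.mul_mem_left _ hB)

/-- If `A * B = A' * B'` and `A` is coprime to `B'`, then `A' ≤ A`. -/
theorem chebmultb_le_of_mul_eq {R : Type} [CommRing R] {A A' B B' : Ideal R}
    (hcop : A ⊔ B' = ⊤) (h : A * B = A' * B') : A' ≤ A := by
  calc A' = A' * ⊤ := (Ideal.mul_top A').symm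
    _ = A' * (A ⊔ B') := by rw [hcop]
    _ = A' * A ⊔ A' * B' := Ideal.mul_sup _ _ _
    _ = A' * A ⊔ A * B := by rw [h]
    _ ≤ A := sup_le Ideal.mul_le_right Ideal.mul_le_left

/-- An ideal containing `m * n` with `m`, `n` coprime is the product of its "`m`-part" and its
"`n`-part". -/
theorem chebmultb_factor {R : Type} [CommRing R] {m n : ℕ} (hmn : m.Coprime n) (I : Ideal R)
    (hI : ((m * n : ℕ) : R) ∈ I) :
    (I ⊔ Ideal.span {(m : R)}) * (I ⊔ Ideal.span {(n : R)}) = I := by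
  apply le_antisymm
  · rw [Ideal.sup_mul]
    refine sup_le Ideal.mul_le_left ?_
    rw [Ideal.mul_sup]
    refine sup_le Ideal.mul_le_right ?_
    rw [Ideal.span_singleton_mul_span_singleton, Ideal.span_singleton_le_iff_mem]
    exact_mod_cast hI
  · have hcop : (I ⊔ Ideal.span {(m : R)}) ⊔ (I ⊔ Ideal.span {(n : R)}) = ⊤ :=
      chebmultb_sup_eq_top hmn (Ideal.mem_sup_right (Ideal.mem_span_singleton_self _))
        (Ideal.mem_sup_right (Ideal.mem_span_singleton_self _))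
    rw [Ideal.mul_eq_inf_of_coprime hcop]
    exact le_inf le_sup_left le_sup_left

/-- The norm of an ideal containing the integer `m` divides a power of `m`. -/
theorem chebmultb_absNorm_dvd (M : Type) [Field M] [NumberField M] (m : ℕ) (J : Ideal (𝓞 M))
    (hJ : (m : 𝓞 M) ∈ J) : Ideal.absNorm J ∣ m ^ Module.finrank ℤ (𝓞 M) := by
  rw [← Ideal.absNorm_span_natCast (S := 𝓞 M) m]
  exact Ideal.absNorm_dvd_absNorm_of_le ((Ideal.span_singleton_le_iff_mem _).mpr hJ)

/-- (CHEB-Mult) -/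
theorem chebmultb_main : cheb_MultStatement := by
  intro M _ _ m n hmn
  rw [← Nat.card_prod]
  symm
  refine Nat.card_congr (Equiv.ofBijective
    (fun J : {I : Ideal (𝓞 M) // Ideal.absNorm I = m} ×
        {I : Ideal (𝓞 M) // Ideal.absNorm I = n} =>
      (⟨J.1.1 * J.2.1, by rw [map_mul, J.1.2, J.2.2]⟩ :
        {I : Ideal (𝓞 M) // Ideal.absNorm I = m * n})) ⟨?_, ?_⟩)
  · -- injectivity
    rintro ⟨⟨A, hA⟩, ⟨B, hB⟩⟩ ⟨⟨A', hA'⟩, ⟨B', hB'⟩⟩ h
    have h' : A * B = A' * B' := congrArg Subtype.val h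
    have hmA : (m : 𝓞 M) ∈ A := hA ▸ Ideal.absNorm_mem A
    have hmA' : (m : 𝓞 M) ∈ A' := hA' ▸ Ideal.absNorm_mem A'
    have hnB : (n : 𝓞 M) ∈ B := hB ▸ Ideal.absNorm_mem B
    have hnB' : (n : 𝓞 M) ∈ B' := hB' ▸ Ideal.absNorm_mem B'
    have e1 : A = A' :=
      le_antisymm (chebmultb_le_of_mul_eq (chebmultb_sup_eq_top hmn hmA' hnB) h'.symm)
        (chebmultb_le_of_mul_eq (chebmultb_sup_eq_top hmn hmA hnB') h')
    have h'' : B * A = B' * A' := by rw [mul_comm B A, mul_comm B' A', h']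
    have e2 : B = B' :=
      le_antisymm (chebmultb_le_of_mul_eq (chebmultb_sup_eq_top hmn.symm hnB' hmA) h''.symm)
        (chebmultb_le_of_mul_eq (chebmultb_sup_eq_top hmn.symm hnB hmA') h'')
    subst e1 e2
    rfl
  · -- surjectivity
    rintro ⟨I, hI⟩
    have hmem : ((m * n : ℕ) : 𝓞 M) ∈ I := hI ▸ Ideal.absNorm_mem I
    have hfac := chebmultb_factor hmn I hmem
    have hnorm : Ideal.absNorm (I ⊔ Ideal.span {(m : 𝓞 M)}) *
        Ideal.absNorm (I ⊔ Ideal.span {(n : 𝓞 M)}) = m * n := by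
      rw [← map_mul, hfac, hI]
    obtain ⟨h1, h2⟩ := chebmultb_nat hmn
      (chebmultb_absNorm_dvd M m _ (Ideal.mem_sup_right (Ideal.mem_span_singleton_self _)))
      (chebmultb_absNorm_dvd M n _ (Ideal.mem_sup_right (Ideal.mem_span_singleton_self _))) hnorm
    exact ⟨(⟨I ⊔ Ideal.span {(m : 𝓞 M)}, h1⟩, ⟨I ⊔ Ideal.span {(n : 𝓞 M)}, h2⟩),
      Subtype.ext hfac⟩

end Fermat.Agent.S42
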