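/-
S42, block CHEB, package CHEB-PoleContra (twin A): the abstract pole-order contradiction.

For `s > 1` the Euler products give `∏ i, Z i s ^ c i = ∏ p ∈ B', ∏ i, Zloc i p s ^ c i`
(`B'` the primes in `B`), which is bounded by a constant `M` independent of `s`.  Hence
`∏ i, ((s - 1) * Z i s) ^ c i = (s - 1) ^ (∑ c) * ∏ i, Z i s ^ c i ≤ (s - 1) ^ (∑ c) * M → 0` as
`s → 1⁺`, while the left-hand side tends to `∏ i, r i ^ c i > 0`.
-/
import Mathlib
import Fermat.Agent.S42.ChebInterfaces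

set_option autoImplicit false

namespace Fermat.Agent.S42

open Filter Topology

/-- Integer powers of an infinite product with nonzero value. -/
theorem chebpolea_hasProd_zpow {β : Type} {f : β → ℝ} {a : ℝ} (h : HasProd f a) (ha : a ≠ 0)
    (m : ℤ) : HasProd (fun b => f b ^ m) (a ^ m) := by
  have h1 : Tendsto (fun s : Finset β => (∏ b ∈ s, f b) ^ m)
      (SummationFilter.unconditional β).filter (𝓝 (a ^ m)) :=
    Filter.Tendsto.zpow₀ h m (Or.inl ha)
  refine h1.congr fun s => ?_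
  exact (Finset.prod_zpow _ _ _).symm

/-- An infinite product with factors `≥ 1` has value `≥ 1`. -/
theorem chebpolea_one_le_of_hasProd {β : Type} {f : β → ℝ} {a : ℝ} (h : HasProd f a)
    (hf : ∀ b, 1 ≤ f b) : 1 ≤ a := by
  refine ge_of_tendsto h (Eventually.of_forall fun s => ?_)
  calc (1 : ℝ) = ∏ _b ∈ s, (1 : ℝ) := by rw [Finset.prod_const_one]
    _ ≤ ∏ b ∈ s, f b := Finset.prod_le_prod (fun _ _ => zero_le_one) (fun b _ => hf b)

theorem chebpolea_prod_zpow_const {ι : Type} (t : Finset ι) (c : ι → ℤ) {x : ℝ} (hx : x ≠ 0) :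
    ∏ i ∈ t, x ^ c i = x ^ ∑ i ∈ t, c i := by
  classical
  induction t using Finset.induction_on with
  | empty => simp
  | insert a t ha ih => rw [Finset.prod_insert ha, Finset.sum_insert ha, ih, zpow_add₀ hx]

theorem chebpolea_zpow_le {x Cb : ℝ} (h1 : 1 ≤ x) (h2 : x ≤ Cb) (m : ℤ) :
    x ^ m ≤ Cb ^ m.natAbs := by
  have hx0 : (0 : ℝ) ≤ x := le_trans zero_le_one h1
  have hC1 : 1 ≤ Cb := le_trans h1 h2
  obtain ⟨k, rfl | rfl⟩ := Int.eq_nat_or_neg m
  · rw [zpow_natCast, Int.natAbs_natCast]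
    exact pow_le_pow_left₀ hx0 h2 _
  · rw [zpow_neg, zpow_natCast, Int.natAbs_neg, Int.natAbs_natCast]
    calc (x ^ k)⁻¹ ≤ 1 := inv_le_one_of_one_le₀ (one_le_pow₀ h1)
      _ ≤ Cb ^ k := one_le_pow₀ hC1

/-- (CHEB-PoleContra). -/
theorem chebpolea_main : cheb_PoleContraStatement := by
  intro ι _ c Z Zloc B Cb h1 h2 h3 h4 hc
  classical
  choose r hr0 hr using h3
  -- the key bound, uniform in `s > 1`
  have hbound : ∀ s : ℝ, 1 < s →
      ∏ i, Z i s ^ c i ≤ ∏ _p ∈ (B.subtype Nat.Prime : Finset Nat.Primes), ∏ i, Cb ^ (c i).natAbs := by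
    intro s hs
    have hZ1 : ∀ i, 1 ≤ Z i s := fun i =>
      chebpolea_one_le_of_hasProd (h1 i s hs) (fun p => (h2 i p p.2 s hs).1)
    have hP : HasProd (fun p : Nat.Primes => ∏ i, Zloc i (p : ℕ) s ^ c i) (∏ i, Z i s ^ c i) :=
      hasProd_prod (fun i _ => chebpolea_hasProd_zpow (h1 i s hs)
        (ne_of_gt (lt_of_lt_of_le zero_lt_one (hZ1 i))) (c i))
    have hfin : HasProd (fun p : Nat.Primes => ∏ i, Zloc i (p : ℕ) s ^ c i)
        (∏ p ∈ (B.subtype Nat.Prime : Finset Nat.Primes), ∏ i, Zloc i (p : ℕ) s ^ c i) :=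
      hasProd_prod_of_ne_finset_one (fun p hp =>
        h4 p p.2 (fun hpB => hp (Finset.mem_subtype.mpr hpB)) s hs)
    rw [hP.unique hfin]
    refine Finset.prod_le_prod (fun p _ => Finset.prod_nonneg fun i _ =>
      zpow_nonneg (le_trans zero_le_one (h2 i p p.2 s hs).1) _) (fun p _ => ?_)
    exact Finset.prod_le_prod
      (fun i _ => zpow_nonneg (le_trans zero_le_one (h2 i p p.2 s hs).1) _)
      (fun i _ => chebpolea_zpow_le (h2 i p p.2 s hs).1 (h2 i p p.2 s hs).2 (c i))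
  -- limits as `s → 1⁺`
  have hF : Tendsto (fun s : ℝ => ∏ i, ((s - 1) * Z i s) ^ c i) (𝓝[>] 1)
      (𝓝 (∏ i, r i ^ c i)) :=
    tendsto_finsetProd _ (fun i _ => (hr i).zpow₀ (c i) (Or.inl (hr0 i).ne'))
  have hsub : Tendsto (fun s : ℝ => s - 1) (𝓝[>] 1) (𝓝 0) := by
    have h : Tendsto (fun s : ℝ => s - 1) (𝓝 1) (𝓝 (1 - 1)) :=
      (continuous_id.sub continuous_const).tendsto 1
    rw [sub_self] at h
    exact h.mono_left nhdsWithin_le_nhds
  have hG : Tendsto (fun s : ℝ => (s - 1) ^ (∑ i, c i) *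
      ∏ _p ∈ (B.subtype Nat.Prime : Finset Nat.Primes), ∏ i, Cb ^ (c i).natAbs) (𝓝[>] 1) (𝓝 0) := by
    have h := (hsub.zpow₀ (∑ i, c i) (Or.inr hc.le)).mul_const
      (∏ _p ∈ (B.subtype Nat.Prime : Finset Nat.Primes), ∏ i, Cb ^ (c i).natAbs)
    rwa [zero_zpow _ hc.ne', zero_mul] at h
  have hle : ∀ᶠ s in 𝓝[>] (1 : ℝ), ∏ i, ((s - 1) * Z i s) ^ c i ≤ (s - 1) ^ (∑ i, c i) *
      ∏ _p ∈ (B.subtype Nat.Prime : Finset Nat.Primes), ∏ i, Cb ^ (c i).natAbs := by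
    filter_upwards [self_mem_nhdsWithin] with s hs
    have hs1 : (0 : ℝ) < s - 1 := sub_pos.mpr hs
    have hprod : ∏ i, ((s - 1) * Z i s) ^ c i = (s - 1) ^ (∑ i, c i) * ∏ i, Z i s ^ c i := by
      simp_rw [mul_zpow]
      rw [Finset.prod_mul_distrib, chebpolea_prod_zpow_const _ _ hs1.ne']
    rw [hprod]
    exact mul_le_mul_of_nonneg_left (hbound s hs) (zpow_nonneg hs1.le _)
  have hR : 0 < ∏ i, r i ^ c i := Finset.prod_pos fun i _ => zpow_pos (hr0 i) _
  exact absurd (le_of_tendsto_of_tendsto hF hG hle) (not_le.mpr hR)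

end Fermat.Agent.S42
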