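/-
S42, block CHEB, package CHEB-RamFin (twin A): only finitely many primes ramify in a number field.

If `p ∈ 𝔔 ^ 2` for a prime `𝔔 ∋ p` of `𝓞 F`, then `𝔔` divides the different ideal of `𝓞 F / ℤ`
(`pow_sub_one_dvd_differentIdeal`), which contains the discriminant of `F`
(`NumberField.discr_mem_differentIdeal`); hence `p` divides the (nonzero) discriminant.
-/
import Mathlib
import Fermat.Agent.S42.ChebInterfaces

set_option autoImplicit false

open NumberField

namespace Fermat.Agent.S42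

/-- A prime which is not unramified in `F` divides the discriminant of `F`. -/
theorem chebramfina_dvd_discr (F : Type) [Field F] [NumberField F] (p : ℕ) (hp : p.Prime)
    (h : ¬ cheb_unram F p) : (p : ℤ) ∣ discr F := by
  unfold cheb_unram at h
  push Not at h
  obtain ⟨𝔔, hQ, hpQ, hpQ2⟩ := h
  have hpi : Prime (p : ℤ) := Nat.prime_iff_prime_int.mp hp
  have hmax : (Ideal.span {(p : ℤ)}).IsMaximal :=
    PrincipalIdealRing.isMaximal_of_irreducible hpi.irreducible
  have hdvd : 𝔔 ^ 2 ∣ (Ideal.span {(p : ℤ)}).map (algebraMap ℤ (𝓞 F)) := by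
    rw [Ideal.dvd_iff_le, Ideal.map_span, Set.image_singleton, Ideal.span_singleton_le_iff_mem]
    simpa using hpQ2
  have hne : Ideal.span {(p : ℤ)} ≠ ⊥ := by
    rw [Ne, Ideal.span_singleton_eq_bot]
    exact hpi.ne_zero
  have h1 : 𝔔 ^ (2 - 1) ∣ differentIdeal ℤ (𝓞 F) :=
    pow_sub_one_dvd_differentIdeal ℤ 𝔔 2 hne hdvd
  have h2 : differentIdeal ℤ (𝓞 F) ≤ 𝔔 := by
    rw [← Ideal.dvd_iff_le]
    simpa using h1
  have h3 : ((discr F : ℤ) : 𝓞 F) ∈ 𝔔 := h2 (discr_mem_differentIdeal F (𝓞 F))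
  by_contra hnd
  obtain ⟨a, b, hab⟩ := hpi.coprime_iff_not_dvd.mpr hnd
  have h4 : (1 : 𝓞 F) ∈ 𝔔 := by
    have h5 : ((a * (p : ℤ) + b * discr F : ℤ) : 𝓞 F) ∈ 𝔔 := by
      push_cast
      exact 𝔔.add_mem (𝔔.mul_mem_left _ hpQ) (𝔔.mul_mem_left _ h3)
    rwa [hab, Int.cast_one] at h5
  exact hQ.ne_top ((Ideal.eq_top_iff_one _).mpr h4)

/-- (CHEB-RamFin) Only finitely many primes ramify in a number field. -/
theorem chebramfina_main : cheb_RamFinStatement := by
  intro F _ _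
  refine Set.Finite.subset (discr F).natAbs.primeFactors.finite_toSet ?_
  rintro p ⟨hp, h⟩
  have h1 := chebramfina_dvd_discr F p hp h
  rw [Finset.mem_coe, Nat.mem_primeFactors]
  exact ⟨hp, Int.natCast_dvd.mp h1, Int.natAbs_ne_zero.mpr (discr_ne_zero F)⟩

end Fermat.Agent.S42
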