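/-
S42, block CHEB, work package CHEB-Sub (twin A): the splitting law in the fixed field of a subgroup
at an unramified prime.  Owner: helper156.
-/
import Mathlib
import Fermat.Agent.S42.ChebInterfaces

set_option autoImplicit false

open NumberField
open scoped Pointwise

namespace Fermat.Agent.S42

noncomputable section

/-- `U` is a Galois group of `F` over the fixed field of `U`. -/
theorem chebsuba_gg (F : Type) [Field F] [NumberField F] [IsGalois ℚ F]
    (U : Subgroup (F ≃ₐ[ℚ] F)) : IsGaloisGroup U (IntermediateField.fixedField U) F :=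
  IsGaloisGroup.subgroup (F ≃ₐ[ℚ] F) ℚ F U

/-- `U` is a Galois group of `𝓞 F` over the ring of integers of the fixed field of `U`. -/
theorem chebsuba_ggO (F : Type) [Field F] [NumberField F] [IsGalois ℚ F]
    (U : Subgroup (F ≃ₐ[ℚ] F)) :
    IsGaloisGroup U (𝓞 (IntermediateField.fixedField U)) (𝓞 F) := by
  have := chebsuba_gg F U
  exact IsGaloisGroup.of_isFractionRing U (𝓞 (IntermediateField.fixedField U)) (𝓞 F)
    (IntermediateField.fixedField U) F

theorem chebsuba_scc (F : Type) [Field F] [NumberField F] [IsGalois ℚ F]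
    (U : Subgroup (F ≃ₐ[ℚ] F)) :
    SMulCommClass U (𝓞 (IntermediateField.fixedField U)) (𝓞 F) := by
  have := chebsuba_ggO F U
  infer_instance

theorem chebsuba_galRestrict_apply (F : Type) [Field F] [NumberField F] [IsGalois ℚ F]
    (σ : F ≃ₐ[ℚ] F) (x : 𝓞 F) : galRestrict ℤ ℚ F (𝓞 F) σ x = σ • x := by
  apply RingOfIntegers.ext
  exact algebraMap_galRestrict_apply ℤ σ x

/-- The action on the primes over `p` used in the interface is the pointwise action on ideals. -/
theorem chebsuba_coe_smul (F : Type) [Field F] [NumberField F] [IsGalois ℚ F] (p : ℕ)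
    (σ : F ≃ₐ[ℚ] F) (Q : (Ideal.span {(p : ℤ)}).primesOver (𝓞 F)) :
    (σ • Q).1 = σ • Q.1 := by
  rw [Ideal.coe_smul_primesOver_eq_map_galRestrict, Ideal.pointwise_smul_def]
  apply le_antisymm
  · rw [Ideal.map_le_iff_le_comap]
    intro x hx
    rw [Ideal.mem_comap]
    have := Ideal.mem_map_of_mem (MulSemiringAction.toRingHom (F ≃ₐ[ℚ] F) (𝓞 F) σ) hx
    rw [chebsuba_galRestrict_apply]
    exact this
  · rw [Ideal.map_le_iff_le_comap]
    intro x hx
    rw [Ideal.mem_comap]
    have := Ideal.mem_map_of_mem (galRestrict ℤ ℚ F (𝓞 F) σ) hx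
    rw [chebsuba_galRestrict_apply] at this
    exact this

theorem chebsuba_coe_smul' (F : Type) [Field F] [NumberField F] [IsGalois ℚ F] (p : ℕ)
    (U : Subgroup (F ≃ₐ[ℚ] F)) (σ : U) (Q : (Ideal.span {(p : ℤ)}).primesOver (𝓞 F)) :
    (σ • Q).1 = σ • Q.1 :=
  chebsuba_coe_smul F p σ.1 Q

theorem chebsuba_stab (F : Type) [Field F] [NumberField F] [IsGalois ℚ F] (p : ℕ)
    (Q : (Ideal.span {(p : ℤ)}).primesOver (𝓞 F)) :
    MulAction.stabilizer (F ≃ₐ[ℚ] F) Q = MulAction.stabilizer (F ≃ₐ[ℚ] F) Q.1 := by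
  ext σ
  rw [MulAction.mem_stabilizer_iff, MulAction.mem_stabilizer_iff, Subtype.ext_iff,
    chebsuba_coe_smul]

theorem chebsuba_stab' (F : Type) [Field F] [NumberField F] [IsGalois ℚ F] (p : ℕ)
    (U : Subgroup (F ≃ₐ[ℚ] F)) (Q : (Ideal.span {(p : ℤ)}).primesOver (𝓞 F)) :
    MulAction.stabilizer U Q = MulAction.stabilizer U Q.1 := by
  ext σ
  rw [MulAction.mem_stabilizer_iff, MulAction.mem_stabilizer_iff, Subtype.ext_iff,
    chebsuba_coe_smul']

theorem chebsuba_span_isMaximal (p : ℕ) (hp : p.Prime) : (Ideal.span {(p : ℤ)}).IsMaximal := by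
  have : Fact p.Prime := ⟨hp⟩
  exact Int.ideal_span_isMaximal_of_prime p

/-- The stabiliser in the full Galois group has `e * f` elements. -/
theorem chebsuba_card_stab (F : Type) [Field F] [NumberField F] [IsGalois ℚ F] (p : ℕ)
    (hp : p.Prime) (Q : (Ideal.span {(p : ℤ)}).primesOver (𝓞 F)) :
    Nat.card (MulAction.stabilizer (F ≃ₐ[ℚ] F) Q) =
      Q.1.ramificationIdx ℤ * Q.1.inertiaDeg ℤ := by
  have := chebsuba_span_isMaximal p hp
  have : Q.1.IsPrime := Q.2.1
  have : Q.1.LiesOver (Ideal.span {(p : ℤ)}) := Q.2.2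
  rw [chebsuba_stab, Ideal.card_stabilizer_eq (Ideal.span {(p : ℤ)}) Q.1,
    Ideal.ramificationIdxIn_eq_ramificationIdx (Ideal.span {(p : ℤ)}) Q.1 (F ≃ₐ[ℚ] F),
    Ideal.inertiaDegIn_eq_inertiaDeg (Ideal.span {(p : ℤ)}) Q.1 (F ≃ₐ[ℚ] F)]

/-- The stabiliser in `U` has `e * f` elements (relative to the fixed field). -/
theorem chebsuba_card_stab' (F : Type) [Field F] [NumberField F] [IsGalois ℚ F] (p : ℕ)
    (U : Subgroup (F ≃ₐ[ℚ] F)) (Q : (Ideal.span {(p : ℤ)}).primesOver (𝓞 F)) :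
    Nat.card (MulAction.stabilizer U Q) =
      Q.1.ramificationIdx (𝓞 (IntermediateField.fixedField U)) *
        Q.1.inertiaDeg (𝓞 (IntermediateField.fixedField U)) := by
  have := chebsuba_ggO F U
  have : Q.1.IsPrime := Q.2.1
  have : (Q.1.under (𝓞 (IntermediateField.fixedField U))).IsPrime := inferInstance
  have h1 := Ideal.card_stabilizer_eq (G := U) (Q.1.under (𝓞 (IntermediateField.fixedField U))) Q.1
  have h2 := Ideal.ramificationIdxIn_eq_ramificationIdx
    (Q.1.under (𝓞 (IntermediateField.fixedField U))) Q.1 U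
  have h3 := Ideal.inertiaDegIn_eq_inertiaDeg
    (Q.1.under (𝓞 (IntermediateField.fixedField U))) Q.1 U
  rw [chebsuba_stab', ← h2, ← h3]
  exact h1

/-- At an unramified prime all ramification indices over `ℤ` are `1`. -/
theorem chebsuba_ramIdx_eq_one (F : Type) [Field F] [NumberField F] (p : ℕ) (hp : p.Prime)
    (hu : cheb_unram F p) (Q : Ideal (𝓞 F)) [Q.IsPrime] [Q.LiesOver (Ideal.span {(p : ℤ)})] :
    Q.ramificationIdx ℤ = 1 := by
  have hmap : (Ideal.span {(p : ℤ)}).map (algebraMap ℤ (𝓞 F)) = Ideal.span {(p : 𝓞 F)} := by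
    rw [Ideal.map_span, Set.image_singleton, map_natCast]
  have hne : (Ideal.span {(p : ℤ)}).map (algebraMap ℤ (𝓞 F)) ≠ ⊥ := by
    rw [hmap, Ne, Ideal.span_singleton_eq_bot]
    exact_mod_cast hp.ne_zero
  have hpQ : (p : 𝓞 F) ∈ Q := by
    have h : (p : ℤ) ∈ Ideal.span {(p : ℤ)} := Ideal.mem_span_singleton_self _
    rw [Ideal.mem_of_liesOver Q (Ideal.span {(p : ℤ)})] at h
    simpa using h
  rw [Ideal.IsDedekindDomain.ramificationIdx_eq_multiplicity (Ideal.span {(p : ℤ)}) Q hne, hmap]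
  apply multiplicity_eq_of_dvd_of_not_dvd
  · rw [pow_one, Ideal.dvd_iff_le, Ideal.span_singleton_le_iff_mem]
    exact hpQ
  · rw [Ideal.dvd_iff_le, Ideal.span_singleton_le_iff_mem]
    exact hu Q inferInstance hpQ

/-- The exponent `cheb_kexp` is the residue degree of the prime of the fixed field below. -/
theorem chebsuba_kexp (F : Type) [Field F] [NumberField F] [IsGalois ℚ F] (p : ℕ)
    (hp : p.Prime) (hu : cheb_unram F p) (U : Subgroup (F ≃ₐ[ℚ] F))
    (Q : (Ideal.span {(p : ℤ)}).primesOver (𝓞 F)) :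
    cheb_kexp U Q = (Q.1.under (𝓞 (IntermediateField.fixedField U))).inertiaDeg ℤ := by
  have : Q.1.IsPrime := Q.2.1
  have : Q.1.LiesOver (Ideal.span {(p : ℤ)}) := Q.2.2
  have he := chebsuba_ramIdx_eq_one F p hp hu Q.1
  have ht := Ideal.ramificationIdx_tower (R := ℤ)
    (Q.1.under (𝓞 (IntermediateField.fixedField U))) Q.1
  have hf := Ideal.inertiaDeg_tower (R := ℤ)
    (Q.1.under (𝓞 (IntermediateField.fixedField U))) Q.1
  have he' : Q.1.ramificationIdx (𝓞 (IntermediateField.fixedField U)) = 1 := by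
    rw [he] at ht
    exact Nat.eq_one_of_mul_eq_one_left ht.symm
  have hpos : 0 < Q.1.inertiaDeg (𝓞 (IntermediateField.fixedField U)) :=
    Ideal.inertiaDeg_pos _ _
  unfold cheb_kexp
  rw [chebsuba_card_stab F p hp Q, chebsuba_card_stab' F p U Q, he, he', one_mul, one_mul, hf]
  exact Nat.mul_div_cancel _ hpos

/-- The map from `U`-orbits of primes of `F` over `p` to primes of the fixed field. -/
def chebsuba_Phi (F : Type) [Field F] [NumberField F] [IsGalois ℚ F] (p : ℕ)
    (U : Subgroup (F ≃ₐ[ℚ] F))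
    (O : MulAction.orbitRel.Quotient U ((Ideal.span {(p : ℤ)}).primesOver (𝓞 F))) :
    Ideal (𝓞 (IntermediateField.fixedField U)) :=
  (O.out).1.under (𝓞 (IntermediateField.fixedField U))

theorem chebsuba_Phi_injective (F : Type) [Field F] [NumberField F] [IsGalois ℚ F] (p : ℕ)
    (U : Subgroup (F ≃ₐ[ℚ] F)) : Function.Injective (chebsuba_Phi F p U) := by
  intro O O' h
  have := chebsuba_ggO F U
  have : (O.out).1.IsPrime := O.out.2.1
  have : (O'.out).1.IsPrime := O'.out.2.1
  obtain ⟨g, hg⟩ := Algebra.IsInvariant.exists_smul_of_under_eq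
    (𝓞 (IntermediateField.fixedField U)) (𝓞 F) U (O.out).1 (O'.out).1 h
  have h2 : g • O.out = O'.out := Subtype.ext (by rw [chebsuba_coe_smul']; exact hg.symm)
  rw [← Quotient.out_eq' O, ← Quotient.out_eq' O']
  symm
  apply Quotient.sound'
  exact (MulAction.orbitRel_apply).2 (MulAction.mem_orbit_iff.2 ⟨g, h2⟩)

theorem chebsuba_range (F : Type) [Field F] [NumberField F] [IsGalois ℚ F] (p : ℕ)
    (hp : p.Prime) (U : Subgroup (F ≃ₐ[ℚ] F)) :
    Set.range (chebsuba_Phi F p U) = cheb_primesAbove (IntermediateField.fixedField U) p := by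
  have := chebsuba_ggO F U
  have hmax := chebsuba_span_isMaximal p hp
  ext 𝔓
  constructor
  · rintro ⟨O, rfl⟩
    have : (O.out).1.IsPrime := O.out.2.1
    have : (O.out).1.LiesOver (Ideal.span {(p : ℤ)}) := O.out.2.2
    refine ⟨Ideal.IsPrime.under _ _, ?_⟩
    have h : (p : ℤ) ∈ Ideal.span {(p : ℤ)} := Ideal.mem_span_singleton_self _
    rw [Ideal.mem_of_liesOver (O.out).1 (Ideal.span {(p : ℤ)})] at h
    unfold chebsuba_Phi
    rw [Ideal.under_def, Ideal.mem_comap]
    simpa using h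
  · rintro ⟨h𝔓, hp𝔓⟩
    obtain ⟨⟨Q, hQ, hQ'⟩⟩ := (inferInstance : Nonempty (Ideal.primesOver 𝔓 (𝓞 F)))
    have hQp : Q.LiesOver (Ideal.span {(p : ℤ)}) := by
      constructor
      refine Ideal.IsMaximal.eq_of_le hmax (Ideal.IsPrime.under ℤ Q).ne_top ?_
      rw [Ideal.span_singleton_le_iff_mem, Ideal.under_def, Ideal.mem_comap]
      have h1 : algebraMap (𝓞 (IntermediateField.fixedField U)) (𝓞 F) (p : 𝓞 _) ∈ Q := by
        rw [← Ideal.mem_comap, ← Ideal.under_def, ← hQ'.over]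
        exact hp𝔓
      simpa using h1
    refine ⟨Quotient.mk'' (⟨Q, hQ, hQp⟩ : (Ideal.span {(p : ℤ)}).primesOver (𝓞 F)), ?_⟩
    have hrel := Quotient.mk_out'
      (s₁ := MulAction.orbitRel U ((Ideal.span {(p : ℤ)}).primesOver (𝓞 F)))
      (⟨Q, hQ, hQp⟩ : (Ideal.span {(p : ℤ)}).primesOver (𝓞 F))
    rw [MulAction.orbitRel_apply, MulAction.mem_orbit_iff] at hrel
    obtain ⟨g, hg⟩ := hrel
    unfold chebsuba_Phi
    rw [← hg, chebsuba_coe_smul']
    have h3 := Ideal.under_smul (𝓞 (IntermediateField.fixedField U)) Q g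
    exact h3.trans hQ'.over.symm

theorem chebsuba_main : cheb_SubStatement := by
  intro F _ _ _ p hp hu U s
  have hmax := chebsuba_span_isMaximal p hp
  unfold cheb_zloc
  rw [← chebsuba_range F p hp U, finprod_mem_range (chebsuba_Phi_injective F p U)]
  apply finprod_congr
  intro O
  rw [chebsuba_kexp F p hp hu U O.out]
  have : (O.out).1.IsPrime := O.out.2.1
  have : (O.out).1.LiesOver (Ideal.span {(p : ℤ)}) := O.out.2.2
  have hP : ((O.out).1.under (𝓞 (IntermediateField.fixedField U))).LiesOver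
      (Ideal.span {(p : ℤ)}) := inferInstance
  have hn := Ideal.pow_inertiaDeg p ((O.out).1.under (𝓞 (IntermediateField.fixedField U)))
  unfold chebsuba_Phi
  rw [← hn, Nat.cast_pow, neg_mul_comm, Real.rpow_natCast_mul (Nat.cast_nonneg p)]

end

end Fermat.Agent.S42
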