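/-
S42, block CHEB, package CHEB-ZlocBound (twin B): uniform bounds `1 ≤ cheb_zloc M p s ≤ 2 ^ [M : ℚ]`
for the local Euler factors of a number field `M` at all primes `p` and all real `s ≥ 1`.
-/
import Mathlib
import Fermat.Agent.S42.ChebInterfaces

set_option autoImplicit false

open NumberField

namespace Fermat.Agent.S42

noncomputable section

/-- `span {p}` is a maximal ideal of `ℤ` for a prime number `p`. -/
theorem chebzlbb_isMaximal (p : ℕ) (hp : p.Prime) : (Ideal.span {(p : ℤ)}).IsMaximal :=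
  PrincipalIdealRing.isMaximal_of_irreducible (Nat.prime_iff_prime_int.mp hp).irreducible

/-- The primes of `𝓞 M` containing `p` are exactly the primes lying over `span {p}`. -/
theorem chebzlbb_primesAbove_eq (M : Type) [Field M] [NumberField M] (p : ℕ) (hp : p.Prime) :
    cheb_primesAbove M p = (Ideal.span {(p : ℤ)}).primesOver (𝓞 M) := by
  have hmax := chebzlbb_isMaximal p hp
  ext 𝔓
  constructor
  · rintro ⟨h1, h2⟩
    refine ⟨h1, ⟨?_⟩⟩
    refine hmax.eq_of_le ?_ ?_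
    · exact Ideal.comap_ne_top _ h1.ne_top
    · rw [Ideal.span_singleton_le_iff_mem, Ideal.under, Ideal.mem_comap]
      simpa using h2
  · rintro ⟨h1, ⟨h2⟩⟩
    refine ⟨h1, ?_⟩
    have h3 : (p : ℤ) ∈ 𝔓.under ℤ := h2 ▸ Ideal.subset_span rfl
    rw [Ideal.under, Ideal.mem_comap] at h3
    simpa using h3

/-- There are at most `[M : ℚ]` primes of `𝓞 M` above `p`. -/
theorem chebzlbb_card (M : Type) [Field M] [NumberField M] (p : ℕ) (hp : p.Prime) :
    (cheb_primesAbove M p).Finite ∧ (cheb_primesAbove M p).ncard ≤ Module.finrank ℚ M := by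
  rw [chebzlbb_primesAbove_eq M p hp]
  have hmax : (Ideal.span {(p : ℤ)}).IsMaximal := chebzlbb_isMaximal p hp
  have hprime : (Ideal.span {(p : ℤ)}).IsPrime := hmax.isPrime
  have hfin : ((Ideal.span {(p : ℤ)}).primesOver (𝓞 M)).Finite :=
    IsDedekindDomain.primesOver_finite _ _
  refine ⟨hfin, ?_⟩
  let _ : Fintype ((Ideal.span {(p : ℤ)}).primesOver (𝓞 M)) := hfin.fintype
  have hsum := Ideal.sum_ramification_inertia_eq_finrank (Ideal.span {(p : ℤ)}) (𝓞 M)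
  rw [RingOfIntegers.rank] at hsum
  rw [← hsum, ← Nat.card_coe_set_eq, Nat.card_eq_fintype_card, Fintype.card_eq_sum_ones]
  refine Finset.sum_le_sum fun q _ => ?_
  have : q.1.IsPrime := q.2.1
  exact Nat.succ_le_of_lt (Nat.mul_pos (Ideal.ramificationIdx_pos q.1 ℤ) (Ideal.inertiaDeg_pos q.1 ℤ))

/-- Each local factor lies in `[1, 2]`. -/
theorem chebzlbb_factor (M : Type) [Field M] [NumberField M] (p : ℕ) (hp : p.Prime) (s : ℝ)
    (hs : 1 ≤ s) (𝔓 : Ideal (𝓞 M)) (h𝔓 : 𝔓 ∈ cheb_primesAbove M p) :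
    1 ≤ (1 - (Ideal.absNorm 𝔓 : ℝ) ^ (-s))⁻¹ ∧ (1 - (Ideal.absNorm 𝔓 : ℝ) ^ (-s))⁻¹ ≤ 2 := by
  obtain ⟨hprime, hmem⟩ := h𝔓
  have hne_bot : 𝔓 ≠ ⊥ := by
    rintro rfl
    have h0 : (p : 𝓞 M) = 0 := by simpa using hmem
    exact hp.ne_zero (by exact_mod_cast h0)
  have hne_top : 𝔓 ≠ ⊤ := hprime.ne_top
  have h0 : Ideal.absNorm 𝔓 ≠ 0 := by rwa [Ne, Ideal.absNorm_eq_zero_iff]
  have h1 : Ideal.absNorm 𝔓 ≠ 1 := by rwa [Ne, Ideal.absNorm_eq_one_iff]
  have h2 : (2 : ℝ) ≤ (Ideal.absNorm 𝔓 : ℝ) := by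
    have h2' : 2 ≤ Ideal.absNorm 𝔓 := by omega
    exact_mod_cast h2'
  have hx_pos : 0 < (Ideal.absNorm 𝔓 : ℝ) ^ (-s) := Real.rpow_pos_of_pos (by linarith) _
  have hx_le : (Ideal.absNorm 𝔓 : ℝ) ^ (-s) ≤ 1 / 2 := by
    calc (Ideal.absNorm 𝔓 : ℝ) ^ (-s) ≤ (2 : ℝ) ^ (-s) :=
          Real.rpow_le_rpow_of_nonpos (by norm_num) h2 (by linarith)
      _ ≤ (2 : ℝ) ^ (-1 : ℝ) := Real.rpow_le_rpow_of_exponent_le (by norm_num) (by linarith)
      _ = 1 / 2 := by rw [Real.rpow_neg_one]; norm_num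
  constructor
  · rw [one_le_inv₀ (by linarith)]
    linarith
  · rw [inv_le_comm₀ (by linarith) (by norm_num)]
    linarith

/-- (CHEB-ZlocBound) Uniform bounds for the local factors. -/
theorem chebzlbb_main : cheb_ZlocBoundStatement := by
  intro M _ _
  refine ⟨2 ^ Module.finrank ℚ M, fun p hp s hs => ?_⟩
  obtain ⟨hfin, hcard⟩ := chebzlbb_card M p hp
  unfold cheb_zloc
  rw [finprod_mem_eq_finite_toFinset_prod _ hfin]
  constructor
  · calc (1 : ℝ) = ∏ _𝔓 ∈ hfin.toFinset, (1 : ℝ) := by rw [Finset.prod_const_one]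
      _ ≤ _ := Finset.prod_le_prod (fun _ _ => zero_le_one) (fun 𝔓 h𝔓 =>
          (chebzlbb_factor M p hp s hs 𝔓 (hfin.mem_toFinset.mp h𝔓)).1)
  · calc ∏ 𝔓 ∈ hfin.toFinset, (1 - (Ideal.absNorm 𝔓 : ℝ) ^ (-s))⁻¹
          ≤ ∏ _𝔓 ∈ hfin.toFinset, (2 : ℝ) :=
          Finset.prod_le_prod (fun 𝔓 h𝔓 => le_trans zero_le_one
            (chebzlbb_factor M p hp s hs 𝔓 (hfin.mem_toFinset.mp h𝔓)).1) (fun 𝔓 h𝔓 =>
            (chebzlbb_factor M p hp s hs 𝔓 (hfin.mem_toFinset.mp h𝔓)).2)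
      _ = 2 ^ hfin.toFinset.card := by rw [Finset.prod_const]
      _ ≤ 2 ^ Module.finrank ℚ M := by
          refine pow_le_pow_right₀ (by norm_num) ?_
          rw [← Set.ncard_eq_toFinset_card _ hfin]
          exact hcard

end

end Fermat.Agent.S42
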