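/-
S42, block CHEB: the Frobenius-power cover `frobenius_power_cover` (signature fixed by the lead),
assembled from the work packages (see `ChebInterfaces.lean` for the plan).
-/
import Mathlib
import Fermat.Prelude.Def_EllipticCurve_FrobeniusTrace
import Fermat.Prelude.Def_FLTPrelim_Ramification
import Fermat.Agent.S42.ChebInterfaces
import Fermat.Agent.S42.ChebLiftB
import Fermat.Agent.S42.ChebDecB
import Fermat.Agent.S42.ChebRamFinA
import Fermat.Agent.S42.ChebMultB
import Fermat.Agent.S42.ChebLocalA
import Fermat.Agent.S42.ChebEulerAsmB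
import Fermat.Agent.S42.ChebZlocBoundB
import Fermat.Agent.S42.ChebPoleContraA
import Fermat.Agent.S42.ChebArithA
import Fermat.Agent.S42.ChebSubA
import Fermat.Agent.S42.ChebCombA
import Fermat.Agent.S42.ChebFixAsmC

set_option autoImplicit false

namespace Fermat.Agent.S42

/-- The number-field statement: some prime above an unramified `ℓ ∉ S0` is fixed by `h0`. -/
theorem cheb_fix : cheb_FixStatement :=
  chebfixc_main (chebeulerb_main chebmultb_main cheblocala_main) chebzlbb_main chebpolea_main
    chebaritha_main chebramfina_main chebsuba_main chebcomba_main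

/-- `cheb_MainStatement`. -/
theorem cheb_main : cheb_MainStatement :=
  chebliftb_main cheb_fix chebdecb_main

/-- Frobenius-power cover: for a finite Galois `F/ℚ` inside `AlgebraicClosure ℚ`, a finite set `S0` of
primes and `h`, some power of a Frobenius element at a prime `ℓ ∉ S0` agrees with `h` on `F`. -/
theorem frobenius_power_cover (F : IntermediateField ℚ (AlgebraicClosure ℚ))
    (hF : FiniteDimensional ℚ F) (hG : IsGalois ℚ F) (S0 : Finset ℕ)
    (h : AlgebraicClosure ℚ ≃ₐ[ℚ] AlgebraicClosure ℚ) :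
    ∃ ℓ : ℕ, ℓ.Prime ∧ ℓ ∉ S0 ∧ ∃ A : ValuationSubring (AlgebraicClosure ℚ), A.LiesOverPrime ℓ ∧
      ∃ τ : AlgebraicClosure ℚ ≃ₐ[ℚ] AlgebraicClosure ℚ, A.IsFrobeniusAt τ ℓ ∧
        ∃ n : ℕ, h⁻¹ * τ ^ n ∈ F.fixingSubgroup :=
  cheb_main F hF hG S0 h

end Fermat.Agent.S42
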