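import Mathlib
import Fermat.Prelude.Def_FreyPackage_EigenformResidualAttachment
import Fermat.Agent.Lib.FrobeniusExists
import Fermat.Agent.S42.Alg
import Fermat.Agent.S42.Cheb

/-!
S42, abstract final assembly (written by the lead).

`fa_attach_core` produces the existential of `FreyPackage.EigenformResidualAttachmentAt` for one
eigenform and one maximal ideal from abstract inputs: a `ZMod p`-module `X` with a Galois action
(`J_0(M)[p]`), commuting operators `T ℓ`, the Frobenius quadratic relation, open stabilisers, an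
eigenvector in `K ⊗ X`, a cyclotomic character, a finite field trivialising the Frey
representation, the algebra lemma `alg_two_dim` and the Frobenius-power cover
`frobenius_power_cover`.
-/

set_option autoImplicit false

open WeierstrassCurve WeierstrassCurve.Affine.Point
open scoped TensorProduct

namespace Fermat.Agent.S42

attribute [local instance] FreyPackage.instDecEqQbarCongruenceRecovery

section Generic

variable {k K G X V : Type} [CommRing k] [Field K] [Algebra k K] [Group G]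
  [AddCommGroup X] [Module k X] [AddCommGroup V] [Module K V]

/-- Base change of a `k`-linear action to `K`. -/
noncomputable def faBcRep (ρX : G →* Module.End k X) : Representation K G (K ⊗[k] X) where
  toFun σ := (ρX σ).baseChange K
  map_one' := by rw [map_one]; exact LinearMap.baseChange_one _ _
  map_mul' σ τ := by rw [map_mul]; exact LinearMap.baseChange_mul _ _

theorem faBcRep_apply (ρX : G →* Module.End k X) (σ : G) :
    faBcRep (K := K) ρX σ = (ρX σ).baseChange K := rfl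

/-- The span of the orbit of a vector. -/
def faOrb (ρ : Representation K G V) (w : V) : Submodule K V :=
  Submodule.span K (Set.range fun τ : G => ρ τ w)

theorem fa_self_mem_orb (ρ : Representation K G V) (w : V) : w ∈ faOrb ρ w :=
  Submodule.subset_span ⟨1, by simp⟩

theorem fa_orb_stable (ρ : Representation K G V) (w : V) (σ : G) {u : V}
    (hu : u ∈ faOrb ρ w) : ρ σ u ∈ faOrb ρ w := by
  induction hu using Submodule.span_induction with
  | mem x hx =>
    obtain ⟨τ, rfl⟩ := hx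
    exact Submodule.subset_span ⟨σ * τ, by simp [map_mul]⟩
  | zero => simp
  | add x y _ _ hx hy => rw [map_add]; exact add_mem hx hy
  | smul c x _ hx => rw [map_smul]; exact Submodule.smul_mem _ _ hx

/-- The representation on the span of an orbit. -/
noncomputable def faOrbRep (ρ : Representation K G V) (w : V) :
    Representation K G (faOrb ρ w) where
  toFun σ := (ρ σ).restrict (fun u hu => fa_orb_stable ρ w σ hu)
  map_one' := by
    apply LinearMap.ext; intro u; apply Subtype.ext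
    simp
  map_mul' σ τ := by
    apply LinearMap.ext; intro u; apply Subtype.ext
    simp [map_mul]

theorem faOrbRep_coe (ρ : Representation K G V) (w : V) (σ : G) (u : faOrb ρ w) :
    ((faOrbRep ρ w σ u : faOrb ρ w) : V) = ρ σ (u : V) := rfl

/-- A linear condition satisfied by all translates of `w` holds on the span of the orbit. -/
theorem fa_orb_induction (ρ : Representation K G V) (w : V) (f g : V →ₗ[K] V)
    (h : ∀ τ : G, f (ρ τ w) = g (ρ τ w)) {u : V} (hu : u ∈ faOrb ρ w) : f u = g u := by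
  induction hu using Submodule.span_induction with
  | mem x hx => obtain ⟨τ, rfl⟩ := hx; exact h τ
  | zero => simp
  | add x y _ _ hx hy => rw [map_add, map_add, hx, hy]
  | smul c x _ hx => rw [map_smul, map_smul, hx]

theorem fa_orbit_finite (ρ : Representation K G V) (w : V) (H : Subgroup G) [Finite (G ⧸ H)]
    (hH : ∀ h ∈ H, ρ h w = w) : (Set.range fun τ : G => ρ τ w).Finite := by
  have hsub : (Set.range fun τ : G => ρ τ w) ⊆ Set.range (fun q : G ⧸ H => ρ q.out w) := by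
    rintro _ ⟨τ, rfl⟩
    refine ⟨(τ : G ⧸ H), ?_⟩
    have h1 : τ⁻¹ * ((τ : G ⧸ H).out) ∈ H :=
      QuotientGroup.eq.mp (QuotientGroup.out_eq' (τ : G ⧸ H)).symm
    have h2 : ρ ((τ : G ⧸ H).out) w = ρ τ (ρ (τ⁻¹ * ((τ : G ⧸ H).out)) w) := by
      rw [← Module.End.mul_apply, ← map_mul, mul_inv_cancel_left]
    show ρ ((τ : G ⧸ H).out) w = ρ τ w
    rw [h2, hH _ h1]
  exact (Set.finite_range _).subset hsub

/-- The algebra lemma applied to the span of the orbit of a vector fixed by a normal subgroup of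
finite index. -/
theorem fa_alg_on_orbit {ι : Type} [IsAlgClosed K] (ρ : Representation K G V) (w : V) (hw : w ≠ 0)
    (χ : G →* Kˣ) (H : Subgroup G) [hHn : H.Normal] [Finite (G ⧸ H)]
    (hHw : ∀ h ∈ H, ρ h w = w) (hχ : ∀ h ∈ H, χ h = 1)
    (g : ι → G) (a : ι → K)
    (hquad : ∀ i, ∀ u ∈ faOrb ρ w,
      ρ (g i) (ρ (g i) u) - a i • ρ (g i) u + ((χ (g i) : Kˣ) : K) • u = 0)
    (hcov : ∀ h : G, ∃ i, ∃ n : ℕ, h⁻¹ * g i ^ n ∈ H) :
    ∃ (V' : Type) (_ : AddCommGroup V') (_ : Module K V') (ρ' : Representation K G V'),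
      Module.finrank K V' = 2 ∧ (∀ h ∈ H, ρ' h = 1) ∧
      ∀ i, LinearMap.trace K V' (ρ' (g i)) = a i ∧
        LinearMap.det (ρ' (g i)) = ((χ (g i) : Kˣ) : K) := by
  have hHorb : ∀ h ∈ H, ∀ u ∈ faOrb ρ w, ρ h u = u := by
    intro h hh u hu
    refine fa_orb_induction ρ w (ρ h) LinearMap.id ?_ hu
    intro τ
    have hconj : τ⁻¹ * h * τ ∈ H := by
      have := hHn.conj_mem h hh τ⁻¹
      simpa using this
    have h2 : ρ h (ρ τ w) = ρ τ (ρ (τ⁻¹ * h * τ) w) := by
      rw [← Module.End.mul_apply, ← Module.End.mul_apply, ← map_mul, ← map_mul]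
      congr 2
      group
    rw [h2, hHw _ hconj]
    rfl
  haveI hW1fin : FiniteDimensional K (faOrb ρ w) :=
    FiniteDimensional.span_of_finite K (fa_orbit_finite ρ w H hHw)
  haveI hW1nt : Nontrivial (faOrb ρ w) :=
    ⟨⟨⟨w, fa_self_mem_orb ρ w⟩, 0, fun h => hw (congrArg Subtype.val h)⟩⟩
  have hH1 : ∀ h ∈ H, faOrbRep ρ w h = 1 := by
    intro h hh
    apply LinearMap.ext; intro u; apply Subtype.ext
    exact hHorb h hh u.1 u.2
  have hq : ∀ i, faOrbRep ρ w (g i) * faOrbRep ρ w (g i) - a i • faOrbRep ρ w (g i)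
      + ((χ (g i) : Kˣ) : K) • (1 : faOrb ρ w →ₗ[K] faOrb ρ w) = 0 := by
    intro i
    apply LinearMap.ext; intro u; apply Subtype.ext
    simp only [LinearMap.add_apply, LinearMap.sub_apply, Module.End.mul_apply,
      LinearMap.smul_apply, Module.End.one_apply, LinearMap.zero_apply, Submodule.coe_add,
      Submodule.coe_sub, Submodule.coe_smul, faOrbRep_coe, ZeroMemClass.coe_zero]
    exact hquad i u.1 u.2
  exact alg_two_dim (faOrbRep ρ w) χ H hH1 hχ g a hq hcov

end Generic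

section Main

local notation "Qb" => AlgebraicClosure ℚ
local notation "GQ" => (AlgebraicClosure ℚ ≃ₐ[ℚ] AlgebraicClosure ℚ)
local notation "Zb" => (integralClosure ℤ ℂ)

theorem fa_isGalois_Qb : IsGalois ℚ Qb := by
  haveI := Fermat.Agent.Lib.FrobeniusExists.isAlgClosure_rat
  haveI : Algebra.IsAlgebraic ℚ Qb := IsAlgClosure.isAlgebraic
  haveI : Normal ℚ Qb := IsAlgClosure.normal ℚ Qb
  exact ⟨⟩

theorem fa_exists_field_fixing {k K X : Type} [CommRing k] [Field K] [Algebra k K]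
    [AddCommGroup X] [Module k X] (ρX : GQ →* Module.End k X)
    (hopen : ∀ x : X, ∃ F : IntermediateField ℚ Qb, FiniteDimensional ℚ F ∧
      ∀ σ ∈ F.fixingSubgroup, ρX σ x = x)
    (w : K ⊗[k] X) :
    ∃ F : IntermediateField ℚ Qb, FiniteDimensional ℚ F ∧
      ∀ σ ∈ F.fixingSubgroup, faBcRep (K := K) ρX σ w = w := by
  induction w using TensorProduct.induction_on with
  | zero => exact ⟨⊥, inferInstance, fun σ _ => map_zero _⟩
  | tmul c x =>
    obtain ⟨F, hF, h⟩ := hopen x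
    exact ⟨F, hF, fun σ hσ => by rw [faBcRep_apply, LinearMap.baseChange_tmul, h σ hσ]⟩
  | add u v hu hv =>
    obtain ⟨F, hF, h⟩ := hu
    obtain ⟨F', hF', h'⟩ := hv
    haveI := hF; haveI := hF'
    refine ⟨F ⊔ F', IntermediateField.finiteDimensional_sup F F', fun σ hσ => ?_⟩
    rw [IntermediateField.fixingSubgroup_sup] at hσ
    rw [map_add, h σ hσ.1, h' σ hσ.2]

/-- Packaging of a finite Galois intermediate field as the number field of the statement. -/
theorem fa_package (F₁ : IntermediateField ℚ Qb) (hfd : FiniteDimensional ℚ F₁)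
    (hgal : IsGalois ℚ F₁) (S : Subgroup GQ) (hS : F₁.fixingSubgroup ≤ S) :
    ∃ (F : Type) (_ : Field F) (_ : NumberField F) (_ : IsGalois ℚ F)
      (_ : Algebra F (AlgebraicClosure ℚ)) (_ : IsScalarTower ℚ F (AlgebraicClosure ℚ)),
      (AlgEquiv.restrictNormalHom (F := ℚ) (K₁ := AlgebraicClosure ℚ) F).ker ≤ S := by
  refine ⟨↥F₁, inferInstance, ?nf, ?gal, inferInstance, ?tower, ?rest⟩
  case nf =>
    have e : (IntermediateField.module' F₁ : Module ℚ F₁) = DivisionRing.toRatAlgebra.toModule :=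
      Subsingleton.elim _ _
    have hfd' : @FiniteDimensional ℚ F₁ _ _ (DivisionRing.toRatAlgebra.toModule) := e ▸ hfd
    exact @NumberField.mk _ _ inferInstance hfd'
  case gal => exact hgal
  case tower => infer_instance
  case rest =>
    intro σ hσ
    apply hS
    rw [IntermediateField.mem_fixingSubgroup_iff]
    intro x hx
    have h1 := MonoidHom.mem_ker.mp hσ
    have h2 := AlgEquiv.restrictNormal_commutes σ F₁ ⟨x, hx⟩
    have h3 : (AlgEquiv.restrictNormal σ F₁) ⟨x, hx⟩ = ⟨x, hx⟩ := by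
      have := congrArg (fun f : F₁ ≃ₐ[ℚ] F₁ => f ⟨x, hx⟩) h1
      exact this
    rw [h3] at h2
    exact h2.symm

theorem fa_isGalois_transport (F : IntermediateField ℚ Qb)
    (h : @IsGalois ℚ _ F _ (IntermediateField.algebra' F)) : IsGalois ℚ F := by
  have e : (IntermediateField.algebra' F : Algebra ℚ F) = DivisionRing.toRatAlgebra :=
    Subsingleton.elim _ _
  rw [← e]
  exact h

theorem fa_finite_quot (L : IntermediateField ℚ Qb) (hL : FiniteDimensional ℚ L) :
    Finite (GQ ⧸ L.fixingSubgroup) := by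
  haveI := fa_isGalois_Qb
  have hidx := IntermediateField.finrank_eq_fixingSubgroup_index Qb L
  have hpos : 0 < Module.finrank ℚ L := Module.finrank_pos
  haveI : L.fixingSubgroup.FiniteIndex := ⟨by omega⟩
  infer_instance

theorem fa_exists_galois (F0 : IntermediateField ℚ Qb) (h0 : FiniteDimensional ℚ F0) :
    ∃ F1 : IntermediateField ℚ Qb, F0 ≤ F1 ∧ FiniteDimensional ℚ F1 ∧ IsGalois ℚ F1 ∧
      F1.fixingSubgroup.Normal ∧ Finite (GQ ⧸ F1.fixingSubgroup) := by
  haveI := fa_isGalois_Qb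
  haveI : Normal ℚ Qb := IsGalois.to_normal
  have hfd : FiniteDimensional ℚ (IntermediateField.normalClosure ℚ F0 Qb) := inferInstance
  have hg' : @IsGalois ℚ _ (IntermediateField.normalClosure ℚ F0 Qb) _
      (IntermediateField.algebra' (IntermediateField.normalClosure ℚ F0 Qb)) := by
    letI : Algebra ℚ (IntermediateField.normalClosure ℚ F0 Qb) := IntermediateField.algebra' _
    haveI : Normal ℚ (IntermediateField.normalClosure ℚ F0 Qb) := normalClosure.normal ℚ F0 Qb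
    exact ⟨⟩
  refine ⟨IntermediateField.normalClosure ℚ F0 Qb, IntermediateField.le_normalClosure F0, hfd,
    fa_isGalois_transport _ hg', ?_, fa_finite_quot _ hfd⟩
  letI : Algebra ℚ (IntermediateField.normalClosure ℚ F0 Qb) := IntermediateField.algebra' _
  haveI := hg'
  infer_instance

/-- Abstract final assembly for S42. -/
theorem fa_attach_core (P : FreyPackage) (M : ℕ) (hM : 0 < M)
    (K : Type) [Field K] [IsAlgClosed K] [Algebra (ZMod P.p) K]
    (aK : ℕ → K)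
    (X : Type) [AddCommGroup X] [Module (ZMod P.p) X]
    (ρX : GQ →* Module.End (ZMod P.p) X)
    (T : ℕ → Module.End (ZMod P.p) X)
    (hGH : ∀ ℓ : ℕ, ℓ.Prime → ¬ ℓ ∣ M → ℓ ≠ P.p → ∀ σ : GQ, T ℓ * ρX σ = ρX σ * T ℓ)
    (hopen : ∀ x : X, ∃ F : IntermediateField ℚ Qb, FiniteDimensional ℚ F ∧
      ∀ σ ∈ F.fixingSubgroup, ρX σ x = x)
    (hES : ∀ ℓ : ℕ, ℓ.Prime → ¬ ℓ ∣ M → ℓ ≠ P.p →
      ∀ A : ValuationSubring Qb, A.LiesOverPrime ℓ → ∀ τ : GQ, A.IsFrobeniusAt τ ℓ →
        ρX τ * ρX τ - T ℓ * ρX τ + (ℓ : ZMod P.p) • (1 : Module.End (ZMod P.p) X) = 0)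
    (w : K ⊗[ZMod P.p] X) (hw : w ≠ 0)
    (hwT : ∀ ℓ : ℕ, ℓ.Prime → ¬ ℓ ∣ M → ℓ ≠ P.p → (T ℓ).baseChange K w = aK ℓ • w)
    (χ : GQ →* Kˣ)
    (Fχ : IntermediateField ℚ Qb) (hFχ : FiniteDimensional ℚ Fχ)
    (hχker : ∀ σ ∈ Fχ.fixingSubgroup, χ σ = 1)
    (hχ : ∀ ℓ : ℕ, ℓ.Prime → ¬ ℓ ∣ M → ℓ ≠ P.p → ∀ A : ValuationSubring Qb,
      A.LiesOverPrime ℓ → ∀ τ : GQ, A.IsFrobeniusAt τ ℓ → ((χ τ : Kˣ) : K) = (ℓ : K))
    (FE : IntermediateField ℚ Qb) (hFE : FiniteDimensional ℚ FE)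
    (hFEker : FE.fixingSubgroup ≤
      (galoisRepModuleEnd (S := ℚ) (K := AlgebraicClosure ℚ) P.freyCurve P.p).ker) :
    ∃ (V : Type) (_ : AddCommGroup V) (_ : Module K V)
      (ρ : Representation K GQ V)
      (F : Type) (_ : Field F) (_ : NumberField F) (_ : IsGalois ℚ F)
      (_ : Algebra F (AlgebraicClosure ℚ)) (_ : IsScalarTower ℚ F (AlgebraicClosure ℚ)),
      Module.finrank K V = 2 ∧
      (AlgEquiv.restrictNormalHom (F := ℚ) (K₁ := AlgebraicClosure ℚ) F).ker ≤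
        (galoisRepModuleEnd (S := ℚ) (K := AlgebraicClosure ℚ) P.freyCurve P.p).ker ⊓ ρ.ker ∧
      (∀ ℓ : ℕ, ℓ.Prime → ¬ ℓ ∣ M → ℓ ≠ P.p →
        ∀ A : ValuationSubring (AlgebraicClosure ℚ), A.LiesOverPrime ℓ →
          ∀ τ : GQ, A.IsFrobeniusAt τ ℓ → LinearMap.trace K V (ρ τ) = aK ℓ) ∧
      (∀ ℓ : ℕ, ℓ.Prime → ¬ ℓ ∣ M → ℓ ≠ P.p →
        ∀ A : ValuationSubring (AlgebraicClosure ℚ), A.LiesOverPrime ℓ →
          ∀ τ : GQ, A.IsFrobeniusAt τ ℓ → LinearMap.det (ρ τ) = (ℓ : K)) := by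
  classical
  obtain ⟨Fw, hFw, hFwfix⟩ := fa_exists_field_fixing (K := K) ρX hopen w
  have hF0 : FiniteDimensional ℚ (Fw ⊔ Fχ ⊔ FE : IntermediateField ℚ Qb) := by
    haveI := hFw; haveI := hFχ; haveI := hFE
    haveI : FiniteDimensional ℚ (Fw ⊔ Fχ : IntermediateField ℚ Qb) :=
      IntermediateField.finiteDimensional_sup Fw Fχ
    exact IntermediateField.finiteDimensional_sup (Fw ⊔ Fχ) FE
  obtain ⟨F1, hle, hF1fd, hF1gal, hF1n, hF1fin⟩ := fa_exists_galois _ hF0
  have hFw_le : Fw ≤ F1 := le_trans (le_trans le_sup_left le_sup_left) hle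
  have hFχ_le : Fχ ≤ F1 := le_trans (le_trans le_sup_right le_sup_left) hle
  have hFE_le : FE ≤ F1 := le_trans le_sup_right hle
  haveI : F1.fixingSubgroup.Normal := hF1n
  haveI : Finite (GQ ⧸ F1.fixingSubgroup) := hF1fin
  -- `H` fixes `w`
  have hHw : ∀ h ∈ F1.fixingSubgroup, faBcRep (K := K) ρX h w = w := fun h hh =>
    hFwfix h (IntermediateField.fixingSubgroup_antitone hFw_le hh)
  have hχH : ∀ h ∈ F1.fixingSubgroup, χ h = 1 := fun h hh =>
    hχker h (IntermediateField.fixingSubgroup_antitone hFχ_le hh)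
  -- eigen-property on the span of the orbit
  have heig : ∀ ℓ : ℕ, ℓ.Prime → ¬ ℓ ∣ M → ℓ ≠ P.p →
      ∀ u ∈ faOrb (faBcRep (K := K) ρX) w, (T ℓ).baseChange K u = aK ℓ • u := by
    intro ℓ hℓ hℓM hℓp u hu
    refine fa_orb_induction (faBcRep (K := K) ρX) w ((T ℓ).baseChange K)
      (aK ℓ • LinearMap.id) ?_ hu
    intro τ
    have hc : (T ℓ).baseChange K * (ρX τ).baseChange K
        = (ρX τ).baseChange K * (T ℓ).baseChange K := by
      rw [← LinearMap.baseChange_mul, ← LinearMap.baseChange_mul, hGH ℓ hℓ hℓM hℓp τ]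
    have hc' := congrArg (fun f : Module.End K (K ⊗[ZMod P.p] X) => f w) hc
    simp only [Module.End.mul_apply] at hc'
    show (T ℓ).baseChange K ((ρX τ).baseChange K w) = aK ℓ • (ρX τ).baseChange K w
    rw [hc', hwT ℓ hℓ hℓM hℓp, map_smul]
  -- the index type of all Frobenius elements at good primes
  let ι : Type := {t : ℕ × ValuationSubring Qb × GQ //
    t.1.Prime ∧ ¬ t.1 ∣ M ∧ t.1 ≠ P.p ∧ t.2.1.LiesOverPrime t.1 ∧ t.2.1.IsFrobeniusAt t.2.2 t.1}
  let gι : ι → GQ := fun i => i.1.2.2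
  let aι : ι → K := fun i => aK i.1.1
  have hquad : ∀ i : ι, ∀ u ∈ faOrb (faBcRep (K := K) ρX) w,
      faBcRep (K := K) ρX (gι i) (faBcRep (K := K) ρX (gι i) u)
        - aι i • faBcRep (K := K) ρX (gι i) u + ((χ (gι i) : Kˣ) : K) • u = 0 := by
    rintro ⟨⟨ℓ, A, τ⟩, hℓ, hℓM, hℓp, hA, hτ⟩ u hu
    have hE := hES ℓ hℓ hℓM hℓp A hA τ hτ
    have hEK := congrArg (LinearMap.baseChange K) hE
    rw [LinearMap.baseChange_add, LinearMap.baseChange_sub, LinearMap.baseChange_zero,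
      LinearMap.baseChange_smul, LinearMap.baseChange_mul, LinearMap.baseChange_mul,
      LinearMap.baseChange_one] at hEK
    have hEu := congrArg (fun f : Module.End K (K ⊗[ZMod P.p] X) => f u) hEK
    simp only [LinearMap.add_apply, LinearMap.sub_apply, Module.End.mul_apply,
      LinearMap.smul_apply, Module.End.one_apply, LinearMap.zero_apply] at hEu
    have h1 : (T ℓ).baseChange K ((ρX τ).baseChange K u) = aK ℓ • (ρX τ).baseChange K u :=
      heig ℓ hℓ hℓM hℓp _ (fa_orb_stable (faBcRep (K := K) ρX) w τ hu)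
    have h3 : ((ℓ : ZMod P.p) • u) = (ℓ : K) • u := by
      rw [Nat.cast_smul_eq_nsmul, Nat.cast_smul_eq_nsmul]
    rw [h1, h3] at hEu
    have hχτ : ((χ τ : Kˣ) : K) = (ℓ : K) := hχ ℓ hℓ hℓM hℓp A hA τ hτ
    show (ρX τ).baseChange K ((ρX τ).baseChange K u) - aK ℓ • (ρX τ).baseChange K u
      + ((χ τ : Kˣ) : K) • u = 0
    rw [hχτ]
    exact hEu
  have hcov : ∀ h : GQ, ∃ i : ι, ∃ n : ℕ, h⁻¹ * gι i ^ n ∈ F1.fixingSubgroup := by
    intro h
    obtain ⟨ℓ, hℓ, hℓS, A, hA, τ, hτ, n, hn⟩ :=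
      frobenius_power_cover F1 hF1fd hF1gal (insert P.p M.primeFactors) h
    have hℓp : ℓ ≠ P.p := fun e => hℓS (by rw [e]; exact Finset.mem_insert_self _ _)
    have hℓM : ¬ ℓ ∣ M := fun hd =>
      hℓS (Finset.mem_insert_of_mem (Nat.mem_primeFactors.mpr ⟨hℓ, hd, hM.ne'⟩))
    exact ⟨⟨(ℓ, A, τ), hℓ, hℓM, hℓp, hA, hτ⟩, n, hn⟩
  obtain ⟨V, iV1, iV2, ρ, hfr, hHρ, htd⟩ :=
    fa_alg_on_orbit (faBcRep (K := K) ρX) w hw χ F1.fixingSubgroup hHw hχH gι aι hquad hcov
  have hsub : F1.fixingSubgroup ≤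
      (galoisRepModuleEnd (S := ℚ) (K := AlgebraicClosure ℚ) P.freyCurve P.p).ker ⊓ ρ.ker := by
    intro σ hσ
    exact ⟨hFEker (IntermediateField.fixingSubgroup_antitone hFE_le hσ),
      MonoidHom.mem_ker.mpr (hHρ σ hσ)⟩
  obtain ⟨F, iF1, iF2, iF3, iF4, iF5, hker⟩ := fa_package F1 hF1fd hF1gal _ hsub
  refine ⟨V, iV1, iV2, ρ, F, iF1, iF2, iF3, iF4, iF5, hfr, hker, ?_, ?_⟩
  · intro ℓ hℓ hℓM hℓp A hA τ hτ
    exact (htd ⟨(ℓ, A, τ), hℓ, hℓM, hℓp, hA, hτ⟩).1
  · intro ℓ hℓ hℓM hℓp A hA τ hτ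
    rw [(htd ⟨(ℓ, A, τ), hℓ, hℓM, hℓp, hA, hτ⟩).2]
    exact hχ ℓ hℓ hℓM hℓp A hA τ hτ

end Main

end Fermat.Agent.S42
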