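import Mathlib
import Fermat.Prelude.Def_EllipticCurve_FrobeniusTrace
import Fermat.Prelude.Def_FLTPrelim_Ramification
import Fermat.Prelude.Def_ExtCitation_KummerBridge
import Fermat.Agent.Lib.FrobeniusExists

/-!
S42, inputs of the final assembly that do not depend on modular curves (written by the lead):

* `fi_coeff_field`: an algebraically closed field `K` of characteristic `p` receiving `ℤ̄ / 𝔪`;
* `fi_cyclo`: the mod `p` cyclotomic character with values in `Kˣ`, trivial on the absolute Galois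
  group of `ℚ(ζ_p)`, and sending every Frobenius element at a prime `ℓ ≠ p` to `ℓ`.
-/

set_option autoImplicit false

open scoped Pointwise

namespace Fermat.Agent.S42

section

local notation "Qb" => AlgebraicClosure ℚ
local notation "GQ" => (AlgebraicClosure ℚ ≃ₐ[ℚ] AlgebraicClosure ℚ)
local notation "Zb" => (integralClosure ℤ ℂ)

/-- The coefficient field. -/
theorem fi_coeff_field (p : ℕ) (hp : p.Prime) (𝔪 : Ideal Zb) (h𝔪 : 𝔪.IsMaximal)
    (hp𝔪 : (p : Zb) ∈ 𝔪) :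
    ∃ (K : Type) (_ : Field K) (_ : IsAlgClosed K) (_ : Algebra (ZMod p) K) (ψ : Zb →+* K),
      𝔪 ≤ RingHom.ker ψ := by
  haveI := h𝔪
  letI : Field (Zb ⧸ 𝔪) := Ideal.Quotient.field 𝔪
  have hψ : 𝔪 ≤ RingHom.ker
      ((algebraMap (Zb ⧸ 𝔪) (AlgebraicClosure (Zb ⧸ 𝔪))).comp (Ideal.Quotient.mk 𝔪)) := by
    intro x hx
    rw [RingHom.mem_ker, RingHom.comp_apply, Ideal.Quotient.eq_zero_iff_mem.mpr hx, map_zero]
  have hpK : (p : AlgebraicClosure (Zb ⧸ 𝔪)) = 0 := by
    have := hψ hp𝔪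
    rw [RingHom.mem_ker, map_natCast] at this
    exact this
  haveI : CharP (AlgebraicClosure (Zb ⧸ 𝔪)) p := (CharP.charP_iff_prime_eq_zero hp).mpr hpK
  exact ⟨AlgebraicClosure (Zb ⧸ 𝔪), inferInstance, inferInstance,
    ZMod.algebra (AlgebraicClosure (Zb ⧸ 𝔪)) p, _, hψ⟩

/-- The defining property of the cyclotomic character on a primitive `p`-th root of unity. -/
theorem fi_cyclo_spec (p : ℕ) [Fact p.Prime] (σ : GQ) (ζ : Qb) (hζ : IsPrimitiveRoot ζ p) :
    σ ζ = ζ ^ (ExtCitation.cycloExp p σ) := by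
  have : NeZero p := ⟨(Fact.out : p.Prime).ne_zero⟩
  have hu : IsUnit ζ := hζ.isUnit (NeZero.ne p)
  have hmem : hu.unit ∈ rootsOfUnity p Qb := by
    rw [mem_rootsOfUnity]
    ext
    simp [hζ.pow_eq_one]
  have h := modularCyclotomicCharacter.spec Qb (ExtCitation.card_rootsOfUnity_eq_self p)
    (σ : Qb ≃+* Qb) hmem
  simpa [ExtCitation.cycloExp] using h

theorem fi_cyclo_iff (p : ℕ) [Fact p.Prime] (σ : GQ) (ζ : Qb) (hζ : IsPrimitiveRoot ζ p)
    (a : ℕ) : σ ζ = ζ ^ a ↔ (a : ZMod p) = (ExtCitation.cycloExp p σ : ZMod p) := by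
  have hfin : IsOfFinOrder ζ := hζ.isOfFinOrder (Fact.out : p.Prime).ne_zero
  rw [fi_cyclo_spec p σ ζ hζ, hfin.pow_eq_pow_iff_modEq, ← hζ.eq_orderOf,
    ZMod.natCast_eq_natCast_iff]
  exact ⟨fun h => h.symm, fun h => h.symm⟩

theorem fi_exists_primitiveRoot (p : ℕ) [Fact p.Prime] : ∃ ζ : Qb, IsPrimitiveRoot ζ p := by
  have : NeZero p := ⟨(Fact.out : p.Prime).ne_zero⟩
  have : NeZero (p : Qb) := ⟨Nat.cast_ne_zero.mpr (NeZero.ne p)⟩
  exact HasEnoughRootsOfUnity.exists_primitiveRoot Qb p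

/-- A Frobenius element at `ℓ ≠ p` has cyclotomic exponent `ℓ` modulo `p`. -/
theorem fi_cycloExp_frob (p : ℕ) [Fact p.Prime] (ℓ : ℕ) (hℓ : ℓ.Prime) (hℓp : ℓ ≠ p)
    (A : ValuationSubring Qb) (hA : A.LiesOverPrime ℓ) (τ : GQ) (hτ : A.IsFrobeniusAt τ ℓ) :
    (ExtCitation.cycloExp p τ : ZMod p) = (ℓ : ZMod p) := by
  have hp : p.Prime := Fact.out
  obtain ⟨ζ, hζ⟩ := fi_exists_primitiveRoot p
  obtain ⟨hτ', hfr⟩ := hτ
  have hζA : ζ ∈ A :=
    Fermat.Agent.Lib.FrobeniusExists.mem_of_isIntegral_int A (hζ.isIntegral hp.pos)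
  set a : ↥A := ⟨ζ, hζA⟩ with ha
  have haprim : IsPrimitiveRoot a p :=
    IsPrimitiveRoot.of_map_of_injective (f := A.subtype)
      (show IsPrimitiveRoot (A.subtype a) p from hζ) Subtype.val_injective
  set z : IsLocalRing.ResidueField ↥A := IsLocalRing.residue ↥A a with hz
  -- `ℓ = 0` in the residue field
  have hℓ0 : (ℓ : IsLocalRing.ResidueField ↥A) = 0 := by
    have h1 : ((ℓ : ↥A) : Qb) ∈ A.nonunits := by
      have h0 : (ℓ : Qb) ∈ A.nonunits := hA
      simpa using h0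
    have h2 : (ℓ : ↥A) ∈ IsLocalRing.maximalIdeal ↥A := ValuationSubring.coe_mem_nonunits_iff.mp h1
    have h3 : IsLocalRing.residue ↥A (ℓ : ↥A) = 0 := (IsLocalRing.residue_eq_zero_iff _).mpr h2
    rwa [map_natCast] at h3
  -- `p ≠ 0` in the residue field
  have hp0 : (p : IsLocalRing.ResidueField ↥A) ≠ 0 := by
    intro hp0
    have hcop : Nat.Coprime p ℓ := (Nat.coprime_primes hp hℓ).mpr (Ne.symm hℓp)
    have hb := Nat.gcd_eq_gcd_ab p ℓ
    rw [hcop.gcd_eq_one] at hb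
    have hb' := congrArg (fun t : ℤ => (t : IsLocalRing.ResidueField ↥A)) hb
    simp only [Nat.cast_one, Int.cast_one, Int.cast_add, Int.cast_mul, Int.cast_natCast, hp0, hℓ0,
      zero_mul, add_zero] at hb'
    exact one_ne_zero hb'
  -- the product formula
  obtain ⟨n, hn⟩ : ∃ n, p = n + 1 := ⟨p - 1, by have := hp.two_le; omega⟩
  have hprod : ∏ k ∈ Finset.range n, (1 - z ^ (k + 1)) = (p : IsLocalRing.ResidueField ↥A) := by
    have h := IsPrimitiveRoot.prod_one_sub_pow_eq_order (hn ▸ haprim)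
    have h' := congrArg (IsLocalRing.residue ↥A) h
    rw [map_prod] at h'
    simp only [map_sub, map_one, map_pow, map_add, map_natCast] at h'
    rw [hn]
    push_cast
    exact h'
  have hzne : ∀ k, k < n → z ^ (k + 1) ≠ 1 := by
    intro k hk h1
    apply hp0
    rw [← hprod]
    exact Finset.prod_eq_zero (Finset.mem_range.mpr hk) (by rw [h1, sub_self])
  have hzp : z ^ p = 1 := by
    rw [hz, ← map_pow, haprim.pow_eq_one, map_one]
  have hord : orderOf z = p := by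
    have hdvd : orderOf z ∣ p := orderOf_dvd_of_pow_eq_one hzp
    rcases (Nat.dvd_prime hp).mp hdvd with h1 | h1
    · exfalso
      have hz1 : z = 1 := orderOf_eq_one_iff.mp h1
      have hn0 : 0 < n := by have := hp.two_le; omega
      exact hzne 0 hn0 (by rw [hz1]; simp)
    · exact h1
  -- Frobenius
  have hτζ : τ ζ = ζ ^ (ExtCitation.cycloExp p τ) := fi_cyclo_spec p τ ζ hζ
  have hsm : (⟨τ, hτ'⟩ : A.decompositionSubgroup ℚ) • z = z ^ (ExtCitation.cycloExp p τ) := by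
    rw [hz, ← IsLocalRing.ResidueField.residue_smul, ← map_pow]
    congr 1
    exact Subtype.ext hτζ
  have hpow : z ^ (ExtCitation.cycloExp p τ) = z ^ ℓ := by
    rw [← hsm, hfr]
  have hfin : IsOfFinOrder z := isOfFinOrder_iff_pow_eq_one.mpr ⟨p, hp.pos, hzp⟩
  have hmod := hfin.pow_eq_pow_iff_modEq.mp hpow
  rw [hord] at hmod
  exact (ZMod.natCast_eq_natCast_iff _ _ _).mpr hmod

/-- The cyclotomic character with values in a field of characteristic `p`. -/
theorem fi_cyclo (p : ℕ) [Fact p.Prime] (K : Type) [Field K] [Algebra (ZMod p) K] :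
    ∃ (χ : GQ →* Kˣ) (Fχ : IntermediateField ℚ Qb), FiniteDimensional ℚ Fχ ∧
      (∀ σ ∈ Fχ.fixingSubgroup, χ σ = 1) ∧
      ∀ ℓ : ℕ, ℓ.Prime → ℓ ≠ p → ∀ A : ValuationSubring Qb, A.LiesOverPrime ℓ →
        ∀ τ : GQ, A.IsFrobeniusAt τ ℓ → ((χ τ : Kˣ) : K) = (ℓ : K) := by
  have hp : p.Prime := Fact.out
  obtain ⟨ζ, hζ⟩ := fi_exists_primitiveRoot p
  have hint : IsIntegral ℚ ζ := (hζ.isIntegral hp.pos).tower_top
  refine ⟨(Units.map (algebraMap (ZMod p) K).toMonoidHom).comp (ExtCitation.cycloChar p),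
    IntermediateField.adjoin ℚ {ζ}, IntermediateField.adjoin.finiteDimensional hint, ?_, ?_⟩
  · intro σ hσ
    have hσζ : σ ζ = ζ := by
      rw [IntermediateField.mem_fixingSubgroup_iff] at hσ
      exact hσ ζ (IntermediateField.subset_adjoin ℚ {ζ} (Set.mem_singleton ζ))
    have h1 : (1 : ZMod p) = (ExtCitation.cycloExp p σ : ZMod p) := by
      have := (fi_cyclo_iff p σ ζ hζ 1).mp (by rw [pow_one]; exact hσζ)
      simpa using this
    have h2 : ExtCitation.cycloChar p σ = 1 := by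
      apply Units.ext
      rw [ExtCitation.coe_cycloChar, ← h1, Units.val_one]
    rw [MonoidHom.comp_apply, h2, map_one]
  · intro ℓ hℓ hℓp A hA τ hτ
    have h1 := fi_cycloExp_frob p ℓ hℓ hℓp A hA τ hτ
    rw [MonoidHom.comp_apply, Units.coe_map]
    show algebraMap (ZMod p) K ((ExtCitation.cycloChar p τ : (ZMod p)ˣ) : ZMod p) = (ℓ : K)
    rw [ExtCitation.coe_cycloChar, h1, map_natCast]

end

end Fermat.Agent.S42
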