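import Mathlib
import Fermat.Prelude.Def_FreyPackage_EigenformResidualAttachment
import Fermat.Agent.S42.FinalAbstract
import Fermat.Agent.S42.FinalInputsA

/-!
S42, last wiring step (written by the lead): `S42InputsStatement` is exactly what the modular-curve
blocks (ES', GH, OPEN, FREYKER, integrality, BRIDGE) have to deliver; `fw_result_of_inputs` turns it
into the frozen statement.
-/

set_option autoImplicit false

open WeierstrassCurve WeierstrassCurve.Affine.Point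
open scoped TensorProduct

namespace Fermat.Agent.S42

attribute [local instance] FreyPackage.instDecEqQbarCongruenceRecovery

section

local notation "Qb" => AlgebraicClosure ℚ
local notation "GQ" => (AlgebraicClosure ℚ ≃ₐ[ℚ] AlgebraicClosure ℚ)
local notation "Zb" => (integralClosure ℤ ℂ)

/-- What the modular-curve blocks deliver: for every eigenform `g`, every algebraically closed
coefficient field `K` of characteristic `p` and every ring homomorphism `ψ : ℤ̄ → K` killing a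
maximal ideal `𝔪` over `p`:
integrality of the `a_ℓ(g)`, a `ZMod p`-module `X` with Galois action and Hecke operators
(`J_0(M)[p]`), the relations, and an eigenvector in `K ⊗ X`; and a finite extension trivialising
the Frey representation. -/
def S42InputsStatement : Prop :=
  ∀ (P : FreyPackage) (M : ℕ), 0 < M →
    ∀ (g : CuspForm (CongruenceSubgroup.Gamma0 M) 2), g.IsNormalizedEigenform →
    ∀ (𝔪 : Ideal Zb), 𝔪.IsMaximal → (P.p : Zb) ∈ 𝔪 →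
    ∀ (K : Type) [Field K] [IsAlgClosed K] [Algebra (ZMod P.p) K] (ψ : Zb →+* K),
    𝔪 ≤ RingHom.ker ψ →
    ∃ (a : ℕ → Zb) (X : Type) (_ : AddCommGroup X) (_ : Module (ZMod P.p) X)
      (ρX : GQ →* Module.End (ZMod P.p) X) (T : ℕ → Module.End (ZMod P.p) X)
      (w : K ⊗[ZMod P.p] X) (FE : IntermediateField ℚ Qb),
      (∀ ℓ : ℕ, ℓ.Prime → ¬ ℓ ∣ M → ((a ℓ : Zb) : ℂ) = ModularFormClass.qCoeff g ℓ) ∧
      (∀ ℓ : ℕ, ℓ.Prime → ¬ ℓ ∣ M → ℓ ≠ P.p → ∀ σ : GQ, T ℓ * ρX σ = ρX σ * T ℓ) ∧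
      (∀ x : X, ∃ F : IntermediateField ℚ Qb, FiniteDimensional ℚ F ∧
        ∀ σ ∈ F.fixingSubgroup, ρX σ x = x) ∧
      (∀ ℓ : ℕ, ℓ.Prime → ¬ ℓ ∣ M → ℓ ≠ P.p →
        ∀ A : ValuationSubring Qb, A.LiesOverPrime ℓ → ∀ τ : GQ, A.IsFrobeniusAt τ ℓ →
          ρX τ * ρX τ - T ℓ * ρX τ + (ℓ : ZMod P.p) • (1 : Module.End (ZMod P.p) X) = 0) ∧
      w ≠ 0 ∧
      (∀ ℓ : ℕ, ℓ.Prime → ¬ ℓ ∣ M → ℓ ≠ P.p → (T ℓ).baseChange K w = ψ (a ℓ) • w) ∧
      FiniteDimensional ℚ FE ∧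
      FE.fixingSubgroup ≤
        (galoisRepModuleEnd (S := ℚ) (K := AlgebraicClosure ℚ) P.freyCurve P.p).ker

theorem fw_result_of_inputs (h : S42InputsStatement) (P : FreyPackage) :
    ∀ M : ℕ, 0 < M → P.EigenformResidualAttachmentAt M := by
  intro M hM g hg 𝔪 h𝔪 hp
  haveI : Fact P.p.Prime := ⟨P.pp⟩
  obtain ⟨K, iK1, iK2, iK3, ψ, hψ⟩ := fi_coeff_field P.p P.pp 𝔪 h𝔪 hp
  obtain ⟨χ, Fχ, hFχ, hχker, hχ⟩ := fi_cyclo P.p K
  obtain ⟨a, X, iX1, iX2, ρX, T, w, FE, ha, hGH, hopen, hES, hw, hwT, hFE, hFEker⟩ :=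
    h P M hM g hg 𝔪 h𝔪 hp K ψ hψ
  obtain ⟨V, iV1, iV2, ρ, F, iF1, iF2, iF3, iF4, iF5, hfr, hker, htr, hdet⟩ :=
    fa_attach_core P M hM K (fun ℓ => ψ (a ℓ)) X ρX T hGH hopen hES w hw hwT χ Fχ hFχ hχker
      (fun ℓ hℓ _ hℓp => hχ ℓ hℓ hℓp) FE hFE hFEker
  exact ⟨K, iK1, iK3, V, iV1, iV2, ρ, ψ, F, iF1, iF2, iF3, iF4, iF5, hψ, hfr, hker,
    fun ℓ hℓ hℓM hℓp A hA τ hτ => ⟨a ℓ, ha ℓ hℓ hℓM, htr ℓ hℓ hℓM hℓp A hA τ hτ⟩, hdet⟩

end

end Fermat.Agent.S42
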