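/-
S42 moonshot — block PER (period eigenvector, cohomological Hecke operator, reduction mod 𝔪).
INTERFACE FILE: definitions and statement-`Prop`s only.  Every PER package proves one of the
`PER…Statement : Prop` below in its own file `Fermat/Agent/S42/PER<Package>.lean`, possibly assuming
other statements as explicit hypotheses.

Conventions.  `Γ := Gamma0 N`.  Coset representatives of `Γ \ Γ diag(1,l) Γ` (l prime, l ∤ N):
`perAlpha l (some j) = heckeMatrix l j = [[1,j],[0,l]]`, `perAlpha l none = heckeDiagMatrix l =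
[[l,0],[0,1]]` (prelude matrices in `GL (Fin 2) ℝ`).  For `γ ∈ Γ` and an index `i` there are a unique
index `perSig N l γ i` and a unique `perGam N l γ i ∈ Γ` with
  `perAlpha l i * γ = perGam N l γ i * perAlpha l (perSig N l γ i)`   (in `GL (Fin 2) ℝ`),
and the cohomological Hecke operator on homomorphisms `c : Γ → A` is
  `(perTcoh N l A c) γ = ∑ i, c (perGam N l γ i)`.
-/
import Mathlib
import Fermat.Prelude.Def_ModularCurve_PeriodMapBundled
import Fermat.Prelude.Def_ModularForm_HeckeOperator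
import Fermat.Prelude.Def_FLTPrelim_Modularity
import Fermat.Agent.S21.Interfaces

set_option autoImplicit false

open UpperHalfPlane CongruenceSubgroup ModularCurve ModularCurve.Period
open scoped MatrixGroups ModularForm TensorProduct

namespace Fermat.Agent.S42

noncomputable section

/-! ## Coset representatives and the permutation/cocycle attached to `γ` -/

/-- Coset representatives `α_i` of `Γ₀(N) \ Γ₀(N) diag(1,l) Γ₀(N)`. -/
def perAlpha (l : ℕ) : Option (Fin l) → GL (Fin 2) ℝ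
  | none => ModularForm.heckeDiagMatrix l
  | some j => ModularForm.heckeMatrix l (j : ℕ)

/-- The relation `α_i γ = γ' α_{i'}` in `GL (Fin 2) ℝ`. -/
def PERRel (N l : ℕ) (γ : Gamma0 N) (i i' : Option (Fin l)) (γ' : Gamma0 N) : Prop :=
  perAlpha l i * Matrix.SpecialLinearGroup.mapGL ℝ (γ : SL(2, ℤ)) =
    Matrix.SpecialLinearGroup.mapGL ℝ (γ' : SL(2, ℤ)) * perAlpha l i'

open Classical in
/-- The index `σ_γ(i)` with `α_i γ ∈ Γ α_{σ_γ(i)}` (junk value `i` if there is none). -/
def perSig (N l : ℕ) (γ : Gamma0 N) (i : Option (Fin l)) : Option (Fin l) :=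
  if h : ∃ (i' : Option (Fin l)) (γ' : Gamma0 N), PERRel N l γ i i' γ' then h.choose else i

open Classical in
/-- The element `γ_i ∈ Γ` with `α_i γ = γ_i α_{σ_γ(i)}` (junk value `1` if there is none). -/
def perGam (N l : ℕ) (γ : Gamma0 N) (i : Option (Fin l)) : Gamma0 N :=
  if h : ∃ (i' : Option (Fin l)) (γ' : Gamma0 N), PERRel N l γ i i' γ' then h.choose_spec.choose
  else 1

/-- (COSET) Existence and uniqueness of the decomposition `α_i γ = γ' α_{i'}`. -/
def PERCosetStatement : Prop :=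
  ∀ (N l : ℕ) [NeZero N], l.Prime → ¬ l ∣ N →
    (∀ (γ : Gamma0 N) (i : Option (Fin l)),
      ∃ (i' : Option (Fin l)) (γ' : Gamma0 N), PERRel N l γ i i' γ') ∧
    (∀ (x y : Gamma0 N) (a b : Option (Fin l)),
      Matrix.SpecialLinearGroup.mapGL ℝ (x : SL(2, ℤ)) * perAlpha l a =
        Matrix.SpecialLinearGroup.mapGL ℝ (y : SL(2, ℤ)) * perAlpha l b → a = b ∧ x = y)

/-- (SIG) The basic calculus of `perSig`, `perGam`. -/
def PERSigStatement : Prop :=
  ∀ (N l : ℕ) [NeZero N], l.Prime → ¬ l ∣ N →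
    (∀ (γ : Gamma0 N) (i : Option (Fin l)), PERRel N l γ i (perSig N l γ i) (perGam N l γ i)) ∧
    (∀ γ : Gamma0 N, Function.Bijective (perSig N l γ)) ∧
    (∀ (γ δ : Gamma0 N) (i : Option (Fin l)),
      perSig N l (γ * δ) i = perSig N l δ (perSig N l γ i)) ∧
    (∀ (γ δ : Gamma0 N) (i : Option (Fin l)),
      perGam N l (γ * δ) i = perGam N l γ i * perGam N l δ (perSig N l γ i))

/-! ## The cohomological Hecke operator -/

/-- The raw formula `γ ↦ ∑ i, c (γ_i)`. -/
def perTcohRaw (N l : ℕ) {A : Type*} [AddCommGroup A] (c : Additive (Gamma0 N) →+ A)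
    (γ : Additive (Gamma0 N)) : A :=
  ∑ i : Option (Fin l), c (Additive.ofMul (perGam N l (Additive.toMul γ) i))

theorem perTcohRaw_zero (N l : ℕ) (A : Type*) [AddCommGroup A] :
    perTcohRaw N l (0 : Additive (Gamma0 N) →+ A) = 0 := by
  funext γ; simp [perTcohRaw]

theorem perTcohRaw_add (N l : ℕ) {A : Type*} [AddCommGroup A] (c d : Additive (Gamma0 N) →+ A) :
    perTcohRaw N l (c + d) = perTcohRaw N l c + perTcohRaw N l d := by
  funext γ; simp [perTcohRaw, Finset.sum_add_distrib]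

open Classical in
/-- The cohomological Hecke operator `T_l` on `Hom(Γ₀(N), A)`:
`(perTcoh N l A c) γ = ∑ i, c (perGam N l γ i)` (see `PERTcohApplyStatement`; junk value `0` if the
raw formula is not additive in `γ`, which does not happen for `l` prime, `l ∤ N`). -/
def perTcoh (N l : ℕ) (A : Type*) [AddCommGroup A] :
    (Additive (Gamma0 N) →+ A) →+ (Additive (Gamma0 N) →+ A) :=
  if h : ∀ c : Additive (Gamma0 N) →+ A, ∃ φ : Additive (Gamma0 N) →+ A, ⇑φ = perTcohRaw N l c then
    { toFun := fun c => (h c).choose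
      map_zero' := DFunLike.coe_injective (by rw [(h 0).choose_spec, perTcohRaw_zero]; rfl)
      map_add' := fun c d => DFunLike.coe_injective (by
        funext γ
        have h1 := congrFun (h (c + d)).choose_spec γ
        have h2 := congrFun (h c).choose_spec γ
        have h3 := congrFun (h d).choose_spec γ
        rw [h1, perTcohRaw_add, AddMonoidHom.add_apply, h2, h3]; rfl) }
  else 0

/-- (TCOH-APPLY) The defining formula of `perTcoh`. -/
def PERTcohApplyStatement : Prop :=
  ∀ (N l : ℕ) [NeZero N], l.Prime → ¬ l ∣ N →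
    ∀ (A : Type) [AddCommGroup A] (c : Additive (Gamma0 N) →+ A) (γ : Gamma0 N),
      perTcoh N l A c (Additive.ofMul γ) =
        ∑ i : Option (Fin l), c (Additive.ofMul (perGam N l γ i))

/-- (TCOH-NAT) Naturality of `perTcoh` in the coefficient group. -/
def PERTcohNatStatement : Prop :=
  ∀ (N l : ℕ) [NeZero N], l.Prime → ¬ l ∣ N →
    ∀ (A B : Type) [AddCommGroup A] [AddCommGroup B] (f : A →+ B) (c : Additive (Gamma0 N) →+ A),
      perTcoh N l B (f.comp c) = f.comp (perTcoh N l A c)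

/-- (TCOH-PAR) `perTcoh` preserves parabolic homomorphisms. -/
def PERTcohParStatement : Prop :=
  ∀ (N l : ℕ) [NeZero N], l.Prime → ¬ l ∣ N →
    ∀ (A : Type) [AddCommGroup A] (c : Additive (Gamma0 N) →+ A),
      IsParabolicHom (Gamma0 N) c → IsParabolicHom (Gamma0 N) (perTcoh N l A c)

/-- The lattice mod `p`: parabolic homomorphisms `Γ₀(N) → ℤ/p`. -/
abbrev PERLam (N p : ℕ) : Submodule (ZMod p) (Additive (Gamma0 N) →+ ZMod p) :=
  parabolicHoms (ZMod p) (Gamma0 N) (ZMod p)

theorem perTcoh_zmod_smul (N l p : ℕ) (a : ZMod p) (c : Additive (Gamma0 N) →+ ZMod p) :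
    perTcoh N l (ZMod p) (a • c) = a • perTcoh N l (ZMod p) c := by
  obtain ⟨n, rfl⟩ := ZMod.intCast_surjective a
  rw [Int.cast_smul_eq_zsmul, Int.cast_smul_eq_zsmul, map_zsmul]

open Classical in
/-- The cohomological Hecke operator on `PERLam N p` (junk value `0` if `perTcoh` does not preserve
parabolic homomorphisms, which does not happen for `l` prime, `l ∤ N`). -/
def perTcohLam (N l p : ℕ) : PERLam N p →ₗ[ZMod p] PERLam N p :=
  if h : ∀ c : Additive (Gamma0 N) →+ ZMod p, IsParabolicHom (Gamma0 N) c →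
      IsParabolicHom (Gamma0 N) (perTcoh N l (ZMod p) c) then
    { toFun := fun c => ⟨perTcoh N l (ZMod p) c.1, h c.1 c.2⟩
      map_add' := fun c d => Subtype.ext (by simp)
      map_smul' := fun a c => Subtype.ext (by simp [perTcoh_zmod_smul]) }
  else 0

/-- (TCOH-LAM) `perTcohLam` is the restriction of `perTcoh`. -/
def PERTcohLamStatement : Prop :=
  ∀ (N l : ℕ) [NeZero N], l.Prime → ¬ l ∣ N → ∀ (p : ℕ) (c : PERLam N p),
    ((perTcohLam N l p c : PERLam N p) : Additive (Gamma0 N) →+ ZMod p) =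
      perTcoh N l (ZMod p) (c : Additive (Gamma0 N) →+ ZMod p)

/-! ## The period eigenvector over `ℂ` -/

/-- (PRIM-HECKE) If `F` is a primitive of `f`, then `∑ i, F ∘ α_i` is a primitive of `T_l f`. -/
def PERPrimHeckeStatement : Prop :=
  ∀ (l : ℕ), 0 < l → ∀ (f F : ℍ → ℂ), Fermat.Agent.S21.IsPrim f F →
    Fermat.Agent.S21.IsPrim (ModularForm.heckeT 2 l f)
      (fun τ : ℍ => ∑ i : Option (Fin l), F (perAlpha l i • τ))

/-- (EIGEN) A normalized eigenform is an eigenfunction of the prelude's `heckeT 2 l`, `l ∤ N`, with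
eigenvalue its `l`-th `q`-coefficient. -/
def PEREigenStatement : Prop :=
  ∀ (N : ℕ) [NeZero N] (g : CuspForm (Gamma0 N) 2), g.IsNormalizedEigenform →
    ∀ l : ℕ, l.Prime → ¬ l ∣ N →
      ModularForm.heckeT 2 l ⇑g = ModularFormClass.qCoeff ⇑g l • (⇑g : ℍ → ℂ)

/-- (PERIOD-EIGEN) The period homomorphism of a normalized eigenform is an eigenvector of
`perTcoh`. -/
def PERPeriodEigenStatement : Prop :=
  ∀ (N : ℕ) [NeZero N] (g : CuspForm (Gamma0 N) 2), g.IsNormalizedEigenform →
    ∀ l : ℕ, l.Prime → ¬ l ∣ N →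
      perTcoh N l ℂ (periodMap N g) = ModularFormClass.qCoeff ⇑g l • periodMap N g

/-- (PERIOD-NE) The period homomorphism of a normalized eigenform is nonzero and parabolic. -/
def PERPeriodNeZeroStatement : Prop :=
  ∀ (N : ℕ) [NeZero N] (g : CuspForm (Gamma0 N) 2), g.IsNormalizedEigenform →
    periodMap N g ≠ 0 ∧ IsParabolicHom (Gamma0 N) (periodMap N g)

/-! ## Reduction modulo `𝔪` -/

/-- (FG) `Γ₀(N)` is finitely generated. -/
def PERFGStatement : Prop := ∀ (N : ℕ) [NeZero N], Group.FG (Gamma0 N)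

/-- (VAL) A valuation subring of `ℂ` dominating the localization of `ℤ̄` at `𝔪`. -/
def PERValStatement : Prop :=
  ∀ (𝔪 : Ideal (integralClosure ℤ ℂ)), 𝔪.IsMaximal →
    ∃ V : ValuationSubring ℂ, (∀ x : integralClosure ℤ ℂ, (x : ℂ) ∈ V) ∧
      ∀ x : integralClosure ℤ ℂ, x ∈ 𝔪 → (x : ℂ)⁻¹ ∉ V

/-- (SCALE) A nonzero homomorphism from a finitely generated group to a field can be rescaled to
take values in a given valuation subring, with the value `1` attained. -/
def PERScaleStatement : Prop :=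
  ∀ (G : Type) [Group G], Group.FG G → ∀ (L : Type) [Field L] (V : ValuationSubring L)
    (c : Additive G →+ L), c ≠ 0 →
    ∃ t : L, t ≠ 0 ∧ (∀ x : Additive G, t * c x ∈ V) ∧ ∃ x₀ : Additive G, t * c x₀ = 1

/-- (FUNCTIONAL) A field extension has a linear retraction onto the base field. -/
def PERFunctionalStatement : Prop :=
  ∀ (k E : Type) [Field k] [Field E] [Algebra k E], ∃ π : E →ₗ[k] k, π 1 = 1

/-- (REDUCE) Reduction of a complex eigen-homomorphism modulo a maximal ideal of `ℤ̄`. -/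
def PERReduceStatement : Prop :=
  ∀ (N : ℕ) [NeZero N] (c : Additive (Gamma0 N) →+ ℂ), c ≠ 0 → IsParabolicHom (Gamma0 N) c →
    ∀ (S : Set ℕ), (∀ l ∈ S, l.Prime ∧ ¬ l ∣ N) → ∀ (a : ℕ → integralClosure ℤ ℂ),
      (∀ l ∈ S, perTcoh N l ℂ c = ((a l : integralClosure ℤ ℂ) : ℂ) • c) →
    ∀ (𝔪 : Ideal (integralClosure ℤ ℂ)), 𝔪.IsMaximal →
      ∃ c' : Additive (Gamma0 N) →+ (integralClosure ℤ ℂ ⧸ 𝔪), c' ≠ 0 ∧
        IsParabolicHom (Gamma0 N) c' ∧
        ∀ l ∈ S, perTcoh N l (integralClosure ℤ ℂ ⧸ 𝔪) c' = Ideal.Quotient.mk 𝔪 (a l) • c'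

/-! ## From `K`-valued homomorphisms to `K ⊗ PERLam` -/

/-- The comparison map `K ⊗[ZMod p] Hom_par(Γ, ℤ/p) → Hom(Γ, K)`, `u ⊗ c ↦ (γ ↦ c γ • u)`. -/
def perCompare (N p : ℕ) (K : Type) [Field K] [Algebra (ZMod p) K] :
    K ⊗[ZMod p] PERLam N p →ₗ[K] (Additive (Gamma0 N) →+ K) :=
  TensorProduct.AlgebraTensorModule.lift
    { toFun := fun u =>
        { toFun := fun c => (AddMonoidHom.mulLeft u).comp
            (((algebraMap (ZMod p) K) : ZMod p →+ K).comp (c : Additive (Gamma0 N) →+ ZMod p))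
          map_add' := fun c d => by
            ext γ; simp [mul_add]
          map_smul' := fun a c => by
            ext γ; simp [Algebra.smul_def, mul_left_comm] }
      map_add' := fun u v => by
        ext c γ; simp [add_mul]
      map_smul' := fun b u => by
        ext c γ; simp [mul_assoc] }

/-- (COMPARE) The comparison map is injective, its image contains every parabolic homomorphism, and
it intertwines the Hecke operators. -/
def PERCompareStatement : Prop :=
  ∀ (N : ℕ) [NeZero N] (p : ℕ) [Fact p.Prime] (K : Type) [Field K] [Algebra (ZMod p) K],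
    Function.Injective (perCompare N p K) ∧
    (∀ c' : Additive (Gamma0 N) →+ K, IsParabolicHom (Gamma0 N) c' →
      ∃ v : K ⊗[ZMod p] PERLam N p, perCompare N p K v = c') ∧
    (∀ l : ℕ, l.Prime → ¬ l ∣ N → ∀ v : K ⊗[ZMod p] PERLam N p,
      perCompare N p K ((perTcohLam N l p).baseChange K v) =
        perTcoh N l K (perCompare N p K v))

/-- (TENSOR) A nonzero parabolic `K`-valued eigen-homomorphism gives a nonzero eigenvector in
`K ⊗ PERLam`. -/
def PERTensorStatement : Prop :=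
  ∀ (N : ℕ) [NeZero N] (p : ℕ) [Fact p.Prime] (K : Type) [Field K] [Algebra (ZMod p) K]
    (c' : Additive (Gamma0 N) →+ K), c' ≠ 0 → IsParabolicHom (Gamma0 N) c' →
    ∃ v : K ⊗[ZMod p] PERLam N p, v ≠ 0 ∧
      ∀ l : ℕ, l.Prime → ¬ l ∣ N → ∀ b : K, perTcoh N l K c' = b • c' →
        (perTcohLam N l p).baseChange K v = b • v

/-! ## Output of the block -/

/-- (PER-MAIN) For a normalized eigenform `g` of level `Γ₀(N)`, a maximal ideal `𝔪` of `ℤ̄` and any
ring homomorphism `ψ : ℤ̄ → K` to a field with `𝔪 ≤ ker ψ` (`K` of characteristic `p`): a nonzero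
`v ∈ K ⊗ PERLam N p` with `(1 ⊗ T_l) v = ψ(a_l(g)) v` for all primes `l ∤ N`. -/
def PERMainStatement : Prop :=
  ∀ (N : ℕ) [NeZero N] (p : ℕ) [Fact p.Prime] (g : CuspForm (Gamma0 N) 2),
    g.IsNormalizedEigenform →
    ∀ (𝔪 : Ideal (integralClosure ℤ ℂ)), 𝔪.IsMaximal →
    ∀ (K : Type) [Field K] [Algebra (ZMod p) K] (ψ : integralClosure ℤ ℂ →+* K),
      𝔪 ≤ RingHom.ker ψ →
      ∃ v : K ⊗[ZMod p] PERLam N p, v ≠ 0 ∧
        ∀ l : ℕ, l.Prime → ¬ l ∣ N → ∀ a : integralClosure ℤ ℂ,
          (a : ℂ) = ModularFormClass.qCoeff ⇑g l →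
          (perTcohLam N l p).baseChange K v = ψ a • v

end

end Fermat.Agent.S42
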