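/-
S42 moonshot — block PER, SECOND INTERFACE FILE (additional statement-`Prop`s; the first file
`PERInterfaces.lean` is frozen).  Same conventions as `PERInterfaces.lean`.
-/
import Mathlib
import Fermat.Agent.S42.PERInterfaces

set_option autoImplicit false

open UpperHalfPlane CongruenceSubgroup ModularCurve ModularCurve.Period
open scoped MatrixGroups ModularForm TensorProduct

namespace Fermat.Agent.S42

noncomputable section

/-- (ACTION) The relation `α_i γ = γ_i α_{σ(i)}` on the upper half-plane. -/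
def PERActionStatement : Prop :=
  ∀ (N l : ℕ) [NeZero N], l.Prime → ¬ l ∣ N → ∀ (γ : Gamma0 N) (i : Option (Fin l)) (z : ℍ),
    perAlpha l i • ((γ : SL(2, ℤ)) • z) =
      ((perGam N l γ i : Gamma0 N) : SL(2, ℤ)) • (perAlpha l (perSig N l γ i) • z)

/-- (ORBIT-SUM) A function on a finite set all of whose sums over closed `σ`-paths vanish has
total sum zero. -/
def PEROrbitSumStatement : Prop :=
  ∀ (I : Type) [Fintype I] (σ : Equiv.Perm I) (A : Type) [AddCommGroup A] (f : I → A),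
    (∀ (i : I) (r : ℕ), 0 < r → (σ ^ r) i = i →
      ∑ k ∈ Finset.range r, f ((σ ^ k) i) = 0) →
    ∑ i : I, f i = 0

/-- (TRACE-POW) Powers of parabolic elements (`trace ^ 2 = 4`) of `SL(2, ℤ)` are parabolic. -/
def PERTracePowStatement : Prop :=
  ∀ (γ : SL(2, ℤ)), ((γ : Matrix (Fin 2) (Fin 2) ℤ).trace) ^ 2 = 4 → ∀ r : ℕ,
    (((γ ^ r : SL(2, ℤ)) : Matrix (Fin 2) (Fin 2) ℤ).trace) ^ 2 = 4

/-- (POW) Iterating the cocycle rule: `σ_{γ^r} = σ_γ^r` and
`∑_{k<r} c (γ_{σ^k i}) = c ((γ^r)_i)`; moreover if `σ_γ^r i = i` then `(γ^r)_i` has the same trace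
as `γ^r`. -/
def PERPowStatement : Prop :=
  ∀ (N l : ℕ) [NeZero N], l.Prime → ¬ l ∣ N → ∀ (γ : Gamma0 N) (r : ℕ) (i : Option (Fin l)),
    perSig N l (γ ^ r) i = (perSig N l γ)^[r] i ∧
    (∀ (A : Type) [AddCommGroup A] (c : Additive (Gamma0 N) →+ A),
      ∑ k ∈ Finset.range r, c (Additive.ofMul (perGam N l γ ((perSig N l γ)^[k] i))) =
        c (Additive.ofMul (perGam N l (γ ^ r) i))) ∧
    ((perSig N l γ)^[r] i = i →
      (((perGam N l (γ ^ r) i : Gamma0 N) : SL(2, ℤ)) : Matrix (Fin 2) (Fin 2) ℤ).trace =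
        (((γ ^ r : Gamma0 N) : SL(2, ℤ)) : Matrix (Fin 2) (Fin 2) ℤ).trace)

/-- (INTEGRAL) Hecke eigenvalues of normalized eigenforms are algebraic integers. -/
def PERIntegralStatement : Prop :=
  ∀ (N : ℕ) [NeZero N] (g : CuspForm (Gamma0 N) 2), g.IsNormalizedEigenform →
    ∀ l : ℕ, l.Prime → ¬ l ∣ N → IsIntegral ℤ (ModularFormClass.qCoeff ⇑g l)

/-- (VAL2) A valuation subring of `ℂ` dominating the localization of `ℤ̄` at `𝔪`
(corrected form of `PERValStatement`: nonzero elements of `𝔪` are non-units of `V`). -/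
def PERVal2Statement : Prop :=
  ∀ (𝔪 : Ideal (integralClosure ℤ ℂ)), 𝔪.IsMaximal →
    ∃ V : ValuationSubring ℂ, (∀ x : integralClosure ℤ ℂ, (x : ℂ) ∈ V) ∧
      ∀ x : integralClosure ℤ ℂ, x ∈ 𝔪 → x ≠ 0 → (x : ℂ)⁻¹ ∉ V

/-- (RESIDUE) Reduction to the residue field of the valuation ring: a ring homomorphism
`ρ : V → E` to a field `E`, with `E` an algebra over `ℤ̄ ⧸ 𝔪` compatibly. Concretely: there are a
field `E`, a ring homomorphism `ρ` from a valuation subring `V ⊇ ℤ̄` of `ℂ` to `E` and a ring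
homomorphism `ι : ℤ̄ ⧸ 𝔪 → E` with `ρ x = ι (mk x)` for `x ∈ ℤ̄`. -/
def PERResidueStatement : Prop :=
  ∀ (𝔪 : Ideal (integralClosure ℤ ℂ)), 𝔪.IsMaximal →
    ∃ (V : ValuationSubring ℂ) (hV : ∀ x : integralClosure ℤ ℂ, (x : ℂ) ∈ V)
      (E : Type) (_ : Field E) (ρ : V →+* E) (ι : (integralClosure ℤ ℂ ⧸ 𝔪) →+* E),
      ∀ x : integralClosure ℤ ℂ, ρ ⟨(x : ℂ), hV x⟩ = ι (Ideal.Quotient.mk 𝔪 x)

/-- (COMPARE-TMUL) The comparison map on pure tensors. -/
def PERCompareTmulStatement : Prop :=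
  ∀ (N p : ℕ) (K : Type) [Field K] [Algebra (ZMod p) K] (u : K) (c : PERLam N p)
    (γ : Additive (Gamma0 N)),
    perCompare N p K (u ⊗ₜ[ZMod p] c) γ =
      u * algebraMap (ZMod p) K ((c : Additive (Gamma0 N) →+ ZMod p) γ)

/-- (COMPARE-INJ) The comparison map is injective. -/
def PERCompareInjStatement : Prop :=
  ∀ (N : ℕ) [NeZero N] (p : ℕ) [Fact p.Prime] (K : Type) [Field K] [Algebra (ZMod p) K],
    Function.Injective (perCompare N p K)

/-- (COMPARE-SURJ) Every parabolic `K`-valued homomorphism is in the image of the comparison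
map (uses that `Γ₀(N)` is finitely generated). -/
def PERCompareSurjStatement : Prop :=
  ∀ (N : ℕ) [NeZero N] (p : ℕ) [Fact p.Prime] (K : Type) [Field K] [Algebra (ZMod p) K]
    (c' : Additive (Gamma0 N) →+ K), IsParabolicHom (Gamma0 N) c' →
      ∃ v : K ⊗[ZMod p] PERLam N p, perCompare N p K v = c'

/-- (COMPARE-HECKE) The comparison map intertwines the Hecke operators. -/
def PERCompareHeckeStatement : Prop :=
  ∀ (N : ℕ) [NeZero N] (p : ℕ) [Fact p.Prime] (K : Type) [Field K] [Algebra (ZMod p) K]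
    (l : ℕ), l.Prime → ¬ l ∣ N → ∀ v : K ⊗[ZMod p] PERLam N p,
      perCompare N p K ((perTcohLam N l p).baseChange K v) =
        perTcoh N l K (perCompare N p K v)

end

end Fermat.Agent.S42
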