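/-
S42 moonshot — SHARED CROSS-BLOCK INTERFACE (helper26).  Namespace `Fermat.Agent.S42`.
Only definitions and statement-`Prop`s (no proofs needed by users).

BRIDGE interface:
* `Lam N p`      : parabolic homs `Γ₀(N) → ZMod p` (prelude `Period.parabolicHoms`; equal to
                   helper19's `PERLam N p`).  The cohomological Hecke operator is helper19's
                   `perTcohLam N ℓ p` (file `PERInterfaces.lean`).
* `RootProp N p c f` : `f ∈ F_N` has a holomorphic `p`-th root `s : ℍ → ℂ` with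
                   `s(γ • τ) = χ_c(γ) s(τ)`, `χ_c = chiOf N p c = exp(2π i c/p)`; `s^p` is tied to `f`
                   through the `q`-expansion near `i∞` and the fixed embedding `embC : Qbar → ℂ`.
-/
import Mathlib
import Fermat.Prelude.Def_FreyPackage_EigenformResidualAttachment
import Fermat.Prelude.Def_ModularCurve_HeckeModule
import Fermat.Prelude.Def_ModularCurve_PeriodMap

set_option autoImplicit false

open ModularCurve AlgebraicCurve CongruenceSubgroup
open UpperHalfPlane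
open scoped TensorProduct MatrixGroups Manifold

namespace Fermat.Agent.S42

noncomputable section

/-- `Qbar`. -/
abbrev Qbar : Type := AlgebraicClosure ℚ

/-- The ring of algebraic integers in `ℂ`. -/
abbrev Zbar : Type := integralClosure ℤ ℂ

/-- The fixed embedding `Qbar → ℂ` (used by ALL blocks). -/
def embC : Qbar →ₐ[ℚ] ℂ :=
  haveI : IsAlgClosure ℚ Qbar := by
    have h : (AlgebraicClosure.instAlgebra ℚ : Algebra ℚ (AlgebraicClosure ℚ)) =
        DivisionRing.toRatAlgebra := Subsingleton.elim _ _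
    rw [← h]
    infer_instance
  haveI : Algebra.IsAlgebraic ℚ Qbar := IsAlgClosure.isAlgebraic
  IsAlgClosed.lift

/-- The function field `F_N = Qbar(j(q), j(q^N))` (prelude `modularFunctionFieldBar N`). -/
abbrev FN (N : ℕ) : Type := ↥(modularFunctionFieldBar N)

/-- Parabolic homomorphisms `Γ₀(N) → ZMod p`. -/
abbrev Lam (N p : ℕ) : Submodule (ZMod p) (Additive ↥(Gamma0 N) →+ ZMod p) :=
  Period.parabolicHoms (ZMod p) (Gamma0 N) (ZMod p)

/-! ## Analytic roots -/

/-- The character `χ_c(γ) = exp(2π i c(γ)/p)`. -/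
def chiOf (N p : ℕ) (c : Additive ↥(Gamma0 N) →+ ZMod p) (γ : ↥(Gamma0 N)) : ℂ :=
  Complex.exp (2 * Real.pi * Complex.I * (((c (Additive.ofMul γ)).val : ℕ) : ℂ) / (p : ℂ))

/-- `F` has the `q`-expansion of `f ∈ F_N` near `i∞`:  `F τ = ∑_n embC(a_n(f)) e^{2π i n τ}` for
`Im τ > B`. -/
def HasQExp {N : ℕ} (f : FN N) (F : ℍ → ℂ) : Prop :=
  ∃ B : ℝ, ∀ τ : ℍ, B < τ.im →
    HasSum (fun n : ℤ => embC ((f : LaurentSeries Qbar).coeff n)
      * Complex.exp (2 * Real.pi * Complex.I * (n : ℂ) * (τ : ℂ))) (F τ)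

/-- `f ∈ F_N` has a HOLOMORPHIC `p`-th root `s` on the upper half plane with character `χ_c`:
`s (γ • τ) = χ_c(γ) * s τ` for `γ ∈ Γ₀(N)`, `s ≠ 0`, and `s ^ p` has the `q`-expansion of `f`. -/
def RootProp (N p : ℕ) (c : Additive ↥(Gamma0 N) →+ ZMod p) (f : FN N) : Prop :=
  ∃ s : ℍ → ℂ, MDifferentiable 𝓘(ℂ) 𝓘(ℂ) s ∧ (∃ τ : ℍ, s τ ≠ 0) ∧
    (∀ (γ : ↥(Gamma0 N)) (τ : ℍ), s ((γ : SL(2, ℤ)) • τ) = chiOf N p c γ * s τ) ∧
    HasQExp f (fun τ => s τ ^ p)

/-! ## BRIDGE statements (N1–N4; N5 and THETA are in `ThetaInterfaces.lean`) -/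

/-- (N1: EIS + DESC) every parabolic character has a root function in `F_N`. -/
def ExistRootStatement : Prop :=
  ∀ (N p : ℕ) [NeZero N] [Fact p.Prime], 5 ≤ p → ∀ c : ↥(Lam N p),
    ∃ f : FN N, RootProp N p (c : Additive ↥(Gamma0 N) →+ ZMod p) f

/-- (N2: DICT) the divisor of a root function is divisible by `p`. -/
def DivByPStatement : Prop :=
  ∀ (N p : ℕ) [NeZero N] [Fact p.Prime], 5 ≤ p → ∀ (c : ↥(Lam N p)) (f : FN N),
    RootProp N p (c : Additive ↥(Gamma0 N) →+ ZMod p) f →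
      ∀ P : Place Qbar (FN N), (p : ℤ) ∣ P.ord f

/-- (N3: DICT) two root functions for the same character differ by `a * h ^ p`. -/
def SameCharStatement : Prop :=
  ∀ (N p : ℕ) [NeZero N] [Fact p.Prime], 5 ≤ p → ∀ (c : ↥(Lam N p)) (f f' : FN N),
    RootProp N p (c : Additive ↥(Gamma0 N) →+ ZMod p) f →
    RootProp N p (c : Additive ↥(Gamma0 N) →+ ZMod p) f' →
      ∃ (a : Qbar) (h : FN N), a ≠ 0 ∧ h ≠ 0 ∧ f' = algebraMap Qbar (FN N) a * h ^ p * f

/-- (N4: DICT) a root function of the form `a * h ^ p` has trivial character. -/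
def TrivCharStatement : Prop :=
  ∀ (N p : ℕ) [NeZero N] [Fact p.Prime], 5 ≤ p → ∀ (c : ↥(Lam N p)) (a : Qbar) (h : FN N),
    RootProp N p (c : Additive ↥(Gamma0 N) →+ ZMod p) (algebraMap Qbar (FN N) a * h ^ p) → c = 0

/-! ## Galois side (helper26) -/

/-- (ES') the Eichler–Shimura relation on `p`-power torsion, for every Frobenius element. -/
def ESStatement : Prop :=
  ∀ (N p : ℕ) [NeZero N] (ℓ : ℕ) (hℓ : ℓ.Prime), ¬ ℓ ∣ N * p →
    ∀ A : ValuationSubring Qbar, A.LiesOverPrime ℓ →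
      ∀ σ : Qbar ≃ₐ[ℚ] Qbar, A.IsFrobeniusAt σ ℓ →
        ∀ x : JZero N, (∃ n : ℕ, p ^ n • x = 0) →
          σ • σ • x - heckeOperatorBar N ⟨ℓ, hℓ⟩ (σ • x) + ℓ • x = 0

/-- (GH) Galois commutes with the Hecke operators on `J₀(N)`. -/
def GHStatement : Prop :=
  ∀ (N : ℕ) [NeZero N] (ℓ : Nat.Primes) (σ : Qbar ≃ₐ[ℚ] Qbar) (x : JZero N),
    heckeOperatorBar N ℓ (σ • x) = σ • heckeOperatorBar N ℓ x

/-- (OPEN) every point of `J₀(N)` is fixed by an open subgroup of the Galois group. -/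
def OpenStabStatement : Prop :=
  ∀ (N : ℕ) [NeZero N] (x : JZero N),
    ∃ E : IntermediateField ℚ Qbar, FiniteDimensional ℚ E ∧
      ∀ σ : Qbar ≃ₐ[ℚ] Qbar, σ ∈ E.fixingSubgroup → σ • x = x

end

end Fermat.Agent.S42
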