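/-
S42 moonshot — THETA interface (helper26): the Hecke statement (N5) and the THETA statement,
stated against helper19's cohomological Hecke operator `perTcohLam N ℓ p`
(`PERLam N p = Lam N p`).
-/
import Fermat.Agent.S42.Interfaces
import Fermat.Agent.S42.PERInterfaces

set_option autoImplicit false

open ModularCurve AlgebraicCurve CongruenceSubgroup
open UpperHalfPlane
open scoped TensorProduct MatrixGroups Manifold

namespace Fermat.Agent.S42

noncomputable section

/-- (N5: HECKE) the Hecke correspondence sends the divisor of a root function for `c` to the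
divisor of a root function for `perTcohLam N ℓ p c`. -/
def HeckeRootStatement : Prop :=
  ∀ (N p ℓ : ℕ) [NeZero N] [NeZero ℓ] [Fact p.Prime], 5 ≤ p → ℓ.Prime → ¬ ℓ ∣ N * p →
    ∀ (hI : HeckeInputsAlong Qbar N ℓ) (c : ↥(Lam N p)) (f : FN N),
      RootProp N p (c : Additive ↥(Gamma0 N) →+ ZMod p) f →
      ∃ f' : FN N, RootProp N p (perTcohLam N ℓ p c : Additive ↥(Gamma0 N) →+ ZMod p) f' ∧
        ∀ D : Divisor Qbar (FN N), (∀ P : Place Qbar (FN N), D P = P.ord f) →
          ∀ P : Place Qbar (FN N),
            (haveI := hI.snd.snd.fst; heckeDivBar hI.fst hI.snd.fst D) P = P.ord f'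

/-- (RNZ) a root function is nonzero. -/
def RootNeZeroStatement : Prop :=
  ∀ (N p : ℕ) [NeZero N] [Fact p.Prime] (c : Additive ↥(Gamma0 N) →+ ZMod p) (f : FN N),
    RootProp N p c f → f ≠ 0

/-- (RMUL) root functions multiply, characters add. -/
def RootMulStatement : Prop :=
  ∀ (N p : ℕ) [NeZero N] [Fact p.Prime] (c c' : Additive ↥(Gamma0 N) →+ ZMod p) (f f' : FN N),
    RootProp N p c f → RootProp N p c' f' → RootProp N p (c + c') (f * f')

/-- (CONST) a nonzero function without zeros and poles is a constant. -/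
def ConstStatement : Prop :=
  ∀ (N : ℕ) [NeZero N] (f : FN N), f ≠ 0 → (∀ P : Place Qbar (FN N), P.ord f = 0) →
    ∃ a : Qbar, f = algebraMap Qbar (FN N) a

/-- (THETA) the injective Hecke-equivariant map `Lam N p → J₀(N)` (with image in the
`p`-torsion, automatically). -/
def ThetaStatement : Prop :=
  ∀ (N p : ℕ) [NeZero N] [Fact p.Prime], 5 ≤ p →
    ∃ Θ : ↥(Lam N p) →+ JZero N, Function.Injective Θ ∧
      ∀ ℓ : Nat.Primes, ¬ (ℓ : ℕ) ∣ N * p → ∀ c : ↥(Lam N p),
        Θ (perTcohLam N ℓ p c) = heckeOperatorBar N ℓ (Θ c)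

end

end Fermat.Agent.S42
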