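/-
S42 moonshot — FINAL glue (helper26): the lead's `S42InputsStatement` from the block statements
(THETA, ES', GH, OPEN, PER-MAIN, integrality, FREYKER).
-/
import Mathlib
import Fermat.Agent.S42.ThetaInterfaces
import Fermat.Agent.S42.PERInterfaces2
import Fermat.Agent.S42.FinalWiring

set_option autoImplicit false

open WeierstrassCurve WeierstrassCurve.Affine.Point
open ModularCurve AlgebraicCurve CongruenceSubgroup
open scoped TensorProduct

namespace Fermat.Agent.S42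

attribute [local instance] FreyPackage.instDecEqQbarCongruenceRecovery

noncomputable section

/-- `J₀(N)[p]` as an additive subgroup of `J₀(N)`. -/
abbrev fgTors (N p : ℕ) : AddSubgroup (JZero N) :=
  Pic0.torsion Qbar (modularFunctionFieldBar N) p

theorem fg_hecke_mem (N p : ℕ) [NeZero N] (ℓ : Nat.Primes) (x : fgTors N p) :
    heckeOperatorBar N ℓ (x : JZero N) ∈ fgTors N p := by
  rw [Pic0.mem_torsion, ← map_zsmul, Pic0.mem_torsion.mp x.2, _root_.map_zero]

/-- The Hecke operator on the `p`-torsion, as an additive map. -/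
def fgTadd (N p : ℕ) [NeZero N] (ℓ : Nat.Primes) : fgTors N p →+ fgTors N p :=
  ((heckeOperatorBar N ℓ).toAddMonoidHom.comp (fgTors N p).subtype).codRestrict (fgTors N p)
    (fg_hecke_mem N p ℓ)

theorem fgTadd_coe (N p : ℕ) [NeZero N] (ℓ : Nat.Primes) (x : fgTors N p) :
    ((fgTadd N p ℓ x : fgTors N p) : JZero N) = heckeOperatorBar N ℓ (x : JZero N) := rfl

/-- The Hecke operators on the `p`-torsion, indexed by all natural numbers (`0` at non-primes). -/
def fgT (N p : ℕ) [NeZero N] (ℓ : ℕ) : Module.End (ZMod p) (fgTors N p) :=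
  if hℓ : ℓ.Prime then (fgTadd N p ⟨ℓ, hℓ⟩).toZModLinearMap p else 0

theorem fgT_coe (N p : ℕ) [NeZero N] (ℓ : ℕ) (hℓ : ℓ.Prime) (x : fgTors N p) :
    ((fgT N p ℓ x : fgTors N p) : JZero N) = heckeOperatorBar N ⟨ℓ, hℓ⟩ (x : JZero N) := by
  unfold fgT
  rw [dif_pos hℓ]
  rfl

theorem fg_theta_mem (N p : ℕ) (Θ : ↥(Lam N p) →+ JZero N) (c : ↥(Lam N p)) :
    Θ c ∈ fgTors N p := by
  rw [Pic0.mem_torsion, ← map_zsmul, natCast_zsmul, ZModModule.char_nsmul_eq_zero, _root_.map_zero]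

/-- `Θ` with values in the `p`-torsion, as a `ZMod p`-linear map. -/
def fgTheta (N p : ℕ) (Θ : ↥(Lam N p) →+ JZero N) : ↥(Lam N p) →ₗ[ZMod p] fgTors N p :=
  (Θ.codRestrict (fgTors N p) (fg_theta_mem N p Θ)).toZModLinearMap p

theorem fgTheta_coe (N p : ℕ) (Θ : ↥(Lam N p) →+ JZero N) (c : ↥(Lam N p)) :
    ((fgTheta N p Θ c : fgTors N p) : JZero N) = Θ c := rfl

theorem fgTheta_injective (N p : ℕ) (Θ : ↥(Lam N p) →+ JZero N) (hΘ : Function.Injective Θ) :
    Function.Injective (fgTheta N p Θ) := by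
  intro c d h
  apply hΘ
  have := congrArg (fun y : fgTors N p => (y : JZero N)) h
  simpa [fgTheta_coe] using this

theorem fg_baseChange_injective {k K A B : Type} [Field k] [Field K] [Algebra k K]
    [AddCommGroup A] [Module k A] [AddCommGroup B] [Module k B] (f : A →ₗ[k] B)
    (hf : Function.Injective f) : Function.Injective (f.baseChange K) := by
  have h := Module.Flat.lTensor_preserves_injective_linearMap (M := K) f hf
  rw [← LinearMap.baseChange_eq_ltensor] at h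
  exact h

theorem fg_not_dvd {N p ℓ : ℕ} (hp : p.Prime) (hℓ : ℓ.Prime) (hℓN : ¬ ℓ ∣ N) (hℓp : ℓ ≠ p) :
    ¬ ℓ ∣ N * p := by
  intro h
  rcases (Nat.Prime.dvd_mul hℓ).mp h with h | h
  · exact hℓN h
  · exact hℓp ((Nat.prime_dvd_prime_iff_eq hℓ hp).mp h)

/-- The integral Hecke eigenvalues. -/
def fgCoeff (M : ℕ) (g : CuspForm (CongruenceSubgroup.Gamma0 M) 2) (ℓ : ℕ) : Zbar := by
  classical
  exact if h : IsIntegral ℤ (ModularFormClass.qCoeff g ℓ) then ⟨ModularFormClass.qCoeff g ℓ, h⟩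
    else 0

/-- The lead's `S42InputsStatement` from the block statements. -/
theorem fg_inputs (hTheta : ThetaStatement) (hES : ESStatement) (hGH : GHStatement)
    (hOpen : OpenStabStatement) (hPer : PERMainStatement) (hInt : PERIntegralStatement)
    (hFrey : ∀ P : FreyPackage, ∃ FE : IntermediateField ℚ (AlgebraicClosure ℚ),
      FiniteDimensional ℚ FE ∧ FE.fixingSubgroup ≤
        (galoisRepModuleEnd (S := ℚ) (K := AlgebraicClosure ℚ) P.freyCurve P.p).ker) :
    S42InputsStatement := by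
  intro P M hM g hg 𝔪 h𝔪 _ K _ _ _ ψ hψ
  have : NeZero M := ⟨hM.ne'⟩
  have : Fact P.p.Prime := ⟨P.pp⟩
  obtain ⟨FE, hFE, hFEker⟩ := hFrey P
  obtain ⟨Θ, hΘinj, hΘT⟩ := hTheta M P.p P.hp5
  -- integrality
  have ha : ∀ ℓ : ℕ, ℓ.Prime → ¬ ℓ ∣ M →
      ((fgCoeff M g ℓ : Zbar) : ℂ) = ModularFormClass.qCoeff g ℓ := by
    intro ℓ hℓ hℓM
    unfold fgCoeff
    rw [dif_pos (hInt M g hg ℓ hℓ hℓM)]
  -- the eigenvector
  obtain ⟨v, hv, hvT⟩ := hPer M P.p g hg 𝔪 h𝔪 K ψ hψ
  refine ⟨fgCoeff M g, fgTors M P.p, inferInstance, inferInstance, JZero.torsionGaloisRep M P.p,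
    fgT M P.p, (fgTheta M P.p Θ).baseChange K v, FE, ha, ?_, ?_, ?_, ?_, ?_, hFE, hFEker⟩
  · -- GH
    intro ℓ hℓ hℓM hℓp σ
    apply LinearMap.ext
    intro x
    apply Subtype.ext
    rw [Module.End.mul_apply, Module.End.mul_apply, fgT_coe M P.p ℓ hℓ,
      JZero.coe_torsionGaloisRep_apply, JZero.coe_torsionGaloisRep_apply, fgT_coe M P.p ℓ hℓ]
    exact hGH M ⟨ℓ, hℓ⟩ σ (x : JZero M)
  · -- OPEN
    intro x
    obtain ⟨E, hE, hEfix⟩ := hOpen M (x : JZero M)
    refine ⟨E, hE, fun σ hσ => ?_⟩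
    apply Subtype.ext
    rw [JZero.coe_torsionGaloisRep_apply]
    exact hEfix σ hσ
  · -- ES
    intro ℓ hℓ hℓM hℓp A hA τ hτ
    apply LinearMap.ext
    intro x
    apply Subtype.ext
    have hx : ∃ n : ℕ, P.p ^ n • (x : JZero M) = 0 := by
      refine ⟨1, ?_⟩
      rw [pow_one, ← natCast_zsmul]
      exact Pic0.mem_torsion.mp x.2
    have h := hES M P.p ℓ hℓ (fg_not_dvd P.pp hℓ hℓM hℓp) A hA τ hτ (x : JZero M) hx
    rw [LinearMap.add_apply, LinearMap.sub_apply, Module.End.mul_apply, Module.End.mul_apply,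
      LinearMap.smul_apply, Module.End.one_apply, LinearMap.zero_apply, Nat.cast_smul_eq_nsmul]
    rw [AddSubgroup.coe_add, AddSubgroup.coe_sub, AddSubgroup.coe_nsmul, ZeroMemClass.coe_zero,
      fgT_coe M P.p ℓ hℓ, JZero.coe_torsionGaloisRep_apply, JZero.coe_torsionGaloisRep_apply]
    exact h
  · -- `w ≠ 0`
    intro hw0
    apply hv
    apply fg_baseChange_injective (fgTheta M P.p Θ) (fgTheta_injective M P.p Θ hΘinj)
    rw [hw0, _root_.map_zero]
  · -- eigenvector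
    intro ℓ hℓ hℓM hℓp
    have hcomm : fgT M P.p ℓ ∘ₗ fgTheta M P.p Θ = fgTheta M P.p Θ ∘ₗ perTcohLam M ℓ P.p := by
      apply LinearMap.ext
      intro c
      apply Subtype.ext
      rw [LinearMap.comp_apply, LinearMap.comp_apply, fgT_coe M P.p ℓ hℓ, fgTheta_coe,
        fgTheta_coe]
      exact (hΘT ⟨ℓ, hℓ⟩ (fg_not_dvd P.pp hℓ hℓM hℓp) c).symm
    have h1 : (fgT M P.p ℓ).baseChange K ((fgTheta M P.p Θ).baseChange K v)
        = (fgT M P.p ℓ ∘ₗ fgTheta M P.p Θ).baseChange K v := by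
      rw [LinearMap.baseChange_comp]; rfl
    rw [h1, hcomm, LinearMap.baseChange_comp, LinearMap.comp_apply,
      hvT ℓ hℓ hℓM (fgCoeff M g ℓ) (ha ℓ hℓ hℓM), map_smul]

end

end Fermat.Agent.S42
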