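/-
S42 moonshot — blocks DICT / ROOT / DESC / KUM (sub-lead helper22): INTERFACE FILE.
Definitions and statement-`Prop`s only.  Each work package proves one of the `…Statement : Prop`
definitions below in its own file `Fermat/Agent/S42/<Package>.lean` (possibly assuming other
statements as explicit hypotheses).

Conventions (as in the S24 analytic interface, which is imported and reused):
functions on the upper half plane are plain functions `ℍ → ℂ`; holomorphy is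
`MDifferentiable 𝓘(ℂ) 𝓘(ℂ)`; `SL(2, ℤ)` acts on `ℍ` by Möbius transformations; `IsCuspMer h f`
(holomorphic on `ℍ`, `h`-periodic, meromorphic at `∞`), `Qexp h f` (Laurent expansion in
`q_h = exp(2πiτ/h)`), `ordAt τ₀ f`, `Jfun`, `iotaHom : ℚ̄ →+* ℂ`, `Kbar = ℚ̄`, `jBar N` are those
of `Fermat.Agent.S24`.
-/
import Fermat.Agent.S24.AnalyticInterfaces
import Fermat.Prelude.Def_ModularCurve_X0ModL

set_option autoImplicit false

open UpperHalfPlane ModularForm Complex CongruenceSubgroup ModularGroup AlgebraicCurve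
open scoped MatrixGroups Manifold Real

namespace Fermat.Agent.S42

open Fermat.Agent.S24

noncomputable section

/-! ## Shared definitions -/

/-- `φ` is holomorphic on `ℍ`. -/
def Hol (φ : ℍ → ℂ) : Prop := MDifferentiable 𝓘(ℂ) 𝓘(ℂ) φ

/-- `φ` is invariant under `Γ₀(N)`. -/
def dict_Inv (N : ℕ) (φ : ℍ → ℂ) : Prop :=
  ∀ γ : SL(2, ℤ), γ ∈ Gamma0 N → ∀ z : ℍ, φ (γ • z) = φ z

/-- `φ` is holomorphic on `ℍ` and, for every `γ ∈ SL(2, ℤ)`, `φ ∘ γ` is `N`-periodic and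
meromorphic at `∞` ("`φ` is meromorphic at every cusp"). -/
def dict_CuspMer (N : ℕ) (φ : ℍ → ℂ) : Prop :=
  ∀ γ : SL(2, ℤ), IsCuspMer N (fun z : ℍ => φ (γ • z))

/-- `φ` is an integral modular function of level `Γ₀(N)`: holomorphic on `ℍ`, `Γ₀(N)`-invariant,
meromorphic at all cusps. -/
def dict_ModFun (N : ℕ) (φ : ℍ → ℂ) : Prop := dict_Inv N φ ∧ dict_CuspMer N φ

/-- Analytic realisation over `ℂ`: `φ` is `1`-periodic, holomorphic, meromorphic at `∞`, with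
`q`-expansion `x`. -/
def dict_AnC (x : LaurentSeries ℂ) (φ : ℍ → ℂ) : Prop := IsCuspMer 1 φ ∧ Qexp 1 φ = x

/-- Analytic realisation over `ℚ̄`: the `q`-expansion of `φ` is `x` (coefficients mapped by
`iotaHom`). -/
def dict_An (x : LaurentSeries Kbar) (φ : ℍ → ℂ) : Prop :=
  dict_AnC (ModularCurve.coeffMap iotaHom x) φ

/-- The `q`-expansion at `∞` of `φ` has coefficients in `ℚ̄` (i.e. in the range of `iotaHom`). -/
def dict_Rat (φ : ℍ → ℂ) : Prop := ∀ n : ℤ, (Qexp 1 φ).coeff n ∈ Set.range iotaHom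

/-- The function field of `X₀(N)` over `ℂ`, inside `ℂ((q))` (prelude). -/
abbrev FNC (N : ℕ) [NeZero N] : IntermediateField ℂ (LaurentSeries ℂ) :=
  ModularCurve.modularFunctionFieldFullC ℂ N

/-- The function field of `X₀(N)` over `ℚ̄`, inside `ℚ̄((q))` (prelude). -/
abbrev FNbar (N : ℕ) : IntermediateField Kbar (LaurentSeries Kbar) :=
  ModularCurve.modularFunctionFieldBar N

/-- `j` as an element of `FNC N`. -/
def jC (N : ℕ) [NeZero N] : ↥(FNC N) :=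
  ⟨ModularCurve.qExpand ℂ 1 (ModularCurve.jqModC ℂ),
    ModularCurve.jqModCd_mem_full ℂ N (one_dvd N)⟩

/-- `χ` is trivial on the elements of `Γ₀(N)` of trace `±2` (as for the prelude's
`IsParabolicHom`). -/
def kum_Par (N : ℕ) (χ : ↥(Gamma0 N) → ℂ) : Prop :=
  ∀ γ : ↥(Gamma0 N), ((γ : SL(2, ℤ)) : Matrix (Fin 2) (Fin 2) ℤ).trace ^ 2 = 4 → χ γ = 1

/-- `s` is a "Kummer root" of level `Γ₀(N)`, exponent `p` and multiplier `χ`: holomorphic and
nonzero on `ℍ`, `s (γ z) = χ γ * s z` for `γ ∈ Γ₀(N)`, `χ γ ^ p = 1`, and `s ^ p` (which is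
`Γ₀(N)`-invariant) is meromorphic at all cusps. -/
def kum_Root (N p : ℕ) (χ : ↥(Gamma0 N) → ℂ) (s : ℍ → ℂ) : Prop :=
  Hol s ∧ s ≠ 0 ∧
  (∀ γ : ↥(Gamma0 N), χ γ ^ p = 1 ∧ ∀ z : ℍ, s ((γ : SL(2, ℤ)) • z) = χ γ * s z) ∧
  dict_CuspMer N (fun z : ℍ => s z ^ p)

/-! ## Block DC: the dictionary over `ℂ` -/

/-- (DC0) `FNC N` is a function field of one variable over `ℂ`: `j` is transcendental and
`FNC N` is finite over `ℂ(j)` (so the general S24 statements `zerosStatement`, `polesStatement`,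
`centerStatement`, `principalStatement`, … apply to it). -/
def dict_FinCStatement : Prop :=
  ∀ (N : ℕ) [NeZero N], Transcendental ℂ (jC N) ∧
    FiniteDimensional (IntermediateField.adjoin ℂ ({jC N} : Set ↥(FNC N))) ↥(FNC N)

/-- (DC1) Every integral modular function of level `Γ₀(N)` lies in `ℂ(j(dτ) : d ∣ N)`: its
`q`-expansion is an element of `FNC N`. -/
def dict_FieldCStatement : Prop :=
  ∀ (N : ℕ) [NeZero N] (φ : ℍ → ℂ), dict_ModFun N φ → Qexp 1 φ ∈ FNC N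

/-- (DC2) Every element of `FNC N` is a quotient of two elements realised by integral modular
functions. -/
def dict_RepCStatement : Prop :=
  ∀ (N : ℕ) [NeZero N] (x : ↥(FNC N)), ∃ (x₁ x₂ : ↥(FNC N)) (φ₁ φ₂ : ℍ → ℂ),
    x₂ ≠ 0 ∧ x * x₂ = x₁ ∧ dict_AnC x₁ φ₁ ∧ dict_AnC x₂ φ₂ ∧ dict_ModFun N φ₁ ∧ dict_ModFun N φ₂

/-- (DC3) An element of `FNC N` integral over `ℂ[j]` is realised by an integral modular
function. -/
def dict_IntCStatement : Prop :=
  ∀ (N : ℕ) [NeZero N] (x : ↥(FNC N)),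
    IsIntegral ↥(Algebra.adjoin ℂ ({jC N} : Set ↥(FNC N))) x →
    ∃ φ : ℍ → ℂ, dict_AnC x φ ∧ dict_ModFun N φ

/-- (DC3') Conversely, an element of `FNC N` realised by an integral modular function is integral
over `ℂ[j]`. -/
def dict_IntC'Statement : Prop :=
  ∀ (N : ℕ) [NeZero N] (x : ↥(FNC N)) (φ : ℍ → ℂ), dict_AnC x φ → dict_ModFun N φ →
    IsIntegral ↥(Algebra.adjoin ℂ ({jC N} : Set ↥(FNC N))) x

/-- (DC3'') An element of `FNC N` without poles at the finite places (those where `j` has no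
pole) is integral over `ℂ[j]`. -/
def dict_IntPlacesCStatement : Prop :=
  ∀ (N : ℕ) [NeZero N] (x : ↥(FNC N)),
    (∀ P : Place ℂ ↥(FNC N), 0 ≤ P.ord (jC N) → 0 ≤ P.ord x) →
    IsIntegral ↥(Algebra.adjoin ℂ ({jC N} : Set ↥(FNC N))) x

/-- (DC4) Points give finite places: for every `z : ℍ` there are a place `P` of `FNC N` at which
`j` has no pole and `m ≥ 1` with `ord_z φ = m * ord_P x` whenever the integral modular
function `φ` realises `x ≠ 0`. -/
def dict_PointPlaceCStatement : Prop :=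
  ∀ (N : ℕ) [NeZero N] (z : ℍ), ∃ (P : Place ℂ ↥(FNC N)) (m : ℕ),
    0 < m ∧ 0 ≤ P.ord (jC N) ∧
    ∀ (x : ↥(FNC N)) (φ : ℍ → ℂ), x ≠ 0 → dict_AnC x φ → dict_ModFun N φ →
      (ordAt z φ : ℤ) = m * P.ord x

/-- (DC5) Every finite place of `FNC N` comes from a point of `ℍ`. -/
def dict_PlacePointCStatement : Prop :=
  ∀ (N : ℕ) [NeZero N] (P : Place ℂ ↥(FNC N)), 0 ≤ P.ord (jC N) →
    ∃ (z : ℍ) (m : ℕ), (m = 1 ∨ m = 2 ∨ m = 3) ∧
    ∀ (x : ↥(FNC N)) (φ : ℍ → ℂ), x ≠ 0 → dict_AnC x φ → dict_ModFun N φ →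
      (ordAt z φ : ℤ) = m * P.ord x

/-! ## Block DQ: the dictionary over `ℚ̄` -/

/-- (DQ1) An integral modular function of level `Γ₀(N)` with `ℚ̄`-rational `q`-expansion is the
realisation of an element of the prelude's function field `FNbar N`. -/
def dict_ImgStatement : Prop :=
  ∀ (N : ℕ) [NeZero N] (φ : ℍ → ℂ), dict_ModFun N φ → dict_Rat φ →
    ∃ f : ↥(FNbar N), dict_An (f : LaurentSeries Kbar) φ

/-- (DQ2) Every element of `FNbar N` is a quotient of two elements realised by integral modular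
functions. -/
def dict_RepStatement : Prop :=
  ∀ (N : ℕ) [NeZero N] (f : ↥(FNbar N)), ∃ (f₁ f₂ : ↥(FNbar N)) (φ₁ φ₂ : ℍ → ℂ),
    f₂ ≠ 0 ∧ f * f₂ = f₁ ∧ dict_An (f₁ : LaurentSeries Kbar) φ₁ ∧
    dict_An (f₂ : LaurentSeries Kbar) φ₂ ∧ dict_ModFun N φ₁ ∧ dict_ModFun N φ₂

/-- (DQ3) Every finite place of `FNbar N` comes from a point of `ℍ`, with multiplicity
`m ∈ {1, 2, 3}`. -/
def dict_PlacePointStatement : Prop :=
  ∀ (N : ℕ) [NeZero N] (P : Place Kbar ↥(FNbar N)), 0 ≤ P.ord (jBar N) →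
    ∃ (z : ℍ) (m : ℕ), (m = 1 ∨ m = 2 ∨ m = 3) ∧
    ∀ (f : ↥(FNbar N)) (φ : ℍ → ℂ), f ≠ 0 → dict_An (f : LaurentSeries Kbar) φ →
      dict_ModFun N φ → (ordAt z φ : ℤ) = m * P.ord f

/-- (DQ4) Every infinite place of `FNbar N` comes from a cusp `γ ∞`, and the local parameter is
`q_h`, `h` the width of the cusp: `γ T^h γ⁻¹ ∈ Γ₀(N)`, `h ∣ N`, and the `q_N`-order of `φ ∘ γ`
is `(N / h) * ord_P f`. -/
def dict_CuspPlaceStatement : Prop :=
  ∀ (N : ℕ) [NeZero N] (P : Place Kbar ↥(FNbar N)), P.ord (jBar N) < 0 →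
    ∃ (γ : SL(2, ℤ)) (h : ℕ), 0 < h ∧ h ∣ N ∧ γ * T ^ h * γ⁻¹ ∈ Gamma0 N ∧
    ∀ (f : ↥(FNbar N)) (φ : ℍ → ℂ), f ≠ 0 → dict_An (f : LaurentSeries Kbar) φ →
      dict_ModFun N φ →
      ((Qexp N (fun z : ℍ => φ (γ • z))).order : ℤ) = ((N / h : ℕ) : ℤ) * P.ord f

/-! ## Block ROOT -/

/-- (ROOT) A nonzero holomorphic function on `ℍ` all of whose orders of vanishing are divisible
by `p` is the `p`-th power of a holomorphic function. -/
def root_Statement : Prop :=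
  ∀ (p : ℕ) (f : ℍ → ℂ), 0 < p → Hol f → f ≠ 0 → (∀ z : ℍ, p ∣ ordAt z f) →
    ∃ g : ℍ → ℂ, Hol g ∧ ∀ z : ℍ, g z ^ p = f z

/-! ## Block DESC -/

/-- (DS-alg) A complex number with finite orbit under the automorphisms of `ℂ` fixing `ℚ̄` is
algebraic (lies in the range of `iotaHom`). -/
def desc_AlgStatement : Prop :=
  ∀ c : ℂ, {d : ℂ | ∃ σ : ℂ ≃+* ℂ, (∀ a : Kbar, σ (iotaHom a) = iotaHom a) ∧ σ c = d}.Finite →
    c ∈ Set.range iotaHom

/-- (DS-fin) There are only finitely many `p`-torsion characters of `Γ₀(N)`. -/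
def desc_FinStatement : Prop :=
  ∀ (N : ℕ) [NeZero N] (p : ℕ), 0 < p →
    {χ : ↥(Gamma0 N) → ℂ | (∀ γ, χ γ ^ p = 1) ∧ ∀ γ γ', χ (γ * γ') = χ γ * χ γ'}.Finite

/-- (DESC) Descent: if a Kummer root with multiplier `χ` exists, then one exists whose `p`-th
power has a `ℚ̄`-rational `q`-expansion. -/
def desc_Statement : Prop :=
  ∀ (N : ℕ) [NeZero N] (p : ℕ), p.Prime → 5 ≤ p → ∀ (χ : ↥(Gamma0 N) → ℂ) (s₀ : ℍ → ℂ),
    kum_Root N p χ s₀ →
    ∃ s : ℍ → ℂ, kum_Root N p χ s ∧ dict_Rat (fun z : ℍ => s z ^ p)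

/-! ## Block KUM: the output for THETA (helper26) -/

/-- (K1) Existence of the Kummer generator: for every multiplier `χ` admitting a Kummer root
(supplied by EIS) there are `f ≠ 0` in the function field of `X₀(N)` over `ℚ̄` and a Kummer root
`s` with multiplier `χ` such that `s ^ p` realises `f`. -/
def kum_ExistsStatement : Prop :=
  ∀ (N : ℕ) [NeZero N] (p : ℕ), p.Prime → 5 ≤ p → ∀ (χ : ↥(Gamma0 N) → ℂ) (s₀ : ℍ → ℂ),
    kum_Root N p χ s₀ →
    ∃ (f : ↥(FNbar N)) (s : ℍ → ℂ), f ≠ 0 ∧ kum_Root N p χ s ∧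
      dict_An (f : LaurentSeries Kbar) (fun z : ℍ => s z ^ p)

/-- (K2) The divisor of a Kummer generator is divisible by `p`. -/
def kum_DivStatement : Prop :=
  ∀ (N : ℕ) [NeZero N] (p : ℕ), p.Prime → 5 ≤ p → ∀ (χ : ↥(Gamma0 N) → ℂ) (s : ℍ → ℂ)
    (f : ↥(FNbar N)), kum_Par N χ → kum_Root N p χ s →
    dict_An (f : LaurentSeries Kbar) (fun z : ℍ => s z ^ p) →
    ∀ P : Place Kbar ↥(FNbar N), (p : ℤ) ∣ P.ord f

/-- (K3) Injectivity: if the Kummer generator is a constant times a `p`-th power in the function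
field, the multiplier is trivial on `Γ₀(N)`. -/
def kum_InjStatement : Prop :=
  ∀ (N : ℕ) [NeZero N] (p : ℕ), p.Prime → ∀ (χ : ↥(Gamma0 N) → ℂ) (s : ℍ → ℂ)
    (f h : ↥(FNbar N)) (c : Kbar), kum_Root N p χ s →
    dict_An (f : LaurentSeries Kbar) (fun z : ℍ => s z ^ p) →
    f = algebraMap Kbar ↥(FNbar N) c * h ^ p →
    ∀ γ : ↥(Gamma0 N), χ γ = 1

/-- (K4) Uniqueness / multiplicativity: if `s₁ * s₂` and `s₃` are Kummer roots ... in the form:
two Kummer generators with the same multiplier differ by a constant times a `p`-th power. -/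
def kum_UniqStatement : Prop :=
  ∀ (N : ℕ) [NeZero N] (p : ℕ), p.Prime → ∀ (χ : ↥(Gamma0 N) → ℂ) (s₁ s₂ : ℍ → ℂ)
    (f₁ f₂ : ↥(FNbar N)), kum_Root N p χ s₁ → kum_Root N p χ s₂ →
    dict_An (f₁ : LaurentSeries Kbar) (fun z : ℍ => s₁ z ^ p) →
    dict_An (f₂ : LaurentSeries Kbar) (fun z : ℍ => s₂ z ^ p) →
    ∃ (c : Kbar) (h : ↥(FNbar N)), c ≠ 0 ∧ h ≠ 0 ∧
      f₁ = algebraMap Kbar ↥(FNbar N) c * h ^ p * f₂

end

end Fermat.Agent.S42
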