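/-
S42 moonshot — shared analytic lemmas (helper22): statement-`Prop`s only.
Used by blocks DC, DQ, DESC, KUM as hypotheses; proved by dedicated leaf packages
`Fermat/Agent/S42/AL<k><T>.lean`.
-/
import Fermat.Agent.S42.DictInterfaces

set_option autoImplicit false

open UpperHalfPlane ModularForm Complex CongruenceSubgroup ModularGroup
open scoped MatrixGroups Manifold Real

namespace Fermat.Agent.S42

open Fermat.Agent.S24

noncomputable section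

/-- (AL1) Two holomorphic functions on `ℍ` with equal `p`-th powers differ by a constant `p`-th
root of unity. -/
def al_RootUnityStatement : Prop :=
  ∀ (p : ℕ) (f g : ℍ → ℂ), 0 < p → Hol f → Hol g → g ≠ 0 → (∀ z : ℍ, f z ^ p = g z ^ p) →
    ∃ ω : ℂ, ω ^ p = 1 ∧ ∀ z : ℍ, f z = ω * g z

/-- (AL2) Analytic division: if `ord_τ φ₂ ≤ ord_τ φ₁` everywhere then `φ₁ / φ₂` is holomorphic. -/
def al_DivStatement : Prop :=
  ∀ (φ₁ φ₂ : ℍ → ℂ), Hol φ₁ → Hol φ₂ → φ₁ ≠ 0 → φ₂ ≠ 0 →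
    (∀ τ : ℍ, ordAt τ φ₂ ≤ ordAt τ φ₁) →
    ∃ φ : ℍ → ℂ, Hol φ ∧ ∀ τ : ℍ, φ τ * φ₂ τ = φ₁ τ

/-- (AL3) Cusp quotient: a holomorphic quotient of two functions meromorphic at the cusp is
meromorphic at the cusp, and `Qexp` is multiplicative on it. -/
def al_CuspQuotStatement : Prop :=
  ∀ (h : ℕ) [NeZero h] (ψ ψ₁ ψ₂ : ℍ → ℂ), IsCuspMer h ψ₁ → IsCuspMer h ψ₂ → ψ₂ ≠ 0 → Hol ψ →
    (∀ τ : ℍ, ψ τ * ψ₂ τ = ψ₁ τ) → IsCuspMer h ψ ∧ Qexp h ψ * Qexp h ψ₂ = Qexp h ψ₁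

/-- (AL4) A holomorphic `h`-periodic function whose `p`-th power is meromorphic at the cusp is
meromorphic at the cusp. -/
def al_CuspRootStatement : Prop :=
  ∀ (h p : ℕ) [NeZero h] (t : ℍ → ℂ), 0 < p → Hol t →
    Function.Periodic (t ∘ ofComplex) ((h : ℝ) : ℂ) → IsCuspMer h (fun z : ℍ => t z ^ p) →
    IsCuspMer h t ∧ Qexp h (fun z : ℍ => t z ^ p) = Qexp h t ^ p

/-- (AL4') Growth form, without periodicity of `t`: if `t ^ p` has a pole of order at most `k`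
at the cusp (w.r.t. `q_h`), then `q_h ^ k * t ^ p` is bounded at `i∞` — and so is
`q_h ^ k * (a * t₁ + b * t₂) ^ p` for two such functions. -/
def al_CuspGrowthStatement : Prop :=
  ∀ (h p k : ℕ) [NeZero h] (t₁ t₂ : ℍ → ℂ) (a b : ℂ), 0 < p →
    IsBoundedAtImInfty (fun τ : ℍ => Function.Periodic.qParam (h : ℝ) (τ : ℂ) ^ k * t₁ τ ^ p) →
    IsBoundedAtImInfty (fun τ : ℍ => Function.Periodic.qParam (h : ℝ) (τ : ℂ) ^ k * t₂ τ ^ p) →
    IsBoundedAtImInfty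
      (fun τ : ℍ => Function.Periodic.qParam (h : ℝ) (τ : ℂ) ^ k * (a * t₁ τ + b * t₂ τ) ^ p)

/-- (AL5) Period refinement: if `t` is `IsCuspMer N` and moreover `h`-periodic with `h ∣ N`, its
`q_N`-expansion is supported on multiples of `N / h`. -/
def al_PeriodStatement : Prop :=
  ∀ (N h : ℕ) [NeZero N] [NeZero h] (t : ℍ → ℂ), h ∣ N → IsCuspMer N t →
    Function.Periodic (t ∘ ofComplex) ((h : ℝ) : ℂ) →
    ∀ n : ℤ, (Qexp N t).coeff n ≠ 0 → ((N / h : ℕ) : ℤ) ∣ n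

/-- (AL6) `p`-th roots of `ℚ̄`-rational Laurent series are rational up to a constant. -/
def al_SeriesRootStatement : Prop :=
  ∀ (p : ℕ) (x : LaurentSeries ℂ), 0 < p → x ≠ 0 →
    (∀ n : ℤ, (x ^ p).coeff n ∈ Set.range iotaHom) →
    ∃ a : ℂ, a ≠ 0 ∧ ∀ n : ℤ, a * x.coeff n ∈ Set.range iotaHom

/-- (AL7) A nonzero holomorphic function on `ℍ` has finite order everywhere, `ordAt` of a `p`-th
power is `p` times `ordAt`, and `ordAt z f = 0 ↔ f z ≠ 0`. -/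
def al_OrdStatement : Prop :=
  ∀ (f : ℍ → ℂ), Hol f → f ≠ 0 → ∀ z : ℍ,
    (∀ p : ℕ, ordAt z (fun τ : ℍ => f τ ^ p) = p * ordAt z f) ∧ (ordAt z f = 0 ↔ f z ≠ 0)

end

end Fermat.Agent.S42
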