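/-
S42 moonshot — block KUM (sub-lead helper22): adapters between the cross-block interface of
helper26 (`Fermat/Agent/S42/Interfaces.lean`: `RootProp`, `chiOf`, `mob`, `UH`, `HasQExp`, `Lam`)
and the S24-style analytic conventions of `DictInterfaces.lean` (`kum_Root`, `dict_An`).
Definitions and statement-`Prop`s only.

The four deliverables of helper22's blocks are the cross-block statements
`ExistRootStatement` (N1), `DivByPStatement` (N2), `SameCharStatement` (N3),
`TrivCharStatement` (N4) of `Interfaces.lean`.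
-/
import Fermat.Agent.S42.Interfaces
import Fermat.Agent.S42.DictInterfaces

set_option autoImplicit false

open UpperHalfPlane ModularForm Complex CongruenceSubgroup ModularGroup AlgebraicCurve
open scoped MatrixGroups Manifold Real

namespace Fermat.Agent.S42

open Fermat.Agent.S24

noncomputable section

/-- (EIS→KUM contract) for every parabolic `c : Γ₀(N) → ZMod p` there is a Kummer root with
multiplier `chiOf N p c` (namely `E^χ / Δ`, from the twisted Eisenstein series of block EIS). -/
def eis_RootStatement : Prop :=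
  ∀ (N p : ℕ) [NeZero N] [Fact p.Prime], 5 ≤ p → ∀ c : ↥(Lam N p),
    ∃ s₀ : ℍ → ℂ, kum_Root N p (chiOf N p (c : Additive ↥(Gamma0 N) →+ ZMod p)) s₀

/-- (AD1) from `RootProp` to the S24-style data. -/
def adapt_OfRootPropStatement : Prop :=
  ∀ (N p : ℕ) [NeZero N] [Fact p.Prime] (c : Additive ↥(Gamma0 N) →+ ZMod p) (f : FN N),
    RootProp N p c f →
    ∃ s : ℍ → ℂ, kum_Root N p (chiOf N p c) s ∧
      dict_An (f : LaurentSeries Kbar) (fun z : ℍ => s z ^ p)

/-- (AD2) from the S24-style data to `RootProp`. -/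
def adapt_ToRootPropStatement : Prop :=
  ∀ (N p : ℕ) [NeZero N] [Fact p.Prime] (c : Additive ↥(Gamma0 N) →+ ZMod p) (f : FN N)
    (s : ℍ → ℂ), kum_Root N p (chiOf N p c) s →
    dict_An (f : LaurentSeries Kbar) (fun z : ℍ => s z ^ p) → RootProp N p c f

/-- (AD3) `chiOf N p c` is trivial on elements of trace `±2` when `c` is parabolic, and
`chiOf N p c γ = 1` for all `γ` forces `c = 0`. -/
def adapt_ChiStatement : Prop :=
  ∀ (N p : ℕ) [NeZero N] [Fact p.Prime] (c : ↥(Lam N p)),
    kum_Par N (chiOf N p (c : Additive ↥(Gamma0 N) →+ ZMod p)) ∧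
    ((∀ γ : ↥(Gamma0 N), chiOf N p (c : Additive ↥(Gamma0 N) →+ ZMod p) γ = 1) → c = 0)

end

end Fermat.Agent.S42
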