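/-
S42 moonshot — block DESC (sub-lead helper182): INNER INTERFACE FILE (definitions and statement
`Prop`s only).  Each package proves one statement in its own file
`Fermat/Agent/S42/Desc<Pkg><Twin>.lean`, taking the statements it needs as explicit hypotheses;
`DescMain.lean` assembles `desc_main`.

Notation: `σ̃ = ModularCurve.coeffMap σ` for a ring automorphism `σ` of `ℂ`;
`𝒦_χ = desc_K N p χ` = the `q`-expansions of the `p`-th powers of the Kummer roots with multiplier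
`χ`; `desc_Bnd N m x`: `x ∈ FNC N` and `ord_P x ≥ m · ord_P j` at every infinite place `P`
(pole order at most `m · e_P`); `𝒦_χ^(n) = desc_Kn N p χ n` = elements of `𝒦_χ` with bound `p n`.
-/
import Fermat.Agent.S42.DictInterfaces

set_option autoImplicit false

open UpperHalfPlane ModularForm Complex CongruenceSubgroup ModularGroup AlgebraicCurve
open scoped MatrixGroups Manifold Real

namespace Fermat.Agent.S42

open Fermat.Agent.S24

noncomputable section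

/-- `𝒦_χ`: the `q`-expansions of the `p`-th powers of the Kummer roots with multiplier `χ`. -/
def desc_K (N p : ℕ) (χ : ↥(Gamma0 N) → ℂ) : Set (LaurentSeries ℂ) :=
  {x | ∃ s : ℍ → ℂ, kum_Root N p χ s ∧ dict_AnC x (fun z : ℍ => s z ^ p)}

/-- `x ∈ FNC N` and `ord_P x ≥ m · ord_P j` at every infinite place `P` of `FNC N`. -/
def desc_Bnd (N : ℕ) [NeZero N] (m : ℕ) (x : LaurentSeries ℂ) : Prop :=
  ∃ h : x ∈ FNC N, ∀ P : Place ℂ ↥(FNC N), P.ord (jC N) < 0 →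
    (m : ℤ) * P.ord (jC N) ≤ P.ord (⟨x, h⟩ : ↥(FNC N))

/-- `𝒦_χ^(n)`. -/
def desc_Kn (N : ℕ) [NeZero N] (p : ℕ) (χ : ↥(Gamma0 N) → ℂ) (n : ℕ) : Set (LaurentSeries ℂ) :=
  {x | x ∈ desc_K N p χ ∧ desc_Bnd N (p * n) x}

/-- (BAS) The `p`-th power of a Kummer root is an integral modular function, `1`-periodic and
meromorphic at `∞`, with nonzero `q`-expansion. -/
def desc_BasStatement : Prop :=
  ∀ (N : ℕ) [NeZero N] (p : ℕ) (χ : ↥(Gamma0 N) → ℂ) (s : ℍ → ℂ), 0 < p → kum_Root N p χ s →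
    dict_ModFun N (fun z : ℍ => s z ^ p) ∧ IsCuspMer 1 (fun z : ℍ => s z ^ p) ∧
    Qexp 1 (fun z : ℍ => s z ^ p) ≠ 0

/-- (RUN = AL1) Two holomorphic functions on `ℍ` with equal `p`-th powers differ by a `p`-th root
of unity. -/
def desc_RootUniqStatement : Prop :=
  ∀ (p : ℕ) (f g : ℍ → ℂ), 0 < p → Hol f → Hol g → (∀ z : ℍ, f z ^ p = g z ^ p) →
    ∃ ω : ℂ, ω ^ p = 1 ∧ ∀ z : ℍ, f z = ω * g z

/-- (MRT = AL2/AL3) A holomorphic `Γ₀(N)`-invariant function whose `p`-th power is meromorphic at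
all cusps is an integral modular function. -/
def desc_ModRootStatement : Prop :=
  ∀ (N : ℕ) [NeZero N] (p : ℕ) (w : ℍ → ℂ), 0 < p → Hol w → dict_Inv N w →
    dict_CuspMer N (fun z : ℍ => w z ^ p) → dict_ModFun N w

/-- (ADD = AL4) Kummer roots with the same multiplier form a vector space. -/
def desc_AddStatement : Prop :=
  ∀ (N : ℕ) [NeZero N] (p : ℕ) (χ : ↥(Gamma0 N) → ℂ) (s₁ s₂ : ℍ → ℂ) (c : ℂ), 0 < p →
    kum_Root N p χ s₁ → kum_Root N p χ s₂ → (fun z : ℍ => c * s₁ z - s₂ z) ≠ 0 →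
    kum_Root N p χ (fun z : ℍ => c * s₁ z - s₂ z)

/-- (SCL) `𝒦_χ^(n)` is stable under multiplication by nonzero constants. -/
def desc_ScaleStatement : Prop :=
  ∀ (N : ℕ) [NeZero N] (p : ℕ) (χ : ↥(Gamma0 N) → ℂ) (n : ℕ) (x : LaurentSeries ℂ) (a : ℂ),
    0 < p → a ≠ 0 → x ∈ desc_Kn N p χ n → HahnSeries.C a * x ∈ desc_Kn N p χ n

/-- (WPK) For two Kummer roots with the same multiplier, `w = s₁ s₂^(p-1)` is an integral modular
function and `Qexp(w)^p = Qexp(s₁^p) Qexp(s₂^p)^(p-1)`. -/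
def desc_WStatement : Prop :=
  ∀ (N : ℕ) [NeZero N] (p : ℕ) (χ : ↥(Gamma0 N) → ℂ) (s₁ s₂ : ℍ → ℂ), 0 < p →
    kum_Root N p χ s₁ → kum_Root N p χ s₂ →
    dict_ModFun N (fun z : ℍ => s₁ z * s₂ z ^ (p - 1)) ∧
    IsCuspMer 1 (fun z : ℍ => s₁ z * s₂ z ^ (p - 1)) ∧
    Qexp 1 (fun z : ℍ => s₁ z * s₂ z ^ (p - 1)) ^ p =
      Qexp 1 (fun z : ℍ => s₁ z ^ p) * Qexp 1 (fun z : ℍ => s₂ z ^ p) ^ (p - 1)

/-- (CLS) Two elements of `𝒦_χ` differ by a `p`-th power of `FNC N`. -/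
def desc_ClsStatement : Prop :=
  ∀ (N : ℕ) [NeZero N] (p : ℕ) (χ : ↥(Gamma0 N) → ℂ) (x₁ x₂ : LaurentSeries ℂ), 0 < p →
    x₁ ∈ desc_K N p χ → x₂ ∈ desc_K N p χ → ∃ u : LaurentSeries ℂ, u ∈ FNC N ∧ x₁ = u ^ p * x₂

/-- (INJ) The class modulo `p`-th powers determines the multiplier. -/
def desc_InjStatement : Prop :=
  ∀ (N : ℕ) [NeZero N] (p : ℕ) (χ₁ χ₂ : ↥(Gamma0 N) → ℂ) (x₁ x₂ u : LaurentSeries ℂ), 0 < p →
    x₁ ∈ desc_K N p χ₁ → x₂ ∈ desc_K N p χ₂ → u ∈ FNC N → x₁ = u ^ p * x₂ → χ₁ = χ₂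

/-- (SIG) `σ̃ = coeffMap σ` maps `FNC N` to itself, fixes `j`, transports places (with their
`ord`), preserves the pole bounds at infinity, the `q`-order and (up to `σ`) the leading
coefficient. -/
def desc_SigStatement : Prop :=
  ∀ (N : ℕ) [NeZero N] (σ : ℂ ≃+* ℂ),
    (∀ x : LaurentSeries ℂ, x ∈ FNC N → ModularCurve.coeffMap (σ : ℂ →+* ℂ) x ∈ FNC N) ∧
    ModularCurve.coeffMap (σ : ℂ →+* ℂ) ((jC N : ↥(FNC N)) : LaurentSeries ℂ) =
      ((jC N : ↥(FNC N)) : LaurentSeries ℂ) ∧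
    (∀ P : Place ℂ ↥(FNC N), ∃ P' : Place ℂ ↥(FNC N),
      ∀ (y : LaurentSeries ℂ) (h : y ∈ FNC N)
        (h' : ModularCurve.coeffMap (σ : ℂ →+* ℂ) y ∈ FNC N),
        P'.ord (⟨ModularCurve.coeffMap (σ : ℂ →+* ℂ) y, h'⟩ : ↥(FNC N)) =
          P.ord (⟨y, h⟩ : ↥(FNC N))) ∧
    (∀ (m : ℕ) (x : LaurentSeries ℂ), desc_Bnd N m x →
      desc_Bnd N m (ModularCurve.coeffMap (σ : ℂ →+* ℂ) x)) ∧
    (∀ x : LaurentSeries ℂ, (ModularCurve.coeffMap (σ : ℂ →+* ℂ) x).order = x.order ∧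
      (ModularCurve.coeffMap (σ : ℂ →+* ℂ) x).leadingCoeff = σ x.leadingCoeff)

/-- (KST) Kummer classes are stable under `σ̃`. -/
def desc_KstStatement : Prop :=
  ∀ (N : ℕ) [NeZero N] (p : ℕ), p.Prime → 5 ≤ p → ∀ (χ : ↥(Gamma0 N) → ℂ) (σ : ℂ ≃+* ℂ)
    (x : LaurentSeries ℂ), x ∈ desc_K N p χ →
    ∃ χ' : ↥(Gamma0 N) → ℂ, ModularCurve.coeffMap (σ : ℂ →+* ℂ) x ∈ desc_K N p χ'

/-- (BEX = CAN0) Every element of `FNC N` satisfies the pole bounds `desc_Bnd N m` for all large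
`m`. -/
def desc_BndExStatement : Prop :=
  ∀ (N : ℕ) [NeZero N] (x : LaurentSeries ℂ), x ∈ FNC N →
    ∃ n : ℕ, ∀ m : ℕ, n ≤ m → desc_Bnd N m x

/-- (ORD = CAN1) The `q`-order is bounded above on `𝒦_χ^(n)`. -/
def desc_OrdBddStatement : Prop :=
  ∀ (N : ℕ) [NeZero N] (p : ℕ) (χ : ↥(Gamma0 N) → ℂ) (n : ℕ), 0 < p →
    ∃ B : ℤ, ∀ x ∈ desc_Kn N p χ n, x.order ≤ B

/-- (DIF = CAN2) Difference lemma: two elements of `𝒦_χ^(n)` of the same order with leading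
coefficient `1` are equal, or `𝒦_χ^(n)` contains an element of strictly larger order. -/
def desc_DiffStatement : Prop :=
  ∀ (N : ℕ) [NeZero N] (p : ℕ) (χ : ↥(Gamma0 N) → ℂ) (n : ℕ) (x₁ x₂ : LaurentSeries ℂ), 0 < p →
    x₁ ∈ desc_Kn N p χ n → x₂ ∈ desc_Kn N p χ n → x₁.order = x₂.order →
    x₁.leadingCoeff = 1 → x₂.leadingCoeff = 1 →
    x₁ = x₂ ∨ ∃ y ∈ desc_Kn N p χ n, x₁.order < y.order

end

end Fermat.Agent.S42
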