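/-
S42 moonshot — package AL1 (twin A): two holomorphic functions on the upper half plane with equal
`p`-th powers differ by a constant `p`-th root of unity.
-/
import Fermat.Agent.S42.ALInterfaces
import Fermat.Agent.S24.PointVal

set_option autoImplicit false

open UpperHalfPlane ModularForm Complex
open scoped MatrixGroups Manifold Real

namespace Fermat.Agent.S42

open Fermat.Agent.S24

/-- A finite product of holomorphic functions is holomorphic, and if it vanishes identically then
one of the factors does. -/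
theorem al1A_prod (F : ℂ → ℍ → ℂ) (s : Finset ℂ) (hF : ∀ ζ ∈ s, Hol (F ζ)) :
    Hol (∏ ζ ∈ s, F ζ) ∧ ((∏ ζ ∈ s, F ζ) = 0 → ∃ ζ ∈ s, F ζ = 0) := by
  classical
  induction s using Finset.induction_on with
  | empty =>
    refine ⟨?_, ?_⟩
    · rw [Finset.prod_empty]
      exact mdifferentiable_const
    · intro h
      rw [Finset.prod_empty] at h
      exact absurd (congrFun h UpperHalfPlane.I) one_ne_zero
  | insert a s ha ih =>
    have ih' := ih (fun ζ hζ => hF ζ (Finset.mem_insert_of_mem hζ))
    have ha' : Hol (F a) := hF a (Finset.mem_insert_self a s)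
    refine ⟨?_, ?_⟩
    · rw [Finset.prod_insert ha]
      exact MDifferentiable.mul ha' ih'.1
    · intro h
      rw [Finset.prod_insert ha] at h
      rcases PointVal.pointValStatement.1 _ _ ha' ih'.1 h with h0 | h0
      · exact ⟨a, Finset.mem_insert_self a s, h0⟩
      · obtain ⟨ζ, hζ, hζ0⟩ := ih'.2 h0
        exact ⟨ζ, Finset.mem_insert_of_mem hζ, hζ0⟩

/-- (AL1) -/
theorem al1A_main : al_RootUnityStatement := by
  intro p f g hp hf hg _ hfg
  have hprim : IsPrimitiveRoot (Complex.exp (2 * Real.pi * Complex.I / p)) p :=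
    Complex.isPrimitiveRoot_exp p hp.ne'
  have hF : ∀ ζ ∈ Polynomial.nthRootsFinset p (1 : ℂ), Hol (fun z : ℍ => f z - ζ * g z) := by
    intro ζ _
    exact MDifferentiable.sub hf (MDifferentiable.mul mdifferentiable_const hg)
  have hprod : (∏ ζ ∈ Polynomial.nthRootsFinset p (1 : ℂ), fun z : ℍ => f z - ζ * g z) = 0 := by
    funext z
    rw [Finset.prod_apply, Pi.zero_apply, ← hprim.pow_sub_pow_eq_prod_sub_mul _ _ hp, hfg z, sub_self]
  obtain ⟨ζ, hζ, hζ0⟩ := (al1A_prod (fun ζ z => f z - ζ * g z) _ hF).2 hprod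
  refine ⟨ζ, (Polynomial.mem_nthRootsFinset hp (1 : ℂ)).mp hζ, fun z => ?_⟩
  have := congrFun hζ0 z
  exact sub_eq_zero.mp this

end Fermat.Agent.S42
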