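/-
S42 moonshot, package AL2 (twin A): analytic division on the upper half plane.
-/
import Fermat.Agent.S42.ALInterfaces
import Fermat.Agent.S24.PointVal

set_option autoImplicit false

open UpperHalfPlane ModularForm Complex Filter
open scoped MatrixGroups Manifold Real Topology

namespace Fermat.Agent.S42

open Fermat.Agent.S24

theorem al2A_main : al_DivStatement := by
  intro φ₁ φ₂ h1 h2 hne1 hne2 hord
  have han1 : ∀ z : ℂ, 0 < z.im → AnalyticAt ℂ (φ₁ ∘ ofComplex) z :=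
    fun z hz => PointVal.analyticAt_comp_ofComplex h1 ⟨z, hz⟩
  have han2 : ∀ z : ℂ, 0 < z.im → AnalyticAt ℂ (φ₂ ∘ ofComplex) z :=
    fun z hz => PointVal.analyticAt_comp_ofComplex h2 ⟨z, hz⟩
  have hmer : MeromorphicOn ((φ₁ ∘ ofComplex) / (φ₂ ∘ ofComplex)) {z : ℂ | 0 < z.im} :=
    fun z hz => (han1 z hz).meromorphicAt.div (han2 z hz).meromorphicAt
  obtain ⟨G, hG⟩ : ∃ G : ℂ → ℂ,
      G = toMeromorphicNFOn ((φ₁ ∘ ofComplex) / (φ₂ ∘ ofComplex)) {z : ℂ | 0 < z.im} := ⟨_, rfl⟩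
  have hGan : ∀ z : ℂ, 0 < z.im → AnalyticAt ℂ G z := by
    intro z hz
    have hnf : MeromorphicNFAt G z := by
      rw [hG]
      exact meromorphicNFOn_toMeromorphicNFOn _ _ hz
    rw [← hnf.meromorphicOrderAt_nonneg_iff_analyticAt, hG,
      meromorphicOrderAt_toMeromorphicNFOn hmer hz,
      meromorphicOrderAt_div (han1 z hz).meromorphicAt (han2 z hz).meromorphicAt,
      (han1 z hz).meromorphicOrderAt_eq, (han2 z hz).meromorphicOrderAt_eq]
    have t1 := PointVal.order_ne_top h1 hne1 ⟨z, hz⟩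
    have t2 := PointVal.order_ne_top h2 hne2 ⟨z, hz⟩
    have hle := hord ⟨z, hz⟩
    unfold ordAt at hle
    obtain ⟨a, ha⟩ := ENat.ne_top_iff_exists.mp t1
    obtain ⟨b, hb⟩ := ENat.ne_top_iff_exists.mp t2
    change (a : ℕ∞) = analyticOrderAt (φ₁ ∘ ofComplex) z at ha
    change (b : ℕ∞) = analyticOrderAt (φ₂ ∘ ofComplex) z at hb
    change (analyticOrderAt (φ₂ ∘ ofComplex) z).toNat ≤
      (analyticOrderAt (φ₁ ∘ ofComplex) z).toNat at hle
    rw [← ha, ← hb] at hle ⊢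
    simp only [ENat.toNat_natCast] at hle
    have : ((a : ℤ) : WithTop ℤ) - ((b : ℤ) : WithTop ℤ) = (((a : ℤ) - (b : ℤ) : ℤ) : WithTop ℤ) := by
      rfl
    simp only [ENat.map_natCast]
    rw [this]
    exact WithTop.coe_nonneg.2 (sub_nonneg.2 (Int.ofNat_le.2 hle))
  refine ⟨fun τ : ℍ => G (τ : ℂ), ?_, ?_⟩
  · rw [Hol, UpperHalfPlane.mdifferentiable_iff]
    refine DifferentiableOn.congr
      (fun z hz => (hGan z hz).differentiableAt.differentiableWithinAt) ?_
    intro z hz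
    simp [Function.comp_apply, ofComplex_apply_of_im_pos hz]
  · intro τ
    have hz : 0 < (τ : ℂ).im := τ.im_pos
    have t2 := PointVal.order_ne_top h2 hne2 τ
    have hF₂ne : ∀ᶠ w in 𝓝[≠] (τ : ℂ), (φ₂ ∘ ofComplex) w ≠ 0 := by
      refine (han2 _ hz).eventually_eq_zero_or_eventually_ne_zero.resolve_left ?_
      rwa [← analyticOrderAt_eq_top]
    have hev : (G * (φ₂ ∘ ofComplex)) =ᶠ[𝓝[≠] (τ : ℂ)] (φ₁ ∘ ofComplex) := by
      have h := hmer.toMeromorphicNFOn_eq_self_on_nhdsNE hz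
      rw [← hG] at h
      filter_upwards [h, hF₂ne] with w hw hw2
      rw [Pi.mul_apply, hw, Pi.div_apply, div_mul_cancel₀ _ hw2]
    have hev' := (((hGan _ hz).mul (han2 _ hz)).continuousAt.eventuallyEq_nhds_iff_eventuallyEq_nhdsNE
      (han1 _ hz).continuousAt).1 hev
    have := hev'.eq_of_nhds
    simpa [Function.comp_apply] using this

end Fermat.Agent.S42
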