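/-
S42 moonshot, shared analytic lemma AL3 (twin A): cusp quotient.
A holomorphic quotient of two functions meromorphic at the cusp is meromorphic at the cusp, and
`Qexp` is multiplicative on it.
-/
import Fermat.Agent.S42.ALInterfaces
import Fermat.Agent.S24.QexpAlg
import Fermat.Agent.S24.PointVal

set_option autoImplicit false

open UpperHalfPlane ModularForm Complex Filter Function
open scoped MatrixGroups Manifold Real Topology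

namespace Fermat.Agent.S42

open Fermat.Agent.S24

noncomputable section

/-- The quotient is `h`-periodic. -/
theorem al3A_periodic (h : ℕ) [NeZero h] (ψ ψ₁ ψ₂ : ℍ → ℂ) (k₁ k₂ : ℕ)
    (h1 : IsCuspMerOrder h k₁ ψ₁) (h2 : IsCuspMerOrder h k₂ ψ₂) (hne : ψ₂ ≠ 0)
    (hψ : MDifferentiable 𝓘(ℂ) 𝓘(ℂ) ψ) (hmul : ∀ τ : ℍ, ψ τ * ψ₂ τ = ψ₁ τ) :
    ∀ τ : ℍ, ψ ((h : ℝ) +ᵥ τ) = ψ τ := by
  have hshift : MDifferentiable 𝓘(ℂ) 𝓘(ℂ) (fun τ : ℍ => ψ ((h : ℝ) +ᵥ τ)) :=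
    Fermat.Agent.S24.Qexp.mdiff_comp hψ (fun τ => (h : ℝ) +ᵥ τ)
      (Φ := fun z => ((h : ℝ) : ℂ) + z) (by fun_prop) (fun τ => by rw [coe_vadd])
  have hg : MDifferentiable 𝓘(ℂ) 𝓘(ℂ) (fun τ : ℍ => ψ ((h : ℝ) +ᵥ τ) - ψ τ) := hshift.sub hψ
  have hzero : (fun τ : ℍ => ψ ((h : ℝ) +ᵥ τ) - ψ τ) * ψ₂ = 0 := by
    funext τ
    simp only [Pi.mul_apply, Pi.zero_apply]
    have e1 := hmul ((h : ℝ) +ᵥ τ)
    rw [Fermat.Agent.S24.Qexp.cm_vadd h2, Fermat.Agent.S24.Qexp.cm_vadd h1, ← hmul τ] at e1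
    rw [sub_mul, e1, sub_self]
  rcases PointVal.pointValStatement.1 _ _ hg h2.1 hzero with h0 | h0
  · intro τ
    have := congrFun h0 τ
    simpa [sub_eq_zero] using this
  · exact absurd h0 hne

/-- The quotient has at most a pole at the cusp. -/
theorem al3A_bdd (h : ℕ) [NeZero h] (ψ ψ₁ ψ₂ : ℍ → ℂ) (k₁ k₂ : ℕ)
    (h1 : IsCuspMerOrder h k₁ ψ₁) (h2 : IsCuspMerOrder h k₂ ψ₂) (hne : ψ₂ ≠ 0)
    (hmul : ∀ τ : ℍ, ψ τ * ψ₂ τ = ψ₁ τ) :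
    ∃ k : ℕ, IsBoundedAtImInfty
      (fun τ : ℍ => Function.Periodic.qParam (h : ℝ) (τ : ℂ) ^ k * ψ τ) := by
  have hh := Fermat.Agent.S24.Qexp.hpos h
  have hGan : AnalyticAt ℂ (cuspFunction (h : ℝ) (Fermat.Agent.S24.Qexp.tw h k₂ ψ₂)) 0 :=
    Fermat.Agent.S24.Qexp.cm_analytic_tw h2
  have hGne : ¬ ∀ᶠ z in 𝓝 (0 : ℂ),
      cuspFunction (h : ℝ) (Fermat.Agent.S24.Qexp.tw h k₂ ψ₂) z = 0 := by
    intro hev
    apply hne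
    have hP : qExpansion (h : ℝ) (Fermat.Agent.S24.Qexp.tw h k₂ ψ₂) = 0 := by
      ext m
      rw [qExpansion_coeff]
      have hev' : cuspFunction (h : ℝ) (Fermat.Agent.S24.Qexp.tw h k₂ ψ₂)
          =ᶠ[𝓝 0] (fun _ => (0 : ℂ)) := hev
      rw [hev'.iteratedDeriv_eq m]
      simp
    have htw := (qExpansion_eq_zero_iff hh (Fermat.Agent.S24.Qexp.cm_periodic_tw h2)
      (Fermat.Agent.S24.Qexp.cm_mdiff_tw h2) (Fermat.Agent.S24.Qexp.cm_bdd_tw h2)).mp hP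
    funext τ
    have e := congrFun htw τ
    rw [Fermat.Agent.S24.Qexp.tw_apply] at e
    simpa [Periodic.qParam_ne_zero] using e
  obtain ⟨m, U, hUan, hU0, hev⟩ := (hGan.exists_eventuallyEq_pow_smul_nonzero_iff).2 hGne
  have hc : 0 < ‖U 0‖ / 2 := half_pos (norm_pos_iff.2 hU0)
  have hUev : ∀ᶠ z in 𝓝 (0 : ℂ), ‖U 0‖ / 2 < ‖U z‖ :=
    hUan.continuousAt.norm.eventually (lt_mem_nhds (half_lt_self (norm_pos_iff.2 hU0)))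
  have ht := qParam_tendsto_atImInfty hh
  have hb : (fun τ : ℍ => Function.Periodic.qParam (h : ℝ) (τ : ℂ) ^ k₁ * ψ₁ τ)
      =O[atImInfty] (1 : ℍ → ℝ) := h1.2.2
  obtain ⟨M, hM⟩ := hb.bound
  refine ⟨k₁ + m, ?_⟩
  show (fun τ : ℍ => Function.Periodic.qParam (h : ℝ) (τ : ℂ) ^ (k₁ + m) * ψ τ)
      =O[atImInfty] (1 : ℍ → ℝ)
  refine Asymptotics.IsBigO.of_bound (M / (‖U 0‖ / 2)) ?_
  filter_upwards [ht.eventually hev, ht.eventually hUev, hM] with τ e1 e2 e3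
  have hGq : cuspFunction (h : ℝ) (Fermat.Agent.S24.Qexp.tw h k₂ ψ₂)
      (Function.Periodic.qParam (h : ℝ) (τ : ℂ))
      = Function.Periodic.qParam (h : ℝ) (τ : ℂ) ^ k₂ * ψ₂ τ :=
    eq_cuspFunction τ hh.ne' (Fermat.Agent.S24.Qexp.cm_periodic_tw h2)
  have e4 : Function.Periodic.qParam (h : ℝ) (τ : ℂ) ^ m
      * U (Function.Periodic.qParam (h : ℝ) (τ : ℂ))
      = Function.Periodic.qParam (h : ℝ) (τ : ℂ) ^ k₂ * ψ₂ τ := by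
    rw [← hGq, e1]
    simp [smul_eq_mul]
  have key : (Function.Periodic.qParam (h : ℝ) (τ : ℂ) ^ (k₁ + m) * ψ τ)
      * U (Function.Periodic.qParam (h : ℝ) (τ : ℂ))
      = Function.Periodic.qParam (h : ℝ) (τ : ℂ) ^ k₂
        * (Function.Periodic.qParam (h : ℝ) (τ : ℂ) ^ k₁ * ψ₁ τ) := by
    rw [← hmul τ]
    linear_combination (Function.Periodic.qParam (h : ℝ) (τ : ℂ) ^ k₁ * ψ τ) * e4
  have hn : ‖Function.Periodic.qParam (h : ℝ) (τ : ℂ) ^ (k₁ + m) * ψ τ‖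
      * ‖U (Function.Periodic.qParam (h : ℝ) (τ : ℂ))‖
      = ‖Function.Periodic.qParam (h : ℝ) (τ : ℂ) ^ k₂‖
        * ‖Function.Periodic.qParam (h : ℝ) (τ : ℂ) ^ k₁ * ψ₁ τ‖ := by
    rw [← norm_mul, ← norm_mul, key]
  have e5 : ‖Function.Periodic.qParam (h : ℝ) (τ : ℂ) ^ k₁ * ψ₁ τ‖ ≤ M := by
    simpa using e3
  have hq1 : ‖Function.Periodic.qParam (h : ℝ) (τ : ℂ) ^ k₂‖ ≤ 1 :=
    Fermat.Agent.S24.Qexp.norm_qParam_pow_le_one hh τ k₂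
  have hx : 0 ≤ ‖Function.Periodic.qParam (h : ℝ) (τ : ℂ) ^ (k₁ + m) * ψ τ‖ := norm_nonneg _
  have e6 : ‖Function.Periodic.qParam (h : ℝ) (τ : ℂ) ^ (k₁ + m) * ψ τ‖ * (‖U 0‖ / 2) ≤ M := by
    calc ‖Function.Periodic.qParam (h : ℝ) (τ : ℂ) ^ (k₁ + m) * ψ τ‖ * (‖U 0‖ / 2)
        ≤ ‖Function.Periodic.qParam (h : ℝ) (τ : ℂ) ^ (k₁ + m) * ψ τ‖
          * ‖U (Function.Periodic.qParam (h : ℝ) (τ : ℂ))‖ :=
          mul_le_mul_of_nonneg_left e2.le hx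
      _ = ‖Function.Periodic.qParam (h : ℝ) (τ : ℂ) ^ k₂‖
          * ‖Function.Periodic.qParam (h : ℝ) (τ : ℂ) ^ k₁ * ψ₁ τ‖ := hn
      _ ≤ 1 * M := mul_le_mul hq1 e5 (norm_nonneg _) zero_le_one
      _ = M := one_mul M
  have e7 : ‖Function.Periodic.qParam (h : ℝ) (τ : ℂ) ^ (k₁ + m) * ψ τ‖ ≤ M / (‖U 0‖ / 2) :=
    (le_div_iff₀ hc).2 e6
  simpa using e7

/-- (AL3) Cusp quotient. -/
theorem al3A_main : al_CuspQuotStatement := by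
  intro h _ ψ ψ₁ ψ₂ h1 h2 hne hψ hmul
  obtain ⟨k₁, h1'⟩ := h1
  obtain ⟨k₂, h2'⟩ := h2
  have hper := al3A_periodic h ψ ψ₁ ψ₂ k₁ k₂ h1' h2' hne hψ hmul
  obtain ⟨k, hk⟩ := al3A_bdd h ψ ψ₁ ψ₂ k₁ k₂ h1' h2' hne hmul
  have hcm : IsCuspMer h ψ := ⟨k, hψ, (Fermat.Agent.S24.Qexp.periodic_iff ψ h).2 hper, hk⟩
  refine ⟨hcm, ?_⟩
  rw [← Fermat.Agent.S24.Qexp.Qexp_mul hcm ⟨k₂, h2'⟩]
  congr 1
  funext τ
  exact hmul τ

end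

end Fermat.Agent.S42
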