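/-
S42 moonshot, package AL4 (twin B): `al4B_main : al_CuspRootStatement`.
-/
import Fermat.Agent.S42.ALInterfaces
import Fermat.Agent.S24.Qexp

set_option autoImplicit false

open UpperHalfPlane ModularForm Complex CongruenceSubgroup ModularGroup
open scoped MatrixGroups Manifold Real

namespace Fermat.Agent.S42

open Fermat.Agent.S24

/-- Real estimate: `x ^ p ≤ M` with `0 ≤ x`, `0 < p` gives `x ≤ max M 1`. -/
theorem al4B_root_bound (p : ℕ) (hp : 0 < p) (x M : ℝ) (h : x ^ p ≤ M) :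
    x ≤ max M 1 := by
  by_contra hlt
  rw [not_le, max_lt_iff] at hlt
  obtain ⟨h1, h2⟩ := hlt
  have h3 : x ≤ x ^ p := le_self_pow₀ h2.le (Nat.pos_iff_ne_zero.mp hp)
  linarith

/-- Powers: `Qexp` of a power of an `IsCuspMer` function. -/
theorem al4B_pow (h : ℕ) [NeZero h] (t : ℍ → ℂ) (ht : IsCuspMer h t) (p : ℕ) :
    IsCuspMer h (fun z : ℍ => t z ^ p) ∧ Qexp h (fun z : ℍ => t z ^ p) = Qexp h t ^ p := by
  obtain ⟨hconst, hmul, -⟩ := Fermat.Agent.S24.Qexp.qexpStatement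
  induction p with
  | zero =>
    have h1 := hconst h (1 : ℂ)
    have e : (fun z : ℍ => t z ^ 0) = fun _ : ℍ => (1 : ℂ) := by funext z; simp
    rw [e]
    refine ⟨⟨0, h1.1⟩, ?_⟩
    rw [h1.2, pow_zero, map_one]
  | succ p ih =>
    have e : (fun z : ℍ => t z ^ (p + 1)) = (fun z : ℍ => t z ^ p) * t := by
      funext z; simp [pow_succ]
    obtain ⟨-, h2, -, h4⟩ := hmul h (fun z : ℍ => t z ^ p) t ih.1 ht
    rw [e]
    refine ⟨h2, ?_⟩
    rw [h4, ih.2, pow_succ]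

/-- (AL4). -/
theorem al4B_main : al_CuspRootStatement := by
  intro h p _ t hp hol hper hcm
  have hh : (0 : ℝ) < (h : ℝ) := Nat.cast_pos.mpr (Nat.pos_of_ne_zero (NeZero.ne h))
  have ht : IsCuspMer h t := by
    obtain ⟨k, -, -, hbd⟩ := hcm
    refine ⟨k, hol, hper, ?_⟩
    rw [UpperHalfPlane.isBoundedAtImInfty_iff] at hbd ⊢
    obtain ⟨M, A, hMA⟩ := hbd
    refine ⟨max M 1, A, fun z hz => ?_⟩
    have hq : ‖Function.Periodic.qParam (h : ℝ) (z : ℂ)‖ < 1 :=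
      Function.Periodic.norm_qParam_lt_one hh z.im_pos
    have hq0 : 0 ≤ ‖Function.Periodic.qParam (h : ℝ) (z : ℂ)‖ := norm_nonneg _
    apply al4B_root_bound p hp _ M
    have h1 := hMA z hz
    have h2 : ‖Function.Periodic.qParam (h : ℝ) (z : ℂ) ^ k * t z‖ ^ p =
        ‖Function.Periodic.qParam (h : ℝ) (z : ℂ)‖ ^ (k * (p - 1)) *
          ‖Function.Periodic.qParam (h : ℝ) (z : ℂ) ^ k * t z ^ p‖ := by
      obtain ⟨p', rfl⟩ : ∃ p', p = p' + 1 := ⟨p - 1, by omega⟩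
      simp only [norm_mul, norm_pow, Nat.add_sub_cancel]
      ring
    rw [h2]
    calc ‖Function.Periodic.qParam (h : ℝ) (z : ℂ)‖ ^ (k * (p - 1)) *
          ‖Function.Periodic.qParam (h : ℝ) (z : ℂ) ^ k * t z ^ p‖
        ≤ 1 * ‖Function.Periodic.qParam (h : ℝ) (z : ℂ) ^ k * t z ^ p‖ :=
          mul_le_mul_of_nonneg_right (pow_le_one₀ hq0 hq.le) (norm_nonneg _)
      _ = ‖Function.Periodic.qParam (h : ℝ) (z : ℂ) ^ k * t z ^ p‖ := one_mul _
      _ ≤ M := h1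
  exact ⟨ht, (al4B_pow h t ht p).2⟩

end Fermat.Agent.S42
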