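/-
S42, package AL4' (twin A): growth estimate at the cusp for `(a * t₁ + b * t₂) ^ p`.
-/
import Fermat.Agent.S42.ALInterfaces

set_option autoImplicit false

open UpperHalfPlane

namespace Fermat.Agent.S42

open Fermat.Agent.S24

noncomputable section

/-- The pointwise estimate. -/
theorem al4pA_est (p : ℕ) (x u v a b : ℂ) (M₁ M₂ : ℝ)
    (h₁ : ‖x * u ^ p‖ ≤ M₁) (h₂ : ‖x * v ^ p‖ ≤ M₂) :
    ‖x * (a * u + b * v) ^ p‖ ≤ 2 ^ (p - 1) * (‖a‖ ^ p * M₁ + ‖b‖ ^ p * M₂) := by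
  rw [norm_mul, norm_pow] at h₁ h₂ ⊢
  have hx : 0 ≤ ‖x‖ := norm_nonneg x
  have h3 : ‖a * u + b * v‖ ≤ ‖a‖ * ‖u‖ + ‖b‖ * ‖v‖ := by
    refine (norm_add_le _ _).trans ?_
    rw [norm_mul, norm_mul]
  have h4 : ‖a * u + b * v‖ ^ p ≤ (‖a‖ * ‖u‖ + ‖b‖ * ‖v‖) ^ p :=
    pow_le_pow_left₀ (norm_nonneg _) h3 p
  have h5 : (‖a‖ * ‖u‖ + ‖b‖ * ‖v‖) ^ p
      ≤ 2 ^ (p - 1) * ((‖a‖ * ‖u‖) ^ p + (‖b‖ * ‖v‖) ^ p) :=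
    add_pow_le (by positivity) (by positivity) p
  have h6 : ‖x‖ * ‖a * u + b * v‖ ^ p
      ≤ ‖x‖ * (2 ^ (p - 1) * ((‖a‖ * ‖u‖) ^ p + (‖b‖ * ‖v‖) ^ p)) :=
    mul_le_mul_of_nonneg_left (h4.trans h5) hx
  refine h6.trans ?_
  have h7 : ‖x‖ * (2 ^ (p - 1) * ((‖a‖ * ‖u‖) ^ p + (‖b‖ * ‖v‖) ^ p))
      = 2 ^ (p - 1) * (‖a‖ ^ p * (‖x‖ * ‖u‖ ^ p) + ‖b‖ ^ p * (‖x‖ * ‖v‖ ^ p)) := by
    rw [mul_pow, mul_pow]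
    ring
  rw [h7]
  have ha : 0 ≤ ‖a‖ ^ p := by positivity
  have hb : 0 ≤ ‖b‖ ^ p := by positivity
  have h2p : (0 : ℝ) ≤ 2 ^ (p - 1) := by positivity
  exact mul_le_mul_of_nonneg_left
    (add_le_add (mul_le_mul_of_nonneg_left h₁ ha) (mul_le_mul_of_nonneg_left h₂ hb)) h2p

/-- (AL4') -/
theorem al4pA_main : al_CuspGrowthStatement := by
  intro h p k _ t₁ t₂ a b _ H₁ H₂
  rw [isBoundedAtImInfty_iff] at H₁ H₂ ⊢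
  obtain ⟨M₁, A₁, hM₁⟩ := H₁
  obtain ⟨M₂, A₂, hM₂⟩ := H₂
  refine ⟨2 ^ (p - 1) * (‖a‖ ^ p * M₁ + ‖b‖ ^ p * M₂), max A₁ A₂, fun z hz => ?_⟩
  exact al4pA_est p _ _ _ a b M₁ M₂ (hM₁ z ((le_max_left _ _).trans hz))
    (hM₂ z ((le_max_right _ _).trans hz))

end

end Fermat.Agent.S42
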