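/-
S42 moonshot — leaf package AL5 (twin A): period refinement of `Qexp`.
Deliverable: `al5A_main : al_PeriodStatement`.
-/
import Fermat.Agent.S42.ALInterfaces
import Fermat.Agent.S24.Qexp

set_option autoImplicit false

open UpperHalfPlane ModularForm Complex CongruenceSubgroup ModularGroup
open scoped MatrixGroups Manifold Real

namespace Fermat.Agent.S42

open Fermat.Agent.S24

noncomputable section

/-- Iterated translation: the `q_N`-expansion of `τ ↦ g (j + τ)`. -/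
theorem al5A_translate (N : ℕ) [NeZero N] (j : ℕ) :
    ∀ g : ℍ → ℂ, IsCuspMer N g →
      IsCuspMer N (fun τ : ℍ => g ((j : ℝ) +ᵥ τ)) ∧
      ∀ n : ℤ, (Qexp N (fun τ : ℍ => g ((j : ℝ) +ᵥ τ))).coeff n
        = Complex.exp (2 * π * Complex.I * n / N) ^ j * (Qexp N g).coeff n := by
  induction j with
  | zero =>
    intro g hg
    have e : (fun τ : ℍ => g (((0 : ℕ) : ℝ) +ᵥ τ)) = g := by
      funext τ
      rw [Nat.cast_zero, zero_vadd]
    rw [e]
    exact ⟨hg, fun n => by rw [pow_zero, one_mul]⟩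
  | succ j ih =>
    intro g hg
    obtain ⟨h1, h2⟩ := ih g hg
    obtain ⟨h3, h4⟩ := Qexp.qexpStatement.2.2.2.2.2.2.2.1 N _ h1
    have e : (fun τ : ℍ => (fun σ : ℍ => g ((j : ℝ) +ᵥ σ)) ((1 : ℝ) +ᵥ τ))
        = (fun τ : ℍ => g (((j + 1 : ℕ) : ℝ) +ᵥ τ)) := by
      funext τ
      show g ((j : ℝ) +ᵥ ((1 : ℝ) +ᵥ τ)) = g (((j + 1 : ℕ) : ℝ) +ᵥ τ)
      rw [vadd_vadd, Nat.cast_add, Nat.cast_one]
    rw [e] at h3 h4
    refine ⟨h3, fun n => ?_⟩
    rw [h4 n, h2 n, pow_succ]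
    ring

/-- (AL5) Period refinement. -/
theorem al5A_main : al_PeriodStatement := by
  intro N h _ _ t hhN ht hper n hn
  obtain ⟨-, h2⟩ := al5A_translate N h t ht
  have e : (fun τ : ℍ => t ((h : ℝ) +ᵥ τ)) = t := by
    funext τ
    have h1 := hper (τ : ℂ)
    have h3 : ((τ : ℂ) + ((h : ℝ) : ℂ)) = ((((h : ℝ) +ᵥ τ : ℍ)) : ℂ) := by
      rw [UpperHalfPlane.coe_vadd, add_comm]
    rw [h3] at h1
    simp only [Function.comp_apply, ofComplex_apply] at h1
    exact h1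
  rw [e] at h2
  have h4 := h2 n
  have h5 : Complex.exp (2 * π * Complex.I * n / N) ^ h = 1 := by
    have h6 : (Complex.exp (2 * π * Complex.I * n / N) ^ h - 1) * (Qexp N t).coeff n = 0 := by
      rw [sub_mul, one_mul, ← h4, sub_self]
    rcases mul_eq_zero.1 h6 with h7 | h7
    · exact sub_eq_zero.1 h7
    · exact absurd h7 hn
  rw [← Complex.exp_nat_mul, Complex.exp_eq_one_iff] at h5
  obtain ⟨m, hm⟩ := h5
  obtain ⟨c, rfl⟩ := hhN
  have hh0 : h ≠ 0 := NeZero.ne h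
  have hc0 : c ≠ 0 := by
    rintro rfl
    exact NeZero.ne (h * 0) (mul_zero h)
  have hdiv : h * c / h = c := Nat.mul_div_cancel_left c (Nat.pos_of_ne_zero hh0)
  rw [hdiv]
  have hpi : (2 * (π : ℂ) * Complex.I) ≠ 0 := by
    simp [Real.pi_ne_zero, Complex.I_ne_zero]
  have hhC : (h : ℂ) ≠ 0 := by exact_mod_cast hh0
  have hcC : (c : ℂ) ≠ 0 := by exact_mod_cast hc0
  have key : (n : ℂ) = (m : ℂ) * (c : ℂ) := by
    have h9 := hm
    push_cast at h9
    field_simp at h9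
    rw [h9]; ring
  have key' : n = m * (c : ℤ) := by exact_mod_cast key
  exact ⟨m, by rw [key']; ring⟩

end

end Fermat.Agent.S42
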