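/-
S42 moonshot, package AL6 (twin A, coefficient recursion): `p`-th roots of Laurent series with
coefficients in a subfield have coefficients in that subfield, up to a nonzero constant.
-/
import Fermat.Agent.S42.ALInterfaces

set_option autoImplicit false

namespace Fermat.Agent.S42

open PowerSeries in
/-- Products of power series with coefficients in a subfield have coefficients in it. -/
theorem al6A_mul_mem {K : Type} [Field K] (R : Subfield K) (u v : PowerSeries K)
    (hu : ∀ i, coeff i u ∈ R) (hv : ∀ i, coeff i v ∈ R) (i : ℕ) : coeff i (u * v) ∈ R := by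
  rw [coeff_mul]
  exact R.sum_mem fun x _ => R.mul_mem (hu _) (hv _)

open PowerSeries in
theorem al6A_pow_mem {K : Type} [Field K] (R : Subfield K) (u : PowerSeries K)
    (hu : ∀ i, coeff i u ∈ R) (p : ℕ) : ∀ i, coeff i (u ^ p) ∈ R := by
  induction p with
  | zero =>
    intro i
    rw [pow_zero, coeff_one]
    split_ifs
    · exact R.one_mem
    · exact R.zero_mem
  | succ p ih =>
    intro i
    rw [pow_succ]
    exact al6A_mul_mem R _ _ ih hu i

open PowerSeries in
/-- Power series core: `v(0) = 1`, `v ^ p` has coefficients in `R` ⇒ `v` has coefficients in `R`. -/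
theorem al6A_ps_core {K : Type} [Field K] [CharZero K] (R : Subfield K) (p : ℕ) (hp : 0 < p)
    (v : PowerSeries K) (hv0 : coeff 0 v = 1) (hvp : ∀ i, coeff i (v ^ p) ∈ R) :
    ∀ n, coeff n v ∈ R := by
  intro n
  induction n using Nat.strong_induction_on with
  | _ n ih =>
    rcases Nat.eq_zero_or_pos n with rfl | hn
    · rw [hv0]; exact R.one_mem
    set u : PowerSeries K := ((trunc n v : Polynomial K) : PowerSeries K) with hu
    have hucoeff : ∀ i, coeff i u = if i < n then coeff i v else 0 := by
      intro i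
      rw [hu, Polynomial.coeff_coe, coeff_trunc]
    have huR : ∀ i, coeff i u ∈ R := by
      intro i
      rw [hucoeff]
      split_ifs with h
      · exact ih i h
      · exact R.zero_mem
    have hdvd : (X : PowerSeries K) ^ n ∣ v - u := by
      rw [X_pow_dvd_iff]
      intro m hm
      rw [map_sub, hucoeff, if_pos hm, sub_self]
    obtain ⟨r, hr⟩ := hdvd
    have hv : v = u + X ^ n * r := by rw [← hr]; ring
    have hr0 : coeff 0 r = coeff n v := by
      have h1 : coeff n v = coeff n u + coeff (0 + n) (X ^ n * r) := by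
        conv_lhs => rw [hv]
        rw [map_add, zero_add]
      rw [coeff_X_pow_mul, hucoeff, if_neg (lt_irrefl n), zero_add] at h1
      exact h1.symm
    have hu0 : coeff 0 u = 1 := by rw [hucoeff, if_pos hn, hv0]
    obtain ⟨k, hk⟩ := Polynomial.binomExpansion (Polynomial.X ^ p : Polynomial (PowerSeries K)) u (X ^ n * r)
    simp only [Polynomial.eval_pow, Polynomial.eval_X, Polynomial.derivative_X_pow,
      Polynomial.eval_mul, Polynomial.eval_C] at hk
    rw [← hv] at hk
    have hexp : v ^ p = u ^ p + X ^ n * ((p : PowerSeries K) * u ^ (p - 1) * r) +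
        X ^ (n + 1) * (X ^ (n - 1) * (k * r ^ 2)) := by
      rw [hk]
      have : n + 1 + (n - 1) = 2 * n := by omega
      have h2 : (X : PowerSeries K) ^ (n + 1) * (X ^ (n - 1) * (k * r ^ 2)) = k * (X ^ n * r) ^ 2 := by
        rw [← mul_assoc, ← pow_add, this]; ring
      rw [h2]; ring
    have hcoeff : coeff n (v ^ p) = coeff n (u ^ p) + (p : K) * coeff n v := by
      rw [hexp, map_add, map_add]
      have h3 : coeff n ((X : PowerSeries K) ^ (n + 1) * (X ^ (n - 1) * (k * r ^ 2))) = 0 :=
        (X_pow_dvd_iff.1 (Dvd.intro _ rfl)) n (Nat.lt_succ_self n)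
      have h4 : coeff n ((X : PowerSeries K) ^ n * ((p : PowerSeries K) * u ^ (p - 1) * r)) =
          (p : K) * coeff n v := by
        have := coeff_X_pow_mul ((p : PowerSeries K) * u ^ (p - 1) * r) n 0
        rw [zero_add] at this
        rw [this, coeff_zero_eq_constantCoeff, map_mul, map_mul, map_pow, map_natCast,
          ← coeff_zero_eq_constantCoeff, hu0, hr0, one_pow, mul_one]
      rw [h3, h4, add_zero]
    have hpK : (p : K) ≠ 0 := Nat.cast_ne_zero.2 hp.ne'
    have hpR : (p : K) ∈ R := natCast_mem R p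
    have : coeff n v = (p : K)⁻¹ * (coeff n (v ^ p) - coeff n (u ^ p)) := by
      rw [hcoeff]; field_simp; ring
    rw [this]
    exact R.mul_mem (R.inv_mem hpR) (R.sub_mem (hvp n) (al6A_pow_mem R u huR p n))

/-- Abstract form of (AL6). -/
theorem al6A_abstract {K : Type} [Field K] [CharZero K] (R : Subfield K) (p : ℕ) (hp : 0 < p)
    (x : LaurentSeries K) (hx : x ≠ 0) (hxp : ∀ n : ℤ, (x ^ p).coeff n ∈ R) :
    ∃ a : K, a ≠ 0 ∧ ∀ n : ℤ, a * x.coeff n ∈ R := by
  set w : PowerSeries K := x.powerSeriesPart with hw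
  have hxw : (HahnSeries.single x.order (1 : K) : LaurentSeries K) * HahnSeries.ofPowerSeries ℤ K w = x :=
    LaurentSeries.single_order_mul_powerSeriesPart x
  have hwcoeff : ∀ n : ℕ, PowerSeries.coeff n w = x.coeff (x.order + n) :=
    LaurentSeries.powerSeriesPart_coeff x
  set c : K := PowerSeries.coeff 0 w with hc
  have hc0 : c ≠ 0 := by
    rw [hc, hwcoeff, Nat.cast_zero, add_zero]
    exact HahnSeries.coeff_order_eq_zero.not.2 hx
  -- coefficients of `w ^ p`
  have hwp : ∀ n : ℕ, PowerSeries.coeff n (w ^ p) ∈ R := by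
    intro n
    have h1 : x ^ p = (HahnSeries.single (p • x.order) (1 : K) : LaurentSeries K) *
        HahnSeries.ofPowerSeries ℤ K (w ^ p) := by
      conv_lhs => rw [← hxw]
      rw [mul_pow, HahnSeries.single_pow, one_pow, map_pow]
    have h2 := hxp ((n : ℤ) + p • x.order)
    rw [h1, HahnSeries.coeff_single_mul_add, one_mul, HahnSeries.ofPowerSeries_apply_coeff] at h2
    exact h2
  have hcp : c ^ p ∈ R := by
    have := hwp 0
    rwa [PowerSeries.coeff_zero_eq_constantCoeff, map_pow,
      ← PowerSeries.coeff_zero_eq_constantCoeff] at this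
  set v : PowerSeries K := PowerSeries.C c⁻¹ * w with hv
  have hv0 : PowerSeries.coeff 0 v = 1 := by
    rw [hv, PowerSeries.coeff_C_mul, ← hc, inv_mul_cancel₀ hc0]
  have hvp : ∀ i, PowerSeries.coeff i (v ^ p) ∈ R := by
    intro i
    rw [hv, mul_pow, ← map_pow, PowerSeries.coeff_C_mul, inv_pow]
    exact R.mul_mem (R.inv_mem hcp) (hwp i)
  have hvR := al6A_ps_core R p hp v hv0 hvp
  refine ⟨c⁻¹, inv_ne_zero hc0, fun n => ?_⟩
  rcases lt_or_ge n x.order with hn | hn
  · rw [HahnSeries.coeff_eq_zero_of_lt_order hn, mul_zero]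
    exact R.zero_mem
  · obtain ⟨k, hk⟩ : ∃ k : ℕ, n = x.order + k := ⟨(n - x.order).toNat, by omega⟩
    rw [hk, ← hwcoeff, ← PowerSeries.coeff_C_mul]
    exact hvR k

/-- (AL6) `p`-th roots of `ℚ̄`-rational Laurent series are rational up to a constant. -/
theorem al6A_main : al_SeriesRootStatement := by
  intro p x hp hx hxp
  obtain ⟨a, ha, h⟩ := al6A_abstract (Fermat.Agent.S24.iotaHom).fieldRange p hp x hx
    (fun n => (RingHom.mem_fieldRange).2 (hxp n))
  exact ⟨a, ha, fun n => (RingHom.mem_fieldRange).1 (h n)⟩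

end Fermat.Agent.S42
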