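/-
S42 moonshot — leaf package AL7 (twin A): `ordAt` of powers and the criterion `ordAt z f = 0 ↔ f z ≠ 0`
for nonzero holomorphic functions on the upper half plane.
-/
import Fermat.Agent.S42.ALInterfaces
import Fermat.Agent.S24.PointVal

set_option autoImplicit false

open UpperHalfPlane ModularForm Complex CongruenceSubgroup ModularGroup
open scoped MatrixGroups Manifold Real

namespace Fermat.Agent.S42

open Fermat.Agent.S24

theorem al7A_pow_ne_zero {f : ℍ → ℂ} (hf0 : f ≠ 0) (p : ℕ) : (fun τ : ℍ => f τ ^ p) ≠ 0 := by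
  obtain ⟨z, hz⟩ := Function.ne_iff.1 hf0
  intro h
  exact pow_ne_zero p hz (congrFun h z)

theorem al7A_hol_pow {f : ℍ → ℂ} (hf : MDifferentiable 𝓘(ℂ) 𝓘(ℂ) f) (p : ℕ) :
    MDifferentiable 𝓘(ℂ) 𝓘(ℂ) (fun τ : ℍ => f τ ^ p) := by
  induction p with
  | zero =>
    simp only [pow_zero]
    exact mdifferentiable_const
  | succ n ih =>
    have e : (fun τ : ℍ => f τ ^ (n + 1)) = (fun τ : ℍ => f τ ^ n) * f := by
      funext τ; simp [pow_succ]
    rw [e]
    exact ih.mul hf

/-- (AL7) -/
theorem al7A_main : al_OrdStatement := by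
  intro f hf hf0 z
  have hf' : MDifferentiable 𝓘(ℂ) 𝓘(ℂ) f := hf
  refine ⟨?_, ?_, ?_⟩
  · intro p
    induction p with
    | zero =>
      simp only [pow_zero, zero_mul]
      exact PointVal.ordAt_eq_zero z (f := fun _ => (1 : ℂ)) mdifferentiable_const one_ne_zero
    | succ n ih =>
      have e : (fun τ : ℍ => f τ ^ (n + 1)) = (fun τ : ℍ => f τ ^ n) * f := by
        funext τ; simp [pow_succ]
      rw [e, PointVal.ordAt_mul z (al7A_hol_pow hf' n) hf' (al7A_pow_ne_zero hf0 n) hf0, ih]
      ring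
  · intro h hz
    unfold ordAt at h
    rw [ENat.toNat_eq_zero] at h
    rcases h with h | h
    · have h1 := (PointVal.analyticAt_comp_ofComplex hf' z).analyticOrderAt_eq_zero.mp h
      apply h1
      simpa [Function.comp, ofComplex_apply] using hz
    · exact PointVal.order_ne_top hf' hf0 z h
  · exact PointVal.ordAt_eq_zero z hf'

end Fermat.Agent.S42
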