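/-
S42 moonshot, block DESC, package DSALG (twin A): a complex number with finite orbit under the
automorphisms of `ℂ` fixing `ℚ̄` is algebraic.
-/
import Fermat.Agent.S42.DictInterfaces

set_option autoImplicit false

namespace Fermat.Agent.S42

open Fermat.Agent.S24

/-- Over a field `R`, a transcendental element `c` of an algebraically closed extension `K` can be
moved to `c + n` by an automorphism of `K` fixing `R`. -/
theorem descAlgA_shift {R K : Type} [Field R] [Field K] [Algebra R K] [IsAlgClosed K]
    (c : K) (hc : Transcendental R c) (n : ℕ) :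
    ∃ σ : K ≃+* K, (∀ a : R, σ (algebraMap R K a) = algebraMap R K a) ∧ σ c = c + n := by
  classical
  have hs : AlgebraicIndepOn R id ({c} : Set K) :=
    (algebraicIndependent_singleton_iff (⟨c, rfl⟩ : ({c} : Set K))).mpr hc
  obtain ⟨B, hcB, hB⟩ := exists_isTranscendenceBasis_superset hs
  let c₀ : B := ⟨c, hcB rfl⟩
  let v : B → K := Subtype.val
  have : IsAlgClosure (Algebra.adjoin R (Set.range v)) K :=
    IsAlgClosed.isAlgClosure_of_transcendence_basis v hB
  let f : MvPolynomial B R →ₐ[R] MvPolynomial B R :=
    MvPolynomial.aeval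
      (fun b => MvPolynomial.X b + MvPolynomial.C (if b = c₀ then (n : R) else 0))
  let g : MvPolynomial B R →ₐ[R] MvPolynomial B R :=
    MvPolynomial.aeval
      (fun b => MvPolynomial.X b - MvPolynomial.C (if b = c₀ then (n : R) else 0))
  let e₀ : MvPolynomial B R ≃ₐ[R] MvPolynomial B R :=
    AlgEquiv.ofAlgHom f g (by ext b; simp [f, g]) (by ext b; simp [f, g])
  let e : Algebra.adjoin R (Set.range v) ≃ₐ[R] Algebra.adjoin R (Set.range v) :=
    hB.1.aevalEquiv.symm.trans (e₀.trans hB.1.aevalEquiv)
  refine ⟨IsAlgClosure.equivOfEquiv K K e.toRingEquiv, ?_, ?_⟩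
  · intro a
    have h1 : algebraMap R K a
        = algebraMap (Algebra.adjoin R (Set.range v)) K (algebraMap R _ a) := rfl
    rw [h1, IsAlgClosure.equivOfEquiv_algebraMap]
    congr 1
    exact e.commutes a
  · have h1 : c = algebraMap (Algebra.adjoin R (Set.range v)) K
        (hB.1.aevalEquiv (MvPolynomial.X c₀)) := by
      rw [hB.1.algebraMap_aevalEquiv, MvPolynomial.aeval_X]
    conv_lhs => rw [h1]
    rw [IsAlgClosure.equivOfEquiv_algebraMap]
    have h2 : e.toRingEquiv (hB.1.aevalEquiv (MvPolynomial.X c₀))
        = hB.1.aevalEquiv (MvPolynomial.X c₀ + MvPolynomial.C (n : R)) := by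
      simp [e, e₀, f]
    rw [h2, hB.1.algebraMap_aevalEquiv]
    simp [c₀]

/-- (DS-alg) A complex number with finite orbit under the automorphisms of `ℂ` fixing `ℚ̄` lies in
the range of `iotaHom`. -/
theorem descAlgA_main : desc_AlgStatement := by
  intro c hfin
  by_contra hc
  let _ : Algebra Kbar ℂ := iotaHom.toAlgebra
  have htr : Transcendental Kbar c := by
    intro halg
    have hz' : IsIntegral Kbar c := halg.isIntegral
    have h1 : (minpoly Kbar c).degree = 1 :=
      IsAlgClosed.degree_eq_one_of_irreducible Kbar (minpoly.irreducible hz')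
    exact hc (minpoly.mem_range_of_degree_eq_one Kbar c h1)
  refine Set.infinite_of_injective_forall_mem (f := fun n : ℕ => c + n) ?_ ?_ hfin
  · intro n m h
    exact_mod_cast add_left_cancel h
  · intro n
    obtain ⟨σ, h1, h2⟩ := descAlgA_shift c htr n
    exact ⟨σ, h1, h2⟩

end Fermat.Agent.S42
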