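/-
S42, block DESC, package DSFIN (twin B): there are only finitely many `p`-torsion characters of
`Γ₀(N)`.
-/
import Fermat.Agent.S42.DictInterfaces

set_option autoImplicit false

open UpperHalfPlane ModularForm Complex CongruenceSubgroup ModularGroup AlgebraicCurve
open scoped MatrixGroups Manifold Real

namespace Fermat.Agent.S42

/-- A multiplicative function with values in the `p`-th roots of unity is a monoid hom. -/
theorem descFinB_hom {G : Type} [Group G] (p : ℕ) (hp : 0 < p) (χ : G → ℂ)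
    (h1 : ∀ γ, χ γ ^ p = 1) (hmul : ∀ γ γ', χ (γ * γ') = χ γ * χ γ') :
    ∃ f : G →* ℂ, ⇑f = χ := by
  have hne : χ 1 ≠ 0 := by
    intro h0
    have := h1 1
    rw [h0, zero_pow hp.ne'] at this
    exact zero_ne_one this
  have hone : χ 1 = 1 := by
    have h := hmul 1 1
    rw [mul_one] at h
    exact mul_left_cancel₀ hne (by rw [mul_one]; exact h.symm)
  exact ⟨{ toFun := χ, map_one' := hone, map_mul' := hmul }, rfl⟩

/-- Finiteness of the set of `p`-torsion characters of a finitely generated group. -/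
theorem descFinB_fg {G : Type} [Group G] [hG : Group.FG G] (p : ℕ) (hp : 0 < p) :
    {χ : G → ℂ | (∀ γ, χ γ ^ p = 1) ∧ ∀ γ γ', χ (γ * γ') = χ γ * χ γ'}.Finite := by
  obtain ⟨S, hS, hSfin⟩ := Group.fg_iff.1 hG
  have hroots : {z : ℂ | z ^ p = 1}.Finite := by
    refine (Polynomial.nthRoots p (1 : ℂ)).toFinset.finite_toSet.subset fun z hz => ?_
    simpa [Polynomial.mem_nthRoots hp] using hz
  have : Finite ↥S := hSfin.to_subtype
  have hfinT : {f : ↥S → ℂ | ∀ i, f i ∈ {z : ℂ | z ^ p = 1}}.Finite :=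
    Set.Finite.pi' fun _ => hroots
  refine Set.Finite.of_injOn (f := fun (χ : G → ℂ) (s : ↥S) => χ s) ?_ ?_ hfinT
  · intro χ hχ s
    exact hχ.1 s
  · intro χ hχ χ' hχ' heq
    obtain ⟨f, hf⟩ := descFinB_hom p hp χ hχ.1 hχ.2
    obtain ⟨f', hf'⟩ := descFinB_hom p hp χ' hχ'.1 hχ'.2
    have hff : f = f' := MonoidHom.eq_of_eqOn_dense hS fun s hs => by
      have := congrFun heq ⟨s, hs⟩
      rw [hf, hf']
      exact this
    rw [← hf, ← hf', hff]

theorem descFinB_main : desc_FinStatement := by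
  intro N _ p hp
  have : Group.FG SL(2, ℤ) :=
    Group.fg_iff.2 ⟨{S, T}, SpecialLinearGroup.SL2Z_generators, by simp⟩
  have : Group.FG ↥(Gamma0 N) := inferInstance
  exact descFinB_fg p hp

end Fermat.Agent.S42
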