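/-
S42 moonshot — shared analytic lemmas (helper22): the PROVEN statements, collected.
`import Fermat.Agent.S42.ALMain` and use `al_RootUnity`, `al_Div`, `al_CuspQuot`, `al_CuspRoot`, `al_CuspGrowth`,
`al_Period`, `al_SeriesRoot`, `al_Ord` (hypothesis-free), plus `root_main`, `descAlg_main`,
`descFin_main`.
-/
import Fermat.Agent.S42.AL1A
import Fermat.Agent.S42.AL2A
import Fermat.Agent.S42.AL3A
import Fermat.Agent.S42.AL4B
import Fermat.Agent.S42.AL4pA
import Fermat.Agent.S42.AL5A
import Fermat.Agent.S42.AL6A
import Fermat.Agent.S42.AL7A
import Fermat.Agent.S42.RootA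
import Fermat.Agent.S42.DescAlgA
import Fermat.Agent.S42.DescFinB

set_option autoImplicit false

namespace Fermat.Agent.S42

theorem al_RootUnity : al_RootUnityStatement := al1A_main
theorem al_Div : al_DivStatement := al2A_main
theorem al_CuspQuot : al_CuspQuotStatement := al3A_main
theorem al_CuspRoot : al_CuspRootStatement := al4B_main
theorem al_CuspGrowth : al_CuspGrowthStatement := al4pA_main
theorem al_Period : al_PeriodStatement := al5A_main
theorem al_SeriesRoot : al_SeriesRootStatement := al6A_main
theorem al_Ord : al_OrdStatement := al7A_main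
theorem root_main : root_Statement := rootA_main
theorem descAlg_main : desc_AlgStatement := descAlgA_main
theorem descFin_main : desc_FinStatement := descFinB_main

end Fermat.Agent.S42
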