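/-
S42 moonshot, block DESC, package BAS (twin B): the `p`-th power of a Kummer root is an integral
modular function, `1`-periodic and meromorphic at `∞`, with nonzero `q`-expansion.
-/
import Fermat.Agent.S42.DescInterfaces
import Fermat.Agent.S42.ALInterfaces
import Fermat.Agent.S24.Qexp

set_option autoImplicit false

open UpperHalfPlane ModularForm Complex CongruenceSubgroup ModularGroup AlgebraicCurve
open scoped MatrixGroups Manifold Real

namespace Fermat.Agent.S42

open Fermat.Agent.S24

noncomputable section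

theorem descBasB_T_mem (N : ℕ) : (ModularGroup.T : SL(2, ℤ)) ∈ Gamma0 N := by
  rw [Gamma0_mem]
  simp [ModularGroup.T]

/-- (BAS) -/
theorem descBasB_main : desc_BasStatement := by
  intro N _ p χ s hp hroot
  obtain ⟨_, hs0, hχ, hcm⟩ := hroot
  have hinv : dict_Inv N (fun z : ℍ => s z ^ p) := by
    intro γ hγ z
    obtain ⟨h1, h2⟩ := hχ ⟨γ, hγ⟩
    show s (γ • z) ^ p = s z ^ p
    rw [h2 z, mul_pow, h1, one_mul]
  have hN : IsCuspMer N (fun z : ℍ => s z ^ p) := by
    have h := hcm 1
    simpa only [one_smul] using h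
  have hper : Function.Periodic ((fun z : ℍ => s z ^ p) ∘ ofComplex) ((1 : ℝ) : ℂ) := by
    rw [Qexp.periodic_iff]
    intro τ
    rw [← UpperHalfPlane.modular_T_smul]
    exact hinv ModularGroup.T (descBasB_T_mem N) τ
  have h1 : IsCuspMer 1 (fun z : ℍ => s z ^ p) :=
    Qexp.qexpStatement.2.2.2.2.2.2.1 N _ hN hper
  refine ⟨⟨hinv, hcm⟩, h1, fun h0 => hs0 ?_⟩
  have hzero := Qexp.qexpStatement.2.2.1 1 _ h1 h0
  funext z
  have hz := congrFun hzero z
  exact pow_eq_zero_iff hp.ne' |>.mp hz

end

end Fermat.Agent.S42
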