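/-
S42 moonshot — block DESC, package KST (twin B): Kummer classes are stable under `σ̃ = coeffMap σ`.
-/
import Fermat.Agent.S42.DescInterfaces
import Fermat.Agent.S42.ALInterfaces
import Fermat.Agent.S24.Qexp
import Fermat.Agent.S24.PointVal
import Fermat.Agent.S24.OrdBasic
import Fermat.Agent.S24.Dict

set_option autoImplicit false

open UpperHalfPlane ModularForm Complex CongruenceSubgroup ModularGroup AlgebraicCurve
open scoped MatrixGroups Manifold Real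

namespace Fermat.Agent.S42

open Fermat.Agent.S24

noncomputable section

/-- `σ̃⁻¹ (σ̃ x) = x`. -/
theorem descKstB_symm_coeffMap (σ : ℂ ≃+* ℂ) (x : LaurentSeries ℂ) :
    ModularCurve.coeffMap (σ.symm : ℂ →+* ℂ) (ModularCurve.coeffMap (σ : ℂ →+* ℂ) x) = x := by
  rw [ModularCurve.coeffMap_coeffMap,
    ModularCurve.coeffMap_congr (g := RingHom.id ℂ) (RingHom.ext fun a => σ.symm_apply_apply a),
    ModularCurve.coeffMap_id]

/-- A place at which `j` has no pole is nonnegative on `ℂ[j]`. -/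
theorem descKstB_ord_nonneg_adjoin (N : ℕ) [NeZero N] (P : Place ℂ ↥(FNC N))
    (hP : 0 ≤ P.ord (jC N)) (a : ↥(Algebra.adjoin ℂ ({jC N} : Set ↥(FNC N)))) :
    0 ≤ P.ord (algebraMap ↥(Algebra.adjoin ℂ ({jC N} : Set ↥(FNC N))) ↥(FNC N) a) := by
  let S : Subalgebra ℂ ↥(FNC N) :=
    { P.toValuationSubring.toSubring with algebraMap_mem' := P.algebraMap_mem' }
  have ht : jC N ∈ S := OrdBasic.mem_of_ord_nonneg P hP
  have hle : Algebra.adjoin ℂ ({jC N} : Set ↥(FNC N)) ≤ S :=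
    Algebra.adjoin_le (Set.singleton_subset_iff.mpr ht)
  exact OrdBasic.ord_nonneg_of_mem P (hle a.2)

/-- (KST) Kummer classes are stable under `σ̃`. -/
theorem descKstB_main : root_Statement → desc_SigStatement → desc_BasStatement →
    al_RootUnityStatement → al_OrdStatement → dict_FieldCStatement → dict_IntCStatement →
    dict_IntC'Statement → dict_IntPlacesCStatement → dict_PointPlaceCStatement →
    dict_PlacePointCStatement → desc_KstStatement := by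
  intro hRoot hSig hBas hRU hOrd hDC1 hDC3 hDC3' hDC3'' hDC4 hDC5 N _ p hp hp5 χ σ x hx
  obtain ⟨s, hs, hAn⟩ := hx
  have hp0 : 0 < p := hp.pos
  obtain ⟨hMF, hCM1, hQne⟩ := hBas N p χ s hp0 hs
  have hxQ : Qexp 1 (fun z : ℍ => s z ^ p) = x := hAn.2
  have hx0 : x ≠ 0 := hxQ ▸ hQne
  have hxF : x ∈ FNC N := hxQ ▸ hDC1 N _ hMF
  have hXint : IsIntegral ↥(Algebra.adjoin ℂ ({jC N} : Set ↥(FNC N))) (⟨x, hxF⟩ : ↥(FNC N)) :=
    hDC3' N ⟨x, hxF⟩ _ hAn hMF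
  have hX0 : (⟨x, hxF⟩ : ↥(FNC N)) ≠ 0 := by
    intro h
    exact hx0 (congrArg Subtype.val h)
  -- SIG for `σ` and `σ.symm`
  obtain ⟨hS1, -, -, -, -⟩ := hSig N σ
  obtain ⟨-, hT2, hT3, -, -⟩ := hSig N σ.symm
  have hyF : ModularCurve.coeffMap (σ : ℂ →+* ℂ) x ∈ FNC N := hS1 x hxF
  have hback : ModularCurve.coeffMap (σ.symm : ℂ →+* ℂ)
      (ModularCurve.coeffMap (σ : ℂ →+* ℂ) x) = x := descKstB_symm_coeffMap σ x
  have hy0 : ModularCurve.coeffMap (σ : ℂ →+* ℂ) x ≠ 0 := by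
    intro h
    apply hx0
    rw [← hback, h, map_zero]
  have hY0 : (⟨ModularCurve.coeffMap (σ : ℂ →+* ℂ) x, hyF⟩ : ↥(FNC N)) ≠ 0 := by
    intro h
    exact hy0 (congrArg Subtype.val h)
  -- transport of finite places
  have key : ∀ P : Place ℂ ↥(FNC N), 0 ≤ P.ord (jC N) →
      ∃ P₀ : Place ℂ ↥(FNC N), 0 ≤ P₀.ord (jC N) ∧
        P.ord (⟨ModularCurve.coeffMap (σ : ℂ →+* ℂ) x, hyF⟩ : ↥(FNC N)) =
          P₀.ord (⟨x, hxF⟩ : ↥(FNC N)) := by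
    intro P hP
    obtain ⟨P₀, hP₀⟩ := hT3 P
    have hjmem : ModularCurve.coeffMap (σ.symm : ℂ →+* ℂ)
        ((jC N : ↥(FNC N)) : LaurentSeries ℂ) ∈ FNC N := by
      rw [hT2]; exact (jC N).2
    have hxmem : ModularCurve.coeffMap (σ.symm : ℂ →+* ℂ)
        (ModularCurve.coeffMap (σ : ℂ →+* ℂ) x) ∈ FNC N := by
      rw [hback]; exact hxF
    refine ⟨P₀, ?_, ?_⟩
    · have h1 := hP₀ ((jC N : ↥(FNC N)) : LaurentSeries ℂ) (jC N).2 hjmem
      have h2 : (⟨ModularCurve.coeffMap (σ.symm : ℂ →+* ℂ)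
          ((jC N : ↥(FNC N)) : LaurentSeries ℂ), hjmem⟩ : ↥(FNC N)) = jC N := Subtype.ext hT2
      rw [h2] at h1
      rw [h1]
      exact hP
    · have h1 := hP₀ (ModularCurve.coeffMap (σ : ℂ →+* ℂ) x) hyF hxmem
      have h2 : (⟨ModularCurve.coeffMap (σ.symm : ℂ →+* ℂ)
          (ModularCurve.coeffMap (σ : ℂ →+* ℂ) x), hxmem⟩ : ↥(FNC N)) = ⟨x, hxF⟩ :=
        Subtype.ext hback
      rw [h2] at h1
      exact h1.symm
  -- `σ̃ x` is integral over `ℂ[j]`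
  have hYint : IsIntegral ↥(Algebra.adjoin ℂ ({jC N} : Set ↥(FNC N)))
      (⟨ModularCurve.coeffMap (σ : ℂ →+* ℂ) x, hyF⟩ : ↥(FNC N)) := by
    apply hDC3'' N
    intro P hP
    obtain ⟨P₀, hP₀j, hP₀⟩ := key P hP
    rw [hP₀]
    exact Dict.ord_nonneg_of_isIntegral P₀ (descKstB_ord_nonneg_adjoin N P₀ hP₀j) hXint
  obtain ⟨φ', hAn', hMF'⟩ := hDC3 N ⟨ModularCurve.coeffMap (σ : ℂ →+* ℂ) x, hyF⟩ hYint
  have hHol' : Hol φ' := hAn'.1.choose_spec.1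
  have hφ'0 : φ' ≠ 0 := by
    intro h
    apply hy0
    have h1 : Qexp 1 φ' = ModularCurve.coeffMap (σ : ℂ →+* ℂ) x := hAn'.2
    have h2 : Qexp 1 (fun _ : ℍ => (0 : ℂ)) = HahnSeries.C 0 := (Qexp.qexpStatement.1 1 0).2
    rw [← h1, h, show (0 : ℍ → ℂ) = fun _ : ℍ => (0 : ℂ) from rfl, h2, map_zero]
  obtain ⟨hsHol, hs0, hsχ, hsCM⟩ := hs
  -- all orders of `φ'` are divisible by `p`
  have hdiv : ∀ z : ℍ, p ∣ ordAt z φ' := by
    intro z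
    obtain ⟨P, m, hm, hPj, hPm⟩ := hDC4 N z
    have h1 : (ordAt z φ' : ℤ) =
        m * P.ord (⟨ModularCurve.coeffMap (σ : ℂ →+* ℂ) x, hyF⟩ : ↥(FNC N)) :=
      hPm _ φ' hY0 hAn' hMF'
    obtain ⟨P₀, hP₀j, hP₀⟩ := key P hPj
    obtain ⟨z', m', hm', hzm'⟩ := hDC5 N P₀ hP₀j
    have h2 : (ordAt z' (fun z : ℍ => s z ^ p) : ℤ) = m' * P₀.ord (⟨x, hxF⟩ : ↥(FNC N)) :=
      hzm' _ _ hX0 hAn hMF
    have h3 : ordAt z' (fun τ : ℍ => s τ ^ p) = p * ordAt z' s := (hOrd s hsHol hs0 z').1 p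
    rw [h3] at h2
    have h4 : (p : ℤ) ∣ (m' : ℤ) * P₀.ord (⟨x, hxF⟩ : ↥(FNC N)) :=
      ⟨(ordAt z' s : ℤ), by rw [← h2]; push_cast; ring⟩
    have hcop : IsCoprime (p : ℤ) (m' : ℤ) := by
      rw [Nat.isCoprime_iff_coprime]
      apply (Nat.Prime.coprime_iff_not_dvd hp).2
      intro hdvd
      have hm'pos : 0 < m' := by omega
      have := Nat.le_of_dvd hm'pos hdvd
      omega
    have h5 : (p : ℤ) ∣ P₀.ord (⟨x, hxF⟩ : ↥(FNC N)) := hcop.dvd_of_dvd_mul_left h4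
    have h6 : (p : ℤ) ∣ (ordAt z φ' : ℤ) := by
      rw [h1, hP₀]
      exact Dvd.dvd.mul_left h5 _
    exact Int.natCast_dvd_natCast.mp h6
  -- the `p`-th root
  obtain ⟨s', hs'Hol, hs'pow⟩ := hRoot p φ' hp0 hHol' hφ'0 hdiv
  have hs'0 : s' ≠ 0 := by
    intro h
    apply hφ'0
    funext z
    rw [← hs'pow z, h]
    simp [hp0.ne']
  have hpowfun : (fun z : ℍ => s' z ^ p) = φ' := funext hs'pow
  have hex : ∀ γ : ↥(Gamma0 N), ∃ ω : ℂ, ω ^ p = 1 ∧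
      ∀ z : ℍ, s' ((γ : SL(2, ℤ)) • z) = ω * s' z := by
    intro γ
    have hγHol : Hol (fun z : ℍ => s' ((γ : SL(2, ℤ)) • z)) :=
      (PointVal.pointValStatement.2.2.2.2.1 UpperHalfPlane.I (γ : SL(2, ℤ)) s' hs'Hol).1
    exact hRU p _ s' hp0 hγHol hs'Hol hs'0
      (fun z => by rw [hs'pow, hs'pow]; exact hMF'.1 γ γ.2 z)
  choose χ' hχ' using hex
  refine ⟨χ', s', ⟨hs'Hol, hs'0, hχ', ?_⟩, ?_⟩
  · rw [hpowfun]; exact hMF'.2
  · rw [hpowfun]; exact hAn'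

end

end Fermat.Agent.S42
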