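/-
S42 moonshot — block DESC, package SIG (twin B): `σ̃ = coeffMap σ` (for a ring automorphism `σ`
of `ℂ`) maps `FNC N` to itself, fixes `j`, transports places with their `ord`, preserves the pole
bounds at infinity, the `q`-order and (up to `σ`) the leading coefficient.
Main theorem: `descSigB_main : desc_SigStatement`.
-/
import Fermat.Agent.S42.DescInterfaces
import Fermat.Agent.S42.ALInterfaces
import Fermat.Prelude.Def_AlgebraicCurve_BaseChangeGalois

set_option autoImplicit false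

open UpperHalfPlane ModularForm Complex CongruenceSubgroup ModularGroup AlgebraicCurve
open scoped MatrixGroups Manifold Real

namespace Fermat.Agent.S42

open Fermat.Agent.S24

noncomputable section

/-- `coeffMap f` maps `FNC N` to itself, for every ring endomorphism `f` of `ℂ` (closure form). -/
theorem descSigB_mem_aux (N : ℕ) [NeZero N] (f : ℂ →+* ℂ) {x : LaurentSeries ℂ}
    (hx : x ∈ Subfield.closure (Set.range (algebraMap ℂ (LaurentSeries ℂ)) ∪
      ModularCurve.divisorExpansionsC ℂ N)) :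
    ModularCurve.coeffMap f x ∈ FNC N := by
  induction hx using Subfield.closure_induction with
  | mem y hy =>
      rcases hy with ⟨a, rfl⟩ | ⟨d, hd, hdvd, rfl⟩
      · rw [ModularCurve.coeffMap_algebraMap]
        exact (FNC N).algebraMap_mem _
      · have := hd
        rw [ModularCurve.coeffMap_qExpand, ModularCurve.coeffMap_jqModC]
        exact ModularCurve.jqModCd_mem_full ℂ N hdvd
  | one => rw [map_one]; exact one_mem _
  | add x y _ _ hx hy => rw [map_add]; exact add_mem hx hy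
  | neg x _ hx => rw [map_neg]; exact neg_mem hx
  | inv x _ hx => rw [map_inv₀]; exact inv_mem hx
  | mul x y _ _ hx hy => rw [map_mul]; exact mul_mem hx hy

/-- `coeffMap f` maps `FNC N` to itself, for every ring endomorphism `f` of `ℂ`. -/
theorem descSigB_mem (N : ℕ) [NeZero N] (f : ℂ →+* ℂ) {x : LaurentSeries ℂ} (hx : x ∈ FNC N) :
    ModularCurve.coeffMap f x ∈ FNC N :=
  descSigB_mem_aux N f hx

/-- `coeffMap σ.symm ∘ coeffMap σ = id`. -/
theorem descSigB_symm_apply (σ : ℂ ≃+* ℂ) (x : LaurentSeries ℂ) :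
    ModularCurve.coeffMap (σ.symm : ℂ →+* ℂ) (ModularCurve.coeffMap (σ : ℂ →+* ℂ) x) = x := by
  rw [ModularCurve.coeffMap_coeffMap,
    ModularCurve.coeffMap_congr (g := RingHom.id ℂ) (RingHom.ext fun a => σ.symm_apply_apply a),
    ModularCurve.coeffMap_id]

/-- `coeffMap σ ∘ coeffMap σ.symm = id`. -/
theorem descSigB_apply_symm (σ : ℂ ≃+* ℂ) (x : LaurentSeries ℂ) :
    ModularCurve.coeffMap (σ : ℂ →+* ℂ) (ModularCurve.coeffMap (σ.symm : ℂ →+* ℂ) x) = x := by
  rw [ModularCurve.coeffMap_coeffMap,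
    ModularCurve.coeffMap_congr (g := RingHom.id ℂ) (RingHom.ext fun a => σ.apply_symm_apply a),
    ModularCurve.coeffMap_id]

/-- The ring automorphism of `FNC N` induced by `σ̃`. -/
def descSigB_ringAut (N : ℕ) [NeZero N] (σ : ℂ ≃+* ℂ) : ↥(FNC N) ≃+* ↥(FNC N) where
  toFun x := ⟨ModularCurve.coeffMap (σ : ℂ →+* ℂ) (x : LaurentSeries ℂ), descSigB_mem N _ x.2⟩
  invFun x := ⟨ModularCurve.coeffMap (σ.symm : ℂ →+* ℂ) (x : LaurentSeries ℂ),
    descSigB_mem N _ x.2⟩
  left_inv x := Subtype.ext (descSigB_symm_apply σ (x : LaurentSeries ℂ))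
  right_inv x := Subtype.ext (descSigB_apply_symm σ (x : LaurentSeries ℂ))
  map_mul' x y := Subtype.ext
    (map_mul (ModularCurve.coeffMap (σ : ℂ →+* ℂ)) (x : LaurentSeries ℂ) (y : LaurentSeries ℂ))
  map_add' x y := Subtype.ext
    (map_add (ModularCurve.coeffMap (σ : ℂ →+* ℂ)) (x : LaurentSeries ℂ) (y : LaurentSeries ℂ))

/-- The `σ`-semilinear automorphism of `FNC N` induced by `σ̃`. -/
def descSigB_semi (N : ℕ) [NeZero N] (σ : ℂ ≃+* ℂ) : SemilinearAut ℂ ↥(FNC N) :=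
  ⟨(descSigB_ringAut N σ, σ), fun a =>
    Subtype.ext (ModularCurve.coeffMap_algebraMap (σ : ℂ →+* ℂ) a)⟩

theorem descSigB_semi_smul (N : ℕ) [NeZero N] (σ : ℂ ≃+* ℂ) (y : LaurentSeries ℂ)
    (h : y ∈ FNC N) (h' : ModularCurve.coeffMap (σ : ℂ →+* ℂ) y ∈ FNC N) :
    descSigB_semi N σ • (⟨y, h⟩ : ↥(FNC N)) =
      (⟨ModularCurve.coeffMap (σ : ℂ →+* ℂ) y, h'⟩ : ↥(FNC N)) := rfl

/-- `σ̃` fixes `j`. -/
theorem descSigB_jC (N : ℕ) [NeZero N] (f : ℂ →+* ℂ) :
    ModularCurve.coeffMap f ((jC N : ↥(FNC N)) : LaurentSeries ℂ) =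
      ((jC N : ↥(FNC N)) : LaurentSeries ℂ) := by
  show ModularCurve.coeffMap f (ModularCurve.qExpand ℂ 1 (ModularCurve.jqModC ℂ)) =
    ModularCurve.qExpand ℂ 1 (ModularCurve.jqModC ℂ)
  rw [ModularCurve.coeffMap_qExpand, ModularCurve.coeffMap_jqModC]

theorem descSigB_semi_smul_jC (N : ℕ) [NeZero N] (σ : ℂ ≃+* ℂ) :
    descSigB_semi N σ • (jC N) = jC N :=
  Subtype.ext (descSigB_jC N (σ : ℂ →+* ℂ))

/-- Transport of places. -/
theorem descSigB_place (N : ℕ) [NeZero N] (σ : ℂ ≃+* ℂ) (P : Place ℂ ↥(FNC N))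
    (y : LaurentSeries ℂ) (h : y ∈ FNC N)
    (h' : ModularCurve.coeffMap (σ : ℂ →+* ℂ) y ∈ FNC N) :
    (descSigB_semi N σ • P).ord (⟨ModularCurve.coeffMap (σ : ℂ →+* ℂ) y, h'⟩ : ↥(FNC N)) =
      P.ord (⟨y, h⟩ : ↥(FNC N)) := by
  rw [← descSigB_semi_smul N σ y h h']
  exact SemilinearAut.ord_smul (descSigB_semi N σ) P ⟨y, h⟩

/-- `σ̃` preserves the pole bounds at infinity. -/
theorem descSigB_bnd (N : ℕ) [NeZero N] (σ : ℂ ≃+* ℂ) (m : ℕ) (x : LaurentSeries ℂ)
    (hx : desc_Bnd N m x) : desc_Bnd N m (ModularCurve.coeffMap (σ : ℂ →+* ℂ) x) := by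
  obtain ⟨h, hb⟩ := hx
  refine ⟨descSigB_mem N _ h, fun P' hP' => ?_⟩
  set g := descSigB_semi N σ with hg
  have hPP : g • (g⁻¹ • P') = P' := smul_inv_smul g P'
  have hj : (g⁻¹ • P').ord (jC N) = P'.ord (jC N) := by
    have h1 := SemilinearAut.ord_smul g (g⁻¹ • P') (jC N)
    rw [hPP, descSigB_semi_smul_jC] at h1
    exact h1.symm
  have hxx : P'.ord (⟨ModularCurve.coeffMap (σ : ℂ →+* ℂ) x, descSigB_mem N _ h⟩ : ↥(FNC N)) =
      (g⁻¹ • P').ord (⟨x, h⟩ : ↥(FNC N)) := by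
    have h1 := descSigB_place N σ (g⁻¹ • P') x h (descSigB_mem N _ h)
    rw [← hg, hPP] at h1
    exact h1
  rw [hxx, ← hj]
  exact hb (g⁻¹ • P') (by rw [hj]; exact hP')

/-- `σ̃` preserves the `q`-order. -/
theorem descSigB_order (σ : ℂ ≃+* ℂ) (x : LaurentSeries ℂ) :
    (ModularCurve.coeffMap (σ : ℂ →+* ℂ) x).order = x.order := by
  rcases eq_or_ne x 0 with rfl | hx
  · rw [map_zero]
  have hx' : ModularCurve.coeffMap (σ : ℂ →+* ℂ) x ≠ 0 := by
    intro h0
    apply hx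
    have := descSigB_symm_apply σ x
    rw [h0, map_zero] at this
    exact this.symm
  apply le_antisymm
  · apply HahnSeries.order_le_of_coeff_ne_zero
    rw [ModularCurve.coeffMap_coeff]
    intro h0
    have h1 : x.coeff x.order = 0 := by
      have := congrArg σ.symm h0
      simpa using this
    exact hx (HahnSeries.coeff_order_eq_zero.mp h1)
  · apply HahnSeries.order_le_of_coeff_ne_zero
    intro h0
    have h1 : (ModularCurve.coeffMap (σ : ℂ →+* ℂ) x).coeff
        (ModularCurve.coeffMap (σ : ℂ →+* ℂ) x).order = 0 := by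
      rw [ModularCurve.coeffMap_coeff, h0]
      simp
    exact hx' (HahnSeries.coeff_order_eq_zero.mp h1)

/-- `σ̃` maps the leading coefficient to its image under `σ`. -/
theorem descSigB_leadingCoeff (σ : ℂ ≃+* ℂ) (x : LaurentSeries ℂ) :
    (ModularCurve.coeffMap (σ : ℂ →+* ℂ) x).leadingCoeff = σ x.leadingCoeff := by
  rw [HahnSeries.leadingCoeff_eq, HahnSeries.leadingCoeff_eq, descSigB_order,
    ModularCurve.coeffMap_coeff]
  rfl

/-- Package SIG. -/
theorem descSigB_main : desc_SigStatement := by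
  intro N _ σ
  refine ⟨fun x hx => descSigB_mem N _ hx, descSigB_jC N _, fun P => ?_, descSigB_bnd N σ,
    fun x => ⟨descSigB_order σ x, descSigB_leadingCoeff σ x⟩⟩
  exact ⟨descSigB_semi N σ • P, fun y h h' => descSigB_place N σ P y h h'⟩

end

end Fermat.Agent.S42
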