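/-
S42 moonshot — block DESC (sub-lead helper182): core assembly `descCore_main` of the descent statement
`desc_Statement` from the inner statements of `DescInterfaces.lean`.

Canonical element of `𝒦_χ`: take the least `n` with `𝒦_χ^(n) ≠ ∅`, an element of maximal
`q`-order in it, normalised to leading coefficient `1` (unique by the difference lemma).  The
coefficientwise action of `Aut(ℂ)` permutes the canonical elements; there are finitely many
multipliers, so the canonical element has finitely many conjugates and is `ℚ̄`-rational.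
-/
import Fermat.Agent.S42.DescInterfaces
import Fermat.Agent.S42.ALInterfaces

set_option autoImplicit false

open UpperHalfPlane ModularForm Complex CongruenceSubgroup ModularGroup AlgebraicCurve
open scoped MatrixGroups Manifold Real

namespace Fermat.Agent.S42

open Fermat.Agent.S24

noncomputable section

/-- `x` is a canonical element of `𝒦_χ`. -/
def descCore_IsCan (N : ℕ) [NeZero N] (p : ℕ) (χ : ↥(Gamma0 N) → ℂ) (x : LaurentSeries ℂ) :
    Prop :=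
  ∃ n : ℕ, x ∈ desc_Kn N p χ n ∧ (∀ n' : ℕ, n' < n → ∀ y : LaurentSeries ℂ, y ∉ desc_Kn N p χ n') ∧
    (∀ y ∈ desc_Kn N p χ n, y.order ≤ x.order) ∧ x.leadingCoeff = 1

/-- `coeffMap σ⁻¹ ∘ coeffMap σ = id`. -/
theorem descCore_symm_apply (σ : ℂ ≃+* ℂ) (x : LaurentSeries ℂ) :
    ModularCurve.coeffMap (σ.symm : ℂ →+* ℂ) (ModularCurve.coeffMap (σ : ℂ →+* ℂ) x) = x := by
  ext k
  simp

/-- Elements of `𝒦_χ` lie in `FNC N` and are nonzero. -/
theorem descCore_mem (hBas : desc_BasStatement) (hDC1 : dict_FieldCStatement) (N : ℕ) [NeZero N]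
    (p : ℕ) (hp : 0 < p) (χ : ↥(Gamma0 N) → ℂ) (x : LaurentSeries ℂ) (hx : x ∈ desc_K N p χ) :
    x ∈ FNC N ∧ x ≠ 0 := by
  obtain ⟨s, hs, hAn⟩ := hx
  obtain ⟨h1, -, h3⟩ := hBas N p χ s hp hs
  have h4 := hDC1 N _ h1
  rw [hAn.2] at h4 h3
  exact ⟨h4, h3⟩

/-- The multiplier of a nonempty class is a `p`-torsion character. -/
theorem descCore_char (N : ℕ) [NeZero N] (p : ℕ) (χ : ↥(Gamma0 N) → ℂ)
    (h : (desc_K N p χ).Nonempty) :
    (∀ γ, χ γ ^ p = 1) ∧ ∀ γ γ', χ (γ * γ') = χ γ * χ γ' := by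
  obtain ⟨x, s, ⟨-, hs0, hs, -⟩, -⟩ := h
  refine ⟨fun γ => (hs γ).1, fun γ γ' => ?_⟩
  obtain ⟨z, hz⟩ := Function.ne_iff.mp hs0
  have h1 := (hs (γ * γ')).2 z
  have h2 : (((γ * γ' : ↥(Gamma0 N)) : SL(2, ℤ))) • z = (γ : SL(2, ℤ)) • ((γ' : SL(2, ℤ)) • z) := by
    rw [← mul_smul]
    rfl
  rw [h2, (hs γ).2, (hs γ').2] at h1
  have h3 : (χ γ * χ γ' - χ (γ * γ')) * s z = 0 := by
    rw [sub_mul, ← h1]
    ring
  rcases mul_eq_zero.mp h3 with h4 | h4
  · exact (sub_eq_zero.mp h4).symm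
  · exact absurd h4 hz

/-- Existence of a canonical element. -/
theorem descCore_exists (hBas : desc_BasStatement) (hDC1 : dict_FieldCStatement)
    (hBex : desc_BndExStatement) (hOrd : desc_OrdBddStatement) (hScl : desc_ScaleStatement)
    (N : ℕ) [NeZero N] (p : ℕ) (hp : 0 < p) (χ : ↥(Gamma0 N) → ℂ)
    (h : (desc_K N p χ).Nonempty) : ∃ x, descCore_IsCan N p χ x := by
  classical
  obtain ⟨x₀, hx₀⟩ := h
  have hne : ∃ n : ℕ, ∃ y, y ∈ desc_Kn N p χ n := by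
    obtain ⟨n₀, hn₀⟩ := hBex N x₀ (descCore_mem hBas hDC1 N p hp χ x₀ hx₀).1
    exact ⟨n₀, x₀, hx₀, hn₀ (p * n₀) (Nat.le_mul_of_pos_left n₀ hp)⟩
  let n := Nat.find hne
  have hn : ∃ y, y ∈ desc_Kn N p χ n := Nat.find_spec hne
  have hmin : ∀ n' : ℕ, n' < n → ∀ y : LaurentSeries ℂ, y ∉ desc_Kn N p χ n' := by
    intro n' hn' y hy
    exact Nat.find_min hne hn' ⟨y, hy⟩
  obtain ⟨B, hB⟩ := hOrd N p χ n hp
  obtain ⟨y₁, hy₁⟩ := hn
  obtain ⟨ub, ⟨y, hy, hyub⟩, hmax⟩ :=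
    Int.exists_greatest_of_bdd (P := fun z : ℤ => ∃ y ∈ desc_Kn N p χ n, y.order = z)
      ⟨B, fun z ⟨y, hy, hyz⟩ => hyz ▸ hB y hy⟩ ⟨y₁.order, y₁, hy₁, rfl⟩
  have hy0 : y ≠ 0 := (descCore_mem hBas hDC1 N p hp χ y hy.1).2
  have hlc : y.leadingCoeff ≠ 0 := HahnSeries.leadingCoeff_ne_zero.mpr hy0
  have hC0 : (HahnSeries.C (y.leadingCoeff)⁻¹ : LaurentSeries ℂ) ≠ 0 := by
    rw [Ne, ← HahnSeries.C_zero]
    exact fun h => inv_ne_zero hlc (HahnSeries.C_injective h)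
  refine ⟨HahnSeries.C (y.leadingCoeff)⁻¹ * y, n, hScl N p χ n y _ hp (inv_ne_zero hlc) hy, hmin,
    fun z hz => ?_, ?_⟩
  · rw [HahnSeries.order_mul hC0 hy0, HahnSeries.order_C, zero_add, hyub]
    exact hmax z.order ⟨z, hz, rfl⟩
  · have hCl : (HahnSeries.C (y.leadingCoeff)⁻¹ : LaurentSeries ℂ).leadingCoeff =
        (y.leadingCoeff)⁻¹ := HahnSeries.leadingCoeff_of_single
    rw [HahnSeries.leadingCoeff_mul, hCl, inv_mul_cancel₀ hlc]

/-- Uniqueness of the canonical element. -/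
theorem descCore_unique (hDif : desc_DiffStatement) (N : ℕ) [NeZero N] (p : ℕ) (hp : 0 < p)
    (χ : ↥(Gamma0 N) → ℂ) (x₁ x₂ : LaurentSeries ℂ) (h₁ : descCore_IsCan N p χ x₁)
    (h₂ : descCore_IsCan N p χ x₂) : x₁ = x₂ := by
  obtain ⟨n₁, hx₁, hmin₁, hmax₁, hlc₁⟩ := h₁
  obtain ⟨n₂, hx₂, hmin₂, hmax₂, hlc₂⟩ := h₂
  have hn : n₁ = n₂ := by
    rcases lt_trichotomy n₁ n₂ with h | h | h
    · exact absurd hx₁ (hmin₂ n₁ h x₁)
    · exact h
    · exact absurd hx₂ (hmin₁ n₂ h x₂)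
  subst hn
  have hord : x₁.order = x₂.order := le_antisymm (hmax₂ x₁ hx₁) (hmax₁ x₂ hx₂)
  rcases hDif N p χ n₁ x₁ x₂ hp hx₁ hx₂ hord hlc₁ hlc₂ with h | ⟨y, hy, hlt⟩
  · exact h
  · exact absurd (hmax₁ y hy) (not_le.mpr hlt)

/-- Transport of `𝒦_χ^(n)` under `σ̃`. -/
theorem descCore_transport (hSig : desc_SigStatement) (hKst : desc_KstStatement)
    (hCls : desc_ClsStatement) (hInj : desc_InjStatement)
    (N : ℕ) [NeZero N] (p : ℕ) (hpr : p.Prime) (h5 : 5 ≤ p) (χ χ' : ↥(Gamma0 N) → ℂ)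
    (σ : ℂ ≃+* ℂ) (x : LaurentSeries ℂ) (hx : x ∈ desc_K N p χ)
    (hx' : ModularCurve.coeffMap (σ : ℂ →+* ℂ) x ∈ desc_K N p χ') (n : ℕ) (y : LaurentSeries ℂ)
    (hy : y ∈ desc_Kn N p χ n) : ModularCurve.coeffMap (σ : ℂ →+* ℂ) y ∈ desc_Kn N p χ' n := by
  obtain ⟨hS1, -, -, hS4, -⟩ := hSig N σ
  obtain ⟨u, hu, huy⟩ := hCls N p χ y x hpr.pos hy.1 hx
  obtain ⟨χ'', hχ''⟩ := hKst N p hpr h5 χ σ y hy.1
  have h1 : ModularCurve.coeffMap (σ : ℂ →+* ℂ) y =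
      ModularCurve.coeffMap (σ : ℂ →+* ℂ) u ^ p * ModularCurve.coeffMap (σ : ℂ →+* ℂ) x := by
    rw [huy, map_mul, map_pow]
  have h2 : χ'' = χ' := hInj N p χ'' χ' _ _ _ hpr.pos hχ'' hx' (hS1 u hu) h1
  subst h2
  exact ⟨hχ'', hS4 (p * n) y hy.2⟩

/-- The image under `σ̃` of a canonical element is canonical. -/
theorem descCore_can_map (hSig : desc_SigStatement) (hKst : desc_KstStatement)
    (hCls : desc_ClsStatement) (hInj : desc_InjStatement)
    (N : ℕ) [NeZero N] (p : ℕ) (hpr : p.Prime) (h5 : 5 ≤ p) (χ χ' : ↥(Gamma0 N) → ℂ)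
    (σ : ℂ ≃+* ℂ) (x : LaurentSeries ℂ) (hx : descCore_IsCan N p χ x)
    (hx' : ModularCurve.coeffMap (σ : ℂ →+* ℂ) x ∈ desc_K N p χ') :
    descCore_IsCan N p χ' (ModularCurve.coeffMap (σ : ℂ →+* ℂ) x) := by
  obtain ⟨n, hxn, hmin, hmax, hlc⟩ := hx
  have hback : ∀ (n' : ℕ) (y : LaurentSeries ℂ), y ∈ desc_Kn N p χ' n' →
      ModularCurve.coeffMap (σ.symm : ℂ →+* ℂ) y ∈ desc_Kn N p χ n' := by
    intro n' y hy
    refine descCore_transport hSig hKst hCls hInj N p hpr h5 χ' χ σ.symm _ hx' ?_ n' y hy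
    rw [descCore_symm_apply]
    exact hxn.1
  obtain ⟨-, -, -, -, hS5⟩ := hSig N σ
  obtain ⟨-, -, -, -, hS5'⟩ := hSig N σ.symm
  refine ⟨n, descCore_transport hSig hKst hCls hInj N p hpr h5 χ χ' σ x hxn.1 hx' n x hxn,
    fun n' hn' y hy => hmin n' hn' _ (hback n' y hy), fun y hy => ?_, ?_⟩
  · rw [(hS5 x).1, ← (hS5' y).1]
    exact hmax _ (hback n y hy)
  · rw [(hS5 x).2, hlc, map_one]

/-- (DESC) Assembly of the descent statement. -/
theorem descCore_main (hAlg : desc_AlgStatement) (hFin : desc_FinStatement)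
    (hDC1 : dict_FieldCStatement) (hBas : desc_BasStatement) (hSig : desc_SigStatement)
    (hKst : desc_KstStatement) (hCls : desc_ClsStatement) (hInj : desc_InjStatement)
    (hBex : desc_BndExStatement) (hOrd : desc_OrdBddStatement) (hScl : desc_ScaleStatement)
    (hDif : desc_DiffStatement) : desc_Statement := by
  classical
  intro N _ p hpr h5 χ s₀ hs₀
  have hp : 0 < p := hpr.pos
  -- the canonical element of each class
  let canf : (↥(Gamma0 N) → ℂ) → LaurentSeries ℂ := fun χ' =>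
    if h : ∃ x, descCore_IsCan N p χ' x then h.choose else 0
  have hcanf : ∀ (χ' : ↥(Gamma0 N) → ℂ) (x : LaurentSeries ℂ), descCore_IsCan N p χ' x →
      canf χ' = x := by
    intro χ' x hx
    have h : ∃ x, descCore_IsCan N p χ' x := ⟨x, hx⟩
    have h1 : canf χ' = h.choose := dif_pos h
    rw [h1]
    exact descCore_unique hDif N p hp χ' _ _ h.choose_spec hx
  -- the class of `χ` is nonempty
  have hne : (desc_K N p χ).Nonempty :=
    ⟨Qexp 1 (fun z : ℍ => s₀ z ^ p), s₀, hs₀, (hBas N p χ s₀ hp hs₀).2.1, rfl⟩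
  obtain ⟨x, hx⟩ := descCore_exists hBas hDC1 hBex hOrd hScl N p hp χ hne
  have hxK : x ∈ desc_K N p χ := by
    obtain ⟨n, hxn, -⟩ := hx
    exact hxn.1
  -- the conjugates of `x` are canonical elements of classes of `p`-torsion characters
  have hfin := hFin N p hp
  have hconj : ∀ σ : ℂ ≃+* ℂ, ModularCurve.coeffMap (σ : ℂ →+* ℂ) x ∈
      canf '' {χ : ↥(Gamma0 N) → ℂ | (∀ γ, χ γ ^ p = 1) ∧ ∀ γ γ', χ (γ * γ') = χ γ * χ γ'} := by
    intro σ
    obtain ⟨χ', hχ'⟩ := hKst N p hpr h5 χ σ x hxK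
    exact ⟨χ', descCore_char N p χ' ⟨_, hχ'⟩,
      hcanf χ' _ (descCore_can_map hSig hKst hCls hInj N p hpr h5 χ χ' σ x hx hχ')⟩
  -- hence `x` is rational
  have hrat : ∀ n : ℤ, x.coeff n ∈ Set.range iotaHom := by
    intro n
    apply hAlg
    refine Set.Finite.subset ((hfin.image canf).image (fun y : LaurentSeries ℂ => y.coeff n)) ?_
    rintro d ⟨σ, -, rfl⟩
    exact ⟨_, hconj σ, rfl⟩
  obtain ⟨s, hs, hAn⟩ := hxK
  refine ⟨s, hs, fun n => ?_⟩
  rw [hAn.2]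
  exact hrat n

end

end Fermat.Agent.S42
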