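/-
S42 moonshot — block DC (the dictionary over `ℂ`; sub-lead helper180): INNER INTERFACE FILE.
Definitions and statement-`Prop`s only.  Each DC work package proves one of the statements below
(or one of the `dict_…CStatement`s of `DictInterfaces.lean`) in its own file
`Fermat/Agent/S42/DC<Package>.lean`, assuming other statements as explicit hypotheses.
-/
import Fermat.Agent.S42.DictInterfaces
import Fermat.Agent.S42.ALInterfaces

set_option autoImplicit false

open UpperHalfPlane ModularForm Complex CongruenceSubgroup ModularGroup AlgebraicCurve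
open scoped MatrixGroups Manifold Real

namespace Fermat.Agent.S42

open Fermat.Agent.S24

noncomputable section

/-! ## Shared definitions -/

/-- Evaluation of a bivariate polynomial `G ∈ ℂ[X][Y]` at a pair `(x, y)` of Laurent series
(`X ↦ x`, `Y ↦ y`). -/
def dcEvalL (G : Polynomial (Polynomial ℂ)) (x y : LaurentSeries ℂ) : LaurentSeries ℂ :=
  Polynomial.eval₂
    ((Polynomial.aeval x : Polynomial ℂ →ₐ[ℂ] LaurentSeries ℂ) : Polynomial ℂ →+* LaurentSeries ℂ)
    y G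

/-! ## Package T: transfer lemmas -/

/-- (T) Basic transfer lemmas between modular functions and their `q`-expansions. -/
def dc_TransferStatement : Prop :=
  -- (1) a modular function of level `Γ₀(N)` is holomorphic and `IsCuspMer 1`
  (∀ (N : ℕ) [NeZero N] (φ : ℍ → ℂ), dict_ModFun N φ → Hol φ ∧ IsCuspMer 1 φ) ∧
  -- (2) sums and products of realisations
  (∀ (x y : LaurentSeries ℂ) (φ ψ : ℍ → ℂ), dict_AnC x φ → dict_AnC y ψ →
    dict_AnC (x + y) (φ + ψ) ∧ dict_AnC (x * y) (φ * ψ)) ∧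
  -- (3) constants
  (∀ c : ℂ, dict_AnC (HahnSeries.C c) (fun _ : ℍ => c)) ∧
  -- (4) uniqueness of the realising function
  (∀ (x : LaurentSeries ℂ) (φ ψ : ℍ → ℂ), dict_AnC x φ → dict_AnC x ψ → φ = ψ) ∧
  -- (5) modular functions are closed under sums and products
  (∀ (N : ℕ) [NeZero N] (φ ψ : ℍ → ℂ), dict_ModFun N φ → dict_ModFun N ψ →
    dict_ModFun N (φ + ψ) ∧ dict_ModFun N (φ * ψ)) ∧
  -- (6) constants are modular functions
  (∀ (N : ℕ) [NeZero N] (c : ℂ), dict_ModFun N (fun _ : ℍ => c)) ∧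
  -- (7) `jC N` is realised by `Jfun`
  (∀ (N : ℕ) [NeZero N],
    dict_AnC ((jC N : ↥(FNC N)) : LaurentSeries ℂ) Jfun ∧ dict_ModFun N Jfun) ∧
  -- (8) the generator `j(q^d)` of `FNC N` (`d ∣ N`) is realised by `τ ↦ j(dτ)`
  (∀ (N : ℕ) [NeZero N] (d : ℕ) [NeZero d], d ∣ N →
    dict_AnC (ModularCurve.qExpand ℂ d (ModularCurve.jqModC ℂ)) (slConj d 1) ∧
    dict_ModFun N (slConj d 1))

/-- (TB) Transfer of bivariate polynomial expressions. -/
def dc_BivarStatement : Prop :=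
  (∀ (G : Polynomial (Polynomial ℂ)) (x y : LaurentSeries ℂ) (φ ψ : ℍ → ℂ),
    dict_AnC x φ → dict_AnC y ψ →
    dict_AnC (dcEvalL G x y) (fun τ : ℍ => G.evalEval (φ τ) (ψ τ))) ∧
  (∀ (N : ℕ) [NeZero N] (G : Polynomial (Polynomial ℂ)) (φ ψ : ℍ → ℂ),
    dict_ModFun N φ → dict_ModFun N ψ →
    dict_ModFun N (fun τ : ℍ => G.evalEval (φ τ) (ψ τ)))

/-! ## Packages SYM, CN, LG: symmetric functions of the conjugates -/

/-- (SYM) An `SL(2, ℤ)`-invariant function which is `IsCuspMer N` is a polynomial in `j`. -/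
def dc_SymStatement : Prop :=
  ∀ (N : ℕ) [NeZero N] (f : ℍ → ℂ), (∀ (γ : SL(2, ℤ)) (τ : ℍ), f (γ • τ) = f τ) →
    IsCuspMer N f → ∃ p : Polynomial ℂ, ∀ τ : ℍ, f τ = p.eval (Jfun τ)

/-- (CR) Coset polynomial: a modular function `φ` of level `Γ₀(N)` is a root of a monic
polynomial `P ∈ ℂ[X][Y]` evaluated at `X = j`: `P(j(τ), φ(τ)) = 0`. -/
def dc_CosetRootStatement : Prop :=
  ∀ (N : ℕ) [NeZero N] (φ : ℍ → ℂ), dict_ModFun N φ →
    ∃ P : Polynomial (Polynomial ℂ), P.Monic ∧ ∀ τ : ℍ, P.evalEval (Jfun τ) (φ τ) = 0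

/-- (NM) Norm: for a modular function `φ` of level `Γ₀(N)` there are a modular function `u`
(the product of the other conjugates) and `Nm ∈ ℂ[X]` with `φ · u = Nm(j)`, and
`Nm(j(z₀)) ≠ 0` as soon as `φ` does not vanish on the orbit `SL(2, ℤ) z₀`. -/
def dc_NormStatement : Prop :=
  ∀ (N : ℕ) [NeZero N] (φ : ℍ → ℂ), dict_ModFun N φ →
    ∃ (Nm : Polynomial ℂ) (u : ℍ → ℂ), dict_ModFun N u ∧
      (∀ τ : ℍ, φ τ * u τ = Nm.eval (Jfun τ)) ∧
      ∀ z₀ : ℍ, (∀ γ : SL(2, ℤ), φ (γ • z₀) ≠ 0) → Nm.eval (Jfun z₀) ≠ 0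

/-- (LG) Lagrange interpolation: a modular function `φ` of level `Γ₀(N)` is a rational function
of `j` and `j_N = (τ ↦ j(Nτ))`: `φ · D(j, j_N) = G(j, j_N)` with `D(j, j_N) ≠ 0`. -/
def dc_LagrangeStatement : Prop :=
  ∀ (N : ℕ) [NeZero N] (φ : ℍ → ℂ), dict_ModFun N φ →
    ∃ G D : Polynomial (Polynomial ℂ),
      (∃ τ : ℍ, D.evalEval (Jfun τ) (slConj N 1 τ) ≠ 0) ∧
      ∀ τ : ℍ, φ τ * D.evalEval (Jfun τ) (slConj N 1 τ) = G.evalEval (Jfun τ) (slConj N 1 τ)

/-! (Analytic division and the cusp quotient lemma are `al_DivStatement`, `al_CuspQuotStatement`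
of `ALInterfaces.lean`; see also `al_OrdStatement`.) -/

/-! ## Package AV: prime avoidance at finite places -/

/-- (AV) Given a finite place `P` and finitely many other finite places, there is a nonzero
element integral over `ℂ[j]` vanishing at `P` and at none of the others. -/
def dc_AvoidStatement : Prop :=
  ∀ (N : ℕ) [NeZero N] (P : Place ℂ ↥(FNC N)) (s : Finset (Place ℂ ↥(FNC N))),
    0 ≤ P.ord (jC N) → (∀ P' ∈ s, 0 ≤ P'.ord (jC N)) → P ∉ s →
    ∃ b : ↥(FNC N), IsIntegral ↥(Algebra.adjoin ℂ ({jC N} : Set ↥(FNC N))) b ∧ b ≠ 0 ∧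
      0 < P.ord b ∧ ∀ P' ∈ s, P'.ord b = 0

end

end Fermat.Agent.S42
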