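/-
S42 moonshot — block DC, package AV/A: prime avoidance at finite places.
`dcAV_main : dict_FinCStatement → dc_AvoidStatement`.
-/
import Fermat.Agent.S42.DCInterfaces
import Fermat.Agent.S24.Zeros
import Fermat.Agent.S24.Places

set_option autoImplicit false

open AlgebraicCurve IsDedekindDomain IntermediateField

namespace Fermat.Agent.S42

open Fermat.Agent.S24
open Polynomial
open IntermediateField.algebraAdjoinAdjoin

/-- Prime avoidance at finite places, for a general function field of one variable over an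
algebraically closed field of characteristic zero. -/
theorem dcAV_general {K F : Type} [Field K] [Field F] [Algebra K F] [IsAlgClosed K] [CharZero K]
    (t : F) (ht : Transcendental K t) (hfin : FiniteDimensional K⟮t⟯ F)
    (P : Place K F) (s : Finset (Place K F))
    (hP : 0 ≤ P.ord t) (hs : ∀ P' ∈ s, 0 ≤ P'.ord t) (hPs : P ∉ s) :
    ∃ b : F, IsIntegral ↥(Algebra.adjoin K ({t} : Set F)) b ∧ b ≠ 0 ∧
      0 < P.ord b ∧ ∀ P' ∈ s, P'.ord b = 0 := by
  classical
  let A := Algebra.adjoin K ({t} : Set F)
  let e : K[X] ≃ₐ[K] A := Polynomial.algEquivOfTranscendental K t ht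
  have : IsPrincipalIdealRing A := IsPrincipalIdealRing.of_surjective e.toRingEquiv e.surjective
  have : IsDedekindDomain A := inferInstance
  have : CharZero F := charZero_of_injective_algebraMap (algebraMap K F).injective
  have : CharZero K⟮t⟯ := charZero_of_injective_algebraMap (algebraMap K K⟮t⟯).injective
  have : Algebra.IsSeparable K⟮t⟯ F := inferInstance
  let B := integralClosure A F
  have : IsDedekindDomain B := IsIntegralClosure.isDedekindDomain A K⟮t⟯ F B
  have : IsFractionRing B F := integralClosure.isFractionRing_of_finite_extension K⟮t⟯ F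
  -- nonnegativity on `B` at finite places
  have hnn : ∀ w : Place K F, 0 ≤ w.ord t → ∀ b : B, 0 ≤ w.ord (algebraMap B F b) := by
    intro w hw b
    obtain ⟨c, hc⟩ := Places.centerStatement K F t ht hfin w hw
    exact Dict.ord_nonneg_of_isIntegral w (A := A)
      (fun a => Zeros.ord_nonneg_of_mem_adjoin w t c hc a.2) b.2
  -- a nonzero element of `B` of positive order
  have hpos : ∀ w : Place K F, 0 ≤ w.ord t → ∃ b : B, b ≠ 0 ∧ 0 < w.ord (algebraMap B F b) := by
    intro w hw
    obtain ⟨c, hc⟩ := Places.centerStatement K F t ht hfin w hw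
    have hA : t - algebraMap K F c ∈ A :=
      Subalgebra.sub_mem _ (Algebra.subset_adjoin rfl) (Subalgebra.algebraMap_mem _ c)
    have hB : t - algebraMap K F c ∈ B := B.algebraMap_mem ⟨_, hA⟩
    refine ⟨⟨_, hB⟩, ?_, hc⟩
    intro h0
    have h1 : t - algebraMap K F c = 0 := congrArg Subtype.val h0
    rw [h1, Place.ord_zero] at hc
    exact lt_irrefl _ hc
  have hex : ∀ w : Place K F, 0 ≤ w.ord t →
      ∃ v : HeightOneSpectrum B, w = Place.ofHeightOneSpectrum (K := K) (F := F) v ∧
        ∀ b : B, b ≠ 0 → (b ∈ v.asIdeal ↔ 0 < w.ord (algebraMap B F b)) :=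
    fun w hw => Dict.exists_eq_ofHeightOneSpectrum (K := K) w (hnn w hw) (hpos w hw)
  obtain ⟨vP, hvP, hvPmem⟩ := hex P hP
  have : Nonempty (HeightOneSpectrum B) := ⟨vP⟩
  choose! g hg1 hg2 using hex
  obtain ⟨b0, hb0, hb0pos⟩ := hpos P hP
  -- prime avoidance
  have havoid : ¬ ((vP.asIdeal : Set B) ⊆ ⋃ i ∈ (↑s : Set (Place K F)), ((g i).asIdeal : Set B)) := by
    intro hsub
    rw [Ideal.subset_union_prime (f := fun i => (g i).asIdeal) P P
      (fun i _ _ _ => (g i).isPrime)] at hsub
    obtain ⟨i, his, hle⟩ := hsub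
    have heq : vP.asIdeal = (g i).asIdeal := vP.isMaximal.eq_of_le (g i).isPrime.ne_top hle
    have hv : vP = g i := HeightOneSpectrum.ext heq
    have hPi : P = i := by
      rw [hvP, hv]
      exact (hg1 i (hs i his)).symm
    exact hPs (hPi ▸ his)
  obtain ⟨b, hbP, hbs⟩ := Set.not_subset.mp havoid
  have hbs' : ∀ i ∈ s, b ∉ (g i).asIdeal := by
    intro i his hmem
    exact hbs (Set.mem_iUnion₂.mpr ⟨i, his, hmem⟩)
  by_cases hb : b = 0
  · -- then `s` is empty
    have hs0 : ∀ i ∈ s, False := by
      intro i his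
      exact hbs' i his (hb ▸ (g i).asIdeal.zero_mem)
    refine ⟨(b0 : F), b0.2, ?_, hb0pos, fun P' hP' => (hs0 P' hP').elim⟩
    intro h0
    exact hb0 (Subtype.ext h0)
  · refine ⟨(b : F), b.2, ?_, (hvPmem b hb).mp hbP, ?_⟩
    · intro h0
      exact hb (Subtype.ext h0)
    · intro P' hP'
      have h1 : 0 ≤ P'.ord (algebraMap B F b) := hnn P' (hs P' hP') b
      have h2 : ¬ 0 < P'.ord (algebraMap B F b) := fun h =>
        hbs' P' hP' ((hg2 P' (hs P' hP') b hb).mpr h)
      have h3 : P'.ord (algebraMap B F b) = 0 := le_antisymm (not_lt.mp h2) h1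
      exact h3

/-- (AV) prime avoidance at the finite places of `FNC N`. -/
theorem dcAV_main : dict_FinCStatement → dc_AvoidStatement := by
  intro hFin N _ P s hP hs hPs
  obtain ⟨htr, hfd⟩ := hFin N
  exact dcAV_general (jC N) htr hfd P s hP hs hPs

end Fermat.Agent.S42
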