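/-
S42 — block DC, package TB (twin B, helper180): transfer of bivariate polynomial expressions.
-/
import Fermat.Agent.S42.DCInterfaces

set_option autoImplicit false

open UpperHalfPlane ModularForm Complex CongruenceSubgroup ModularGroup AlgebraicCurve
open scoped MatrixGroups Manifold Real

namespace Fermat.Agent.S42

open Fermat.Agent.S24

/-- Generic induction: a relation between Laurent series and functions which is compatible with
sums, products and constants is compatible with univariate polynomial expressions. -/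
theorem dcTBb_uni (Rel : LaurentSeries ℂ → (ℍ → ℂ) → Prop)
    (hadd : ∀ (x y : LaurentSeries ℂ) (φ ψ : ℍ → ℂ), Rel x φ → Rel y ψ → Rel (x + y) (φ + ψ))
    (hmul : ∀ (x y : LaurentSeries ℂ) (φ ψ : ℍ → ℂ), Rel x φ → Rel y ψ → Rel (x * y) (φ * ψ))
    (hC : ∀ c : ℂ, Rel (HahnSeries.C c) (fun _ : ℍ => c))
    (p : Polynomial ℂ) (x : LaurentSeries ℂ) (φ : ℍ → ℂ) (hx : Rel x φ) :
    Rel (Polynomial.aeval x p) (fun τ : ℍ => p.eval (φ τ)) := by
  induction p using Polynomial.induction_on with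
  | C c =>
    have h1 : (Polynomial.aeval x (Polynomial.C c) : LaurentSeries ℂ) = HahnSeries.C c := by
      rw [Polynomial.aeval_C, HahnSeries.algebraMap_apply']
      simp
    have h2 : (fun τ : ℍ => (Polynomial.C c).eval (φ τ)) = fun _ : ℍ => c := by
      funext τ; simp
    rw [h1, h2]; exact hC c
  | add p q hp hq =>
    have h2 : (fun τ : ℍ => (p + q).eval (φ τ))
        = (fun τ : ℍ => p.eval (φ τ)) + fun τ : ℍ => q.eval (φ τ) := by
      funext τ; simp
    rw [map_add, h2]; exact hadd _ _ _ _ hp hq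
  | monomial n c h =>
    have h1 : (Polynomial.aeval x (Polynomial.C c * Polynomial.X ^ (n + 1)) : LaurentSeries ℂ)
        = Polynomial.aeval x (Polynomial.C c * Polynomial.X ^ n) * x := by
      simp only [map_mul, map_pow, Polynomial.aeval_X, pow_succ, mul_assoc]
    have h2 : (fun τ : ℍ => (Polynomial.C c * Polynomial.X ^ (n + 1)).eval (φ τ))
        = (fun τ : ℍ => (Polynomial.C c * Polynomial.X ^ n).eval (φ τ)) * φ := by
      funext τ; simp [pow_succ, mul_assoc]
    rw [h1, h2]; exact hmul _ _ _ _ h hx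

/-- Generic induction, bivariate case. -/
theorem dcTBb_bi (Rel : LaurentSeries ℂ → (ℍ → ℂ) → Prop)
    (hadd : ∀ (x y : LaurentSeries ℂ) (φ ψ : ℍ → ℂ), Rel x φ → Rel y ψ → Rel (x + y) (φ + ψ))
    (hmul : ∀ (x y : LaurentSeries ℂ) (φ ψ : ℍ → ℂ), Rel x φ → Rel y ψ → Rel (x * y) (φ * ψ))
    (hC : ∀ c : ℂ, Rel (HahnSeries.C c) (fun _ : ℍ => c))
    (G : Polynomial (Polynomial ℂ)) (x y : LaurentSeries ℂ) (φ ψ : ℍ → ℂ)
    (hx : Rel x φ) (hy : Rel y ψ) :
    Rel (dcEvalL G x y) (fun τ : ℍ => G.evalEval (φ τ) (ψ τ)) := by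
  induction G using Polynomial.induction_on with
  | C p =>
    have h1 : dcEvalL (Polynomial.C p) x y = Polynomial.aeval x p := by
      simp [dcEvalL]
    have h2 : (fun τ : ℍ => (Polynomial.C p : Polynomial (Polynomial ℂ)).evalEval (φ τ) (ψ τ))
        = fun τ : ℍ => p.eval (φ τ) := by
      funext τ; simp [Polynomial.evalEval]
    rw [h1, h2]; exact dcTBb_uni Rel hadd hmul hC p x φ hx
  | add p q hp hq =>
    have h1 : dcEvalL (p + q) x y = dcEvalL p x y + dcEvalL q x y := by
      simp [dcEvalL]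
    have h2 : (fun τ : ℍ => (p + q).evalEval (φ τ) (ψ τ))
        = (fun τ : ℍ => p.evalEval (φ τ) (ψ τ)) + fun τ : ℍ => q.evalEval (φ τ) (ψ τ) := by
      funext τ; simp [Polynomial.evalEval]
    rw [h1, h2]; exact hadd _ _ _ _ hp hq
  | monomial n p h =>
    have h1 : dcEvalL (Polynomial.C p * Polynomial.X ^ (n + 1)) x y
        = dcEvalL (Polynomial.C p * Polynomial.X ^ n) x y * y := by
      simp [dcEvalL, pow_succ, mul_assoc]
    have h2 : (fun τ : ℍ => (Polynomial.C p * Polynomial.X ^ (n + 1)).evalEval (φ τ) (ψ τ))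
        = (fun τ : ℍ => (Polynomial.C p * Polynomial.X ^ n).evalEval (φ τ) (ψ τ)) * ψ := by
      funext τ; simp [Polynomial.evalEval, pow_succ, mul_assoc]
    rw [h1, h2]; exact hmul _ _ _ _ h hy

/-- (TB) Transfer of bivariate polynomial expressions. -/
theorem dcTBb_main : dc_TransferStatement → dc_BivarStatement := by
  intro hT
  obtain ⟨-, h2, h3, -, h5, h6, -, -⟩ := hT
  refine ⟨?_, ?_⟩
  · intro G x y φ ψ hx hy
    exact dcTBb_bi (fun x φ => dict_AnC x φ) (fun x y φ ψ hx hy => (h2 x y φ ψ hx hy).1)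
      (fun x y φ ψ hx hy => (h2 x y φ ψ hx hy).2) h3 G x y φ ψ hx hy
  · intro N _ G φ ψ hφ hψ
    exact dcTBb_bi (fun _ φ => dict_ModFun N φ) (fun _ _ φ ψ hx hy => (h5 N φ ψ hx hy).1)
      (fun _ _ φ ψ hx hy => (h5 N φ ψ hx hy).2) (h6 N) G 0 0 φ ψ hφ hψ

end Fermat.Agent.S42
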