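/-
S42 moonshot — block DC, package CN/A: the coset polynomial and the norm of a modular function
of level `Γ₀(N)`.

For a coset `c ∈ SL(2, ℤ) ⧸ Γ₀(N)` put `φ^c := φ ∘ (out c)⁻¹`.  The polynomial
`H τ = ∏ c, (X - C (φ^c τ))` is `SL(2, ℤ)`-invariant in `τ`, and its coefficients are `IsCuspMer N`;
hence they are polynomials in `j` (SYM).
-/
import Fermat.Agent.S42.DCInterfaces
import Fermat.Agent.S24.Qexp

set_option autoImplicit false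

open UpperHalfPlane ModularForm Complex CongruenceSubgroup ModularGroup AlgebraicCurve
open scoped MatrixGroups Manifold Real

namespace Fermat.Agent.S42

open Fermat.Agent.S24 Polynomial

noncomputable section

/-- The subring of `ℍ → ℂ` of the functions which are `IsCuspMer N`. -/
def dcCN_ring (N : ℕ) [NeZero N] : Subring (ℍ → ℂ) where
  carrier := {f | IsCuspMer N f}
  mul_mem' := fun {f g} hf hg => (Qexp.qexpStatement.2.1 N f g hf hg).2.1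
  one_mem' := ⟨0, (Qexp.qexpStatement.1 N 1).1⟩
  add_mem' := fun {f g} hf hg => (Qexp.qexpStatement.2.1 N f g hf hg).1
  zero_mem' := ⟨0, (Qexp.qexpStatement.1 N 0).1⟩
  neg_mem' := fun {f} hf => by
    have h1 : IsCuspMer N (fun _ : ℍ => (-1 : ℂ)) := ⟨0, (Qexp.qexpStatement.1 N (-1)).1⟩
    have h2 := (Qexp.qexpStatement.2.1 N _ f h1 hf).2.1
    have h3 : (fun _ : ℍ => (-1 : ℂ)) * f = -f := by
      funext z
      simp
    rwa [h3] at h2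

theorem dcCN_mem_ring (N : ℕ) [NeZero N] (f : ℍ → ℂ) : f ∈ dcCN_ring N ↔ IsCuspMer N f :=
  Iff.rfl

/-- The conjugate `φ^c` of `φ` attached to the coset `c`. -/
def dcCN_conj (N : ℕ) (φ : ℍ → ℂ) (c : SL(2, ℤ) ⧸ Gamma0 N) : ℍ → ℂ :=
  fun z => φ ((Quotient.out c)⁻¹ • z)

theorem dcCN_conj_eq (N : ℕ) (φ : ℍ → ℂ) (hφ : dict_Inv N φ) (g : SL(2, ℤ)) (z : ℍ) :
    dcCN_conj N φ (g : SL(2, ℤ) ⧸ Gamma0 N) z = φ (g⁻¹ • z) := by
  unfold dcCN_conj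
  generalize hc : (g : SL(2, ℤ) ⧸ Gamma0 N) = c
  have h1 : ((Quotient.out c : SL(2, ℤ)) : SL(2, ℤ) ⧸ Gamma0 N) = (g : SL(2, ℤ) ⧸ Gamma0 N) := by
    rw [hc]; exact QuotientGroup.out_eq' c
  have h2 : (Quotient.out c)⁻¹ * g ∈ Gamma0 N := QuotientGroup.eq.mp h1
  have h3 := hφ ((Quotient.out c)⁻¹ * g)⁻¹ ((Gamma0 N).inv_mem h2) ((Quotient.out c)⁻¹ • z)
  rw [← h3, ← mul_smul]
  congr 2
  group

theorem dcCN_conj_smul (N : ℕ) (φ : ℍ → ℂ) (hφ : dict_Inv N φ) (δ : SL(2, ℤ))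
    (c : SL(2, ℤ) ⧸ Gamma0 N) (z : ℍ) :
    dcCN_conj N φ c (δ • z) = dcCN_conj N φ (δ⁻¹ • c) z := by
  have h1 : δ⁻¹ • c = ((δ⁻¹ * Quotient.out c : SL(2, ℤ)) : SL(2, ℤ) ⧸ Gamma0 N) := by
    conv_lhs => rw [← QuotientGroup.out_eq' c]
    rfl
  rw [h1, dcCN_conj_eq N φ hφ]
  unfold dcCN_conj
  rw [← mul_smul]
  congr 2
  group

theorem dcCN_conj_one (N : ℕ) (φ : ℍ → ℂ) (hφ : dict_Inv N φ) (z : ℍ) :
    dcCN_conj N φ ((1 : SL(2, ℤ)) : SL(2, ℤ) ⧸ Gamma0 N) z = φ z := by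
  have h := dcCN_conj_eq N φ hφ 1 z
  rwa [inv_one, one_smul] at h

theorem dcCN_conj_cusp (N : ℕ) (φ : ℍ → ℂ) (hφ : dict_CuspMer N φ)
    (c : SL(2, ℤ) ⧸ Gamma0 N) (γ : SL(2, ℤ)) :
    IsCuspMer N (fun z : ℍ => dcCN_conj N φ c (γ • z)) := by
  have h := hφ ((Quotient.out c)⁻¹ * γ)
  have e : (fun z : ℍ => φ (((Quotient.out c)⁻¹ * γ) • z)) =
      fun z : ℍ => dcCN_conj N φ c (γ • z) := by
    funext z
    unfold dcCN_conj
    rw [mul_smul]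
  rwa [e] at h

theorem dcCN_conj_cusp' (N : ℕ) (φ : ℍ → ℂ) (hφ : dict_CuspMer N φ)
    (c : SL(2, ℤ) ⧸ Gamma0 N) : IsCuspMer N (dcCN_conj N φ c) := by
  have h := dcCN_conj_cusp N φ hφ c 1
  have e : (fun z : ℍ => dcCN_conj N φ c ((1 : SL(2, ℤ)) • z)) = dcCN_conj N φ c := by
    funext z
    rw [one_smul]
  rwa [e] at h

/-- The coset polynomial is `SL(2, ℤ)`-invariant. -/
theorem dcCN_poly_inv (N : ℕ) [Fintype (SL(2, ℤ) ⧸ Gamma0 N)] (φ : ℍ → ℂ) (hφ : dict_Inv N φ)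
    (δ : SL(2, ℤ)) (τ : ℍ) :
    ∏ c : SL(2, ℤ) ⧸ Gamma0 N, (X - C (dcCN_conj N φ c (δ • τ))) =
      ∏ c : SL(2, ℤ) ⧸ Gamma0 N, (X - C (dcCN_conj N φ c τ)) := by
  simp_rw [dcCN_conj_smul N φ hφ δ]
  exact (MulAction.bijective δ⁻¹).prod_comp
    (fun c : SL(2, ℤ) ⧸ Gamma0 N => (X - C (dcCN_conj N φ c τ) : Polynomial ℂ))

/-- The coefficients of the coset polynomial are polynomials in `j`. -/
theorem dcCN_coeff (hSYM : dc_SymStatement) (N : ℕ) [NeZero N] [Fintype (SL(2, ℤ) ⧸ Gamma0 N)]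
    (φ : ℍ → ℂ) (hφ : dict_ModFun N φ) :
    ∃ p : ℕ → Polynomial ℂ, ∀ (k : ℕ) (τ : ℍ),
      (∏ c : SL(2, ℤ) ⧸ Gamma0 N, (X - C (dcCN_conj N φ c τ))).coeff k = (p k).eval (Jfun τ) := by
  let a : SL(2, ℤ) ⧸ Gamma0 N → dcCN_ring N := fun c =>
    ⟨dcCN_conj N φ c, dcCN_conj_cusp' N φ hφ.2 c⟩
  let HH : Polynomial (dcCN_ring N) := ∏ c : SL(2, ℤ) ⧸ Gamma0 N, (X - C (a c))
  have hev : ∀ τ : ℍ,
      HH.map ((Pi.evalRingHom (fun _ : ℍ => ℂ) τ).comp (dcCN_ring N).subtype) =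
        ∏ c : SL(2, ℤ) ⧸ Gamma0 N, (X - C (dcCN_conj N φ c τ)) := by
    intro τ
    simp only [HH, Polynomial.map_prod, Polynomial.map_sub, Polynomial.map_X, Polynomial.map_C]
    rfl
  have hk : ∀ k : ℕ, ∃ p : Polynomial ℂ, ∀ τ : ℍ,
      (∏ c : SL(2, ℤ) ⧸ Gamma0 N, (X - C (dcCN_conj N φ c τ))).coeff k = p.eval (Jfun τ) := by
    intro k
    refine hSYM N (fun τ => (∏ c : SL(2, ℤ) ⧸ Gamma0 N, (X - C (dcCN_conj N φ c τ))).coeff k)
      (fun γ τ => by simp only [dcCN_poly_inv N φ hφ.1 γ τ]) ?_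
    have e : (fun τ => (∏ c : SL(2, ℤ) ⧸ Gamma0 N, (X - C (dcCN_conj N φ c τ))).coeff k) =
        ((HH.coeff k : dcCN_ring N) : ℍ → ℂ) := by
      funext τ
      rw [← hev τ, Polynomial.coeff_map]
      rfl
    rw [e]
    exact (HH.coeff k).2
  exact ⟨fun k => (hk k).choose, fun k τ => (hk k).choose_spec τ⟩

/-- (CR) The coset polynomial. -/
theorem dcCN_root : dc_SymStatement → dc_CosetRootStatement := by
  intro hSYM N _ φ hφ
  have hfin : Finite (SL(2, ℤ) ⧸ Gamma0 N) := Subgroup.finite_quotient_of_finiteIndex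
  let _ : Fintype (SL(2, ℤ) ⧸ Gamma0 N) := Fintype.ofFinite _
  obtain ⟨p, hp⟩ := dcCN_coeff hSYM N φ hφ
  set n : ℕ := Fintype.card (SL(2, ℤ) ⧸ Gamma0 N) with hn
  have hmonic : ∀ τ : ℍ, (∏ c : SL(2, ℤ) ⧸ Gamma0 N, (X - C (dcCN_conj N φ c τ))).Monic :=
    fun τ => monic_prod_X_sub_C _ _
  have hdeg : ∀ τ : ℍ,
      (∏ c : SL(2, ℤ) ⧸ Gamma0 N, (X - C (dcCN_conj N φ c τ))).natDegree = n := by
    intro τ
    rw [natDegree_finsetProd_X_sub_C_eq_card, Finset.card_univ]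
  refine ⟨X ^ n + ∑ k : Fin n, C (p k) * X ^ (k : ℕ), monic_X_pow_add (degree_sum_fin_lt _), ?_⟩
  intro τ
  have h1 : (X ^ n + ∑ k : Fin n, C (p k) * X ^ (k : ℕ) : Polynomial (Polynomial ℂ)).evalEval
      (Jfun τ) (φ τ) =
      (∏ c : SL(2, ℤ) ⧸ Gamma0 N, (X - C (dcCN_conj N φ c τ))).eval (φ τ) := by
    conv_rhs => rw [(hmonic τ).as_sum, hdeg τ]
    simp only [evalEval_add, evalEval_pow, evalEval_X, evalEval_finsetSum, evalEval_mul,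
      evalEval_C, eval_add, eval_pow, eval_X, eval_finsetSum, eval_mul, eval_C]
    rw [Fin.sum_univ_eq_sum_range (fun k => (p k).eval (Jfun τ) * φ τ ^ k) n]
    congr 1
    exact Finset.sum_congr rfl (fun k _ => by rw [hp k τ])
  rw [h1, eval_prod]
  refine Finset.prod_eq_zero (Finset.mem_univ ((1 : SL(2, ℤ)) : SL(2, ℤ) ⧸ Gamma0 N)) ?_
  rw [eval_sub, eval_X, eval_C, dcCN_conj_one N φ hφ.1 τ, sub_self]

/-- (NM) The norm. -/
theorem dcCN_norm : dc_SymStatement → dc_NormStatement := by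
  intro hSYM N _ φ hφ
  classical
  have hfin : Finite (SL(2, ℤ) ⧸ Gamma0 N) := Subgroup.finite_quotient_of_finiteIndex
  let _ : Fintype (SL(2, ℤ) ⧸ Gamma0 N) := Fintype.ofFinite _
  obtain ⟨p, hp⟩ := dcCN_coeff hSYM N φ hφ
  set n : ℕ := Fintype.card (SL(2, ℤ) ⧸ Gamma0 N) with hn
  set c₁ : SL(2, ℤ) ⧸ Gamma0 N := ((1 : SL(2, ℤ)) : SL(2, ℤ) ⧸ Gamma0 N) with hc₁
  -- the product of all conjugates
  have hprod : ∀ τ : ℍ, φ τ * ∏ c ∈ Finset.univ.erase c₁, dcCN_conj N φ c τ =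
      ∏ c : SL(2, ℤ) ⧸ Gamma0 N, dcCN_conj N φ c τ := by
    intro τ
    rw [← Finset.mul_prod_erase Finset.univ (fun c => dcCN_conj N φ c τ) (Finset.mem_univ c₁),
      dcCN_conj_one N φ hφ.1 τ]
  have hNm : ∀ τ : ℍ, (C ((-1 : ℂ) ^ n) * p 0).eval (Jfun τ) =
      ∏ c : SL(2, ℤ) ⧸ Gamma0 N, dcCN_conj N φ c τ := by
    intro τ
    rw [eval_mul, eval_C, ← hp 0 τ, coeff_zero_eq_eval_zero, eval_prod]
    simp only [eval_sub, eval_X, eval_C, zero_sub]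
    rw [Finset.prod_neg, Finset.card_univ, ← mul_assoc, ← mul_pow]
    norm_num
  refine ⟨C ((-1 : ℂ) ^ n) * p 0, fun τ => ∏ c ∈ Finset.univ.erase c₁, dcCN_conj N φ c τ,
    ⟨?_, ?_⟩, ?_, ?_⟩
  · -- invariance under `Γ₀(N)`
    intro δ hδ z
    show ∏ c ∈ Finset.univ.erase c₁, dcCN_conj N φ c (δ • z) =
      ∏ c ∈ Finset.univ.erase c₁, dcCN_conj N φ c z
    simp_rw [dcCN_conj_smul N φ hφ.1 δ]
    have hfix : δ⁻¹ • c₁ = c₁ := by
      have h1 : δ⁻¹ • c₁ = ((δ⁻¹ * 1 : SL(2, ℤ)) : SL(2, ℤ) ⧸ Gamma0 N) := rfl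
      rw [h1, hc₁]
      apply QuotientGroup.eq.mpr
      simpa using hδ
    have hmap : (Finset.univ.erase c₁).map (MulAction.toPerm δ⁻¹ :
        Equiv.Perm (SL(2, ℤ) ⧸ Gamma0 N)).toEmbedding = Finset.univ.erase c₁ := by
      rw [Finset.map_erase, Finset.map_univ_equiv]
      congr 1
    conv_rhs => rw [← hmap]
    rw [Finset.prod_map]
    rfl
  · -- meromorphy at the cusps
    intro γ
    have hmem : (∏ c ∈ Finset.univ.erase c₁, (fun z : ℍ => dcCN_conj N φ c (γ • z))) ∈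
        dcCN_ring N :=
      (dcCN_ring N).prod_mem (fun c _ => dcCN_conj_cusp N φ hφ.2 c γ)
    have e : (fun z : ℍ => ∏ c ∈ Finset.univ.erase c₁, dcCN_conj N φ c (γ • z)) =
        ∏ c ∈ Finset.univ.erase c₁, (fun z : ℍ => dcCN_conj N φ c (γ • z)) := by
      funext z
      rw [Finset.prod_apply]
    rw [e]
    exact hmem
  · intro τ
    rw [hprod τ, hNm τ]
  · intro z₀ hz
    rw [hNm z₀]
    exact Finset.prod_ne_zero_iff.mpr (fun c _ => hz _)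

/-- **CN/A**: the coset polynomial and the norm. -/
theorem dcCN_main : dc_SymStatement → dc_TransferStatement →
    dc_CosetRootStatement ∧ dc_NormStatement :=
  fun hSYM _ => ⟨dcCN_root hSYM, dcCN_norm hSYM⟩

end

end Fermat.Agent.S42
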