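/-
S42 moonshot — block DC, package F1 (twin B): every integral modular function of level `Γ₀(N)`
has its `q`-expansion in `FNC N` (DC1), from Lagrange interpolation and the transfer lemmas.
-/
import Fermat.Agent.S42.DCInterfaces

set_option autoImplicit false

open UpperHalfPlane ModularForm Complex CongruenceSubgroup ModularGroup AlgebraicCurve
open scoped MatrixGroups Manifold Real

namespace Fermat.Agent.S42

open Fermat.Agent.S24

/-- An intermediate field is closed under evaluation of polynomials at its elements. -/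
theorem dcFb_aeval_mem (K : IntermediateField ℂ (LaurentSeries ℂ)) (x : LaurentSeries ℂ)
    (hx : x ∈ K) (c : Polynomial ℂ) :
    (Polynomial.aeval x : Polynomial ℂ →ₐ[ℂ] LaurentSeries ℂ) c ∈ K := by
  rw [Polynomial.aeval_eq_sum_range]
  refine sum_mem fun i _ => ?_
  rw [Algebra.smul_def]
  exact mul_mem (K.algebraMap_mem _) (pow_mem hx i)

/-- An intermediate field is closed under evaluation of bivariate polynomials at its elements. -/
theorem dcFb_evalL_mem (K : IntermediateField ℂ (LaurentSeries ℂ)) (G : Polynomial (Polynomial ℂ))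
    (x y : LaurentSeries ℂ) (hx : x ∈ K) (hy : y ∈ K) : dcEvalL G x y ∈ K := by
  unfold dcEvalL
  rw [Polynomial.eval₂_eq_sum_range]
  refine sum_mem fun i _ => ?_
  exact mul_mem (dcFb_aeval_mem K x hx _) (pow_mem hy i)

/-- (DC1) The `q`-expansion of an integral modular function of level `Γ₀(N)` lies in `FNC N`. -/
theorem dcFb_main : dc_LagrangeStatement → dc_TransferStatement → dc_BivarStatement →
    dict_FieldCStatement := by
  intro hLG hT hTB N _ φ hφ
  obtain ⟨hT1, hT2, hT3, hT4, -, -, hT7, hT8⟩ := hT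
  obtain ⟨hTB1, -⟩ := hTB
  -- realisations
  have hx : dict_AnC (Qexp 1 φ) φ := ⟨(hT1 N φ hφ).2, rfl⟩
  have hj : dict_AnC ((jC N : ↥(FNC N)) : LaurentSeries ℂ) Jfun := (hT7 N).1
  have hg : dict_AnC (ModularCurve.qExpand ℂ N (ModularCurve.jqModC ℂ)) (slConj N 1) :=
    (hT8 N N dvd_rfl).1
  have hjmem : ((jC N : ↥(FNC N)) : LaurentSeries ℂ) ∈ FNC N := (jC N).2
  have hgmem : ModularCurve.qExpand ℂ N (ModularCurve.jqModC ℂ) ∈ FNC N :=
    ModularCurve.jqModCd_mem_full ℂ N dvd_rfl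
  obtain ⟨G, D, ⟨τ₀, hτ₀⟩, hGD⟩ := hLG N φ hφ
  have hD := hTB1 D _ _ _ _ hj hg
  have hG := hTB1 G _ _ _ _ hj hg
  have hprod := (hT2 _ _ _ _ hx hD).2
  have hfun : (φ * fun τ : ℍ => D.evalEval (Jfun τ) (slConj N 1 τ)) =
      fun τ : ℍ => G.evalEval (Jfun τ) (slConj N 1 τ) := by
    funext τ
    exact hGD τ
  rw [hfun] at hprod
  have heq : Qexp 1 φ * dcEvalL D ((jC N : ↥(FNC N)) : LaurentSeries ℂ)
      (ModularCurve.qExpand ℂ N (ModularCurve.jqModC ℂ)) =
      dcEvalL G ((jC N : ↥(FNC N)) : LaurentSeries ℂ)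
        (ModularCurve.qExpand ℂ N (ModularCurve.jqModC ℂ)) := by
    rw [← hprod.2, ← hG.2]
  have hDne : dcEvalL D ((jC N : ↥(FNC N)) : LaurentSeries ℂ)
      (ModularCurve.qExpand ℂ N (ModularCurve.jqModC ℂ)) ≠ 0 := by
    intro h0
    rw [h0] at hD
    have hz := hT3 0
    rw [map_zero] at hz
    have := hT4 _ _ _ hD hz
    exact hτ₀ (congrFun this τ₀)
  have hxeq : Qexp 1 φ = dcEvalL G ((jC N : ↥(FNC N)) : LaurentSeries ℂ)
        (ModularCurve.qExpand ℂ N (ModularCurve.jqModC ℂ)) /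
      dcEvalL D ((jC N : ↥(FNC N)) : LaurentSeries ℂ)
        (ModularCurve.qExpand ℂ N (ModularCurve.jqModC ℂ)) := by
    rw [eq_div_iff hDne]
    exact heq
  rw [hxeq]
  exact div_mem (dcFb_evalL_mem _ G _ _ hjmem hgmem) (dcFb_evalL_mem _ D _ _ hjmem hgmem)

end Fermat.Agent.S42
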