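/-
S42 moonshot — block DC, package FIN/A (DC0): `j` is transcendental over `ℂ` in `FNC N` and
`FNC N` is finite over `ℂ(j)`.

Main theorem: `dcFinA_main : dc_CosetRootStatement → dc_TransferStatement → dc_BivarStatement →
  dict_FinCStatement`.
-/
import Fermat.Agent.S42.DCInterfaces
import Fermat.Agent.S24.JLocalBasic
import Fermat.Agent.S24.JSurj

set_option autoImplicit false

open UpperHalfPlane ModularForm Complex CongruenceSubgroup ModularGroup AlgebraicCurve
open scoped MatrixGroups Manifold Real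

namespace Fermat.Agent.S42

open Fermat.Agent.S24

/-- Transfer of a bivariate polynomial identity: if `G(φ, ψ) = 0` identically on `ℍ` and `φ`, `ψ`
realise `x`, `y`, then `G(x, y) = 0` in `ℂ((q))`. -/
theorem dcFinA_eval_zero (hT : dc_TransferStatement) (hTB : dc_BivarStatement)
    (G : Polynomial (Polynomial ℂ)) (x y : LaurentSeries ℂ) (φ ψ : ℍ → ℂ)
    (hx : dict_AnC x φ) (hy : dict_AnC y ψ) (h0 : ∀ τ : ℍ, G.evalEval (φ τ) (ψ τ) = 0) :
    dcEvalL G x y = 0 := by
  have h1 := hTB.1 G x y φ ψ hx hy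
  have h2 := hT.2.2.1 0
  have hfun : (fun τ : ℍ => G.evalEval (φ τ) (ψ τ)) = fun _ : ℍ => (0 : ℂ) := funext h0
  rw [hfun] at h1
  rw [← h1.2, h2.2, map_zero]

/-- (a) `jC N` is transcendental over `ℂ`. -/
theorem dcFinA_transcendental (hT : dc_TransferStatement) (hTB : dc_BivarStatement)
    (N : ℕ) [NeZero N] : Transcendental ℂ (jC N) := by
  have hJS : JSurjStatement := JSurj.jSurjStatement JLocal.jBasicStatement
  have h7 := (hT.2.2.2.2.2.2.1 N).1
  rintro ⟨p, hp0, hp⟩
  apply hp0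
  have hp' : Polynomial.aeval ((jC N : ↥(FNC N)) : LaurentSeries ℂ) p = 0 := by
    have h := Polynomial.aeval_algHom_apply (FNC N).val (jC N) p
    rw [hp, map_zero] at h
    exact h
  have h1 := hTB.1 (Polynomial.C p) _ _ Jfun Jfun h7 h7
  have hE : dcEvalL (Polynomial.C p) ((jC N : ↥(FNC N)) : LaurentSeries ℂ)
      ((jC N : ↥(FNC N)) : LaurentSeries ℂ) = HahnSeries.C 0 := by
    rw [dcEvalL, Polynomial.eval₂_C, map_zero]
    exact hp'
  rw [hE] at h1
  have h3 := hT.2.2.2.1 _ _ _ h1 (hT.2.2.1 0)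
  apply Polynomial.funext
  intro c
  obtain ⟨τ, rfl⟩ := hJS c
  have h4 := congrFun h3 τ
  simp only [Polynomial.evalEval_C] at h4
  rw [h4, Polynomial.eval_zero]

/-- The generator `j(q^d)` of `FNC N` is integral over `ℂ(j)`. -/
theorem dcFinA_integral (hCR : dc_CosetRootStatement) (hT : dc_TransferStatement)
    (hTB : dc_BivarStatement) (N : ℕ) [NeZero N] (d : ℕ) [NeZero d] (hd : d ∣ N) :
    IsIntegral (IntermediateField.adjoin ℂ ({jC N} : Set ↥(FNC N)))
      (⟨ModularCurve.qExpand ℂ d (ModularCurve.jqModC ℂ),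
        ModularCurve.jqModCd_mem_full ℂ N hd⟩ : ↥(FNC N)) := by
  obtain ⟨h8a, h8m⟩ := hT.2.2.2.2.2.2.2 N d hd
  obtain ⟨P, hPm, hP⟩ := hCR N (slConj d 1) h8m
  have h7 := (hT.2.2.2.2.2.2.1 N).1
  have h0 := dcFinA_eval_zero hT hTB P _ _ Jfun (slConj d 1) h7 h8a hP
  let jK : IntermediateField.adjoin ℂ ({jC N} : Set ↥(FNC N)) :=
    ⟨jC N, IntermediateField.mem_adjoin_simple_self ℂ (jC N)⟩
  have hcomp : (((FNC N).val : ↥(FNC N) →ₐ[ℂ] LaurentSeries ℂ) :
        ↥(FNC N) →+* LaurentSeries ℂ).comp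
      ((algebraMap (IntermediateField.adjoin ℂ ({jC N} : Set ↥(FNC N))) ↥(FNC N)).comp
        ((Polynomial.aeval jK : Polynomial ℂ →ₐ[ℂ] _) : Polynomial ℂ →+* _))
      = ((Polynomial.aeval ((jC N : ↥(FNC N)) : LaurentSeries ℂ) :
          Polynomial ℂ →ₐ[ℂ] LaurentSeries ℂ) : Polynomial ℂ →+* LaurentSeries ℂ) := by
    apply Polynomial.ringHom_ext
    · intro a
      simp only [RingHom.comp_apply, RingHom.coe_coe, Polynomial.aeval_C]
      rfl
    · simp only [RingHom.comp_apply, RingHom.coe_coe, Polynomial.aeval_X]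
      rfl
  refine ⟨P.map ((Polynomial.aeval jK : Polynomial ℂ →ₐ[ℂ] _) : Polynomial ℂ →+* _),
    hPm.map _, ?_⟩
  rw [Polynomial.eval₂_map]
  apply Subtype.val_injective
  have h5 := Polynomial.hom_eval₂ P
    ((algebraMap (IntermediateField.adjoin ℂ ({jC N} : Set ↥(FNC N))) ↥(FNC N)).comp
        ((Polynomial.aeval jK : Polynomial ℂ →ₐ[ℂ] _) : Polynomial ℂ →+* _))
    (((FNC N).val : ↥(FNC N) →ₐ[ℂ] LaurentSeries ℂ) : ↥(FNC N) →+* LaurentSeries ℂ)
    (⟨ModularCurve.qExpand ℂ d (ModularCurve.jqModC ℂ),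
        ModularCurve.jqModCd_mem_full ℂ N hd⟩ : ↥(FNC N))
  rw [hcomp] at h5
  exact h5.trans h0

/-- (b) `FNC N` is finite over `ℂ(j)`. -/
theorem dcFinA_finite (hCR : dc_CosetRootStatement) (hT : dc_TransferStatement)
    (hTB : dc_BivarStatement) (N : ℕ) [NeZero N] :
    FiniteDimensional (IntermediateField.adjoin ℂ ({jC N} : Set ↥(FNC N))) ↥(FNC N) := by
  classical
  have hfin : Finite {d : ℕ // d ∣ N} :=
    ((Set.finite_Iic N).subset (fun d (hd : d ∣ N) =>
      Nat.le_of_dvd (Nat.pos_of_ne_zero (NeZero.ne N)) hd)).to_subtype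
  have hne : ∀ d : {d : ℕ // d ∣ N}, NeZero d.1 :=
    fun d => ⟨ne_zero_of_dvd_ne_zero (NeZero.ne N) d.2⟩
  let g : {d : ℕ // d ∣ N} → ↥(FNC N) := fun d =>
    ⟨@ModularCurve.qExpand ℂ _ d.1 (hne d) (ModularCurve.jqModC ℂ),
      @ModularCurve.jqModCd_mem_full ℂ _ N d.1 (hne d) d.2⟩
  have hint : ∀ x ∈ Set.range g,
      IsIntegral (IntermediateField.adjoin ℂ ({jC N} : Set ↥(FNC N))) x := by
    rintro x ⟨d, rfl⟩
    have := hne d
    exact dcFinA_integral hCR hT hTB N d.1 d.2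
  have hfd : FiniteDimensional (IntermediateField.adjoin ℂ ({jC N} : Set ↥(FNC N)))
      (IntermediateField.adjoin (IntermediateField.adjoin ℂ ({jC N} : Set ↥(FNC N)))
        (Set.range g)) :=
    IntermediateField.finiteDimensional_adjoin hint
  have htop : IntermediateField.adjoin (IntermediateField.adjoin ℂ ({jC N} : Set ↥(FNC N)))
      (Set.range g) = ⊤ := by
    rw [eq_top_iff]
    intro z _
    have hle : FNC N ≤ ((IntermediateField.adjoin
        (IntermediateField.adjoin ℂ ({jC N} : Set ↥(FNC N)))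
        (Set.range g)).restrictScalars ℂ).map (FNC N).val := by
      show IntermediateField.adjoin ℂ (ModularCurve.divisorExpansionsC ℂ N) ≤ _
      rw [IntermediateField.adjoin_le_iff]
      rintro x ⟨d, hd0, hd, rfl⟩
      rw [SetLike.mem_coe, IntermediateField.mem_map]
      refine ⟨g ⟨d, hd⟩, ?_, rfl⟩
      rw [IntermediateField.mem_restrictScalars]
      exact IntermediateField.subset_adjoin _ _ (Set.mem_range_self _)
    have hz2 := hle z.2
    rw [IntermediateField.mem_map] at hz2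
    obtain ⟨z', hz', hzz'⟩ := hz2
    rw [IntermediateField.mem_restrictScalars] at hz'
    have hz : z' = z := Subtype.ext hzz'
    rw [← hz]
    exact hz'
  rw [htop] at hfd
  exact (IntermediateField.topEquiv (F := IntermediateField.adjoin ℂ ({jC N} : Set ↥(FNC N)))
    (E := ↥(FNC N))).toLinearEquiv.finiteDimensional

/-- **Package FIN/A (DC0).** -/
theorem dcFinA_main : dc_CosetRootStatement → dc_TransferStatement → dc_BivarStatement →
    dict_FinCStatement := by
  intro hCR hT hTB N _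
  exact ⟨dcFinA_transcendental hT hTB N, dcFinA_finite hCR hT hTB N⟩

end Fermat.Agent.S42
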