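/-
S42 moonshot — block DC, package INT/B (DC3): an element of `FNC N` integral over `ℂ[j]` is
realised by an integral modular function.

Main theorem:
`dcIb_main : dict_RepCStatement → dc_TransferStatement → al_DivStatement → al_CuspQuotStatement →
  dict_IntCStatement`.
-/
import Fermat.Agent.S42.DCInterfaces
import Fermat.Agent.S24.PointVal

set_option autoImplicit false

open UpperHalfPlane ModularForm Complex CongruenceSubgroup ModularGroup AlgebraicCurve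
open scoped MatrixGroups Manifold Real

namespace Fermat.Agent.S42

open Fermat.Agent.S24

noncomputable section

/-! ## Orders at a point, `ℕ∞`-valued -/

/-- The (`ℕ∞`-valued) order of vanishing at `τ`. -/
def dcIb_o (τ : ℍ) (f : ℍ → ℂ) : ℕ∞ := analyticOrderAt (f ∘ ofComplex) (τ : ℂ)

theorem dcIb_o_mul (τ : ℍ) {f g : ℍ → ℂ} (hf : MDifferentiable 𝓘(ℂ) 𝓘(ℂ) f)
    (hg : MDifferentiable 𝓘(ℂ) 𝓘(ℂ) g) : dcIb_o τ (f * g) = dcIb_o τ f + dcIb_o τ g := by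
  unfold dcIb_o
  have e : (f * g) ∘ ofComplex = (f ∘ ofComplex) * (g ∘ ofComplex) := rfl
  rw [e, analyticOrderAt_mul (PointVal.analyticAt_comp_ofComplex hf τ)
    (PointVal.analyticAt_comp_ofComplex hg τ)]

theorem dcIb_o_pow (τ : ℍ) {f : ℍ → ℂ} (hf : MDifferentiable 𝓘(ℂ) 𝓘(ℂ) f) (n : ℕ) :
    dcIb_o τ (f ^ n) = n • dcIb_o τ f := by
  unfold dcIb_o
  have e : (f ^ n) ∘ ofComplex = (f ∘ ofComplex) ^ n := rfl
  rw [e, analyticOrderAt_pow (PointVal.analyticAt_comp_ofComplex hf τ)]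

theorem dcIb_o_add (τ : ℍ) (f g : ℍ → ℂ) :
    min (dcIb_o τ f) (dcIb_o τ g) ≤ dcIb_o τ (f + g) := by
  unfold dcIb_o
  have e : (f + g) ∘ ofComplex = (f ∘ ofComplex) + (g ∘ ofComplex) := rfl
  rw [e]
  exact le_analyticOrderAt_add

theorem dcIb_o_neg (τ : ℍ) (f : ℍ → ℂ) : dcIb_o τ (-f) = dcIb_o τ f := by
  unfold dcIb_o
  have e : (-f) ∘ ofComplex = -(f ∘ ofComplex) := rfl
  rw [e, analyticOrderAt_neg]

theorem dcIb_o_zero (τ : ℍ) : dcIb_o τ 0 = ⊤ := by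
  unfold dcIb_o
  rw [analyticOrderAt_eq_top]
  exact Filter.Eventually.of_forall fun _ => rfl

theorem dcIb_o_sum (τ : ℍ) (c : ℕ∞) (s : Finset ℕ) (T : ℕ → ℍ → ℂ)
    (h : ∀ i ∈ s, c ≤ dcIb_o τ (T i)) : c ≤ dcIb_o τ (∑ i ∈ s, T i) := by
  classical
  induction s using Finset.induction_on with
  | empty => rw [Finset.sum_empty, dcIb_o_zero]; exact le_top
  | insert a s ha ih =>
    rw [Finset.sum_insert ha]
    exact le_trans (le_min (h a (Finset.mem_insert_self a s))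
      (ih fun i hi => h i (Finset.mem_insert_of_mem hi))) (dcIb_o_add τ _ _)

/-- Key estimate: a "homogenised monic equation" `∑_{i ≤ m} α_i φ₁^i φ₂^(m-i) = 0` with `α_m = 1`
forces `ord φ₂ ≤ ord φ₁` at every point. -/
theorem dcIb_ord_key (φ₁ φ₂ : ℍ → ℂ) (h₁ : MDifferentiable 𝓘(ℂ) 𝓘(ℂ) φ₁)
    (h₂ : MDifferentiable 𝓘(ℂ) 𝓘(ℂ) φ₂) (h₁0 : φ₁ ≠ 0) (m : ℕ) (α : ℕ → ℍ → ℂ)
    (hα : ∀ i, MDifferentiable 𝓘(ℂ) 𝓘(ℂ) (α i)) (hαm : α m = 1)
    (hsum : ∑ i ∈ Finset.range (m + 1), α i * φ₁ ^ i * φ₂ ^ (m - i) = 0) (τ : ℍ) :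
    dcIb_o τ φ₂ ≤ dcIb_o τ φ₁ := by
  by_contra hlt
  rw [not_le] at hlt
  obtain ⟨k, hk⟩ := ENat.ne_top_iff_exists.mp (PointVal.order_ne_top h₁ h₁0 τ)
  have hk' : dcIb_o τ φ₁ = (k : ℕ∞) := hk.symm
  rw [hk'] at hlt
  have hb : ((k + 1 : ℕ) : ℕ∞) ≤ dcIb_o τ φ₂ := by
    have h := Order.add_one_le_of_lt hlt
    simpa using h
  have hterm : ∀ i ∈ Finset.range m,
      ((m * k + 1 : ℕ) : ℕ∞) ≤ dcIb_o τ (α i * φ₁ ^ i * φ₂ ^ (m - i)) := by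
    intro i hi
    have him : i < m := Finset.mem_range.mp hi
    rw [dcIb_o_mul τ ((hα i).mul (h₁.pow i)) (h₂.pow _), dcIb_o_mul τ (hα i) (h₁.pow i),
      dcIb_o_pow τ h₁, dcIb_o_pow τ h₂, hk']
    have hnat : m * k + 1 ≤ i * k + (m - i) * (k + 1) := by
      obtain ⟨d, rfl⟩ : ∃ d, m = i + (d + 1) := ⟨m - i - 1, by omega⟩
      have : i + (d + 1) - i = d + 1 := by omega
      rw [this]
      ring_nf
      omega
    calc ((m * k + 1 : ℕ) : ℕ∞) ≤ ((i * k + (m - i) * (k + 1) : ℕ) : ℕ∞) := Nat.cast_le.mpr hnat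
      _ = i • (k : ℕ∞) + (m - i) • ((k + 1 : ℕ) : ℕ∞) := by
        simp only [nsmul_eq_mul]
        push_cast
        rfl
      _ ≤ i • (k : ℕ∞) + (m - i) • dcIb_o τ φ₂ := by
        gcongr
      _ ≤ dcIb_o τ (α i) + i • (k : ℕ∞) + (m - i) • dcIb_o τ φ₂ := by
        gcongr
        exact le_add_self
  have hS := dcIb_o_sum τ _ (Finset.range m) (fun i => α i * φ₁ ^ i * φ₂ ^ (m - i)) hterm
  rw [Finset.sum_range_succ, hαm, Nat.sub_self, pow_zero, mul_one, one_mul] at hsum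
  have htop : φ₁ ^ m = -∑ i ∈ Finset.range m, α i * φ₁ ^ i * φ₂ ^ (m - i) :=
    eq_neg_of_add_eq_zero_right hsum
  have h1 : dcIb_o τ (φ₁ ^ m) = ((m * k : ℕ) : ℕ∞) := by
    rw [dcIb_o_pow τ h₁, hk', nsmul_eq_mul]
    push_cast
    rfl
  rw [htop, dcIb_o_neg] at h1
  rw [h1] at hS
  have := Nat.cast_le.mp hS
  omega

/-! ## Transfer of polynomial expressions -/

theorem dcIb_an_zero (hT : dc_TransferStatement) : dict_AnC (0 : LaurentSeries ℂ) (0 : ℍ → ℂ) := by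
  have h := hT.2.2.1 0
  rw [map_zero] at h
  exact h

theorem dcIb_an_one (hT : dc_TransferStatement) : dict_AnC (1 : LaurentSeries ℂ) (1 : ℍ → ℂ) := by
  have h := hT.2.2.1 1
  rw [map_one] at h
  exact h

theorem dcIb_an_pow (hT : dc_TransferStatement) (x : LaurentSeries ℂ) (φ : ℍ → ℂ)
    (h : dict_AnC x φ) (k : ℕ) : dict_AnC (x ^ k) (φ ^ k) := by
  induction k with
  | zero =>
    rw [pow_zero, pow_zero]
    exact dcIb_an_one hT
  | succ k ih =>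
    rw [pow_succ, pow_succ]
    exact (hT.2.1 _ _ _ _ ih h).2

theorem dcIb_an_sum (hT : dc_TransferStatement) (s : Finset ℕ) (X : ℕ → LaurentSeries ℂ)
    (Φ : ℕ → ℍ → ℂ) (h : ∀ i ∈ s, dict_AnC (X i) (Φ i)) :
    dict_AnC (∑ i ∈ s, X i) (∑ i ∈ s, Φ i) := by
  classical
  induction s using Finset.induction_on with
  | empty =>
    rw [Finset.sum_empty, Finset.sum_empty]
    exact dcIb_an_zero hT
  | insert a s ha ih =>
    rw [Finset.sum_insert ha, Finset.sum_insert ha]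
    exact (hT.2.1 _ _ _ _ (h a (Finset.mem_insert_self a s))
      (ih fun i hi => h i (Finset.mem_insert_of_mem hi))).1

/-- Every element of `ℂ[j]` is realised by a function. -/
theorem dcIb_adjoin (hT : dc_TransferStatement) (N : ℕ) [NeZero N] (a : ↥(FNC N))
    (ha : a ∈ Algebra.adjoin ℂ ({jC N} : Set ↥(FNC N))) :
    ∃ α : ℍ → ℂ, dict_AnC (a : LaurentSeries ℂ) α := by
  induction ha using Algebra.adjoin_induction with
  | mem x hx =>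
    rw [Set.mem_singleton_iff] at hx
    subst hx
    exact ⟨Jfun, (hT.2.2.2.2.2.2.1 N).1⟩
  | algebraMap r =>
    have h : ((algebraMap ℂ ↥(FNC N) r : ↥(FNC N)) : LaurentSeries ℂ) = HahnSeries.C r := by
      have h' : ((algebraMap ℂ ↥(FNC N) r : ↥(FNC N)) : LaurentSeries ℂ) =
          algebraMap ℂ (LaurentSeries ℂ) r := rfl
      rw [h', ModularCurve.algebraMap_laurentSeries_eq_single]
      rfl
    rw [h]
    exact ⟨fun _ => r, hT.2.2.1 r⟩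
  | add x y hx hy ihx ihy =>
    obtain ⟨α, hα⟩ := ihx
    obtain ⟨β, hβ⟩ := ihy
    exact ⟨α + β, (hT.2.1 _ _ _ _ hα hβ).1⟩
  | mul x y hx hy ihx ihy =>
    obtain ⟨α, hα⟩ := ihx
    obtain ⟨β, hβ⟩ := ihy
    exact ⟨α * β, (hT.2.1 _ _ _ _ hα hβ).2⟩

/-! ## The main theorem -/

/-- **Package INT/B (DC3).** -/
theorem dcIb_main : dict_RepCStatement → dc_TransferStatement → al_DivStatement →
    al_CuspQuotStatement → dict_IntCStatement := by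
  intro hR hT hDiv hCQ N _ x hx
  have hT' := hT
  obtain ⟨T1, T2, T3, T4, T5, T6, T7, T8⟩ := hT'
  obtain ⟨PV1, -, -, -, PV5, -⟩ := Fermat.Agent.S24.PointVal.pointValStatement
  have hzeroAn := dcIb_an_zero hT
  by_cases hx0 : x = 0
  · subst hx0
    exact ⟨fun _ => 0, hzeroAn, T6 N 0⟩
  obtain ⟨x₁, x₂, φ₁, φ₂, hx₂, hxx, hA₁, hA₂, hM₁, hM₂⟩ := hR N x
  have hol₁ : MDifferentiable 𝓘(ℂ) 𝓘(ℂ) φ₁ := (T1 N φ₁ hM₁).1
  have hol₂ : MDifferentiable 𝓘(ℂ) 𝓘(ℂ) φ₂ := (T1 N φ₂ hM₂).1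
  have hx₁ : x₁ ≠ 0 := by rw [← hxx]; exact mul_ne_zero hx0 hx₂
  have hφ_ne : ∀ (z : ↥(FNC N)) (ψ : ℍ → ℂ), z ≠ 0 →
      dict_AnC (z : LaurentSeries ℂ) ψ → ψ ≠ 0 := by
    intro z ψ hz hψ h0
    subst h0
    apply hz
    have h1 : ((z : ↥(FNC N)) : LaurentSeries ℂ) = 0 := by rw [← hψ.2, hzeroAn.2]
    exact Subtype.ext h1
  have hφ₁0 := hφ_ne x₁ φ₁ hx₁ hA₁
  have hφ₂0 := hφ_ne x₂ φ₂ hx₂ hA₂
  -- the integral equation
  obtain ⟨P, hPm, hP0⟩ := hx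
  rw [Polynomial.eval₂_eq_sum_range] at hP0
  set m := P.natDegree with hm
  have hcoef : ∀ i : ℕ, ∃ α : ℍ → ℂ, dict_AnC
      (((P.coeff i : ↥(Algebra.adjoin ℂ ({jC N} : Set ↥(FNC N)))) : ↥(FNC N)) :
        LaurentSeries ℂ) α :=
    fun i => dcIb_adjoin hT N _ (P.coeff i).2
  choose α hα using hcoef
  have hαhol : ∀ i, MDifferentiable 𝓘(ℂ) 𝓘(ℂ) (α i) := by
    intro i
    obtain ⟨k, hk⟩ := (hα i).1
    exact hk.1
  have hαm : α m = 1 := by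
    have h1 := hα m
    have hc : P.coeff m = 1 := hPm.coeff_natDegree
    rw [hc] at h1
    exact T4 _ _ _ h1 (dcIb_an_one hT)
  -- homogenised equation in `FNC N`
  have h1 : ∑ i ∈ Finset.range (m + 1),
      ((P.coeff i : ↥(Algebra.adjoin ℂ ({jC N} : Set ↥(FNC N)))) : ↥(FNC N)) * x₁ ^ i *
        x₂ ^ (m - i) = 0 := by
    have hterm : ∀ i ∈ Finset.range (m + 1),
        ((P.coeff i : ↥(Algebra.adjoin ℂ ({jC N} : Set ↥(FNC N)))) : ↥(FNC N)) * x₁ ^ i *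
          x₂ ^ (m - i) =
        (algebraMap ↥(Algebra.adjoin ℂ ({jC N} : Set ↥(FNC N))) ↥(FNC N) (P.coeff i) * x ^ i) *
          x₂ ^ m := by
      intro i hi
      have him : i ≤ m := Nat.lt_succ_iff.mp (Finset.mem_range.mp hi)
      have hpow : x₂ ^ m = x₂ ^ i * x₂ ^ (m - i) := by
        rw [← pow_add, Nat.add_sub_cancel' him]
      rw [hpow, ← hxx, mul_pow]
      have hal : algebraMap ↥(Algebra.adjoin ℂ ({jC N} : Set ↥(FNC N))) ↥(FNC N) (P.coeff i) =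
          ((P.coeff i : ↥(Algebra.adjoin ℂ ({jC N} : Set ↥(FNC N)))) : ↥(FNC N)) := rfl
      rw [hal]
      ring
    rw [Finset.sum_congr rfl hterm, ← Finset.sum_mul, hP0, zero_mul]
  have h2 : ∑ i ∈ Finset.range (m + 1),
      ((((P.coeff i : ↥(Algebra.adjoin ℂ ({jC N} : Set ↥(FNC N)))) : ↥(FNC N)) :
        LaurentSeries ℂ) * (x₁ : LaurentSeries ℂ) ^ i * (x₂ : LaurentSeries ℂ) ^ (m - i)) = 0 := by
    have h3 := congrArg (Subtype.val : ↥(FNC N) → LaurentSeries ℂ) h1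
    push_cast at h3
    exact h3
  have hΦ : dict_AnC (∑ i ∈ Finset.range (m + 1),
      ((((P.coeff i : ↥(Algebra.adjoin ℂ ({jC N} : Set ↥(FNC N)))) : ↥(FNC N)) :
        LaurentSeries ℂ) * (x₁ : LaurentSeries ℂ) ^ i * (x₂ : LaurentSeries ℂ) ^ (m - i)))
      (∑ i ∈ Finset.range (m + 1), α i * φ₁ ^ i * φ₂ ^ (m - i)) := by
    refine dcIb_an_sum hT _ _ _ fun i _ => ?_
    exact (T2 _ _ _ _ (T2 _ _ _ _ (hα i) (dcIb_an_pow hT _ _ hA₁ i)).2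
      (dcIb_an_pow hT _ _ hA₂ (m - i))).2
  rw [h2] at hΦ
  have hsum : ∑ i ∈ Finset.range (m + 1), α i * φ₁ ^ i * φ₂ ^ (m - i) = 0 :=
    T4 _ _ _ hΦ hzeroAn
  have hord : ∀ τ : ℍ, ordAt τ φ₂ ≤ ordAt τ φ₁ := fun τ =>
    ENat.toNat_le_toNat (dcIb_ord_key φ₁ φ₂ hol₁ hol₂ hφ₁0 m α hαhol hαm hsum τ)
      (PointVal.order_ne_top hol₁ hφ₁0 τ)
  -- the quotient
  obtain ⟨φ, hφ, hφeq⟩ := hDiv φ₁ φ₂ hol₁ hol₂ hφ₁0 hφ₂0 hord
  have hInv : dict_Inv N φ := by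
    intro γ hγ z
    have hcomp : MDifferentiable 𝓘(ℂ) 𝓘(ℂ) (fun τ : ℍ => φ (γ • τ)) := (PV5 z γ φ hφ).1
    have hprod : ((fun τ : ℍ => φ (γ • τ)) - φ) * φ₂ = 0 := by
      funext τ
      simp only [Pi.mul_apply, Pi.sub_apply, Pi.zero_apply]
      have e1 := hφeq (γ • τ)
      rw [hM₂.1 γ hγ τ, hM₁.1 γ hγ τ] at e1
      rw [sub_mul, e1, hφeq τ, sub_self]
    rcases PV1 _ _ (hcomp.sub hφ) hol₂ hprod with h | h
    · have h3 := congrFun h z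
      simp only [Pi.sub_apply, Pi.zero_apply] at h3
      exact sub_eq_zero.mp h3
    · exact absurd h hφ₂0
  have hCusp : dict_CuspMer N φ := by
    intro γ
    have hψ₂0 : (fun z : ℍ => φ₂ (γ • z)) ≠ 0 := by
      intro h0
      apply hφ₂0
      funext w
      have h3 := congrFun h0 (γ⁻¹ • w)
      simp only [smul_inv_smul, Pi.zero_apply] at h3
      exact h3
    exact (hCQ N (fun z => φ (γ • z)) (fun z => φ₁ (γ • z)) (fun z => φ₂ (γ • z)) (hM₁.2 γ)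
      (hM₂.2 γ) hψ₂0 (PV5 UpperHalfPlane.I γ φ hφ).1 (fun τ => hφeq (γ • τ))).1
  have hMod : dict_ModFun N φ := ⟨hInv, hCusp⟩
  refine ⟨φ, ⟨(T1 N φ hMod).2, ?_⟩, hMod⟩
  have hq := (hCQ 1 φ φ₁ φ₂ hA₁.1 hA₂.1 hφ₂0 hφ hφeq).2
  rw [hA₁.2, hA₂.2] at hq
  have hx₂' : ((x₂ : ↥(FNC N)) : LaurentSeries ℂ) ≠ 0 := fun h => hx₂ (Subtype.ext h)
  apply mul_right_cancel₀ hx₂'
  rw [hq, ← hxx]
  rfl

end

end Fermat.Agent.S42
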