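/-
S42 moonshot — block DC, package IP/A (DC3''): an element of `FNC N` with no poles at the finite
places (the places where `j` has no pole) is integral over `ℂ[j]`.  Pure algebra.
-/
import Fermat.Agent.S42.DCInterfaces
import Fermat.Agent.S24.Dict

set_option autoImplicit false

open AlgebraicCurve IsDedekindDomain IntermediateField

namespace Fermat.Agent.S42

open Fermat.Agent.S24
open IntermediateField.algebraAdjoinAdjoin

/-- General form: in a field `F` finite over `K(t)` with `t` transcendental over the
characteristic-zero field `K`, an element `x` which has no pole at any place where `t` has no pole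
is integral over `K[t]`. -/
theorem dcIP_general {K F : Type*} [Field K] [Field F] [Algebra K F] [CharZero K]
    (t : F) (ht : Transcendental K t) (hfin : FiniteDimensional K⟮t⟯ F) (x : F)
    (hx : ∀ P : Place K F, 0 ≤ P.ord t → 0 ≤ P.ord x) :
    IsIntegral ↥(Algebra.adjoin K ({t} : Set F)) x := by
  let A := Algebra.adjoin K ({t} : Set F)
  let e : Polynomial K ≃ₐ[K] A := Polynomial.algEquivOfTranscendental K t ht
  have : IsPrincipalIdealRing A := IsPrincipalIdealRing.of_surjective e.toRingEquiv e.surjective
  have : IsDedekindDomain A := inferInstance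
  have : CharZero F := charZero_of_injective_algebraMap (algebraMap K F).injective
  have : CharZero K⟮t⟯ := charZero_of_injective_algebraMap (algebraMap K K⟮t⟯).injective
  have : Algebra.IsSeparable K⟮t⟯ F := inferInstance
  let B := integralClosure A F
  have : IsDedekindDomain B := IsIntegralClosure.isDedekindDomain A K⟮t⟯ F B
  have : IsFractionRing B F := integralClosure.isFractionRing_of_finite_extension K⟮t⟯ F
  have hval : ∀ v : HeightOneSpectrum B, v.valuation F x ≤ 1 := by
    intro v
    have htA : t ∈ A := Algebra.subset_adjoin rfl
    have h1 : 0 ≤ (Place.ofHeightOneSpectrum (K := K) (F := F) v).ord t :=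
      Dict.ord_ofHeightOneSpectrum_nonneg (K := K) (F := F) v (algebraMap A B ⟨t, htA⟩)
    have h2 := hx _ h1
    exact (Dict.mem_ofHeightOneSpectrum_iff (K := K) v x).1 (Dict.mem_of_ord_nonneg _ h2)
  obtain ⟨b, hb⟩ := HeightOneSpectrum.mem_integers_of_valuation_le_one F x hval
  rw [← hb]
  exact b.2

/-- (DC3'') An element of `FNC N` with no poles at the finite places is integral over `ℂ[j]`. -/
theorem dcIP_main : dict_FinCStatement → dict_IntPlacesCStatement := by
  intro hFin N _ x hx
  obtain ⟨ht, hfin⟩ := hFin N
  exact dcIP_general (K := ℂ) (jC N) ht hfin x hx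

end Fermat.Agent.S42
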