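/-
S42 — block DC, package IPR (twin B, helper180): (DC3') an element of `FNC N` realised by an
integral modular function is integral over `ℂ[j]`.
-/
import Fermat.Agent.S42.DCInterfaces

set_option autoImplicit false

open UpperHalfPlane ModularForm Complex CongruenceSubgroup ModularGroup AlgebraicCurve
open scoped MatrixGroups Manifold Real

namespace Fermat.Agent.S42

open Fermat.Agent.S24

/-- (DC3') realised by an integral modular function ⇒ integral over `ℂ[j]`. -/
theorem dcIpb_main :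
    dc_CosetRootStatement → dc_TransferStatement → dc_BivarStatement → dict_IntC'Statement := by
  intro hCR hT hTB N _ x φ hx hφ
  obtain ⟨-, -, h3, -, -, -, h7, -⟩ := hT
  obtain ⟨P, hPm, hP⟩ := hCR N φ hφ
  -- the Laurent series identity `P(j, x) = 0`
  have h0 : dcEvalL P ((jC N : ↥(FNC N)) : LaurentSeries ℂ) (x : LaurentSeries ℂ) = 0 := by
    have h1 := hTB.1 P _ _ Jfun φ (h7 N).1 hx
    have h2 : (fun τ : ℍ => P.evalEval (Jfun τ) (φ τ)) = fun _ : ℍ => (0 : ℂ) := by
      funext τ; exact hP τ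
    rw [h2] at h1
    have h4 := h3 0
    rw [← h1.2, h4.2, map_zero]
  -- algebra
  set A : Subalgebra ℂ ↥(FNC N) := Algebra.adjoin ℂ ({jC N} : Set ↥(FNC N)) with hA
  let jA : A := ⟨jC N, Algebra.subset_adjoin (Set.mem_singleton _)⟩
  let f : Polynomial ℂ →ₐ[ℂ] A := Polynomial.aeval jA
  let ψ : A →ₐ[ℂ] LaurentSeries ℂ := (FNC N).val.comp A.val
  refine ⟨P.map (f : Polynomial ℂ →+* A), hPm.map _, ?_⟩
  rw [Polynomial.eval₂_map]
  have hinj : Function.Injective ((FNC N).val : ↥(FNC N) →+* LaurentSeries ℂ) :=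
    Subtype.val_injective
  apply hinj
  rw [Polynomial.hom_eval₂, map_zero]
  have hcomp : (((FNC N).val : ↥(FNC N) →+* LaurentSeries ℂ).comp
      ((algebraMap A ↥(FNC N)).comp (f : Polynomial ℂ →+* A)))
      = ((Polynomial.aeval ((jC N : ↥(FNC N)) : LaurentSeries ℂ) :
          Polynomial ℂ →ₐ[ℂ] LaurentSeries ℂ) : Polynomial ℂ →+* LaurentSeries ℂ) := by
    ext p
    · simp [f]
    · simp [f, jA]
  rw [hcomp]
  exact h0

end Fermat.Agent.S42
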