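/-
S42 moonshot, block DC, package LG/A (Lagrange interpolation):
`dcLG_main : dc_SymStatement → dc_TransferStatement → dc_LagrangeStatement`.

For `f` invariant under `Γ₀(N)` and a coset `c ∈ SL(2, ℤ) ⧸ Γ₀(N)` put `f^c z = f ((out c)⁻¹ z)`.
With `ψ = slConj N 1` the polynomials
`∑_c g^c(τ) ∏_{c' ≠ c} (X - ψ^{c'}(τ))` (`g = 1` and `g = φ`) have `SL(2, ℤ)`-invariant coefficients
which are meromorphic at the cusp, hence polynomials in `j`; evaluating at `X = ψ(τ)` gives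
`g(τ) ∏_{c' ≠ 1} (ψ(τ) - ψ^{c'}(τ))`.
-/
import Fermat.Agent.S42.DCInterfaces
import Fermat.Agent.S24.Qexp
import Fermat.Agent.S24.JLocalBasic
import Fermat.Agent.S24.FormalQ
import Fermat.Agent.S24.Conj
import Fermat.Agent.S24.PointVal

set_option autoImplicit false

open UpperHalfPlane ModularForm Complex CongruenceSubgroup ModularGroup
open scoped MatrixGroups Manifold Real

namespace Fermat.Agent.S42

open Fermat.Agent.S24

noncomputable section

/-! ## The ring of functions meromorphic at the cusp -/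

/-- The subring of `IsCuspMer N` functions. -/
def dcLG_sub (N : ℕ) [NeZero N] : Subring (ℍ → ℂ) where
  carrier := {f | IsCuspMer N f}
  mul_mem' := fun {f g} hf hg => (Fermat.Agent.S24.Qexp.qexpStatement.2.1 N f g hf hg).2.1
  one_mem' := ⟨0, (Fermat.Agent.S24.Qexp.qexpStatement.1 N 1).1⟩
  add_mem' := fun {f g} hf hg => (Fermat.Agent.S24.Qexp.qexpStatement.2.1 N f g hf hg).1
  zero_mem' := ⟨0, (Fermat.Agent.S24.Qexp.qexpStatement.1 N 0).1⟩
  neg_mem' := fun {f} hf => by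
    have h1 : IsCuspMer N (fun _ : ℍ => (-1 : ℂ)) :=
      ⟨0, (Fermat.Agent.S24.Qexp.qexpStatement.1 N (-1)).1⟩
    have h2 := (Fermat.Agent.S24.Qexp.qexpStatement.2.1 N _ f h1 hf).2.1
    have h3 : (fun _ : ℍ => (-1 : ℂ)) * f = -f := by
      funext z
      simp
    rw [h3] at h2
    exact h2

/-- Evaluation at a point of `ℍ`. -/
def dcLG_ev (N : ℕ) [NeZero N] (τ : ℍ) : (dcLG_sub N) →+* ℂ :=
  (Pi.evalRingHom (fun _ : ℍ => ℂ) τ).comp (dcLG_sub N).subtype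

/-! ## Conjugates of a `Γ₀(N)`-invariant function -/

/-- The conjugate `f^c = f ∘ (out c)⁻¹` of `f` for a coset `c` of `Γ₀(N)`. -/
def dcLG_conj (N : ℕ) (f : ℍ → ℂ) (c : SL(2, ℤ) ⧸ Gamma0 N) : ℍ → ℂ :=
  fun z => f ((Quotient.out c)⁻¹ • z)

theorem dcLG_out_eq (N : ℕ) (f : ℍ → ℂ) (hf : dict_Inv N f) (g : SL(2, ℤ)) (z : ℍ) :
    f ((Quotient.out (QuotientGroup.mk g : SL(2, ℤ) ⧸ Gamma0 N))⁻¹ • z) = f (g⁻¹ • z) := by
  have h1 : (QuotientGroup.mk (Quotient.out (QuotientGroup.mk g : SL(2, ℤ) ⧸ Gamma0 N)) :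
      SL(2, ℤ) ⧸ Gamma0 N) = QuotientGroup.mk g := QuotientGroup.out_eq' _
  have h2 := QuotientGroup.eq.1 h1
  have h3 : g⁻¹ = ((Quotient.out (QuotientGroup.mk g : SL(2, ℤ) ⧸ Gamma0 N))⁻¹ * g)⁻¹ *
      (Quotient.out (QuotientGroup.mk g : SL(2, ℤ) ⧸ Gamma0 N))⁻¹ := by group
  rw [h3, mul_smul]
  exact (hf _ (inv_mem h2) _).symm

theorem dcLG_conj_mk (N : ℕ) (f : ℍ → ℂ) (hf : dict_Inv N f) (g : SL(2, ℤ)) (z : ℍ) :
    dcLG_conj N f (QuotientGroup.mk g) z = f (g⁻¹ • z) :=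
  dcLG_out_eq N f hf g z

theorem dcLG_conj_one (N : ℕ) (f : ℍ → ℂ) (hf : dict_Inv N f) :
    dcLG_conj N f (QuotientGroup.mk 1) = f := by
  funext z
  rw [dcLG_conj_mk N f hf, inv_one, one_smul]

theorem dcLG_conj_smul (N : ℕ) (f : ℍ → ℂ) (hf : dict_Inv N f) (c : SL(2, ℤ) ⧸ Gamma0 N)
    (δ : SL(2, ℤ)) (τ : ℍ) :
    dcLG_conj N f c (δ • τ) = dcLG_conj N f (δ⁻¹ • c) τ := by
  obtain ⟨g, rfl⟩ := QuotientGroup.mk_surjective c
  rw [MulAction.Quotient.smul_mk, dcLG_conj_mk N f hf, dcLG_conj_mk N f hf, smul_eq_mul,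
    mul_inv_rev, inv_inv, mul_smul]

/-! ## The interpolation polynomials -/

/-- `∑_c b_c ∏_{c' ≠ c} (X - a_{c'})`. -/
def dcLG_poly {ι A : Type*} [Fintype ι] [DecidableEq ι] [CommRing A] (a b : ι → A) :
    Polynomial A :=
  ∑ c, Polynomial.C (b c) * ∏ c' ∈ Finset.univ.erase c, (Polynomial.X - Polynomial.C (a c'))

theorem dcLG_poly_map {ι A B : Type*} [Fintype ι] [DecidableEq ι] [CommRing A] [CommRing B]
    (e : A →+* B) (a b : ι → A) :
    (dcLG_poly a b).map e = dcLG_poly (fun c => e (a c)) (fun c => e (b c)) := by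
  simp [dcLG_poly, Polynomial.map_sum, Polynomial.map_prod]

theorem dcLG_poly_equiv {ι A : Type*} [Fintype ι] [DecidableEq ι] [CommRing A] (σ : ι ≃ ι)
    (a b : ι → A) :
    dcLG_poly (fun c => a (σ c)) (fun c => b (σ c)) = dcLG_poly a b := by
  unfold dcLG_poly
  refine Fintype.sum_equiv σ _ _ (fun c => ?_)
  congr 1
  refine Finset.prod_equiv σ (fun i => ?_) (fun i _ => rfl)
  simp [Finset.mem_erase]

theorem dcLG_poly_eval {ι A : Type*} [Fintype ι] [DecidableEq ι] [CommRing A] (a b : ι → A)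
    (c₀ : ι) :
    (dcLG_poly a b).eval (a c₀) = b c₀ * ∏ c' ∈ Finset.univ.erase c₀, (a c₀ - a c') := by
  unfold dcLG_poly
  rw [Polynomial.eval_finsetSum, Finset.sum_eq_single c₀]
  · simp [Polynomial.eval_prod]
  · intro c _ hc
    rw [Polynomial.eval_mul, Polynomial.eval_prod,
      Finset.prod_eq_zero (i := c₀) (by simp [Finset.mem_erase, hc.symm]) (by simp), mul_zero]
  · intro h
    exact absurd (Finset.mem_univ _) h

theorem dcLG_biv (n : ℕ) (p : ℕ → Polynomial ℂ) (x y : ℂ) :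
    (∑ i ∈ Finset.range n, Polynomial.monomial i (p i) : Polynomial (Polynomial ℂ)).evalEval x y =
      ∑ i ∈ Finset.range n, (p i).eval x * y ^ i := by
  simp [Polynomial.evalEval, Polynomial.eval_finsetSum, Polynomial.eval_monomial]

/-- A polynomial with coefficients meromorphic at the cusp whose pointwise evaluations are
`SL(2, ℤ)`-invariant descends to a bivariate polynomial in `j` and the variable. -/
theorem dcLG_descend (hSYM : dc_SymStatement) (N : ℕ) [NeZero N] (P : Polynomial (dcLG_sub N))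
    (hinv : ∀ (δ : SL(2, ℤ)) (τ : ℍ), P.map (dcLG_ev N (δ • τ)) = P.map (dcLG_ev N τ)) :
    ∃ G : Polynomial (Polynomial ℂ), ∀ (τ : ℍ) (y : ℂ),
      G.evalEval (Jfun τ) y = (P.map (dcLG_ev N τ)).eval y := by
  have h1 : ∀ i : ℕ, ∃ p : Polynomial ℂ, ∀ τ : ℍ,
      ((P.coeff i : dcLG_sub N) : ℍ → ℂ) τ = p.eval (Jfun τ) := by
    intro i
    refine hSYM N _ (fun δ τ => ?_) (P.coeff i).2
    have h2 := congrArg (fun q : Polynomial ℂ => q.coeff i) (hinv δ τ)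
    simp only [Polynomial.coeff_map] at h2
    exact h2
  choose p hp using h1
  refine ⟨∑ i ∈ Finset.range (P.natDegree + 1), Polynomial.monomial i (p i), fun τ y => ?_⟩
  rw [dcLG_biv, Polynomial.eval_eq_sum_range' (n := P.natDegree + 1)
    (lt_of_le_of_lt Polynomial.natDegree_map_le (Nat.lt_succ_self _))]
  refine Finset.sum_congr rfl (fun i _ => ?_)
  rw [Polynomial.coeff_map, ← hp i τ]
  rfl

theorem dcLG_inv (N : ℕ) [Fintype (SL(2, ℤ) ⧸ Gamma0 N)] [DecidableEq (SL(2, ℤ) ⧸ Gamma0 N)]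
    (f g : ℍ → ℂ) (hf : dict_Inv N f) (hg : dict_Inv N g) (δ : SL(2, ℤ)) (τ : ℍ) :
    dcLG_poly (fun c => dcLG_conj N f c (δ • τ)) (fun c => dcLG_conj N g c (δ • τ)) =
      dcLG_poly (fun c => dcLG_conj N f c τ) (fun c => dcLG_conj N g c τ) := by
  simp only [dcLG_conj_smul N f hf, dcLG_conj_smul N g hg]
  exact dcLG_poly_equiv (MulAction.toPerm (δ⁻¹ : SL(2, ℤ))) (fun c => dcLG_conj N f c τ)
    (fun c => dcLG_conj N g c τ)

theorem dcLG_exists (hSYM : dc_SymStatement) (N : ℕ) [NeZero N]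
    [Fintype (SL(2, ℤ) ⧸ Gamma0 N)] [DecidableEq (SL(2, ℤ) ⧸ Gamma0 N)]
    (ψ g : ℍ → ℂ) (hψ : dict_ModFun N ψ) (hg : dict_ModFun N g) :
    ∃ G : Polynomial (Polynomial ℂ), ∀ τ : ℍ, G.evalEval (Jfun τ) (ψ τ) =
      g τ * ∏ c' ∈ Finset.univ.erase (QuotientGroup.mk 1 : SL(2, ℤ) ⧸ Gamma0 N),
        (ψ τ - dcLG_conj N ψ c' τ) := by
  have hmap : ∀ τ : ℍ,
      (dcLG_poly (fun c : SL(2, ℤ) ⧸ Gamma0 N => (⟨dcLG_conj N ψ c, hψ.2 _⟩ : dcLG_sub N))
        (fun c : SL(2, ℤ) ⧸ Gamma0 N => (⟨dcLG_conj N g c, hg.2 _⟩ : dcLG_sub N))).map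
          (dcLG_ev N τ) =
      dcLG_poly (fun c => dcLG_conj N ψ c τ) (fun c => dcLG_conj N g c τ) := by
    intro τ
    rw [dcLG_poly_map]
    rfl
  obtain ⟨G, hG⟩ := dcLG_descend hSYM N _ (fun δ τ => by
    rw [hmap, hmap]
    exact dcLG_inv N ψ g hψ.1 hg.1 δ τ)
  refine ⟨G, fun τ => ?_⟩
  have h3 : (dcLG_poly (fun c => dcLG_conj N ψ c τ) (fun c => dcLG_conj N g c τ)).eval
        (dcLG_conj N ψ (QuotientGroup.mk 1) τ) =
      dcLG_conj N g (QuotientGroup.mk 1) τ *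
        ∏ c' ∈ Finset.univ.erase (QuotientGroup.mk 1 : SL(2, ℤ) ⧸ Gamma0 N),
          (dcLG_conj N ψ (QuotientGroup.mk 1) τ - dcLG_conj N ψ c' τ) :=
    dcLG_poly_eval (fun c => dcLG_conj N ψ c τ) (fun c => dcLG_conj N g c τ) (QuotientGroup.mk 1)
  rw [dcLG_conj_one N ψ hψ.1, dcLG_conj_one N g hg.1] at h3
  rw [hG τ (ψ τ), hmap τ, h3]

/-! ## Nonvanishing of a finite product of holomorphic functions -/

theorem dcLG_prod_ne_zero
    (hPV1 : ∀ f g : ℍ → ℂ, MDifferentiable 𝓘(ℂ) 𝓘(ℂ) f → MDifferentiable 𝓘(ℂ) 𝓘(ℂ) g →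
      f * g = 0 → f = 0 ∨ g = 0)
    {ι : Type*} (s : Finset ι) (F : ι → ℍ → ℂ)
    (hF : ∀ i ∈ s, MDifferentiable 𝓘(ℂ) 𝓘(ℂ) (F i)) (hF0 : ∀ i ∈ s, F i ≠ 0) :
    MDifferentiable 𝓘(ℂ) 𝓘(ℂ) (∏ i ∈ s, F i) ∧ ∏ i ∈ s, F i ≠ 0 := by
  classical
  induction s using Finset.induction_on with
  | empty =>
    rw [Finset.prod_empty]
    exact ⟨mdifferentiable_const, fun h => one_ne_zero (congrFun h UpperHalfPlane.I)⟩
  | insert a s ha ih =>
    rw [Finset.prod_insert ha]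
    have h1 := ih (fun i hi => hF i (Finset.mem_insert_of_mem hi))
      (fun i hi => hF0 i (Finset.mem_insert_of_mem hi))
    have h2 := hF a (Finset.mem_insert_self a s)
    refine ⟨h2.mul h1.1, fun h => ?_⟩
    rcases hPV1 _ _ h2 h1.1 h with h | h
    · exact hF0 a (Finset.mem_insert_self a s) h
    · exact h1.2 h

/-! ## Main theorem -/

theorem dcLG_main : dc_SymStatement → dc_TransferStatement → dc_LagrangeStatement := by
  intro hSYM hT N _ φ hφ
  classical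
  have hQ := Fermat.Agent.S24.Qexp.qexpStatement
  have hJB := Fermat.Agent.S24.JLocal.jBasicStatement
  have hJQ := Fermat.Agent.S24.FormalQ.jQexpStatement hQ
  have hC := Fermat.Agent.S24.Conj.conjStatement hJB hJQ hQ
  have hPV := Fermat.Agent.S24.PointVal.pointValStatement
  have hψ : dict_ModFun N (slConj N 1) := (hT.2.2.2.2.2.2.2 N N dvd_rfl).2
  have hone : dict_ModFun N (fun _ : ℍ => (1 : ℂ)) := hT.2.2.2.2.2.1 N 1
  have hfinQ : Finite (SL(2, ℤ) ⧸ Gamma0 N) := Subgroup.finite_quotient_of_finiteIndex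
  letI : Fintype (SL(2, ℤ) ⧸ Gamma0 N) := Fintype.ofFinite _
  obtain ⟨D, hD⟩ := dcLG_exists hSYM N (slConj N 1) (fun _ => 1) hψ hone
  obtain ⟨G, hG⟩ := dcLG_exists hSYM N (slConj N 1) φ hψ hφ
  refine ⟨G, D, ?_, fun τ => ?_⟩
  · -- nonvanishing of the denominator
    have hholψ : ∀ γ : SL(2, ℤ),
        MDifferentiable 𝓘(ℂ) 𝓘(ℂ) (fun z : ℍ => slConj N 1 (γ • z)) := fun γ => by
      obtain ⟨k, hk⟩ := hψ.2 γ
      exact hk.1
    have hψhol : MDifferentiable 𝓘(ℂ) 𝓘(ℂ) (slConj N 1) := by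
      have h := hholψ 1
      simpa using h
    obtain ⟨-, hne⟩ := dcLG_prod_ne_zero hPV.1
      (Finset.univ.erase (QuotientGroup.mk 1 : SL(2, ℤ) ⧸ Gamma0 N))
      (fun c' => slConj N 1 - dcLG_conj N (slConj N 1) c')
      (fun c' _ => hψhol.sub (hholψ _)) (fun c' hc' h0 => by
        have hc'1 : c' ≠ QuotientGroup.mk 1 := (Finset.mem_erase.1 hc').1
        apply hc'1
        have hmem : (Quotient.out c')⁻¹ ∈ Gamma0 N := by
          rw [← hC.2.2.1 N _ (NeZero.pos N)]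
          intro τ
          have h := congrFun h0 τ
          simp only [Pi.sub_apply, Pi.zero_apply, sub_eq_zero, dcLG_conj, slConj, inv_one,
            one_smul] at h
          exact h.symm
        have hc' : c' = QuotientGroup.mk (Quotient.out c') := (QuotientGroup.out_eq' c').symm
        rw [hc']
        exact QuotientGroup.eq.2 (by simpa using hmem))
    obtain ⟨τ, hτ⟩ := Function.ne_iff.1 hne
    refine ⟨τ, ?_⟩
    rw [hD τ, one_mul]
    simpa [Finset.prod_apply] using hτ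
  · rw [hD τ, hG τ, one_mul]

end

end Fermat.Agent.S42
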