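/-
S42 moonshot — block DC, package PL (twin D): every finite place of `FNC N` comes from a point
of `ℍ`, with multiplicity `m ∈ {1, 2, 3}` (`dict_PlacePointCStatement`).
-/
import Fermat.Agent.S42.DCInterfaces
import Fermat.Agent.S24.JLocal
import Fermat.Agent.S24.JSurj
import Fermat.Agent.S24.PointVal
import Fermat.Agent.S24.Places
import Fermat.Agent.S24.OrdBasic
import Fermat.Agent.S24.Dict

set_option autoImplicit false

open UpperHalfPlane ModularForm Complex CongruenceSubgroup ModularGroup AlgebraicCurve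
open scoped MatrixGroups Manifold Real

namespace Fermat.Agent.S42

open Fermat.Agent.S24

/-- Constants of `ℂ((q))`. -/
theorem dcPlD_algebraMap (c : ℂ) : algebraMap ℂ (LaurentSeries ℂ) c = HahnSeries.C c := by
  have h1 : algebraMap ℂ (PowerSeries ℂ) c = PowerSeries.C c := by simp
  rw [HahnSeries.algebraMap_apply', h1, HahnSeries.ofPowerSeries_C]

/-- Polynomial transfer: `p(x₀)` is realised by `p(j)` if `x₀` is realised by `j`. -/
theorem dcPlD_poly (hT : dc_TransferStatement) (x₀ : LaurentSeries ℂ) (h₀ : dict_AnC x₀ Jfun)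
    (p : Polynomial ℂ) :
    dict_AnC (Polynomial.aeval x₀ p) (fun τ : ℍ => p.eval (Jfun τ)) := by
  obtain ⟨-, hT2, hT3, -⟩ := hT
  induction p using Polynomial.induction_on with
  | C a =>
    rw [Polynomial.aeval_C, dcPlD_algebraMap]
    have e : (fun τ : ℍ => (Polynomial.C a).eval (Jfun τ)) = fun _ : ℍ => a := by
      funext τ
      rw [Polynomial.eval_C]
    rw [e]
    exact hT3 a
  | add p q hp hq =>
    rw [map_add]
    have e : (fun τ : ℍ => (p + q).eval (Jfun τ)) =
        (fun τ : ℍ => p.eval (Jfun τ)) + (fun τ : ℍ => q.eval (Jfun τ)) := by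
      funext τ
      rw [Polynomial.eval_add, Pi.add_apply]
    rw [e]
    exact (hT2 _ _ _ _ hp hq).1
  | monomial n a hn =>
    have e1 : Polynomial.aeval x₀ (Polynomial.C a * Polynomial.X ^ (n + 1)) =
        Polynomial.aeval x₀ (Polynomial.C a * Polynomial.X ^ n) * x₀ := by
      rw [pow_succ, ← mul_assoc, map_mul, Polynomial.aeval_X]
    have e2 : (fun τ : ℍ => (Polynomial.C a * Polynomial.X ^ (n + 1)).eval (Jfun τ)) =
        (fun τ : ℍ => (Polynomial.C a * Polynomial.X ^ n).eval (Jfun τ)) * Jfun := by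
      funext τ
      rw [Pi.mul_apply, pow_succ, ← mul_assoc, Polynomial.eval_mul, Polynomial.eval_X]
    rw [e1, e2]
    exact (hT2 _ _ _ _ hn h₀).2

/-- Coercion of a polynomial in `jC N` to `ℂ((q))`. -/
theorem dcPlD_coe_aeval (N : ℕ) [NeZero N] (p : Polynomial ℂ) :
    ((Polynomial.aeval (jC N) p : ↥(FNC N)) : LaurentSeries ℂ) =
      Polynomial.aeval ((jC N : ↥(FNC N)) : LaurentSeries ℂ) p :=
  (Polynomial.aeval_algHom_apply (FNC N).val (jC N) p).symm

/-- `ℂ[jC N]` lies in the valuation ring of a finite place. -/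
theorem dcPlD_adjoin_mem (N : ℕ) [NeZero N] (P : Place ℂ ↥(FNC N)) (hP0 : 0 ≤ P.ord (jC N))
    (x : ↥(FNC N)) (hx : x ∈ Algebra.adjoin ℂ ({jC N} : Set ↥(FNC N))) :
    x ∈ P.toValuationSubring := by
  induction hx using Algebra.adjoin_induction with
  | mem x hx =>
    rw [Set.mem_singleton_iff] at hx
    rw [hx]
    exact (OrdBasic.ord_nonneg_iff P).mp hP0
  | algebraMap r => exact P.algebraMap_mem' r
  | add x y _ _ hx hy => exact add_mem hx hy
  | mul x y _ _ hx hy => exact mul_mem hx hy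

/-- (DC5) Every finite place of `FNC N` comes from a point of `ℍ`. -/
theorem dcPlD_main : dict_FinCStatement → dict_FieldCStatement → dict_IntCStatement →
    dict_IntC'Statement → dict_PointPlaceCStatement → dc_NormStatement → dc_TransferStatement →
    dc_AvoidStatement → al_OrdStatement → dict_PlacePointCStatement := by
  intro hFin hF hI hI' hPP hNM hT hAV hOrd N _ P hP0
  classical
  have hJB := Fermat.Agent.S24.JLocal.jBasicStatement
  have hJO := Fermat.Agent.S24.JLocal.jOrdersStatement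
  have hJS := Fermat.Agent.S24.JSurj.jSurjStatement hJB
  have hPV := Fermat.Agent.S24.PointVal.pointValStatement
  obtain ⟨hJhol, hJinv, hJI, hJrho⟩ := hJB
  obtain ⟨htr, hfd⟩ := hFin N
  have hTall := hT
  obtain ⟨hT1, hT2, hT3, hT4, hT5, hT6, hT7, hT8⟩ := hT
  obtain ⟨hjAn, hjMod⟩ := hT7 N
  -- centre
  obtain ⟨c, hc⟩ := Fermat.Agent.S24.Places.centerStatement ℂ ↥(FNC N) (jC N) htr hfd P hP0
  -- the function `j - c` and the element `jC N - c`
  have hφcMod : dict_ModFun N (fun τ : ℍ => Jfun τ - c) := by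
    have h := (hT5 N Jfun (fun _ : ℍ => -c) hjMod (hT6 N (-c))).1
    have e : (Jfun + fun _ : ℍ => -c) = fun τ : ℍ => Jfun τ - c := by
      funext τ
      rw [Pi.add_apply, sub_eq_add_neg]
    rw [e] at h
    exact h
  have hφcAn : dict_AnC ((jC N - algebraMap ℂ ↥(FNC N) c : ↥(FNC N)) : LaurentSeries ℂ)
      (fun τ : ℍ => Jfun τ - c) := by
    have h := dcPlD_poly hTall _ hjAn (Polynomial.X - Polynomial.C c)
    rw [← dcPlD_coe_aeval] at h
    have e1 : Polynomial.aeval (jC N) (Polynomial.X - Polynomial.C c) =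
        jC N - algebraMap ℂ ↥(FNC N) c := by
      rw [map_sub, Polynomial.aeval_X, Polynomial.aeval_C]
    have e2 : (fun τ : ℍ => (Polynomial.X - Polynomial.C c).eval (Jfun τ)) =
        fun τ : ℍ => Jfun τ - c := by
      funext τ
      rw [Polynomial.eval_sub, Polynomial.eval_X, Polynomial.eval_C]
    rw [e1, e2] at h
    exact h
  have hφcHol : Hol (fun τ : ℍ => Jfun τ - c) := (hT1 N _ hφcMod).1
  have hxc0 : jC N - algebraMap ℂ ↥(FNC N) c ≠ 0 := OrdBasic.ne_zero_of_ord_pos P hc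
  -- the point `z₀`
  have hz₀ : ∃ z₀ : ℍ, Jfun z₀ = c ∧ (ordAt z₀ (fun τ : ℍ => Jfun τ - c) = 1 ∨
      ordAt z₀ (fun τ : ℍ => Jfun τ - c) = 2 ∨ ordAt z₀ (fun τ : ℍ => Jfun τ - c) = 3) := by
    by_cases h1728 : c = 1728
    · refine ⟨ellI, by rw [hJI, h1728], Or.inr (Or.inl ?_)⟩
      rw [h1728]
      exact hJO.2.1
    · by_cases h0 : c = 0
      · refine ⟨ellRho, by rw [hJrho, h0], Or.inr (Or.inr ?_)⟩
        have e : (fun τ : ℍ => Jfun τ - c) = Jfun := by
          funext τ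
          rw [h0, sub_zero]
        rw [e]
        exact hJO.2.2
      · obtain ⟨z₀, hz₀⟩ := hJS c
        refine ⟨z₀, hz₀, Or.inl ?_⟩
        have h := hJO.1 z₀ (by rw [hz₀]; exact h0) (by rw [hz₀]; exact h1728)
        rw [hz₀] at h
        exact h
  obtain ⟨z₀, hz₀c, hz₀ord⟩ := hz₀
  -- orders along the orbit of `z₀`
  have horb : ∀ γ : SL(2, ℤ), ordAt (γ • z₀) (fun τ : ℍ => Jfun τ - c) =
      ordAt z₀ (fun τ : ℍ => Jfun τ - c) := by
    intro γ
    have h := (hPV.2.2.2.2.1 z₀ γ (fun τ : ℍ => Jfun τ - c) hφcHol).2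
    have e : (fun τ : ℍ => (fun τ : ℍ => Jfun τ - c) (γ • τ)) = fun τ : ℍ => Jfun τ - c := by
      funext τ
      show Jfun (γ • τ) - c = Jfun τ - c
      rw [hJinv]
    rw [e] at h
    exact h.symm
  -- the finitely many places above the orbit
  have hQfin : Finite (SL(2, ℤ) ⧸ Gamma0 N) := Subgroup.finite_quotient_of_finiteIndex
  have hQfint : Fintype (SL(2, ℤ) ⧸ Gamma0 N) := Fintype.ofFinite _
  choose Pf mf hmf hPf0 hPf using
    fun q : SL(2, ℤ) ⧸ Gamma0 N => hPP N ((Quotient.out q)⁻¹ • z₀)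
  by_cases hPs : P ∈ Finset.univ.image Pf
  · -- `P` is one of the places above the orbit
    obtain ⟨q, -, hq⟩ := Finset.mem_image.mp hPs
    refine ⟨(Quotient.out q)⁻¹ • z₀, mf q, ?_, ?_⟩
    · have h := hPf q _ _ hxc0 hφcAn hφcMod
      rw [horb, hq] at h
      have hm1 : (1 : ℤ) ≤ (mf q : ℤ) := by exact_mod_cast hmf q
      have hk : (1 : ℤ) ≤ P.ord (jC N - algebraMap ℂ ↥(FNC N) c) := hc
      have hle : (mf q : ℤ) ≤ (mf q : ℤ) * P.ord (jC N - algebraMap ℂ ↥(FNC N) c) :=
        le_mul_of_one_le_right (by omega) hk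
      have ho3 : (ordAt z₀ (fun τ : ℍ => Jfun τ - c) : ℤ) ≤ 3 := by
        rcases hz₀ord with h' | h' | h' <;> rw [h'] <;> norm_num
      have hm3 : (mf q : ℤ) ≤ 3 := by linarith
      have hm3' : mf q ≤ 3 := by exact_mod_cast hm3
      have hm0 := hmf q
      omega
    · intro x φ hx hAn hMod
      have h := hPf q x φ hx hAn hMod
      rw [hq] at h
      exact h
  · -- otherwise: contradiction
    exfalso
    have hs0 : ∀ P' ∈ Finset.univ.image Pf, 0 ≤ P'.ord (jC N) := by
      intro P' hP'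
      obtain ⟨q, -, rfl⟩ := Finset.mem_image.mp hP'
      exact hPf0 q
    obtain ⟨b, hbint, hb0, hbP, hbs⟩ := hAV N P (Finset.univ.image Pf) hP0 hs0 hPs
    obtain ⟨φ, hφAn, hφMod⟩ := hI N b hbint
    have hφHol : Hol φ := (hT1 N φ hφMod).1
    have hφ0 : φ ≠ 0 := by
      intro h0
      apply hb0
      have h1 : Qexp 1 φ = (b : LaurentSeries ℂ) := hφAn.2
      have h2 : Qexp 1 (fun _ : ℍ => (0 : ℂ)) = HahnSeries.C 0 := (hT3 0).2
      have h3 : (b : LaurentSeries ℂ) = 0 := by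
        rw [← h1, h0]
        show Qexp 1 (fun _ : ℍ => (0 : ℂ)) = 0
        rw [h2, map_zero]
      exact Subtype.ext h3
    -- `φ` does not vanish on the orbit of `z₀`
    have hφq : ∀ q : SL(2, ℤ) ⧸ Gamma0 N, φ ((Quotient.out q)⁻¹ • z₀) ≠ 0 := by
      intro q
      have h := hPf q b φ hb0 hφAn hφMod
      rw [hbs (Pf q) (Finset.mem_image_of_mem Pf (Finset.mem_univ q)), mul_zero] at h
      have h' : ordAt ((Quotient.out q)⁻¹ • z₀) φ = 0 := by exact_mod_cast h
      exact ((hOrd φ hφHol hφ0 _).2).mp h'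
    have hφorb : ∀ γ : SL(2, ℤ), φ (γ • z₀) ≠ 0 := by
      intro γ
      obtain ⟨g, hg⟩ := QuotientGroup.mk_out_eq_mul (Gamma0 N) γ⁻¹
      have h := hφq (QuotientGroup.mk γ⁻¹)
      rw [hg, mul_inv_rev, inv_inv, mul_smul] at h
      rwa [hφMod.1 _ (inv_mem g.2)] at h
    obtain ⟨Nm, u, huMod, hu, hNm⟩ := hNM N φ hφMod
    have hNmc : Nm.eval c ≠ 0 := by
      have h := hNm z₀ hφorb
      rwa [hz₀c] at h
    -- the element `y` realised by `u`
    have huC : IsCuspMer 1 u := (hT1 N u huMod).2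
    have huAn : dict_AnC ((⟨Qexp 1 u, hF N u huMod⟩ : ↥(FNC N)) : LaurentSeries ℂ) u :=
      ⟨huC, rfl⟩
    have hyint := hI' N ⟨Qexp 1 u, hF N u huMod⟩ u huAn huMod
    have hA : ∀ a : ↥(Algebra.adjoin ℂ ({jC N} : Set ↥(FNC N))),
        0 ≤ P.ord (algebraMap ↥(Algebra.adjoin ℂ ({jC N} : Set ↥(FNC N))) ↥(FNC N) a) := by
      intro a
      rw [OrdBasic.ord_nonneg_iff]
      exact dcPlD_adjoin_mem N P hP0 a.1 a.2
    have hyord : 0 ≤ P.ord (⟨Qexp 1 u, hF N u huMod⟩ : ↥(FNC N)) :=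
      Dict.ord_nonneg_of_isIntegral P hA hyint
    -- `b * y = Nm(jC N)`
    have hprod : b * (⟨Qexp 1 u, hF N u huMod⟩ : ↥(FNC N)) = Polynomial.aeval (jC N) Nm := by
      apply Subtype.ext
      have h1 := (hT2 _ _ _ _ hφAn huAn).2
      have h2 := dcPlD_poly hTall _ hjAn Nm
      have e : φ * u = fun τ : ℍ => Nm.eval (Jfun τ) := by
        funext τ
        exact hu τ
      rw [e] at h1
      rw [dcPlD_coe_aeval]
      show (b : LaurentSeries ℂ) * Qexp 1 u = _
      rw [← h2.2]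
      exact h1.2.symm
    have hNm0 : Nm ≠ 0 := by
      rintro rfl
      exact hNmc (Polynomial.eval_zero)
    have haev0 : Polynomial.aeval (jC N) Nm ≠ 0 :=
      fun h => hNm0 (transcendental_iff.mp htr Nm h)
    have hy0 : (⟨Qexp 1 u, hF N u huMod⟩ : ↥(FNC N)) ≠ 0 := by
      intro h
      apply haev0
      rw [← hprod, h, mul_zero]
    have hordpos : 0 < P.ord (Polynomial.aeval (jC N) Nm) := by
      rw [← hprod, P.ord_mul hb0 hy0]
      omega
    -- but the order of `Nm(jC N)` at `P` is zero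
    have hdecomp : Polynomial.aeval (jC N) Nm = algebraMap ℂ ↥(FNC N) (Nm.eval c) +
        (jC N - algebraMap ℂ ↥(FNC N) c) *
          Polynomial.aeval (jC N) (Nm /ₘ (Polynomial.X - Polynomial.C c)) := by
      have h := Polynomial.modByMonic_add_div Nm (Polynomial.X - Polynomial.C c)
      rw [Polynomial.modByMonic_X_sub_C_eq_C_eval] at h
      conv_lhs => rw [← h]
      rw [map_add, map_mul, Polynomial.aeval_C, map_sub, Polynomial.aeval_X, Polynomial.aeval_C]
    have hc0 : algebraMap ℂ ↥(FNC N) (Nm.eval c) ≠ 0 := (map_ne_zero _).mpr hNmc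
    have hwO : 0 ≤ P.ord (Polynomial.aeval (jC N) (Nm /ₘ (Polynomial.X - Polynomial.C c))) := by
      rw [OrdBasic.ord_nonneg_iff]
      exact dcPlD_adjoin_mem N P hP0 _ (Polynomial.aeval_mem_adjoin_singleton _ _)
    by_cases hw0 : Polynomial.aeval (jC N) (Nm /ₘ (Polynomial.X - Polynomial.C c)) = 0
    · rw [hdecomp, hw0, mul_zero, add_zero, OrdBasic.ord_algebraMap] at hordpos
      exact lt_irrefl _ hordpos
    · have hlt : P.ord (algebraMap ℂ ↥(FNC N) (Nm.eval c)) <
          P.ord ((jC N - algebraMap ℂ ↥(FNC N) c) *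
            Polynomial.aeval (jC N) (Nm /ₘ (Polynomial.X - Polynomial.C c))) := by
        rw [OrdBasic.ord_algebraMap, P.ord_mul hxc0 hw0]
        omega
      rw [hdecomp, OrdBasic.ord_add_eq_of_lt P hc0 hlt, OrdBasic.ord_algebraMap] at hordpos
      exact lt_irrefl _ hordpos

end Fermat.Agent.S42
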