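/-
S42 moonshot — block DC, package PP (DC4): points of the upper half plane give finite places of
`FNC N`.  The order of vanishing at `z` of the modular functions realising the elements of `FNC N`
extends to a `ℤ`-valued valuation of `FNC N`, trivial on `ℂ`, which comes from a place.
-/
import Fermat.Agent.S42.DCInterfaces
import Fermat.Agent.S24.JLocalBasic
import Fermat.Agent.S24.JSurj
import Fermat.Agent.S24.PointVal
import Fermat.Agent.S24.ValPlace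

set_option autoImplicit false

open UpperHalfPlane ModularForm Complex CongruenceSubgroup ModularGroup AlgebraicCurve
open scoped MatrixGroups Manifold Real

namespace Fermat.Agent.S42

open Fermat.Agent.S24

noncomputable section

/-- `ψ` is an integral modular function of level `Γ₀(N)` realising `y ∈ FNC N`. -/
def dcPP_Real (N : ℕ) [NeZero N] (y : ↥(FNC N)) (ψ : ℍ → ℂ) : Prop :=
  dict_AnC (y : LaurentSeries ℂ) ψ ∧ dict_ModFun N ψ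

theorem dcPP_real_mul (hT : dc_TransferStatement) {N : ℕ} [NeZero N] {y y' : ↥(FNC N)}
    {ψ ψ' : ℍ → ℂ} (h : dcPP_Real N y ψ) (h' : dcPP_Real N y' ψ') :
    dcPP_Real N (y * y') (ψ * ψ') :=
  ⟨(hT.2.1 _ _ _ _ h.1 h'.1).2, (hT.2.2.2.2.1 N _ _ h.2 h'.2).2⟩

theorem dcPP_real_add (hT : dc_TransferStatement) {N : ℕ} [NeZero N] {y y' : ↥(FNC N)}
    {ψ ψ' : ℍ → ℂ} (h : dcPP_Real N y ψ) (h' : dcPP_Real N y' ψ') :
    dcPP_Real N (y + y') (ψ + ψ') :=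
  ⟨(hT.2.1 _ _ _ _ h.1 h'.1).1, (hT.2.2.2.2.1 N _ _ h.2 h'.2).1⟩

theorem dcPP_coe_algebraMap (N : ℕ) [NeZero N] (c : ℂ) :
    ((algebraMap ℂ ↥(FNC N) c : ↥(FNC N)) : LaurentSeries ℂ) = HahnSeries.C c := by
  show HahnSeries.ofPowerSeries ℤ ℂ (algebraMap ℂ (PowerSeries ℂ) c) = _
  rw [← HahnSeries.ofPowerSeries_C]
  rfl

theorem dcPP_real_const (hT : dc_TransferStatement) (N : ℕ) [NeZero N] (c : ℂ) :
    dcPP_Real N (algebraMap ℂ ↥(FNC N) c) (fun _ : ℍ => c) := by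
  refine ⟨?_, hT.2.2.2.2.2.1 N c⟩
  rw [dcPP_coe_algebraMap]
  exact hT.2.2.1 c

theorem dcPP_real_one (hT : dc_TransferStatement) (N : ℕ) [NeZero N] :
    dcPP_Real N (1 : ↥(FNC N)) (fun _ : ℍ => (1 : ℂ)) := by
  have h := dcPP_real_const hT N 1
  rwa [map_one] at h

theorem dcPP_real_hol (hT : dc_TransferStatement) {N : ℕ} [NeZero N] {y : ↥(FNC N)}
    {ψ : ℍ → ℂ} (h : dcPP_Real N y ψ) : MDifferentiable 𝓘(ℂ) 𝓘(ℂ) ψ :=
  (hT.1 N ψ h.2).1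

theorem dcPP_real_fun_ne_zero (hT : dc_TransferStatement) {N : ℕ} [NeZero N] {y : ↥(FNC N)}
    {ψ : ℍ → ℂ} (h : dcPP_Real N y ψ) (hy : y ≠ 0) : ψ ≠ 0 := by
  rintro rfl
  apply hy
  have h0 := hT.2.2.1 0
  have e : (y : LaurentSeries ℂ) = HahnSeries.C 0 := h.1.2.symm.trans h0.2
  rw [map_zero] at e
  exact Subtype.ext e

theorem dcPP_real_ne_zero (hT : dc_TransferStatement) {N : ℕ} [NeZero N] {y : ↥(FNC N)}
    {ψ : ℍ → ℂ} (h : dcPP_Real N y ψ) (hψ : ψ ≠ 0) : y ≠ 0 := by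
  rintro rfl
  apply hψ
  have h0 := hT.2.2.1 0
  rw [map_zero] at h0
  exact hT.2.2.2.1 _ _ _ h.1 h0

/-- The valuation attached to the point `z`. -/
def dcPP_v (hR : dict_RepCStatement) (N : ℕ) [NeZero N] (z : ℍ) (x : ↥(FNC N)) : ℤ :=
  (ordAt z (hR N x).choose_spec.choose_spec.choose : ℤ)
    - (ordAt z (hR N x).choose_spec.choose_spec.choose_spec.choose : ℤ)

theorem dcPP_v_spec (hR : dict_RepCStatement) (N : ℕ) [NeZero N] (z : ℍ) (x : ↥(FNC N)) :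
    ∃ (x₁ x₂ : ↥(FNC N)) (φ₁ φ₂ : ℍ → ℂ), x₂ ≠ 0 ∧ x * x₂ = x₁ ∧ dcPP_Real N x₁ φ₁ ∧
      dcPP_Real N x₂ φ₂ ∧ dcPP_v hR N z x = (ordAt z φ₁ : ℤ) - (ordAt z φ₂ : ℤ) := by
  obtain ⟨h1, h2, h3, h4, h5, h6⟩ := (hR N x).choose_spec.choose_spec.choose_spec.choose_spec
  exact ⟨_, _, _, _, h1, h2, ⟨h3, h5⟩, ⟨h4, h6⟩, rfl⟩

theorem dcPP_v_eq (hR : dict_RepCStatement) (hT : dc_TransferStatement) (N : ℕ) [NeZero N]
    (z : ℍ) {x y₁ y₂ : ↥(FNC N)} {ψ₁ ψ₂ : ℍ → ℂ} (hx : x ≠ 0) (hy₂ : y₂ ≠ 0)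
    (hxy : x * y₂ = y₁) (h₁ : dcPP_Real N y₁ ψ₁) (h₂ : dcPP_Real N y₂ ψ₂) :
    dcPP_v hR N z x = (ordAt z ψ₁ : ℤ) - (ordAt z ψ₂ : ℤ) := by
  have hPV := Fermat.Agent.S24.PointVal.pointValStatement
  obtain ⟨x₁, x₂, φ₁, φ₂, hx₂, hxx, r₁, r₂, hv⟩ := dcPP_v_spec hR N z x
  have hx₁ : x₁ ≠ 0 := hxx ▸ mul_ne_zero hx hx₂
  have hy₁ : y₁ ≠ 0 := hxy ▸ mul_ne_zero hx hy₂
  have e : x₁ * y₂ = y₁ * x₂ := by
    rw [← hxx, ← hxy]
    ring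
  have r := dcPP_real_mul hT r₁ h₂
  have r' := dcPP_real_mul hT h₁ r₂
  rw [e] at r
  have hfun : φ₁ * ψ₂ = ψ₁ * φ₂ := hT.2.2.2.1 _ _ _ r.1 r'.1
  have o₁ := hPV.2.1 z φ₁ ψ₂ (dcPP_real_hol hT r₁) (dcPP_real_hol hT h₂)
    (dcPP_real_fun_ne_zero hT r₁ hx₁) (dcPP_real_fun_ne_zero hT h₂ hy₂)
  have o₂ := hPV.2.1 z ψ₁ φ₂ (dcPP_real_hol hT h₁) (dcPP_real_hol hT r₂)
    (dcPP_real_fun_ne_zero hT h₁ hy₁) (dcPP_real_fun_ne_zero hT r₂ hx₂)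
  rw [hfun] at o₁
  rw [hv]
  omega

/-- The value of the valuation at an element realised by a modular function. -/
theorem dcPP_v_real (hR : dict_RepCStatement) (hT : dc_TransferStatement) (N : ℕ) [NeZero N]
    (z : ℍ) {x : ↥(FNC N)} {φ : ℍ → ℂ} (hx : x ≠ 0) (h : dcPP_Real N x φ) :
    dcPP_v hR N z x = (ordAt z φ : ℤ) := by
  have hPV := Fermat.Agent.S24.PointVal.pointValStatement
  have h1 := dcPP_real_one hT N
  have e := dcPP_v_eq hR hT N z hx one_ne_zero (mul_one x) h h1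
  have o : ordAt z (fun _ : ℍ => (1 : ℂ)) = 0 :=
    hPV.2.2.2.1 z _ (dcPP_real_hol hT h1) one_ne_zero
  rw [e, o]
  simp

theorem dcPP_main :
    dict_RepCStatement → dc_TransferStatement → al_OrdStatement → dict_PointPlaceCStatement := by
  intro hR hT hOrd N _ z
  have hPV := Fermat.Agent.S24.PointVal.pointValStatement
  have hJB := Fermat.Agent.S24.JLocal.jBasicStatement
  have hJS := Fermat.Agent.S24.JSurj.jSurjStatement hJB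
  have hV := Fermat.Agent.S24.Places.valuationPlaceStatement
  -- multiplicativity
  have hmul : ∀ x y : ↥(FNC N), x ≠ 0 → y ≠ 0 →
      dcPP_v hR N z (x * y) = dcPP_v hR N z x + dcPP_v hR N z y := by
    intro x y hx hy
    obtain ⟨x₁, x₂, φ₁, φ₂, hx₂, hxx, r₁, r₂, hvx⟩ := dcPP_v_spec hR N z x
    obtain ⟨y₁, y₂, ψ₁, ψ₂, hy₂, hyy, s₁, s₂, hvy⟩ := dcPP_v_spec hR N z y
    have hx₁ : x₁ ≠ 0 := hxx ▸ mul_ne_zero hx hx₂
    have hy₁ : y₁ ≠ 0 := hyy ▸ mul_ne_zero hy hy₂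
    have e : (x * y) * (x₂ * y₂) = x₁ * y₁ := by
      rw [← hxx, ← hyy]
      ring
    have hv := dcPP_v_eq hR hT N z (mul_ne_zero hx hy) (mul_ne_zero hx₂ hy₂) e
      (dcPP_real_mul hT r₁ s₁) (dcPP_real_mul hT r₂ s₂)
    have o₁ := hPV.2.1 z φ₁ ψ₁ (dcPP_real_hol hT r₁) (dcPP_real_hol hT s₁)
      (dcPP_real_fun_ne_zero hT r₁ hx₁) (dcPP_real_fun_ne_zero hT s₁ hy₁)
    have o₂ := hPV.2.1 z φ₂ ψ₂ (dcPP_real_hol hT r₂) (dcPP_real_hol hT s₂)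
      (dcPP_real_fun_ne_zero hT r₂ hx₂) (dcPP_real_fun_ne_zero hT s₂ hy₂)
    rw [hv, hvx, hvy, o₁, o₂]
    push_cast
    ring
  -- ultrametric inequality
  have hadd : ∀ x y : ↥(FNC N), x ≠ 0 → y ≠ 0 → x + y ≠ 0 →
      min (dcPP_v hR N z x) (dcPP_v hR N z y) ≤ dcPP_v hR N z (x + y) := by
    intro x y hx hy hxy
    obtain ⟨x₁, x₂, φ₁, φ₂, hx₂, hxx, r₁, r₂, hvx⟩ := dcPP_v_spec hR N z x
    obtain ⟨y₁, y₂, ψ₁, ψ₂, hy₂, hyy, s₁, s₂, hvy⟩ := dcPP_v_spec hR N z y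
    have hx₁ : x₁ ≠ 0 := hxx ▸ mul_ne_zero hx hx₂
    have hy₁ : y₁ ≠ 0 := hyy ▸ mul_ne_zero hy hy₂
    have e : (x + y) * (x₂ * y₂) = x₁ * y₂ + y₁ * x₂ := by
      rw [← hxx, ← hyy]
      ring
    have hsum : x₁ * y₂ + y₁ * x₂ ≠ 0 := e ▸ mul_ne_zero hxy (mul_ne_zero hx₂ hy₂)
    have ra := dcPP_real_mul hT r₁ s₂
    have rb := dcPP_real_mul hT s₁ r₂
    have rs := dcPP_real_add hT ra rb
    have hv := dcPP_v_eq hR hT N z hxy (mul_ne_zero hx₂ hy₂) e rs (dcPP_real_mul hT r₂ s₂)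
    have o₁ := hPV.2.1 z φ₁ ψ₂ (dcPP_real_hol hT r₁) (dcPP_real_hol hT s₂)
      (dcPP_real_fun_ne_zero hT r₁ hx₁) (dcPP_real_fun_ne_zero hT s₂ hy₂)
    have o₂ := hPV.2.1 z ψ₁ φ₂ (dcPP_real_hol hT s₁) (dcPP_real_hol hT r₂)
      (dcPP_real_fun_ne_zero hT s₁ hy₁) (dcPP_real_fun_ne_zero hT r₂ hx₂)
    have o₃ := hPV.2.1 z φ₂ ψ₂ (dcPP_real_hol hT r₂) (dcPP_real_hol hT s₂)
      (dcPP_real_fun_ne_zero hT r₂ hx₂) (dcPP_real_fun_ne_zero hT s₂ hy₂)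
    have o₄ := hPV.2.2.1 z (φ₁ * ψ₂) (ψ₁ * φ₂) (dcPP_real_hol hT ra) (dcPP_real_hol hT rb)
      (dcPP_real_fun_ne_zero hT ra (mul_ne_zero hx₁ hy₂))
      (dcPP_real_fun_ne_zero hT rb (mul_ne_zero hy₁ hx₂))
      (dcPP_real_fun_ne_zero hT rs hsum)
    rw [hv, hvx, hvy, o₃]
    rw [o₁, o₂] at o₄
    omega
  -- triviality on constants
  have hK : ∀ c : ℂ, c ≠ 0 → dcPP_v hR N z (algebraMap ℂ ↥(FNC N) c) = 0 := by
    intro c hc
    have hc' : algebraMap ℂ ↥(FNC N) c ≠ 0 := (map_ne_zero _).mpr hc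
    have rc := dcPP_real_const hT N c
    rw [dcPP_v_real hR hT N z hc' rc, hPV.2.2.2.1 z _ (dcPP_real_hol hT rc) hc]
    rfl
  -- `jC N` is realised by `Jfun`
  have rJ : dcPP_Real N (jC N) Jfun := hT.2.2.2.2.2.2.1 N
  -- nontriviality
  have hnt : ∃ x : ↥(FNC N), x ≠ 0 ∧ dcPP_v hR N z x ≠ 0 := by
    have rx := dcPP_real_add hT rJ (dcPP_real_const hT N (-(Jfun z)))
    have hfun : (Jfun + fun _ : ℍ => -(Jfun z)) ≠ 0 := by
      obtain ⟨τ, hτ⟩ := hJS (Jfun z + 1)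
      intro h0
      have := congrFun h0 τ
      simp [hτ] at this
    have hx0 := dcPP_real_ne_zero hT rx hfun
    refine ⟨_, hx0, ?_⟩
    rw [dcPP_v_real hR hT N z hx0 rx]
    have hz : (Jfun + fun _ : ℍ => -(Jfun z)) z = 0 := by simp
    have h2 := (hOrd _ (dcPP_real_hol hT rx) hfun z).2
    intro h3
    exact (h2.mp (by exact_mod_cast h3)) hz
  obtain ⟨W, e, he, hW, -⟩ := hV ℂ ↥(FNC N) (dcPP_v hR N z) hmul hadd hK hnt
  refine ⟨W, e, he, ?_, ?_⟩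
  · have hJ0 : jC N ≠ 0 := by
      apply dcPP_real_ne_zero hT rJ
      obtain ⟨τ, hτ⟩ := hJS 1
      intro h0
      have := congrFun h0 τ
      simp [hτ] at this
    have h1 := hW (jC N) hJ0
    rw [dcPP_v_real hR hT N z hJ0 rJ] at h1
    have h2 : (0 : ℤ) ≤ (e : ℤ) * W.ord (jC N) := by
      rw [← h1]
      exact Int.natCast_nonneg _
    have he' : (0 : ℤ) < (e : ℤ) := by exact_mod_cast he
    exact nonneg_of_mul_nonneg_right h2 he'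
  · intro x φ hx hAn hMod
    rw [← hW x hx, dcPP_v_real hR hT N z hx ⟨hAn, hMod⟩]

end

end Fermat.Agent.S42
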