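/-
S42 moonshot — block DC, package R/A (DC2 Rep): every element of `FNC N` is a quotient of two
elements realised by integral modular functions.
-/
import Fermat.Agent.S42.DCInterfaces

set_option autoImplicit false

open UpperHalfPlane ModularForm Complex CongruenceSubgroup ModularGroup AlgebraicCurve
open scoped MatrixGroups Manifold Real

namespace Fermat.Agent.S42

open Fermat.Agent.S24

/-- Every element of the `ℂ`-algebra generated by the `j(q^d)`, `d ∣ N`, is realised by an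
integral modular function. -/
theorem dcR_adjoin (hT : dc_TransferStatement) (N : ℕ) [NeZero N] (y : LaurentSeries ℂ)
    (hy : y ∈ Algebra.adjoin ℂ (ModularCurve.divisorExpansionsC ℂ N)) :
    ∃ φ : ℍ → ℂ, dict_AnC y φ ∧ dict_ModFun N φ := by
  obtain ⟨-, h2, h3, -, h5, h6, -, h8⟩ := hT
  induction hy using Algebra.adjoin_induction with
  | mem x hx =>
    obtain ⟨d, hd, hdN, rfl⟩ := hx
    have := hd
    exact ⟨slConj d 1, (h8 N d hdN).1, (h8 N d hdN).2⟩
  | algebraMap c =>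
    refine ⟨fun _ : ℍ => c, ?_, h6 N c⟩
    have hc : algebraMap ℂ (LaurentSeries ℂ) c = HahnSeries.C c := by
      rw [ModularCurve.algebraMap_laurentSeries_eq_single]
      rfl
    rw [hc]
    exact h3 c
  | add x y _ _ hx hy =>
    obtain ⟨φ, hφ1, hφ2⟩ := hx
    obtain ⟨ψ, hψ1, hψ2⟩ := hy
    exact ⟨φ + ψ, (h2 x y φ ψ hφ1 hψ1).1, (h5 N φ ψ hφ2 hψ2).1⟩
  | mul x y _ _ hx hy =>
    obtain ⟨φ, hφ1, hφ2⟩ := hx
    obtain ⟨ψ, hψ1, hψ2⟩ := hy
    exact ⟨φ * ψ, (h2 x y φ ψ hφ1 hψ1).2, (h5 N φ ψ hφ2 hψ2).2⟩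

theorem dcR_main : dc_TransferStatement → dict_RepCStatement := by
  intro hT N _ x
  have hT' := hT
  obtain ⟨-, -, h3, -, -, h6, -, -⟩ := hT'
  have hx : (x : LaurentSeries ℂ) ∈
      IntermediateField.adjoin ℂ (ModularCurve.divisorExpansionsC ℂ N) := x.2
  obtain ⟨r, hr, s, hs, hxrs⟩ := IntermediateField.mem_adjoin_iff_div.1 hx
  have hle : Algebra.adjoin ℂ (ModularCurve.divisorExpansionsC ℂ N) ≤
      (IntermediateField.adjoin ℂ (ModularCurve.divisorExpansionsC ℂ N)).toSubalgebra :=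
    IntermediateField.algebra_adjoin_le_adjoin ℂ _
  by_cases hs0 : s = 0
  · -- `x = 0`
    have hx0 : x = 0 := by
      apply Subtype.ext
      rw [hxrs, hs0, div_zero]
      rfl
    refine ⟨0, 1, fun _ : ℍ => (0 : ℂ), fun _ : ℍ => (1 : ℂ), one_ne_zero, ?_, ?_, ?_,
      h6 N 0, h6 N 1⟩
    · rw [hx0, zero_mul]
    · have h := h3 0
      rw [map_zero] at h
      exact h
    · have h := h3 1
      rw [map_one] at h
      exact h
  · obtain ⟨φ₁, hφ1, hφ1'⟩ := dcR_adjoin hT N r hr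
    obtain ⟨φ₂, hφ2, hφ2'⟩ := dcR_adjoin hT N s hs
    refine ⟨⟨r, hle hr⟩, ⟨s, hle hs⟩, φ₁, φ₂, ?_, ?_, hφ1, hφ2, hφ1', hφ2'⟩
    · intro h
      exact hs0 (congrArg Subtype.val h)
    · apply Subtype.ext
      change (x : LaurentSeries ℂ) * s = r
      rw [hxrs, div_mul_cancel₀ _ hs0]

end Fermat.Agent.S42
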