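/-
S42 — block DC, package SYM: an `SL(2, ℤ)`-invariant function which is `IsCuspMer N` is a
polynomial in `j` (from S24 `LemmaPC.lemmaPC`).
-/
import Fermat.Agent.S42.DCInterfaces
import Fermat.Agent.S24.LemmaPC
import Fermat.Agent.S24.PreModelGens
import Fermat.Agent.S24.Qexp
import Fermat.Agent.S24.FormalQ
import Fermat.Agent.S24.JLocalBasic

set_option autoImplicit false

open UpperHalfPlane ModularForm Complex CongruenceSubgroup ModularGroup AlgebraicCurve
open scoped MatrixGroups Manifold Real

namespace Fermat.Agent.S42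

open Fermat.Agent.S24

/-- (SYM) An `SL(2, ℤ)`-invariant function which is `IsCuspMer N` is a polynomial in `j`. -/
theorem dcSym_main : dc_SymStatement := by
  intro N _ f hinv hf
  have hQ := Fermat.Agent.S24.Qexp.qexpStatement
  have hJB := Fermat.Agent.S24.JLocal.jBasicStatement
  have hJQ := Fermat.Agent.S24.FormalQ.jQexpStatement hQ
  have hper : Function.Periodic (f ∘ ofComplex) ((1 : ℝ) : ℂ) :=
    Fermat.Agent.S24.PreModelGens.periodic_of_invariant f hinv
  obtain ⟨k, hk⟩ := hQ.2.2.2.2.2.2.1 N f hf hper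
  obtain ⟨p, -, hp⟩ := Fermat.Agent.S24.LemmaPC.lemmaPC hJB hJQ hQ k f hk hinv
  exact ⟨p, hp⟩

end Fermat.Agent.S42
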