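/-
S42 moonshot — block DC, package T (twin B): transfer lemmas `dcTb_main : dc_TransferStatement`.
-/
import Fermat.Agent.S42.DCInterfaces
import Fermat.Agent.S24.Qexp
import Fermat.Agent.S24.FormalQ
import Fermat.Agent.S24.JLocalBasic
import Fermat.Agent.S24.Conj
import Fermat.Agent.S24.PreModelGens

set_option autoImplicit false

open UpperHalfPlane ModularForm Complex CongruenceSubgroup ModularGroup AlgebraicCurve
open scoped MatrixGroups Manifold Real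

namespace Fermat.Agent.S42

open Fermat.Agent.S24

theorem dcTb_T_mem (N : ℕ) : (T : SL(2, ℤ)) ∈ Gamma0 N := by
  rw [Gamma0_mem]
  simp [ModularGroup.T]

/-- A `T`-invariant function is `1`-periodic (as a function on `ℂ` via `ofComplex`). -/
theorem dcTb_periodic (f : ℍ → ℂ) (hinv : ∀ τ : ℍ, f (T • τ) = f τ) :
    Function.Periodic (f ∘ ofComplex) ((1 : ℝ) : ℂ) := by
  intro z
  show f (ofComplex (z + ((1 : ℝ) : ℂ))) = f (ofComplex z)
  by_cases hz : 0 < z.im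
  · have hz' : 0 < (z + ((1 : ℝ) : ℂ)).im := by simpa using hz
    rw [ofComplex_apply_of_im_pos hz, ofComplex_apply_of_im_pos hz', ← hinv ⟨z, hz⟩,
      modular_T_smul]
    congr 1
    apply UpperHalfPlane.ext
    rw [coe_vadd]
    show z + ((1 : ℝ) : ℂ) = ((1 : ℝ) : ℂ) + z
    ring
  · have hz1 : z.im ≤ 0 := not_lt.mp hz
    have hz' : (z + ((1 : ℝ) : ℂ)).im ≤ 0 := by simpa using hz1
    rw [ofComplex_apply_of_im_nonpos hz1, ofComplex_apply_of_im_nonpos hz']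

theorem dcTb_one (hQ : QexpStatement) (N : ℕ) [NeZero N] (φ : ℍ → ℂ) (h : dict_ModFun N φ) :
    Hol φ ∧ IsCuspMer 1 φ := by
  obtain ⟨hinv, hcm⟩ := h
  have h1 : IsCuspMer N φ := by
    have h0 := hcm 1
    simpa only [one_smul] using h0
  have hper : Function.Periodic (φ ∘ ofComplex) ((1 : ℝ) : ℂ) :=
    dcTb_periodic φ (fun τ => hinv T (dcTb_T_mem N) τ)
  have h2 : IsCuspMer 1 φ := hQ.2.2.2.2.2.2.1 N φ h1 hper
  obtain ⟨k, hk⟩ := h2
  exact ⟨hk.1, ⟨k, hk⟩⟩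

theorem dcTb_two (hQ : QexpStatement) (x y : LaurentSeries ℂ) (φ ψ : ℍ → ℂ)
    (hφ : dict_AnC x φ) (hψ : dict_AnC y ψ) :
    dict_AnC (x + y) (φ + ψ) ∧ dict_AnC (x * y) (φ * ψ) := by
  obtain ⟨h1, h2, h3, h4⟩ := hQ.2.1 1 φ ψ hφ.1 hψ.1
  exact ⟨⟨h1, by rw [h3, hφ.2, hψ.2]⟩, ⟨h2, by rw [h4, hφ.2, hψ.2]⟩⟩

theorem dcTb_three (hQ : QexpStatement) (c : ℂ) :
    dict_AnC (HahnSeries.C c) (fun _ : ℍ => c) :=
  ⟨⟨0, (hQ.1 1 c).1⟩, (hQ.1 1 c).2⟩

theorem dcTb_four (hQ : QexpStatement) (x : LaurentSeries ℂ) (φ ψ : ℍ → ℂ)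
    (hφ : dict_AnC x φ) (hψ : dict_AnC x ψ) : φ = ψ := by
  have hc := dcTb_three hQ (-1)
  have hm := (dcTb_two hQ _ _ _ _ hc hψ).2
  have hs := (dcTb_two hQ _ _ _ _ hφ hm).1
  have h0 : x + HahnSeries.C (-1 : ℂ) * x = 0 := by
    rw [map_neg, map_one]
    ring
  have hz := hQ.2.2.1 1 _ hs.1 (hs.2.trans h0)
  funext τ
  have h1 := congrFun hz τ
  simp only [Pi.add_apply, Pi.mul_apply, Pi.zero_apply] at h1
  linear_combination h1

theorem dcTb_five (hQ : QexpStatement) (N : ℕ) [NeZero N] (φ ψ : ℍ → ℂ)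
    (hφ : dict_ModFun N φ) (hψ : dict_ModFun N ψ) :
    dict_ModFun N (φ + ψ) ∧ dict_ModFun N (φ * ψ) := by
  refine ⟨⟨?_, ?_⟩, ⟨?_, ?_⟩⟩
  · intro γ hγ z
    simp only [Pi.add_apply]
    rw [hφ.1 γ hγ z, hψ.1 γ hγ z]
  · intro γ
    exact (hQ.2.1 N _ _ (hφ.2 γ) (hψ.2 γ)).1
  · intro γ hγ z
    simp only [Pi.mul_apply]
    rw [hφ.1 γ hγ z, hψ.1 γ hγ z]
  · intro γ
    exact (hQ.2.1 N _ _ (hφ.2 γ) (hψ.2 γ)).2.1

theorem dcTb_six (hQ : QexpStatement) (N : ℕ) [NeZero N] (c : ℂ) :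
    dict_ModFun N (fun _ : ℍ => c) :=
  ⟨fun _ _ _ => rfl, fun _ => ⟨0, (hQ.1 N c).1⟩⟩

theorem dcTb_coeffMap_jq :
    ModularCurve.coeffMap (algebraMap ℚ ℂ) ModularCurve.jq = ModularCurve.jqModC ℂ := by
  rw [← ModularCurve.jqModC_rat]
  exact ModularCurve.map_jqModC (algebraMap ℚ ℂ)

theorem dcTb_seven (hQ : QexpStatement) (hJB : JBasicStatement) (hJQ : JQexpStatement)
    (N : ℕ) [NeZero N] :
    dict_AnC ((jC N : ↥(FNC N)) : LaurentSeries ℂ) Jfun ∧ dict_ModFun N Jfun := by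
  have hJ1 : IsCuspMer 1 Jfun := ⟨1, hJQ.1⟩
  refine ⟨⟨hJ1, ?_⟩, ⟨fun γ _ z => hJB.2.1 γ z, ?_⟩⟩
  · rw [hJQ.2, dcTb_coeffMap_jq]
    show ModularCurve.jqModC ℂ = ModularCurve.qExpand ℂ 1 (ModularCurve.jqModC ℂ)
    rw [ModularCurve.qExpand_one_apply]
  · intro γ
    have e : (fun z : ℍ => Jfun (γ • z)) = Jfun := funext (fun z => hJB.2.1 γ z)
    rw [e]
    exact (hQ.2.2.2.2.2.1 N Jfun hJ1).1

theorem dcTb_eight (hQ : QexpStatement) (hJB : JBasicStatement) (hJQ : JQexpStatement)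
    (hC : ConjStatement) (N : ℕ) [NeZero N] (d : ℕ) [NeZero d] (hd : d ∣ N) :
    dict_AnC (ModularCurve.qExpand ℂ d (ModularCurve.jqModC ℂ)) (slConj d 1) ∧
    dict_ModFun N (slConj d 1) := by
  have hd0 : 0 < d := NeZero.pos d
  have hJ1 : IsCuspMer 1 Jfun := ⟨1, hJQ.1⟩
  obtain ⟨h1, h2⟩ := hQ.2.2.2.2.2.2.2.2 d 1 0 1 hd0 one_pos (one_dvd 1) Jfun hJ1
  refine ⟨⟨?_, ?_⟩, ⟨?_, ?_⟩⟩
  · rw [PreModelGens.slConj_one]
    exact h1
  · rw [PreModelGens.slConj_one]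
    ext n
    rw [h2 n, Nat.div_one, mul_one]
    by_cases hn : ((d : ℕ) : ℤ) ∣ n
    · rw [if_pos hn]
      obtain ⟨m, rfl⟩ := hn
      have hdz : ((d : ℕ) : ℤ) ≠ 0 := by positivity
      rw [Int.mul_ediv_cancel_left _ hdz, hJQ.2, dcTb_coeffMap_jq,
        ModularCurve.qExpand_coeff_mul]
      simp
    · rw [if_neg hn, ModularCurve.qExpand_coeff_of_not_dvd d _ hn]
  · intro γ hγ z
    have hγ' : γ⁻¹ ∈ Gamma0 N := inv_mem hγ
    have e := (PreModelGens.slConj_stab_iff hC N γ⁻¹).mpr hγ' d hd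
    have e1 := congrFun e z
    rw [← e1, PreModelGens.slConj_apply, PreModelGens.slConj_apply, inv_inv, inv_one, one_smul]
  · intro γ
    have e : (fun z : ℍ => slConj d 1 (γ • z)) = slConj d γ⁻¹ := by
      funext z
      rw [PreModelGens.slConj_apply, PreModelGens.slConj_apply, inv_inv, inv_one, one_smul]
    rw [e]
    exact (PreModelGens.slConj_props hJB hJQ hQ hC N d hd γ⁻¹).2.1

theorem dcTb_main : dc_TransferStatement := by
  have hQ := Fermat.Agent.S24.Qexp.qexpStatement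
  have hJB := Fermat.Agent.S24.JLocal.jBasicStatement
  have hJQ := Fermat.Agent.S24.FormalQ.jQexpStatement hQ
  have hC := Fermat.Agent.S24.Conj.conjStatement hJB hJQ hQ
  refine ⟨?_, ?_, ?_, ?_, ?_, ?_, ?_, ?_⟩
  · intro N _ φ h
    exact dcTb_one hQ N φ h
  · intro x y φ ψ hφ hψ
    exact dcTb_two hQ x y φ ψ hφ hψ
  · intro c
    exact dcTb_three hQ c
  · intro x φ ψ hφ hψ
    exact dcTb_four hQ x φ ψ hφ hψ
  · intro N _ φ ψ hφ hψ
    exact dcTb_five hQ N φ ψ hφ hψ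
  · intro N _ c
    exact dcTb_six hQ N c
  · intro N _
    exact dcTb_seven hQ hJB hJQ N
  · intro N _ d _ hd
    exact dcTb_eight hQ hJB hJQ hC N d hd

end Fermat.Agent.S42
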