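/-
S42 moonshot — block DC (the dictionary over `ℂ`; sub-lead helper180): BLOCK MAIN.

Assembly of the DC packages.  Hypothesis-free: `dcFin_main` (DC0), `dcField_main` (DC1),
`dcRep_main` (DC2), `dcInt_main` (DC3), `dcInt'_main` (DC3'), `dcIntPlaces_main` (DC3''),
`dcPointPlace_main` (DC4), `dcPlacePoint_main` (DC5), and the inner statements `dc_Transfer`,
`dc_Bivar`, `dc_Sym`, `dc_CosetRoot`, `dc_Norm`, `dc_Lagrange`, `dc_Avoid`.
The shared analytic lemmas `al_Div`, `al_CuspQuot`, `al_Ord` are taken from `ALMain.lean`.
-/
import Fermat.Agent.S42.DCInterfaces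
import Fermat.Agent.S42.ALMain
import Fermat.Agent.S42.DCSym
import Fermat.Agent.S42.DCTB
import Fermat.Agent.S42.DCBivarB
import Fermat.Agent.S42.DCRep
import Fermat.Agent.S42.DCFieldB
import Fermat.Agent.S42.DCFin
import Fermat.Agent.S42.DCIntPrimeB
import Fermat.Agent.S42.DCIntPlaces
import Fermat.Agent.S42.DCIntB
import Fermat.Agent.S42.DCAvoid
import Fermat.Agent.S42.DCPointPlace
import Fermat.Agent.S42.DCLagrange
import Fermat.Agent.S42.DCCoset
import Fermat.Agent.S42.DCPlacePointD

set_option autoImplicit false

namespace Fermat.Agent.S42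

/-- (T) transfer lemmas. -/
theorem dc_Transfer : dc_TransferStatement := dcTb_main

/-- (TB) bivariate transfer. -/
theorem dc_Bivar : dc_BivarStatement := dcTBb_main dc_Transfer

/-- (SYM) invariant + meromorphic at `∞` ⇒ polynomial in `j`. -/
theorem dc_Sym : dc_SymStatement := dcSym_main

/-- (CR) coset polynomial. -/
theorem dc_CosetRoot : dc_CosetRootStatement := (dcCN_main dc_Sym dc_Transfer).1

/-- (NM) norm. -/
theorem dc_Norm : dc_NormStatement := (dcCN_main dc_Sym dc_Transfer).2

/-- (LG) Lagrange interpolation. -/
theorem dc_Lagrange : dc_LagrangeStatement := dcLG_main dc_Sym dc_Transfer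

/-- (DC0) `FNC N` is a function field of one variable over `ℂ`. -/
theorem dcFin_main : dict_FinCStatement := dcFinA_main dc_CosetRoot dc_Transfer dc_Bivar

/-- (DC1) The `q`-expansion of an integral modular function of level `Γ₀(N)` lies in `FNC N`. -/
theorem dcField_main : dict_FieldCStatement := dcFb_main dc_Lagrange dc_Transfer dc_Bivar

/-- (DC2) Every element of `FNC N` is a quotient of two realised elements. -/
theorem dcRep_main : dict_RepCStatement := dcR_main dc_Transfer

/-- (DC3) Integral over `ℂ[j]` ⇒ realised by an integral modular function. -/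
theorem dcInt_main : dict_IntCStatement :=
  dcIb_main dcRep_main dc_Transfer al_Div al_CuspQuot

/-- (DC3') Realised by an integral modular function ⇒ integral over `ℂ[j]`. -/
theorem dcInt'_main : dict_IntC'Statement := dcIpb_main dc_CosetRoot dc_Transfer dc_Bivar

/-- (DC3'') No poles at the finite places ⇒ integral over `ℂ[j]`. -/
theorem dcIntPlaces_main : dict_IntPlacesCStatement := dcIP_main dcFin_main

/-- (DC4) Points give finite places. -/
theorem dcPointPlace_main : dict_PointPlaceCStatement :=
  dcPP_main dcRep_main dc_Transfer al_Ord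

/-- (AV) prime avoidance at finite places. -/
theorem dc_Avoid : dc_AvoidStatement := dcAV_main dcFin_main

/-- (DC5) Every finite place of `FNC N` comes from a point of `ℍ`. -/
theorem dcPlacePoint_main : dict_PlacePointCStatement :=
  dcPlD_main dcFin_main dcField_main dcInt_main dcInt'_main dcPointPlace_main dc_Norm dc_Transfer
    dc_Avoid al_Ord

end Fermat.Agent.S42
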