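/-
S42 moonshot, block DESC, package ADD (twin B): Kummer roots with the same multiplier form a
vector space.
-/
import Fermat.Agent.S42.DescInterfaces
import Fermat.Agent.S42.ALInterfaces
import Fermat.Agent.S24.Qexp
import Fermat.Agent.S24.PointVal

set_option autoImplicit false

open UpperHalfPlane ModularForm Complex CongruenceSubgroup ModularGroup AlgebraicCurve
open scoped MatrixGroups Manifold Real

namespace Fermat.Agent.S42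

open Fermat.Agent.S24

noncomputable section

/-- Conjugates of `T ^ N` lie in `Γ₀(N)`. -/
theorem descAddB_conj_mem (N : ℕ) (γ : SL(2, ℤ)) : γ * T ^ (N : ℤ) * γ⁻¹ ∈ Gamma0 N := by
  have hT : T ^ (N : ℤ) ∈ CongruenceSubgroup.Gamma N := by
    simpa using ModularGroup_T_pow_mem_Gamma (N : ℤ) (N : ℤ) dvd_rfl
  have h := (Gamma_normal N).conj_mem _ hT γ
  rw [Gamma_mem] at h
  rw [Gamma0_mem]
  exact h.2.2.1

theorem descAddB_smul (N : ℕ) (γ : SL(2, ℤ)) (τ : ℍ) :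
    (γ * T ^ (N : ℤ) * γ⁻¹) • (γ • τ) = γ • (((N : ℝ)) +ᵥ τ) := by
  rw [mul_smul, mul_smul, inv_smul_smul, UpperHalfPlane.modular_T_zpow_smul]
  norm_cast

theorem descAddB_main : al_CuspGrowthStatement → desc_AddStatement := by
  intro hAL N _ p χ s₁ s₂ c hp hs₁ hs₂ hs
  obtain ⟨hol₁, -, tr₁, cm₁⟩ := hs₁
  obtain ⟨hol₂, -, tr₂, cm₂⟩ := hs₂
  have hol : Hol (fun z : ℍ => c * s₁ z - s₂ z) := (mdifferentiable_const.mul hol₁).sub hol₂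
  have htr : ∀ γ : ↥(Gamma0 N), χ γ ^ p = 1 ∧ ∀ z : ℍ,
      (c * s₁ ((γ : SL(2, ℤ)) • z) - s₂ ((γ : SL(2, ℤ)) • z)) = χ γ * (c * s₁ z - s₂ z) := by
    intro γ
    refine ⟨(tr₁ γ).1, fun z => ?_⟩
    rw [(tr₁ γ).2 z, (tr₂ γ).2 z]
    ring
  refine ⟨hol, hs, htr, ?_⟩
  intro γ
  obtain ⟨k₁, h₁⟩ := cm₁ γ
  obtain ⟨k₂, h₂⟩ := cm₂ γ
  have hinv : ∀ (δ : SL(2, ℤ)), δ ∈ Gamma0 N → ∀ w : ℍ,
      (c * s₁ (δ • w) - s₂ (δ • w)) ^ p = (c * s₁ w - s₂ w) ^ p := by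
    intro δ hδ w
    have h := (htr ⟨δ, hδ⟩).2 w
    have h' : c * s₁ (δ • w) - s₂ (δ • w) = χ ⟨δ, hδ⟩ * (c * s₁ w - s₂ w) := h
    rw [h', mul_pow, (htr ⟨δ, hδ⟩).1, one_mul]
  refine ⟨max k₁ k₂, ?_, ?_, ?_⟩
  · have h := (PointVal.pointValStatement.2.2.2.2.1 UpperHalfPlane.I γ _ hol).1
    exact h.pow p
  · rw [Qexp.periodic_iff]
    intro τ
    show (c * s₁ (γ • ((N : ℝ) +ᵥ τ)) - s₂ (γ • ((N : ℝ) +ᵥ τ))) ^ p =
      (c * s₁ (γ • τ) - s₂ (γ • τ)) ^ p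
    rw [← descAddB_smul N γ τ]
    exact hinv _ (descAddB_conj_mem N γ) _
  · have hb₁ := (Qexp.cm_mono h₁ (le_max_left k₁ k₂)).2.2
    have hb₂ := (Qexp.cm_mono h₂ (le_max_right k₁ k₂)).2.2
    have h := hAL N p (max k₁ k₂) (fun z => s₁ (γ • z)) (fun z => s₂ (γ • z)) c (-1) hp hb₁ hb₂
    have e : (fun τ : ℍ => Function.Periodic.qParam (N : ℝ) (τ : ℂ) ^ (max k₁ k₂) *
        (c * s₁ (γ • τ) + -1 * s₂ (γ • τ)) ^ p) =
        (fun τ : ℍ => Function.Periodic.qParam (N : ℝ) (τ : ℂ) ^ (max k₁ k₂) *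
        (c * s₁ (γ • τ) - s₂ (γ • τ)) ^ p) := by
      funext τ
      ring
    rw [e] at h
    exact h

end

end Fermat.Agent.S42
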