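/-
S42 moonshot, block DESC, package BEX (twin B): every element of `FNC N` satisfies the pole bounds
`desc_Bnd N m` for all large `m`.
-/
import Fermat.Agent.S42.DescInterfaces
import Fermat.Agent.S42.ALInterfaces
import Fermat.Agent.S24.Zeros

set_option autoImplicit false

open UpperHalfPlane ModularForm Complex CongruenceSubgroup ModularGroup AlgebraicCurve
open scoped MatrixGroups Manifold Real

namespace Fermat.Agent.S42

open Fermat.Agent.S24

noncomputable section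

theorem descBexB_main : dict_FinCStatement → desc_BndExStatement := by
  intro hFin N _ x hx
  obtain ⟨htr, hfd⟩ := hFin N
  have hfin : {w : Place ℂ ↥(FNC N) | w.ord (jC N) < 0}.Finite :=
    (Fermat.Agent.S24.Zeros.polesStatement ℂ ↥(FNC N) (jC N) htr hfd).1
  refine ⟨∑ P ∈ hfin.toFinset, (P.ord (⟨x, hx⟩ : ↥(FNC N))).natAbs, fun m hm => ⟨hx, fun P hP => ?_⟩⟩
  have hPmem : P ∈ hfin.toFinset := hfin.mem_toFinset.2 hP
  have h1 : (P.ord (⟨x, hx⟩ : ↥(FNC N))).natAbs ≤
      ∑ P ∈ hfin.toFinset, (P.ord (⟨x, hx⟩ : ↥(FNC N))).natAbs :=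
    Finset.single_le_sum (f := fun P : Place ℂ ↥(FNC N) => (P.ord (⟨x, hx⟩ : ↥(FNC N))).natAbs)
      (fun _ _ => Nat.zero_le _) hPmem
  have h2 : (P.ord (⟨x, hx⟩ : ↥(FNC N))).natAbs ≤ m := h1.trans hm
  have h3 : P.ord (jC N) ≤ -1 := by omega
  have h4 : (m : ℤ) * P.ord (jC N) ≤ (m : ℤ) * (-1) :=
    mul_le_mul_of_nonneg_left h3 (Nat.cast_nonneg m)
  omega

end

end Fermat.Agent.S42
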