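/-
S42 moonshot, block DESC, package CLS (twin B): two elements of `𝒦_χ` differ by a `p`-th power
of `FNC N`.
-/
import Fermat.Agent.S42.DescInterfaces
import Fermat.Agent.S42.ALInterfaces

set_option autoImplicit false

open UpperHalfPlane ModularForm Complex CongruenceSubgroup ModularGroup AlgebraicCurve
open scoped MatrixGroups Manifold Real

namespace Fermat.Agent.S42

open Fermat.Agent.S24

noncomputable section

theorem descClsB_main : desc_WStatement → desc_BasStatement → dict_FieldCStatement →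
    desc_ClsStatement := by
  intro hW hBas hField N _ p χ x₁ x₂ hp h₁ h₂
  obtain ⟨s₁, hs₁, _, rfl⟩ := h₁
  obtain ⟨s₂, hs₂, _, rfl⟩ := h₂
  obtain ⟨hmod, _, hpow⟩ := hW N p χ s₁ s₂ hp hs₁ hs₂
  obtain ⟨hmod₂, _, hne⟩ := hBas N p χ s₂ hp hs₂
  have hω := hField N _ hmod
  have hx₂ := hField N _ hmod₂
  refine ⟨Qexp 1 (fun z : ℍ => s₁ z * s₂ z ^ (p - 1)) / Qexp 1 (fun z : ℍ => s₂ z ^ p),
    div_mem hω hx₂, ?_⟩
  rw [div_pow, hpow]
  have hpp : Qexp 1 (fun z : ℍ => s₂ z ^ p) ^ p =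
      Qexp 1 (fun z : ℍ => s₂ z ^ p) ^ (p - 1) * Qexp 1 (fun z : ℍ => s₂ z ^ p) :=
    (pow_sub_one_mul hp.ne' _).symm
  rw [hpp]
  field_simp

end

end Fermat.Agent.S42
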