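/-
S42 moonshot — block DESC, package INJ (twin A): the class modulo `p`-th powers of the
`q`-expansion of the `p`-th power of a Kummer root determines the multiplier.
-/
import Fermat.Agent.S42.DescInterfaces
import Fermat.Agent.S42.ALInterfaces
import Fermat.Agent.S24.Qexp

set_option autoImplicit false

open UpperHalfPlane ModularForm Complex CongruenceSubgroup ModularGroup AlgebraicCurve
open scoped MatrixGroups Manifold Real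

namespace Fermat.Agent.S42

open Fermat.Agent.S24

noncomputable section

/-- Powers of functions meromorphic at the cusp, and their `q`-expansions. -/
theorem descInjA_pow (h : ℕ) [NeZero h] (f : ℍ → ℂ) (hf : IsCuspMer h f) (n : ℕ) :
    IsCuspMer h (fun z : ℍ => f z ^ n) ∧ Qexp h (fun z : ℍ => f z ^ n) = Qexp h f ^ n := by
  induction n with
  | zero =>
    have h1 := Fermat.Agent.S24.Qexp.qexpStatement.1 h (1 : ℂ)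
    have h0 : (fun z : ℍ => f z ^ 0) = fun _ : ℍ => (1 : ℂ) := by
      funext z
      rw [pow_zero]
    rw [h0]
    refine ⟨⟨0, h1.1⟩, ?_⟩
    rw [h1.2, pow_zero, map_one]
  | succ n ih =>
    have h2 := Fermat.Agent.S24.Qexp.qexpStatement.2.1 h (fun z : ℍ => f z ^ n) f ih.1 hf
    have h0 : (fun z : ℍ => f z ^ (n + 1)) = (fun z : ℍ => f z ^ n) * f := by
      funext z
      rw [pow_succ]
      rfl
    rw [h0]
    exact ⟨h2.2.1, by rw [h2.2.2.2, ih.2, pow_succ]⟩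

/-- (INJ) -/
theorem descInjA_main : desc_BasStatement → al_RootUnityStatement → dict_FieldCStatement →
    dict_IntCStatement → dict_IntC'Statement → desc_InjStatement := by
  intro hBas hRU hField hInt hInt' N _ p χ₁ χ₂ x₁ x₂ u hp hx₁ hx₂ hu hxu
  obtain ⟨s₁, hs₁, hA₁⟩ := hx₁
  obtain ⟨s₂, hs₂, hA₂⟩ := hx₂
  obtain ⟨hM₁, hC₁, hne₁⟩ := hBas N p χ₁ s₁ hp hs₁
  obtain ⟨hM₂, hC₂, hne₂⟩ := hBas N p χ₂ s₂ hp hs₂
  have hQ₁ : Qexp 1 (fun z : ℍ => s₁ z ^ p) = x₁ := hA₁.2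
  have hQ₂ : Qexp 1 (fun z : ℍ => s₂ z ^ p) = x₂ := hA₂.2
  have hx₁ne : x₁ ≠ 0 := hQ₁ ▸ hne₁
  have hx₂ne : x₂ ≠ 0 := hQ₂ ▸ hne₂
  have hp1 : p - 1 + 1 = p := Nat.sub_add_cancel hp
  -- `x₂ ∈ FNC N`
  have hx₂mem : x₂ ∈ FNC N := hQ₂ ▸ hField N _ hM₂
  -- `Φ := φ₁ * φ₂ ^ (p - 1)`
  have hΦdef : (fun z : ℍ => s₁ z ^ p * (s₂ z ^ p) ^ (p - 1)) =
      (fun z : ℍ => s₁ z ^ p) * (fun z : ℍ => (s₂ z ^ p) ^ (p - 1)) := rfl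
  have hΦ1 : IsCuspMer 1 (fun z : ℍ => s₁ z ^ p * (s₂ z ^ p) ^ (p - 1)) ∧
      Qexp 1 (fun z : ℍ => s₁ z ^ p * (s₂ z ^ p) ^ (p - 1)) = x₁ * x₂ ^ (p - 1) := by
    obtain ⟨h1, h2⟩ := descInjA_pow 1 (fun z : ℍ => s₂ z ^ p) hC₂ (p - 1)
    have h3 := Fermat.Agent.S24.Qexp.qexpStatement.2.1 1 (fun z : ℍ => s₁ z ^ p)
      (fun z : ℍ => (s₂ z ^ p) ^ (p - 1)) hC₁ h1
    rw [hΦdef]
    exact ⟨h3.2.1, by rw [h3.2.2.2, h2, hQ₁, hQ₂]⟩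
  have hΦmod : dict_ModFun N (fun z : ℍ => s₁ z ^ p * (s₂ z ^ p) ^ (p - 1)) := by
    refine ⟨fun γ hγ z => ?_, fun γ => ?_⟩
    · have e1 := hM₁.1 γ hγ z
      have e2 := hM₂.1 γ hγ z
      simp only at e1 e2
      show s₁ (γ • z) ^ p * (s₂ (γ • z) ^ p) ^ (p - 1) = s₁ z ^ p * (s₂ z ^ p) ^ (p - 1)
      rw [e1, e2]
    · obtain ⟨h1, -⟩ := descInjA_pow N (fun z : ℍ => s₂ (γ • z) ^ p) (hM₂.2 γ) (p - 1)
      exact (Fermat.Agent.S24.Qexp.qexpStatement.2.1 N (fun z : ℍ => s₁ (γ • z) ^ p)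
        (fun z : ℍ => (s₂ (γ • z) ^ p) ^ (p - 1)) (hM₁.2 γ) h1).2.1
  -- `v := u * x₂`
  have hvmem : u * x₂ ∈ FNC N := (FNC N).mul_mem hu hx₂mem
  have hvp : (u * x₂) ^ p = x₁ * x₂ ^ (p - 1) := by
    have h1 : x₂ ^ p = x₂ * x₂ ^ (p - 1) := by rw [← pow_succ', hp1]
    rw [hxu, mul_pow, h1, mul_assoc]
  have hvne : u * x₂ ≠ 0 := by
    intro h0
    have h1 : x₁ * x₂ ^ (p - 1) = 0 := by rw [← hvp, h0, zero_pow hp.ne']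
    exact mul_ne_zero hx₁ne (pow_ne_zero _ hx₂ne) h1
  -- `v ^ p` is integral over `ℂ[j]`, hence so is `v`
  have hAn : dict_AnC (((⟨u * x₂, hvmem⟩ : ↥(FNC N)) ^ p : ↥(FNC N)) : LaurentSeries ℂ)
      (fun z : ℍ => s₁ z ^ p * (s₂ z ^ p) ^ (p - 1)) := by
    refine ⟨hΦ1.1, ?_⟩
    rw [hΦ1.2, ← hvp]
    rfl
  have hint_p : IsIntegral ↥(Algebra.adjoin ℂ ({jC N} : Set ↥(FNC N)))
      ((⟨u * x₂, hvmem⟩ : ↥(FNC N)) ^ p) := hInt' N _ _ hAn hΦmod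
  have hint : IsIntegral ↥(Algebra.adjoin ℂ ({jC N} : Set ↥(FNC N)))
      (⟨u * x₂, hvmem⟩ : ↥(FNC N)) := IsIntegral.of_pow hp hint_p
  obtain ⟨ψ, hψA, hψM⟩ := hInt N _ hint
  have hψQ : Qexp 1 ψ = u * x₂ := hψA.2
  have hψhol : Hol ψ := by
    obtain ⟨k, hk⟩ := hψA.1
    exact hk.1
  have hψne : ψ ≠ 0 := by
    intro h0
    have h1 : Qexp 1 ψ = 0 := by
      rw [h0]
      have h2 := (Fermat.Agent.S24.Qexp.qexpStatement.1 1 (0 : ℂ)).2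
      rw [map_zero] at h2
      exact h2
    exact hvne (hψQ ▸ h1)
  -- `Φ = ψ ^ p`
  obtain ⟨hψp1, hψp2⟩ := descInjA_pow 1 ψ hψA.1 p
  have hΦψ : ∀ z : ℍ, s₁ z ^ p * (s₂ z ^ p) ^ (p - 1) = ψ z ^ p := by
    have hc := Fermat.Agent.S24.Qexp.qexpStatement.1 1 (-1 : ℂ)
    have hm := Fermat.Agent.S24.Qexp.qexpStatement.2.1 1 (fun _ : ℍ => (-1 : ℂ))
      (fun z : ℍ => ψ z ^ p) ⟨0, hc.1⟩ hψp1
    have ha := Fermat.Agent.S24.Qexp.qexpStatement.2.1 1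
      (fun z : ℍ => s₁ z ^ p * (s₂ z ^ p) ^ (p - 1))
      ((fun _ : ℍ => (-1 : ℂ)) * (fun z : ℍ => ψ z ^ p)) hΦ1.1 hm.2.1
    have hz : Qexp 1 ((fun z : ℍ => s₁ z ^ p * (s₂ z ^ p) ^ (p - 1)) +
        ((fun _ : ℍ => (-1 : ℂ)) * (fun z : ℍ => ψ z ^ p))) = 0 := by
      rw [ha.2.2.1, hm.2.2.2, hc.2, hψp2, hψQ, hΦ1.2, hvp, map_neg, map_one]
      ring
    have hD := Fermat.Agent.S24.Qexp.qexpStatement.2.2.1 1 _ ha.1 hz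
    intro z
    have h1 := congrFun hD z
    simp only [Pi.add_apply, Pi.mul_apply, Pi.zero_apply] at h1
    linear_combination h1
  -- `W := s₁ * s₂ ^ (p - 1)`
  have hWhol : Hol (fun z : ℍ => s₁ z * s₂ z ^ (p - 1)) := hs₁.1.mul (hs₂.1.pow (p - 1))
  have hWp : ∀ z : ℍ, (s₁ z * s₂ z ^ (p - 1)) ^ p = ψ z ^ p := by
    intro z
    rw [← hΦψ z, mul_pow, ← pow_mul, ← pow_mul, mul_comm (p - 1) p]
  obtain ⟨ω, hω, hWψ⟩ := hRU p (fun z : ℍ => s₁ z * s₂ z ^ (p - 1)) ψ hp hWhol hψhol hψne hWp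
  have hωne : ω ≠ 0 := by
    intro h0
    rw [h0, zero_pow hp.ne'] at hω
    exact zero_ne_one hω
  obtain ⟨z₀, hz₀⟩ := Function.ne_iff.mp hψne
  have hW0 : s₁ z₀ * s₂ z₀ ^ (p - 1) ≠ 0 := by
    rw [hWψ z₀]
    exact mul_ne_zero hωne hz₀
  funext γ
  obtain ⟨hχ₁, hγ₁⟩ := hs₁.2.2.1 γ
  obtain ⟨hχ₂, hγ₂⟩ := hs₂.2.2.1 γ
  have hinv : s₁ ((γ : SL(2, ℤ)) • z₀) * s₂ ((γ : SL(2, ℤ)) • z₀) ^ (p - 1) =
      s₁ z₀ * s₂ z₀ ^ (p - 1) := by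
    rw [hWψ ((γ : SL(2, ℤ)) • z₀), hψM.1 (γ : SL(2, ℤ)) γ.2 z₀, ← hWψ z₀]
  rw [hγ₁ z₀, hγ₂ z₀, mul_pow] at hinv
  have h1 : χ₁ γ * χ₂ γ ^ (p - 1) = 1 := by
    have h2 : (χ₁ γ * χ₂ γ ^ (p - 1) - 1) * (s₁ z₀ * s₂ z₀ ^ (p - 1)) = 0 := by
      linear_combination hinv
    rcases mul_eq_zero.mp h2 with h3 | h3
    · exact sub_eq_zero.mp h3
    · exact absurd h3 hW0
  have h2 : χ₂ γ * χ₂ γ ^ (p - 1) = 1 := by
    rw [← pow_succ', hp1, hχ₂]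
  have hχ₂ne : χ₂ γ ^ (p - 1) ≠ 0 := by
    intro h0
    rw [h0, mul_zero] at h2
    exact zero_ne_one h2
  exact mul_right_cancel₀ hχ₂ne (h1.trans h2.symm)

end

end Fermat.Agent.S42
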