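/-
S42 moonshot, block DESC, package MRT (twin B): a holomorphic `Γ₀(N)`-invariant function whose
`p`-th power is meromorphic at all cusps is an integral modular function.
-/
import Fermat.Agent.S42.DescInterfaces
import Fermat.Agent.S42.ALInterfaces
import Fermat.Agent.S24.Qexp
import Fermat.Agent.S24.PointVal

set_option autoImplicit false

open UpperHalfPlane ModularForm Complex CongruenceSubgroup ModularGroup AlgebraicCurve
open scoped MatrixGroups Manifold Real

namespace Fermat.Agent.S42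

open Fermat.Agent.S24

noncomputable section

/-- `γ T^N γ⁻¹ ∈ Γ₀(N)`. -/
theorem descMrtB_conj_mem (N : ℕ) (γ : SL(2, ℤ)) : γ * T ^ (N : ℤ) * γ⁻¹ ∈ Gamma0 N := by
  rw [Gamma0_mem]
  have h : ((γ * T ^ (N : ℤ) * γ⁻¹ : SL(2, ℤ)) : Matrix (Fin 2) (Fin 2) ℤ) 1 0 =
      -(γ 1 0 * γ 1 0) * (N : ℤ) := by
    rw [Matrix.SpecialLinearGroup.coe_mul, Matrix.SpecialLinearGroup.coe_mul, coe_T_zpow,
      Matrix.SpecialLinearGroup.SL2_inv_expl]
    rw [Matrix.mul_apply]
    simp [Fin.sum_univ_two, Matrix.mul_apply]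
    ring
  rw [h]
  simp

theorem descMrtB_main : al_CuspRootStatement → desc_ModRootStatement := by
  intro hAL N _ p w hp hw hinv hcm
  refine ⟨hinv, fun γ => ?_⟩
  have hol : Hol (fun z : ℍ => w (γ • z)) :=
    (PointVal.pointValStatement.2.2.2.2.1 UpperHalfPlane.I γ w hw).1
  have hper : Function.Periodic ((fun z : ℍ => w (γ • z)) ∘ ofComplex) ((N : ℝ) : ℂ) := by
    rw [Fermat.Agent.S24.Qexp.periodic_iff]
    intro τ
    have h1 : ((N : ℝ) +ᵥ τ : ℍ) = T ^ (N : ℤ) • τ := by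
      rw [UpperHalfPlane.modular_T_zpow_smul]
      simp
    have h2 : γ • (T ^ (N : ℤ) • τ) = (γ * T ^ (N : ℤ) * γ⁻¹) • (γ • τ) := by
      rw [mul_smul, mul_smul, inv_smul_smul]
    show w (γ • ((N : ℝ) +ᵥ τ)) = w (γ • τ)
    rw [h1, h2]
    exact hinv _ (descMrtB_conj_mem N γ) _
  exact (hAL N p (fun z : ℍ => w (γ • z)) hp hol hper (hcm γ)).1

end

end Fermat.Agent.S42
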