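/-
S42 moonshot — block DESC, package ORD (twin B): the `q`-order is bounded above on `𝒦_χ^(n)`.

Main theorem: `descOrdB_main : dict_FinCStatement → dict_FieldCStatement → dict_IntC'Statement →
  desc_BasStatement → desc_OrdBddStatement`.

Idea: the `q`-order is a `ℤ`-valued valuation on `FNC N`, trivial on `ℂ`, with value `-1` at `j`;
so it is `e · ord_W` for a place `W`.  An element `x` of `𝒦_χ^(n)` is integral over `ℂ[j]`
(no poles at finite places), has pole order at most `p n · (-ord_P j)` at the infinite places,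
and its divisor has degree `0`; hence `ord_W x ≤ p n [FNC N : ℂ(j)]`.
-/
import Fermat.Agent.S42.DescInterfaces
import Fermat.Agent.S42.ALInterfaces
import Fermat.Agent.S24.Places
import Fermat.Agent.S24.Zeros
import Fermat.Agent.S24.ValPlace
import Fermat.Agent.S24.OrdBasic
import Fermat.Agent.S24.Dict
set_option autoImplicit false
open UpperHalfPlane ModularForm Complex CongruenceSubgroup ModularGroup AlgebraicCurve
open scoped MatrixGroups Manifold Real
namespace Fermat.Agent.S42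
open Fermat.Agent.S24
noncomputable section

/-- A place which is nonnegative at `t` is nonnegative on `K[t]`. -/
theorem descOrdB_ord_nonneg_adjoin {K F : Type*} [Field K] [Field F] [Algebra K F]
    (w : Place K F) (t : F) (hw : 0 ≤ w.ord t) {x : F}
    (hx : x ∈ Algebra.adjoin K ({t} : Set F)) : 0 ≤ w.ord x := by
  let S : Subalgebra K F :=
    { w.toValuationSubring.toSubring with algebraMap_mem' := w.algebraMap_mem' }
  have ht : t ∈ S := Dict.mem_of_ord_nonneg w hw
  have hle : Algebra.adjoin K ({t} : Set F) ≤ S :=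
    Algebra.adjoin_le (Set.singleton_subset_iff.mpr ht)
  exact Dict.ord_nonneg_of_mem w (hle hx)

/-- The `q`-expansion of `j` has nonzero `q`-order. -/
theorem descOrdB_order_jC (N : ℕ) [NeZero N] :
    ((jC N : ↥(FNC N)) : LaurentSeries ℂ).order ≤ -1 := by
  have h1 : ((jC N : ↥(FNC N)) : LaurentSeries ℂ) = ModularCurve.jqModC ℂ :=
    ModularCurve.qExpand_one_apply _
  rw [h1]
  apply HahnSeries.order_le_of_coeff_ne_zero
  rw [ModularCurve.coeff_jqModC_neg_one]
  exact one_ne_zero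

/-- The `q`-order on `FNC N` is a multiple of the order at a place. -/
theorem descOrdB_exists_place (N : ℕ) [NeZero N] :
    ∃ (W : Place ℂ ↥(FNC N)) (e : ℕ), 0 < e ∧
      ∀ x : ↥(FNC N), x ≠ 0 → (x : LaurentSeries ℂ).order = e * W.ord x := by
  have hne : ∀ x : ↥(FNC N), x ≠ 0 → (x : LaurentSeries ℂ) ≠ 0 :=
    fun x hx h => hx (Subtype.ext h)
  have hj := descOrdB_order_jC N
  have hj0 : jC N ≠ 0 := by
    intro h
    rw [h] at hj
    have h0 : ((0 : ↥(FNC N)) : LaurentSeries ℂ).order = 0 := HahnSeries.order_zero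
    rw [h0] at hj
    omega
  obtain ⟨W, e, he, hv, -⟩ := Places.valuationPlaceStatement ℂ ↥(FNC N)
    (fun x => (x : LaurentSeries ℂ).order)
    (fun x y hx hy => HahnSeries.order_mul (hne x hx) (hne y hy))
    (fun x y _ _ hxy => HahnSeries.min_order_le_order_add (hne _ hxy))
    (fun c hc => by
      show (algebraMap ℂ (LaurentSeries ℂ) c).order = 0
      rw [ModularCurve.algebraMap_laurentSeries_eq_single]
      exact HahnSeries.order_single hc)
    ⟨jC N, hj0, by
      show ((jC N : ↥(FNC N)) : LaurentSeries ℂ).order ≠ 0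
      omega⟩
  exact ⟨W, e, he, hv⟩

/-- (ORD = CAN1) The `q`-order is bounded above on `𝒦_χ^(n)`. -/
theorem descOrdB_main : dict_FinCStatement → dict_FieldCStatement → dict_IntC'Statement →
    desc_BasStatement → desc_OrdBddStatement := by
  intro hFin _ hInt hBas N _ p χ n hp
  classical
  obtain ⟨htr, hfd⟩ := hFin N
  obtain ⟨W, e, he, hv⟩ := descOrdB_exists_place N
  obtain ⟨hSfin, hSsum⟩ := Zeros.polesStatement ℂ ↥(FNC N) (jC N) htr hfd
  refine ⟨(e : ℤ) * (((p * n : ℕ) : ℤ) *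
    (Module.finrank (IntermediateField.adjoin ℂ ({jC N} : Set ↥(FNC N))) ↥(FNC N) : ℤ)), ?_⟩
  rintro x ⟨⟨s, hs, hAn⟩, hmem, hbnd⟩
  obtain ⟨hMod, -, hQ⟩ := hBas N p χ s hp hs
  have hx0 : x ≠ 0 := by
    rw [← hAn.2]
    exact hQ
  have hx'0 : (⟨x, hmem⟩ : ↥(FNC N)) ≠ 0 := fun h => hx0 (congrArg Subtype.val h)
  have hint : IsIntegral ↥(Algebra.adjoin ℂ ({jC N} : Set ↥(FNC N))) (⟨x, hmem⟩ : ↥(FNC N)) :=
    hInt N ⟨x, hmem⟩ (fun z => s z ^ p) hAn hMod
  obtain ⟨hTfin, hTsum⟩ := Places.principalStatement Zeros.zerosStatement Zeros.polesStatement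
    ℂ ↥(FNC N) (jC N) htr hfd ⟨x, hmem⟩ hx'0
  -- no poles at the finite places
  have hfinite : ∀ P : Place ℂ ↥(FNC N), 0 ≤ P.ord (jC N) →
      0 ≤ P.ord (⟨x, hmem⟩ : ↥(FNC N)) := by
    intro P hP
    exact Dict.ord_nonneg_of_isIntegral P
      (fun a => descOrdB_ord_nonneg_adjoin P (jC N) hP a.2) hint
  have hm0 : (0 : ℤ) ≤ ((p * n : ℕ) : ℤ) := Int.natCast_nonneg _
  have hc0 : ∀ w : Place ℂ ↥(FNC N),
      (0 : ℤ) ≤ (if w.ord (jC N) < 0 then - w.ord (jC N) else 0) := by
    intro w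
    split_ifs with h
    · omega
    · exact le_refl 0
  have hterm : ∀ w : Place ℂ ↥(FNC N),
      0 ≤ w.ord (⟨x, hmem⟩ : ↥(FNC N)) +
        ((p * n : ℕ) : ℤ) * (if w.ord (jC N) < 0 then - w.ord (jC N) else 0) := by
    intro w
    by_cases h : w.ord (jC N) < 0
    · have h1 := hbnd w h
      rw [if_pos h]
      linarith
    · rw [if_neg h, mul_zero, add_zero]
      exact hfinite w (not_lt.mp h)
  let A : Finset (Place ℂ ↥(FNC N)) := hTfin.toFinset ∪ hSfin.toFinset ∪ {W}
  have hWA : W ∈ A := Finset.mem_union_right _ (Finset.mem_singleton_self W)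
  have hsum1 : ∑ w ∈ A, w.ord (⟨x, hmem⟩ : ↥(FNC N)) = 0 := by
    rw [← hTsum]
    symm
    apply finsum_eq_sum_of_support_subset
    intro w hw
    have hw' : w ∈ hTfin.toFinset := hTfin.mem_toFinset.mpr hw
    exact Finset.mem_coe.mpr (Finset.mem_union_left _ (Finset.mem_union_left _ hw'))
  have hsum2 : ∑ w ∈ A, (if w.ord (jC N) < 0 then - w.ord (jC N) else 0) =
      (Module.finrank (IntermediateField.adjoin ℂ ({jC N} : Set ↥(FNC N))) ↥(FNC N) : ℤ) := by
    rw [← hSsum, finsum_mem_eq_finite_toFinset_sum _ hSfin, ← Finset.sum_filter]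
    apply Finset.sum_congr _ (fun _ _ => rfl)
    ext w
    rw [Finset.mem_filter, hSfin.mem_toFinset]
    constructor
    · exact fun h => h.2
    · intro h
      refine ⟨Finset.mem_union_left _ (Finset.mem_union_right _ (hSfin.mem_toFinset.mpr h)), h⟩
  have hle : W.ord (⟨x, hmem⟩ : ↥(FNC N)) +
        ((p * n : ℕ) : ℤ) * (if W.ord (jC N) < 0 then - W.ord (jC N) else 0) ≤
      ∑ w ∈ A, (w.ord (⟨x, hmem⟩ : ↥(FNC N)) +
        ((p * n : ℕ) : ℤ) * (if w.ord (jC N) < 0 then - w.ord (jC N) else 0)) :=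
    Finset.single_le_sum (f := fun w : Place ℂ ↥(FNC N) => w.ord (⟨x, hmem⟩ : ↥(FNC N)) +
        ((p * n : ℕ) : ℤ) * (if w.ord (jC N) < 0 then - w.ord (jC N) else 0))
      (fun w _ => hterm w) hWA
  rw [Finset.sum_add_distrib, ← Finset.mul_sum, hsum1, hsum2, zero_add] at hle
  have hWle : W.ord (⟨x, hmem⟩ : ↥(FNC N)) ≤ ((p * n : ℕ) : ℤ) *
      (Module.finrank (IntermediateField.adjoin ℂ ({jC N} : Set ↥(FNC N))) ↥(FNC N) : ℤ) :=
    le_trans (le_add_of_nonneg_right (mul_nonneg hm0 (hc0 W))) hle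
  have hord : x.order = e * W.ord (⟨x, hmem⟩ : ↥(FNC N)) := hv ⟨x, hmem⟩ hx'0
  rw [hord]
  exact mul_le_mul_of_nonneg_left hWle (Int.natCast_nonneg e)

end
end Fermat.Agent.S42
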