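/-
S42 moonshot, block DESC, package SCL (twin B): `𝒦_χ^(n)` is stable under multiplication by nonzero
constants.
-/
import Fermat.Agent.S42.DescInterfaces
import Fermat.Agent.S42.ALInterfaces
import Fermat.Agent.S24.Qexp
import Fermat.Agent.S24.OrdBasic

set_option autoImplicit false

open UpperHalfPlane ModularForm Complex CongruenceSubgroup ModularGroup AlgebraicCurve
open scoped MatrixGroups Manifold Real

namespace Fermat.Agent.S42

open Fermat.Agent.S24

noncomputable section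

theorem descSclB_main : desc_ScaleStatement := by
  intro N _ p χ n x a hp ha hx
  obtain ⟨⟨s, hs, hAn⟩, hBnd⟩ := hx
  obtain ⟨hsHol, hs0, hsχ, hsCusp⟩ := hs
  obtain ⟨hx1, hxq⟩ := hAn
  obtain ⟨b, hb⟩ := IsAlgClosed.exists_pow_nat_eq a hp
  have hb0 : b ≠ 0 := by
    intro h0
    rw [h0, zero_pow hp.ne'] at hb
    exact ha hb.symm
  obtain ⟨hconst, hprod, -⟩ := Qexp.qexpStatement
  have hfun : ∀ γ : SL(2, ℤ), (fun z : ℍ => (b * s (γ • z)) ^ p) =
      (fun _ : ℍ => a) * (fun z : ℍ => s (γ • z) ^ p) := by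
    intro γ
    funext z
    simp only [Pi.mul_apply]
    rw [mul_pow, hb]
  have hfun1 : (fun z : ℍ => (b * s z) ^ p) = (fun _ : ℍ => a) * (fun z : ℍ => s z ^ p) := by
    funext z
    simp only [Pi.mul_apply]
    rw [mul_pow, hb]
  refine ⟨⟨fun z => b * s z, ⟨?_, ?_, ?_, ?_⟩, ?_, ?_⟩, ?_⟩
  · -- holomorphic
    exact UpperHalfPlane.mdifferentiable_iff.mpr
      ((UpperHalfPlane.mdifferentiable_iff.mp hsHol).const_mul b)
  · -- nonzero
    intro h0
    apply hs0
    funext z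
    have h1 := congrFun h0 z
    simp only [Pi.zero_apply] at h1 ⊢
    exact (mul_eq_zero.mp h1).resolve_left hb0
  · -- transformation rule
    intro γ
    refine ⟨(hsχ γ).1, fun z => ?_⟩
    show b * s ((γ : SL(2, ℤ)) • z) = χ γ * (b * s z)
    rw [(hsχ γ).2 z]
    ring
  · -- meromorphic at all cusps
    intro γ
    show IsCuspMer N (fun z : ℍ => (b * s (γ • z)) ^ p)
    rw [hfun γ]
    exact (hprod N _ _ ⟨0, (hconst N a).1⟩ (hsCusp γ)).2.1
  · -- `IsCuspMer 1`
    show IsCuspMer 1 (fun z : ℍ => (b * s z) ^ p)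
    rw [hfun1]
    exact (hprod 1 _ _ ⟨0, (hconst 1 a).1⟩ hx1).2.1
  · -- `q`-expansion
    show Qexp 1 (fun z : ℍ => (b * s z) ^ p) = HahnSeries.C a * x
    rw [hfun1, (hprod 1 _ _ ⟨0, (hconst 1 a).1⟩ hx1).2.2.2, (hconst 1 a).2, hxq]
  · -- the pole bounds
    obtain ⟨h, hP⟩ := hBnd
    have hC : (HahnSeries.C a : LaurentSeries ℂ) = algebraMap ℂ (LaurentSeries ℂ) a := by
      rw [ModularCurve.algebraMap_laurentSeries_eq_single]
      rfl
    have hmem : HahnSeries.C a * x ∈ FNC N := by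
      rw [hC]
      exact mul_mem ((FNC N).algebraMap_mem a) h
    refine ⟨hmem, fun P hPj => ?_⟩
    have heq : (⟨HahnSeries.C a * x, hmem⟩ : ↥(FNC N)) =
        algebraMap ℂ ↥(FNC N) a * ⟨x, h⟩ := by
      apply Subtype.ext
      show HahnSeries.C a * x = algebraMap ℂ (LaurentSeries ℂ) a * x
      rw [hC]
    rw [heq, OrdBasic.ord_algebraMap_mul P a ha]
    exact hP P hPj

end

end Fermat.Agent.S42
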