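/-
S42 moonshot, block DESC, package WPK (twin B): for two Kummer roots `s₁, s₂` with the same
multiplier, `w = s₁ s₂^(p-1)` is an integral modular function, `1`-periodic and meromorphic at `∞`,
and `Qexp(w)^p = Qexp(s₁^p) Qexp(s₂^p)^(p-1)`.
-/
import Fermat.Agent.S42.DescInterfaces
import Fermat.Agent.S24.Qexp

set_option autoImplicit false

open UpperHalfPlane ModularForm Complex CongruenceSubgroup ModularGroup AlgebraicCurve
open scoped MatrixGroups Manifold Real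

namespace Fermat.Agent.S42

open Fermat.Agent.S24

noncomputable section

/-- Powers of `IsCuspMer h` functions, and their `q`-expansions. -/
theorem descWpkB_pow (h : ℕ) [NeZero h] (f : ℍ → ℂ) (hf : IsCuspMer h f) (k : ℕ) :
    IsCuspMer h (fun z : ℍ => f z ^ k) ∧ Qexp h (fun z : ℍ => f z ^ k) = Qexp h f ^ k := by
  obtain ⟨hconst, hmul, -⟩ := Fermat.Agent.S24.Qexp.qexpStatement
  induction k with
  | zero =>
      have h1 := hconst h 1
      have he : (fun z : ℍ => f z ^ 0) = fun _ : ℍ => (1 : ℂ) := by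
        funext z; exact pow_zero _
      rw [he, pow_zero]
      refine ⟨⟨0, h1.1⟩, ?_⟩
      rw [h1.2, map_one]
  | succ k ih =>
      have h2 := hmul h (fun z : ℍ => f z ^ k) f ih.1 hf
      have he : (fun z : ℍ => f z ^ (k + 1)) = (fun z : ℍ => f z ^ k) * f := by
        funext z; exact pow_succ _ _
      rw [he, pow_succ, ← ih.2]
      exact ⟨h2.2.1, h2.2.2.2⟩

/-- (WPK). -/
theorem descWpkB_main : desc_ModRootStatement → desc_BasStatement → desc_WStatement := by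
  intro hMRT hBAS N _ p χ s₁ s₂ hp hs₁ hs₂
  obtain ⟨-, hmul, -, -, -, -, hper, -⟩ := Fermat.Agent.S24.Qexp.qexpStatement
  obtain ⟨hol₁, hne₁, hχ₁, hcm₁⟩ := hs₁
  obtain ⟨hol₂, hne₂, hχ₂, hcm₂⟩ := hs₂
  have hp1 : p - 1 + 1 = p := Nat.sub_add_cancel hp
  -- holomorphy
  have hol : Hol (fun z : ℍ => s₁ z * s₂ z ^ (p - 1)) := by
    have h := MDifferentiable.mul hol₁ (MDifferentiable.pow hol₂ (p - 1))
    exact h
  -- invariance
  have hinv : dict_Inv N (fun z : ℍ => s₁ z * s₂ z ^ (p - 1)) := by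
    intro γ hγ z
    have h1 := (hχ₁ ⟨γ, hγ⟩).2 z
    have h2 := (hχ₂ ⟨γ, hγ⟩).2 z
    have h3 := (hχ₁ ⟨γ, hγ⟩).1
    simp only at h1 h2
    show s₁ (γ • z) * s₂ (γ • z) ^ (p - 1) = s₁ z * s₂ z ^ (p - 1)
    rw [h1, h2, mul_pow]
    calc χ ⟨γ, hγ⟩ * s₁ z * (χ ⟨γ, hγ⟩ ^ (p - 1) * s₂ z ^ (p - 1))
        = (χ ⟨γ, hγ⟩ ^ (p - 1 + 1)) * (s₁ z * s₂ z ^ (p - 1)) := by ring
      _ = s₁ z * s₂ z ^ (p - 1) := by rw [hp1, h3, one_mul]
  -- the p-th power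
  have hpow : ∀ a b : ℂ, (a * b ^ (p - 1)) ^ p = a ^ p * (b ^ p) ^ (p - 1) := by
    intro a b
    rw [mul_pow, ← pow_mul, ← pow_mul, mul_comm (p - 1) p]
  have hcm : dict_CuspMer N (fun z : ℍ => (s₁ z * s₂ z ^ (p - 1)) ^ p) := by
    intro γ
    have h1 : IsCuspMer N (fun z : ℍ => s₁ (γ • z) ^ p) := hcm₁ γ
    have h2 : IsCuspMer N (fun z : ℍ => s₂ (γ • z) ^ p) := hcm₂ γ
    have h3 := (descWpkB_pow N (fun z : ℍ => s₂ (γ • z) ^ p) h2 (p - 1)).1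
    have h4 := (hmul N _ _ h1 h3).2.1
    have he : (fun z : ℍ => (s₁ (γ • z) * s₂ (γ • z) ^ (p - 1)) ^ p)
        = (fun z : ℍ => s₁ (γ • z) ^ p) * (fun z : ℍ => (s₂ (γ • z) ^ p) ^ (p - 1)) := by
      funext z; exact hpow _ _
    show IsCuspMer N (fun z : ℍ => (s₁ (γ • z) * s₂ (γ • z) ^ (p - 1)) ^ p)
    rw [he]
    exact h4
  have hmod : dict_ModFun N (fun z : ℍ => s₁ z * s₂ z ^ (p - 1)) :=
    hMRT N p _ hp hol hinv hcm
  -- period 1
  have hN : IsCuspMer N (fun z : ℍ => s₁ z * s₂ z ^ (p - 1)) := by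
    have h := hmod.2 1
    simpa only [one_smul] using h
  have hT : (T : SL(2, ℤ)) ∈ Gamma0 N := by
    rw [Gamma0_mem]
    simp [ModularGroup.T]
  have hperw : Function.Periodic ((fun z : ℍ => s₁ z * s₂ z ^ (p - 1)) ∘ ofComplex)
      ((1 : ℝ) : ℂ) := by
    rw [Fermat.Agent.S24.Qexp.periodic_iff]
    intro τ
    have h := hinv T hT τ
    rwa [modular_T_smul] at h
  have h1w : IsCuspMer 1 (fun z : ℍ => s₁ z * s₂ z ^ (p - 1)) := hper N _ hN hperw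
  refine ⟨hmod, h1w, ?_⟩
  -- q-expansions
  obtain ⟨-, hb₁, -⟩ := hBAS N p χ s₁ hp ⟨hol₁, hne₁, hχ₁, hcm₁⟩
  obtain ⟨-, hb₂, -⟩ := hBAS N p χ s₂ hp ⟨hol₂, hne₂, hχ₂, hcm₂⟩
  have hq1 := (descWpkB_pow 1 _ h1w p).2
  have hq2 := descWpkB_pow 1 _ hb₂ (p - 1)
  have hq3 := (hmul 1 _ _ hb₁ hq2.1).2.2.2
  have he : (fun z : ℍ => (s₁ z * s₂ z ^ (p - 1)) ^ p)
      = (fun z : ℍ => s₁ z ^ p) * (fun z : ℍ => (s₂ z ^ p) ^ (p - 1)) := by
    funext z; exact hpow _ _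
  rw [← hq1, he, hq3, hq2.2]

end

end Fermat.Agent.S42
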