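/-
S42 moonshot — block DESC (sub-lead helper182): `desc_main`, the descent statement
`desc_Statement` from the outer statements (ROOT, DS-alg, DS-fin, the dictionary over `ℂ` and the
shared analytic lemmas).

Structure: `DescCore.lean` (`descCore_main`) constructs the canonical element of each Kummer class
`𝒦_χ` (least pole bound at the infinite places, maximal `q`-order, leading coefficient `1`), shows
that the coefficientwise action of `Aut(ℂ)` permutes the canonical elements, and concludes by
finiteness of the set of `p`-torsion characters; the inner statements are proved in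
`DescBasB`, `DescSigB`, `DescMrtB`, `DescAddB`, `DescWpkB`, `DescClsB`, `DescInjA`, `DescKstB`,
`DescBexB`, `DescOrdB`, `DescSclB`, `DescDifB`.
-/
import Fermat.Agent.S42.DescCore
import Fermat.Agent.S42.DescBasB
import Fermat.Agent.S42.DescSigB
import Fermat.Agent.S42.DescMrtB
import Fermat.Agent.S42.DescAddB
import Fermat.Agent.S42.DescWpkB
import Fermat.Agent.S42.DescClsB
import Fermat.Agent.S42.DescInjA
import Fermat.Agent.S42.DescKstB
import Fermat.Agent.S42.DescBexB
import Fermat.Agent.S42.DescOrdB
import Fermat.Agent.S42.DescSclB
import Fermat.Agent.S42.DescDifB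

set_option autoImplicit false

namespace Fermat.Agent.S42

/-- (DESC) Descent: if a Kummer root with multiplier `χ` exists, then one exists whose `p`-th
power has a `ℚ̄`-rational `q`-expansion. -/
theorem desc_main (hRoot : root_Statement) (hAlg : desc_AlgStatement) (hFin : desc_FinStatement)
    (hFinC : dict_FinCStatement) (hDC1 : dict_FieldCStatement) (hIntC : dict_IntCStatement)
    (hIntC' : dict_IntC'Statement) (hIntPl : dict_IntPlacesCStatement)
    (hDC4 : dict_PointPlaceCStatement) (hDC5 : dict_PlacePointCStatement)
    (hRU : al_RootUnityStatement) (hOrdAL : al_OrdStatement) (hCR : al_CuspRootStatement)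
    (hCG : al_CuspGrowthStatement) : desc_Statement :=
  have hBas : desc_BasStatement := descBasB_main
  have hSig : desc_SigStatement := descSigB_main
  have hW : desc_WStatement := descWpkB_main (descMrtB_main hCR) hBas
  descCore_main hAlg hFin hDC1 hBas hSig
    (descKstB_main hRoot hSig hBas hRU hOrdAL hDC1 hIntC hIntC' hIntPl hDC4 hDC5)
    (descClsB_main hW hBas hDC1) (descInjA_main hBas hRU hDC1 hIntC hIntC')
    (descBexB_main hFinC) (descOrdB_main hFinC hDC1 hIntC' hBas) descSclB_main
    (descDifB_main hBas hW (descAddB_main hCG) hDC1)

end Fermat.Agent.S42
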