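/-
S42 moonshot — block DQ (the dictionary over ℚ̄; sub-lead helper181): INNER INTERFACE FILE.
Shared definitions, a few `rfl`-lemmas and the statement-`Prop`s of the work packages of block DQ.
Targets (DictInterfaces.lean): `dict_ImgStatement`, `dict_RepStatement`,
`dict_PlacePointStatement`, `dict_CuspPlaceStatement`.
-/
import Fermat.Agent.S42.DictInterfaces
import Fermat.Agent.S24.JLocal
import Fermat.Agent.S24.JSurj
import Fermat.Agent.S24.Conj
import Fermat.Agent.S24.LemmaP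
import Fermat.Agent.S24.PointVal
import Fermat.Agent.S24.Places
import Fermat.Agent.S24.Zeros
import Fermat.Agent.S24.GalB
import Fermat.Agent.S24.FormalQ
import Fermat.Agent.S24.Qexp
import Fermat.Agent.S24.PreModelBuild
import Fermat.Agent.S24.ModelAlg
import Fermat.Agent.S24.ModelCounts

set_option autoImplicit false

open UpperHalfPlane ModularForm Complex CongruenceSubgroup ModularGroup AlgebraicCurve
open IntermediateField
open scoped MatrixGroups Manifold Real

namespace Fermat.Agent.S42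

open Fermat.Agent.S24

noncomputable section

/-! ## The proven S24 statements, under short names -/

theorem dq_hQ : QexpStatement := Qexp.qexpStatement
theorem dq_hJB : JBasicStatement := JLocal.jBasicStatement
theorem dq_hJO : JOrdersStatement := JLocal.jOrdersStatement
theorem dq_hJQ : JQexpStatement := FormalQ.jQexpStatement dq_hQ
theorem dq_hLP : LemmaPStatement := LemmaP.lemmaPStatement dq_hJB dq_hJQ dq_hQ
theorem dq_hC : ConjStatement := Conj.conjStatement dq_hJB dq_hJQ dq_hQ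
theorem dq_hJS : JSurjStatement := JSurj.jSurjStatement dq_hJB
theorem dq_hPV : PointValStatement := PointVal.pointValStatement
theorem dq_hZeros : ZerosStatement := Zeros.zerosStatement
theorem dq_hPoles : PolesStatement := Zeros.polesStatement
theorem dq_hGal : GalStatement := GalB.galStatement dq_hZeros dq_hPoles
theorem dq_hV : ValuationPlaceStatement := Places.valuationPlaceStatement
theorem dq_hCenter : CenterStatement := Places.centerStatement

/-! ## The concrete S24 model -/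

/-- The elements of the ring `RA N` are holomorphic, cusp-meromorphic, with rational expansion. -/
theorem dq_good (N : ℕ) [NeZero N] : PreModelBuild.Good N :=
  PreModelBuild.good dq_hJB dq_hJQ dq_hQ dq_hC N

/-- The concrete pre-model of S24: `R = PreModelBuild.RA N` (a `ℚ̄`-subalgebra of `ℍ → ℂ`),
`ρ = PreModelBuild.rho N` (`ρ γ x = x ∘ γ⁻¹`), `q = Qexp N`, `J = Jfun`. -/
def dq_PM (N : ℕ) [NeZero N] : PreModel N :=
  PreModelBuild.preModel dq_hJB dq_hJO dq_hJS dq_hJQ dq_hQ dq_hLP dq_hC dq_hPV N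

/-- An element of the ring of the model, as a function on `ℍ`. -/
def dq_fun (N : ℕ) [NeZero N] (x : (dq_PM N).R) : ℍ → ℂ :=
  ((show ↥(PreModelBuild.RA N) from x) : ℍ → ℂ)

theorem dq_PM_R (N : ℕ) [NeZero N] : (dq_PM N).R = ↥(PreModelBuild.RA N) := rfl

theorem dq_fun_mem (N : ℕ) [NeZero N] (x : (dq_PM N).R) : dq_fun N x ∈ PreModelBuild.RA N :=
  (show ↥(PreModelBuild.RA N) from x).2

theorem dq_PM_q (N : ℕ) [NeZero N] (x : (dq_PM N).R) : (dq_PM N).q x = Qexp N (dq_fun N x) := rfl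

theorem dq_PM_rho (N : ℕ) [NeZero N] (γ : SL(2, ℤ)) (x : (dq_PM N).R) (τ : ℍ) :
    dq_fun N ((dq_PM N).ρ γ x) τ = dq_fun N x (γ⁻¹ • τ) := rfl

theorem dq_PM_J (N : ℕ) [NeZero N] : dq_fun N (dq_PM N).J = Jfun := PreModelBuild.Jel_coe N

theorem dq_fun_injective (N : ℕ) [NeZero N] : Function.Injective (dq_fun N) :=
  fun _ _ h => Subtype.ext h

theorem dq_fun_add (N : ℕ) [NeZero N] (x y : (dq_PM N).R) :
    dq_fun N (x + y) = dq_fun N x + dq_fun N y := rfl

theorem dq_fun_mul (N : ℕ) [NeZero N] (x y : (dq_PM N).R) :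
    dq_fun N (x * y) = dq_fun N x * dq_fun N y := rfl

theorem dq_fun_algebraMap (N : ℕ) [NeZero N] (c : Kbar) (τ : ℍ) :
    dq_fun N (algebraMap Kbar (dq_PM N).R c) τ = iotaHom c := rfl

/-- The order of vanishing at a point, on the ring of the model. -/
theorem dq_valAt (N : ℕ) [NeZero N] (τ₀ : ℍ) (x : (dq_PM N).R) :
    PreModelBuild.valAt N τ₀ x = ordAt τ₀ (dq_fun N x) := rfl

/-! ## Package statements: DQ1, DQ2 -/

/-- (LD) Linear disjointness: an element of `FNC N` all of whose coefficients are in `ℚ̄` comes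
from `FNbar N`. -/
def dq_LDStatement : Prop :=
  ∀ (N : ℕ) [NeZero N] (x : LaurentSeries ℂ), x ∈ FNC N →
    (∀ n : ℤ, x.coeff n ∈ Set.range iotaHom) →
    ∃ f : LaurentSeries Kbar, f ∈ FNbar N ∧ ModularCurve.coeffMap iotaHom f = x

/-- (GEN) The generators `j(q^d)`, `d ∣ N`, of `FNbar N` are realised by the integral modular
functions `τ ↦ j(dτ)` (`slConj d 1`), which lie in the ring `RA N`. -/
def dq_GenStatement : Prop :=
  ∀ (N : ℕ) [NeZero N] (d : ℕ) [NeZero d], d ∣ N →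
    dict_An (ModularCurve.coeffEmb Kbar (ModularCurve.qExpand ℚ d ModularCurve.jq)) (slConj d 1) ∧
    dict_ModFun N (slConj d 1)

/-- (RING) Realisations by integral modular functions are compatible with constants, sums and
products. -/
def dq_RingStatement : Prop :=
  ∀ (N : ℕ) [NeZero N],
    (∀ c : Kbar, dict_An (HahnSeries.C c) (fun _ : ℍ => iotaHom c) ∧
      dict_ModFun N (fun _ : ℍ => iotaHom c)) ∧
    (∀ (f g : LaurentSeries Kbar) (φ ψ : ℍ → ℂ), dict_An f φ → dict_ModFun N φ → dict_An g ψ →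
      dict_ModFun N ψ →
      dict_An (f + g) (φ + ψ) ∧ dict_ModFun N (φ + ψ) ∧
      dict_An (f * g) (φ * ψ) ∧ dict_ModFun N (φ * ψ))

/-! ## Package statements: the model bridge and the Galois transfer -/

/-- (BR) The bridge between `FNbar N` and the concrete model `M = Frac (RA N)`: the isomorphism
`θ : FNbar N ≃ F'` of S24, and: if `f ≠ 0` is realised by `φ`, then `θ f = x₁ / x₂` in `M` with
`x₁, x₂` in the ring `RA N` and `φ * x₂ = x₁` as functions on `ℍ`. -/
def dq_BridgeStatement : Prop :=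
  ∀ (N : ℕ) [NeZero N], ∃ θ : ↥(FNbar N) ≃ₐ[Kbar] ↥(ModelAlg.Fp (dq_PM N)),
    θ (jBar N) = ⟨ModelAlg.JM (dq_PM N), ModelAlg.JM_mem_Fp (dq_PM N)⟩ ∧
    ∀ (f : ↥(FNbar N)) (φ : ℍ → ℂ), f ≠ 0 → dict_An (f : LaurentSeries Kbar) φ →
      ∃ x₁ x₂ : (dq_PM N).R, x₁ ≠ 0 ∧ x₂ ≠ 0 ∧
        ((θ f : ↥(ModelAlg.Fp (dq_PM N))) : ModelAlg.MM (dq_PM N)) *
            algebraMap (dq_PM N).R (ModelAlg.MM (dq_PM N)) x₂ =
          algebraMap (dq_PM N).R (ModelAlg.MM (dq_PM N)) x₁ ∧
        ∀ z : ℍ, φ z * dq_fun N x₂ z = dq_fun N x₁ z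

/-- (TR) Galois transfer: in a Galois situation `K(s) ⊆ F' ⊆ M` (group `Γ` acting through a finite
quotient with fixed field `K(s)`), if the place `w` of `F'` and the place `W₀` of `M` are both
zeros of `s`, then some conjugate `act γ • W₀` lies above `w`: its order function restricted to
`F'` is `e * ord_w`. -/
def dq_TransferStatement : Prop :=
  ∀ (K M Γ : Type) [Field K] [Field M] [Algebra K M] [IsAlgClosed K] [CharZero K] [Group Γ]
    (act : Γ →* (M ≃ₐ[K] M)) (s : M),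
    Finite act.range → Transcendental K s →
    (∀ x : M, (∀ γ : Γ, act γ x = x) ↔ x ∈ K⟮s⟯) →
    ∀ (F' : IntermediateField K M) (hsF : s ∈ F') (w : Place K ↥F') (W₀ : Place K M),
      0 < w.ord (⟨s, hsF⟩ : ↥F') → 0 < W₀.ord s →
      ∃ (γ : Γ) (e : ℕ), 0 < e ∧ ∀ x : ↥F', x ≠ 0 → (act γ • W₀).ord (x : M) = e * w.ord x

/-- (RES) Restriction: in the same situation every place `W` of `M` that is a zero of `s`
restricts to a place `w` of `F'`: `ord_W = e * ord_w` on `F'`. -/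
def dq_RestrictStatement : Prop :=
  ∀ (K M Γ : Type) [Field K] [Field M] [Algebra K M] [IsAlgClosed K] [CharZero K] [Group Γ]
    (act : Γ →* (M ≃ₐ[K] M)) (s : M),
    Finite act.range → Transcendental K s →
    (∀ x : M, (∀ γ : Γ, act γ x = x) ↔ x ∈ K⟮s⟯) →
    ∀ (F' : IntermediateField K M) (hsF : s ∈ F') (W : Place K M), 0 < W.ord s →
      ∃ (w : Place K ↥F') (e : ℕ), 0 < e ∧ 0 < w.ord (⟨s, hsF⟩ : ↥F') ∧
        ∀ x : ↥F', x ≠ 0 → W.ord (x : M) = e * w.ord x

/-! ## Package statements: cusps (DQ4) -/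

/-- (CE) Every `γ ∈ SL(2, ℤ)` gives an infinite place `P` of `FNbar N` and `e ≥ 1` such that the
`q_N`-order of `φ ∘ γ` is `e * ord_P f` whenever `φ` realises `f ≠ 0`. -/
def dq_CuspEveryStatement : Prop :=
  ∀ (N : ℕ) [NeZero N] (γ : SL(2, ℤ)), ∃ (P : Place Kbar ↥(FNbar N)) (e : ℕ),
    0 < e ∧ P.ord (jBar N) < 0 ∧
    ∀ (f : ↥(FNbar N)) (φ : ℍ → ℂ), f ≠ 0 → dict_An (f : LaurentSeries Kbar) φ →
      dict_ModFun N φ →
      ((Qexp N (fun z : ℍ => φ (γ • z))).order : ℤ) = (e : ℤ) * P.ord f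

/-- (CW) Every infinite place of `FNbar N` is obtained in this way. -/
def dq_CuspWeakStatement : Prop :=
  ∀ (N : ℕ) [NeZero N] (P : Place Kbar ↥(FNbar N)), P.ord (jBar N) < 0 →
    ∃ (γ : SL(2, ℤ)) (e : ℕ), 0 < e ∧
    ∀ (f : ↥(FNbar N)) (φ : ℍ → ℂ), f ≠ 0 → dict_An (f : LaurentSeries Kbar) φ →
      dict_ModFun N φ →
      ((Qexp N (fun z : ℍ => φ (γ • z))).order : ℤ) = (e : ℤ) * P.ord f

/-- (CC) The counting argument.  Let `p : SL(2, ℤ) → {places of FNbar N}` be a map onto the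
infinite places, invariant under left multiplication by `Γ₀(N)` and right multiplication by `T`,
and suppose `- ord_{p γ} j ≤ h` whenever `h > 0` and `γ T^h γ⁻¹ ∈ Γ₀(N)`.  Then
`γ T^k γ⁻¹ ∈ Γ₀(N)` for `k = - ord_{p γ} j` (so `- ord_{p γ} j` is the width of the cusp `γ ∞`). -/
def dq_CuspCountStatement : Prop :=
  ∀ (N : ℕ) [NeZero N] (p : SL(2, ℤ) → Place Kbar ↥(FNbar N)),
    (∀ γ, (p γ).ord (jBar N) < 0) →
    (∀ γ g : SL(2, ℤ), g ∈ Gamma0 N → p (g * γ) = p γ) →
    (∀ γ : SL(2, ℤ), p (γ * T) = p γ) →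
    (∀ P : Place Kbar ↥(FNbar N), P.ord (jBar N) < 0 → ∃ γ, p γ = P) →
    (∀ (γ : SL(2, ℤ)) (h : ℕ), 0 < h → γ * T ^ h * γ⁻¹ ∈ Gamma0 N →
      - (p γ).ord (jBar N) ≤ (h : ℤ)) →
    ∀ γ : SL(2, ℤ), γ * T ^ (- (p γ).ord (jBar N)).toNat * γ⁻¹ ∈ Gamma0 N

end

end Fermat.Agent.S42
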