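/-
S42 moonshot, block DQ, package BR (twin B): the bridge between `FNbar N` and the concrete model
`M = Frac (RA N)`.

`dqbrb_main : dq_BridgeStatement`.
-/
import Fermat.Agent.S42.DQInterfaces

set_option autoImplicit false

open UpperHalfPlane ModularForm Complex CongruenceSubgroup ModularGroup AlgebraicCurve
open IntermediateField
open scoped MatrixGroups Manifold Real

namespace Fermat.Agent.S42

open Fermat.Agent.S24

noncomputable section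

/-- The isomorphism `θ : FNbar N ≃ F'` of S24 (`ModelAlg.exists_theta`), together with its
compatibility with the Laurent expansions. -/
theorem dqbrb_exists_theta {N : ℕ} [NeZero N] (P : PreModel N) :
    ∃ θ : ↥(ModularCurve.modularFunctionFieldBar N) ≃ₐ[Kbar] ↥(ModelAlg.Fp P),
      θ (jBar N) = ⟨ModelAlg.JM P, ModelAlg.JM_mem_Fp P⟩ ∧
      ∀ f : ↥(ModularCurve.modularFunctionFieldBar N),
        ModelAlg.qM P ((θ f : ↥(ModelAlg.Fp P)) : ModelAlg.MM P)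
          = ModelAlg.PhiHom N (f : LaurentSeries Kbar) := by
  have hS : ModelAlg.PhiHom N '' {x : LaurentSeries Kbar | ∃ d : ℕ, ∃ _ : NeZero d, d ∣ N ∧
      x = ModularCurve.coeffEmb Kbar (ModularCurve.qExpand ℚ d ModularCurve.jq)}
      = ModelAlg.qM P '' ModelAlg.genSet P := by
    ext y
    constructor
    · rintro ⟨x, ⟨d, hd0, hd, rfl⟩, rfl⟩
      exact ⟨_, ⟨d, hd, rfl⟩, ModelAlg.qM_Jd P d hd⟩
    · rintro ⟨x, ⟨d, hd, rfl⟩, rfl⟩
      have : NeZero d := ⟨fun h => NeZero.ne N (by subst h; simpa using hd)⟩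
      exact ⟨_, ⟨d, inferInstance, hd, rfl⟩, (ModelAlg.qM_Jd P d hd).symm⟩
  obtain ⟨θ₀, hθ₀⟩ := ModelLemmas.exists_algEquiv_adjoin_of_image_eq (K := Kbar)
    (ModelAlg.PhiHom N) (ModelAlg.qM P) (ModelAlg.PhiHom_algebraMap P) _ (ModelAlg.genSet P) hS
  have hQ : ∀ f : ↥(ModularCurve.modularFunctionFieldBar N),
      ModelAlg.qM P ((((IntermediateField.equivOfEq
        (ModelLemmas.modularFunctionFieldBar_eq_adjoin N)).trans θ₀) f : ↥(ModelAlg.Fp P)) :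
          ModelAlg.MM P) = ModelAlg.PhiHom N (f : LaurentSeries Kbar) := by
    intro f
    exact hθ₀ (IntermediateField.equivOfEq (ModelLemmas.modularFunctionFieldBar_eq_adjoin N) f)
  refine ⟨(IntermediateField.equivOfEq
    (ModelLemmas.modularFunctionFieldBar_eq_adjoin N)).trans θ₀, ?_, hQ⟩
  apply Subtype.ext
  apply (ModelAlg.qM P).injective
  refine (hQ (jBar N)).trans ?_
  rw [ModelAlg.qM_JM]
  rfl

/-- Analytic core: if `Qexp N φ * Qexp N x₂ = Qexp N x₁` for functions that are meromorphic at the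
cusp, then `φ * x₂ = x₁`. -/
theorem dqbrb_fun_eq (N : ℕ) [NeZero N] (φ g₂ g₁ : ℍ → ℂ) (hφ : IsCuspMer N φ)
    (h₂ : IsCuspMer N g₂) (h₁ : IsCuspMer N g₁)
    (hq : Qexp N φ * Qexp N g₂ = Qexp N g₁) : ∀ z : ℍ, φ z * g₂ z = g₁ z := by
  have hc : IsCuspMer N (fun _ : ℍ => (-1 : ℂ)) := ⟨0, (dq_hQ.1 N (-1)).1⟩
  have hcq : Qexp N (fun _ : ℍ => (-1 : ℂ)) = HahnSeries.C (-1 : ℂ) := (dq_hQ.1 N (-1)).2
  obtain ⟨-, hA, -, hAq⟩ := dq_hQ.2.1 N φ g₂ hφ h₂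
  obtain ⟨-, hB, -, hBq⟩ := dq_hQ.2.1 N (fun _ : ℍ => (-1 : ℂ)) g₁ hc h₁
  obtain ⟨hS, -, hSq, -⟩ := dq_hQ.2.1 N (φ * g₂) ((fun _ : ℍ => (-1 : ℂ)) * g₁) hA hB
  have hzero : Qexp N (φ * g₂ + (fun _ : ℍ => (-1 : ℂ)) * g₁) = 0 := by
    rw [hSq, hAq, hBq, hcq, hq, map_neg, map_one]
    ring
  have h0 := dq_hQ.2.2.1 N _ hS hzero
  intro z
  have hz := congrFun h0 z
  simp only [Pi.add_apply, Pi.mul_apply, Pi.zero_apply] at hz
  linear_combination hz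

/-- (BR) The bridge between `FNbar N` and the concrete model. -/
theorem dqbrb_main : dq_BridgeStatement := by
  intro N _
  obtain ⟨θ, hθJ, hθQ⟩ := dqbrb_exists_theta (dq_PM N)
  refine ⟨θ, hθJ, ?_⟩
  intro f φ hf hφ
  obtain ⟨h1, hq1⟩ := hφ
  obtain ⟨hN, hqN⟩ := dq_hQ.2.2.2.2.2.1 N φ h1
  have hqφ : Qexp N φ = ModelAlg.qM (dq_PM N)
      ((θ f : ↥(ModelAlg.Fp (dq_PM N))) : ModelAlg.MM (dq_PM N)) := by
    rw [hθQ f, ModelAlg.PhiHom_apply, hqN, hq1]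
  have hy : ((θ f : ↥(ModelAlg.Fp (dq_PM N))) : ModelAlg.MM (dq_PM N)) ≠ 0 := by
    intro h
    apply hf
    have h0 : θ f = 0 := Subtype.ext h
    exact (map_eq_zero_iff θ θ.injective).mp h0
  have hinj : Function.Injective (algebraMap (dq_PM N).R (ModelAlg.MM (dq_PM N))) :=
    IsFractionRing.injective (dq_PM N).R (ModelAlg.MM (dq_PM N))
  obtain ⟨x₁, x₂, hx₂, hy'⟩ := IsFractionRing.div_surjective (A := (dq_PM N).R)
    ((θ f : ↥(ModelAlg.Fp (dq_PM N))) : ModelAlg.MM (dq_PM N))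
  have hx₂0 : x₂ ≠ 0 := nonZeroDivisors.ne_zero hx₂
  have hx₂M : algebraMap (dq_PM N).R (ModelAlg.MM (dq_PM N)) x₂ ≠ 0 :=
    (map_ne_zero_iff _ hinj).mpr hx₂0
  have hx₁0 : x₁ ≠ 0 := by
    rintro rfl
    rw [map_zero, zero_div] at hy'
    exact hy hy'.symm
  have hmul : ((θ f : ↥(ModelAlg.Fp (dq_PM N))) : ModelAlg.MM (dq_PM N)) *
      algebraMap (dq_PM N).R (ModelAlg.MM (dq_PM N)) x₂ =
        algebraMap (dq_PM N).R (ModelAlg.MM (dq_PM N)) x₁ := by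
    rw [← hy']
    field_simp
  refine ⟨x₁, x₂, hx₁0, hx₂0, hmul, ?_⟩
  have hq := congrArg (ModelAlg.qM (dq_PM N)) hmul
  rw [map_mul, ModelAlg.qM_algebraMap, ModelAlg.qM_algebraMap, ← hqφ, dq_PM_q, dq_PM_q] at hq
  exact dqbrb_fun_eq N φ (dq_fun N x₂) (dq_fun N x₁) hN ((dq_good N).cusp x₂)
    ((dq_good N).cusp x₁) hq

end

end Fermat.Agent.S42
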