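/-
S42 moonshot, block DQ, package CC (twin B): the counting argument
"pole order of `j` at a cusp = width of the cusp".
-/
import Fermat.Agent.S42.DQInterfaces

set_option autoImplicit false

open UpperHalfPlane ModularForm Complex CongruenceSubgroup ModularGroup AlgebraicCurve
open IntermediateField
open scoped MatrixGroups Manifold Real

namespace Fermat.Agent.S42

open Fermat.Agent.S24

noncomputable section

/-- Abstract counting argument: `G` a group, `H` a subgroup of finite index, `t : G`, and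
`p : G → P` a map onto a finite set `I`, invariant under left multiplication by `H` and right
multiplication by `t`, with weights `a : P → ℤ` summing to the index of `H`, such that
`a (p γ) ≤ h` whenever `h > 0` and `γ t^h γ⁻¹ ∈ H`.  Then `γ t^(a (p γ)) γ⁻¹ ∈ H`. -/
theorem dqccb_core {G P : Type} [Group G] (H : Subgroup G) [Finite (G ⧸ H)] (t : G)
    (p : G → P) (a : P → ℤ) (I : Finset P)
    (h1 : ∀ γ, p γ ∈ I)
    (h2 : ∀ γ g : G, g ∈ H → p (g * γ) = p γ)
    (h3 : ∀ γ : G, p (γ * t) = p γ)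
    (h4 : ∀ w ∈ I, ∃ γ, p γ = w)
    (h5 : ∀ (γ : G) (h : ℕ), 0 < h → γ * t ^ h * γ⁻¹ ∈ H → a (p γ) ≤ (h : ℤ))
    (hsum : ∑ w ∈ I, a w = (Nat.card (G ⧸ H) : ℤ)) :
    ∀ γ : G, γ * t ^ (a (p γ)).toNat * γ⁻¹ ∈ H := by
  classical
  have : Fintype (G ⧸ H) := Fintype.ofFinite _
  -- the map `Ψ (γ H) = p γ⁻¹`
  let Ψ : G ⧸ H → P := fun x => Quotient.liftOn' x (fun γ => p γ⁻¹) (by
    intro x y hxy
    rw [QuotientGroup.leftRel_apply] at hxy
    have h := h2 x⁻¹ (y⁻¹ * x) (by simpa using H.inv_mem hxy)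
    simpa [mul_assoc] using h.symm)
  have hΨ : ∀ γ : G, Ψ (γ : G ⧸ H) = p γ⁻¹ := fun γ => rfl
  have hΨt : ∀ x : G ⧸ H, Ψ (t • x) = Ψ x := by
    intro x
    induction x using QuotientGroup.induction_on with
    | H γ =>
      rw [MulAction.Quotient.smul_mk, hΨ, hΨ, smul_eq_mul, mul_inv_rev]
      have h := h3 (γ⁻¹ * t⁻¹)
      simpa [mul_assoc] using h.symm
  have hΨk : ∀ (k : ℕ) (x : G ⧸ H), Ψ (t ^ k • x) = Ψ x := by
    intro k
    induction k with
    | zero => intro x; simp
    | succ k ih => intro x; rw [pow_succ, mul_smul, ih, hΨt]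
  -- the period of `γ⁻¹ H` under `t`
  have key : ∀ γ : G, ∃ h : ℕ, 0 < h ∧ γ * t ^ h * γ⁻¹ ∈ H ∧
      (h : ℤ) ≤ ((Finset.univ.filter (fun x : G ⧸ H => Ψ x = p γ)).card : ℤ) := by
    intro γ
    set x₀ : G ⧸ H := ((γ⁻¹ : G) : G ⧸ H) with hx₀
    set h : ℕ := MulAction.period t x₀ with hh
    have hpos : 0 < h :=
      Function.minimalPeriod_pos_of_mem_periodicPts ((MulAction.injective t).mem_periodicPts x₀)
    have hper : t ^ h • x₀ = x₀ := MulAction.pow_period_smul t x₀
    refine ⟨h, hpos, ?_, ?_⟩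
    · rw [hx₀, MulAction.Quotient.smul_mk, eq_comm, QuotientGroup.eq] at hper
      simpa [mul_assoc] using hper
    · have hle : (Finset.range h).card ≤
          (Finset.univ.filter (fun x : G ⧸ H => Ψ x = p γ)).card := by
        refine Finset.card_le_card_of_injOn (fun k : ℕ => t ^ k • x₀) ?_ ?_
        · intro k _
          rw [Finset.mem_coe, Finset.mem_filter]
          refine ⟨Finset.mem_univ _, ?_⟩
          rw [hΨk, hx₀, hΨ, inv_inv]
        · have aux : ∀ k₁ k₂ : ℕ, k₁ ≤ k₂ → k₂ < h → t ^ k₁ • x₀ = t ^ k₂ • x₀ → k₁ = k₂ := by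
            intro k₁ k₂ h12 hk₂ he
            have e1 : t ^ k₂ = t ^ k₁ * t ^ (k₂ - k₁) := by
              rw [← pow_add]; congr 1; omega
            rw [e1, mul_smul] at he
            have e2 : t ^ (k₂ - k₁) • x₀ = x₀ := (MulAction.injective (t ^ k₁) he).symm
            have e3 : h ∣ k₂ - k₁ := MulAction.pow_smul_eq_iff_period_dvd.mp e2
            have e4 : k₂ - k₁ = 0 := Nat.eq_zero_of_dvd_of_lt e3 (by omega)
            omega
          intro k₁ hk₁ k₂ hk₂ he
          have hk₁' : k₁ < h := Finset.mem_range.mp hk₁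
          have hk₂' : k₂ < h := Finset.mem_range.mp hk₂
          rcases Nat.le_total k₁ k₂ with h12 | h12
          · exact aux k₁ k₂ h12 hk₂' he
          · exact (aux k₂ k₁ h12 hk₁' he.symm).symm
      rw [Finset.card_range] at hle
      exact_mod_cast hle
  -- counting
  have hcard : (Nat.card (G ⧸ H) : ℤ) =
      ∑ w ∈ I, ((Finset.univ.filter (fun x : G ⧸ H => Ψ x = w)).card : ℤ) := by
    rw [Nat.card_eq_fintype_card, ← Finset.card_univ]
    have hmaps : ((Finset.univ : Finset (G ⧸ H)) : Set (G ⧸ H)).MapsTo Ψ I := by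
      intro x _
      induction x using QuotientGroup.induction_on with
      | H γ => rw [hΨ]; exact h1 _
    rw [Finset.card_eq_sum_card_fiberwise hmaps]
    push_cast
    rfl
  have hle : ∀ w ∈ I, a w ≤ ((Finset.univ.filter (fun x : G ⧸ H => Ψ x = w)).card : ℤ) := by
    intro w hw
    obtain ⟨γ, rfl⟩ := h4 w hw
    obtain ⟨h, hpos, hmem, hcardle⟩ := key γ
    exact (h5 γ h hpos hmem).trans hcardle
  have heq : ∀ w ∈ I, a w = ((Finset.univ.filter (fun x : G ⧸ H => Ψ x = w)).card : ℤ) :=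
    (Finset.sum_eq_sum_iff_of_le hle).mp (hsum.trans hcard)
  intro γ
  obtain ⟨h, hpos, hmem, hcardle⟩ := key γ
  have h5' := h5 γ h hpos hmem
  have e : a (p γ) = (h : ℤ) := le_antisymm h5' (by rw [heq (p γ) (h1 γ)]; exact hcardle)
  rw [e, Int.toNat_natCast]
  exact hmem

/-- (CC) The counting argument: `- ord_{p γ} j` is the width of the cusp `γ ∞`. -/
theorem dqccb_main : dq_CuspCountStatement := by
  intro N _ p h1 h2 h3 h4 h5
  classical
  have hMM : ModularModelStatement :=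
    ModelAlg.modularModelStatement
      (PreModelBuild.preModelStatement dq_hJB dq_hJO dq_hJS dq_hJQ dq_hQ dq_hLP dq_hC dq_hPV) dq_hV
  obtain ⟨htr, hfd, hrank, -⟩ := ModelCounts.modelCountsStatement dq_hGal dq_hZeros hMM N
  obtain ⟨hfin, hsum⟩ := dq_hPoles Kbar ↥(FNbar N) (jBar N) htr hfd
  have hpos : 0 < Module.finrank Kbar⟮jBar N⟯ ↥(FNbar N) := Module.finrank_pos
  have hX : Finite (SL(2, ℤ) ⧸ Gamma0 N) :=
    Nat.finite_of_card_ne_zero (by rw [← hrank]; exact hpos.ne')
  refine dqccb_core (Gamma0 N) T p (fun w => - w.ord (jBar N)) hfin.toFinset ?_ h2 h3 ?_ h5 ?_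
  · intro γ
    rw [Set.Finite.mem_toFinset]
    exact h1 γ
  · intro w hw
    rw [Set.Finite.mem_toFinset] at hw
    exact h4 w hw
  · rw [← hrank, ← hsum, finsum_mem_eq_finite_toFinset_sum _ hfin]

end

end Fermat.Agent.S42
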