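/-
S42 moonshot, block DQ, package CE (twin B): every `γ ∈ SL(2, ℤ)` gives an infinite place of
`FNbar N` computing the `q_N`-orders of `φ ∘ γ`.
-/
import Fermat.Agent.S42.DQInterfaces

set_option autoImplicit false

open UpperHalfPlane ModularForm Complex CongruenceSubgroup ModularGroup AlgebraicCurve
open IntermediateField
open scoped MatrixGroups Manifold Real

namespace Fermat.Agent.S42

open Fermat.Agent.S24

noncomputable section

/-- The place at infinity of the model, with its ramification index: the `q`-order. -/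
theorem dqceb_place_infty {N : ℕ} [NeZero N] (P : PreModel N) :
    ∃ (W : Place Kbar (ModelAlg.MM P)) (e : ℕ), 0 < e ∧
      (∀ x : P.R, x ≠ 0 →
        (P.q x).order = (e : ℤ) * W.ord (algebraMap P.R (ModelAlg.MM P) x)) ∧
      W.ord (ModelAlg.JM P) < 0 := by
  have hq0 : ∀ x : P.R, x ≠ 0 → P.q x ≠ 0 := fun x hx =>
    (map_ne_zero_iff _ P.q_injective).mpr hx
  have hJ0 : P.J ≠ 0 := by
    have h := ModelAlg.J_sub_ne_zero P 0
    rwa [map_zero, sub_zero] at h
  have hN : (0 : ℤ) < N := by exact_mod_cast Nat.pos_of_ne_zero (NeZero.ne N)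
  obtain ⟨W, e, he, h1, -, -⟩ := ModelAlg.exists_place_of_val P dq_hV (fun x => (P.q x).order)
    (fun x y hx hy => by
      rw [map_mul, HahnSeries.order_mul (hq0 x hx) (hq0 y hy)])
    (fun x y hx hy hxy => by
      rw [map_add]
      exact HahnSeries.min_order_le_order_add (by rw [← map_add]; exact hq0 _ hxy))
    (fun c hc => by
      rw [P.q_algebraMap, HahnSeries.order_C])
    ⟨P.J, hJ0, by
      rw [ModelAlg.order_q_J]
      omega⟩
  refine ⟨W, e, he, h1, ?_⟩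
  have h := h1 _ hJ0
  rw [ModelAlg.order_q_J] at h
  have he' : (0 : ℤ) < e := by exact_mod_cast he
  change -(N : ℤ) = e * W.ord (ModelAlg.JM P) at h
  by_contra ho
  have ho' := not_lt.mp ho
  nlinarith

/-- Orders at a conjugate place, on the ring of the model. -/
theorem dqceb_ord_act {N : ℕ} [NeZero N] (P : PreModel N) (W : Place Kbar (ModelAlg.MM P))
    (γ : SL(2, ℤ)) (x : P.R) :
    (ModelAlg.act P γ • W).ord (algebraMap P.R (ModelAlg.MM P) x) =
      W.ord (algebraMap P.R (ModelAlg.MM P) (P.ρ γ⁻¹ x)) := by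
  rw [GalB.ord_smul_apply, ← map_inv, ModelAlg.act_algebraMap]

/-- `J` has the same order at all conjugate places. -/
theorem dqceb_ord_act_J {N : ℕ} [NeZero N] (P : PreModel N) (W : Place Kbar (ModelAlg.MM P))
    (γ : SL(2, ℤ)) :
    (ModelAlg.act P γ • W).ord (ModelAlg.JM P) = W.ord (ModelAlg.JM P) := by
  rw [GalB.ord_smul_apply, ← map_inv,
    ModelAlg.act_fixed_of_mem P (mem_adjoin_simple_self Kbar (ModelAlg.JM P)) γ⁻¹]

/-- (CE) Every `γ ∈ SL(2, ℤ)` gives an infinite place. -/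
theorem dqceb_main : dq_BridgeStatement → dq_RestrictStatement → dq_CuspEveryStatement := by
  intro hBr hRes N _ γ
  -- Step 1: the place at infinity of the model
  obtain ⟨W0, e0, he0, H0, hW0J⟩ := dqceb_place_infty (dq_PM N)
  have hq0 : ∀ x : (dq_PM N).R, x ≠ 0 → (dq_PM N).q x ≠ 0 := fun x hx =>
    (map_ne_zero_iff _ (dq_PM N).q_injective).mpr hx
  have hρ0 : ∀ x : (dq_PM N).R, x ≠ 0 → (dq_PM N).ρ γ⁻¹ x ≠ 0 := fun x hx =>
    (EmbeddingLike.map_ne_zero_iff (f := (dq_PM N).ρ γ⁻¹)).mpr hx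
  have hfun : ∀ x : (dq_PM N).R,
      dq_fun N ((dq_PM N).ρ γ⁻¹ x) = fun τ : ℍ => dq_fun N x (γ • τ) := by
    intro x
    funext τ
    rw [dq_PM_rho, inv_inv]
  -- Step 2: the conjugate place
  have H1 : ∀ x : (dq_PM N).R, x ≠ 0 →
      (Qexp N (fun τ : ℍ => dq_fun N x (γ • τ))).order =
        (e0 : ℤ) * (ModelAlg.act (dq_PM N) γ • W0).ord
          (algebraMap (dq_PM N).R (ModelAlg.MM (dq_PM N)) x) := by
    intro x hx
    rw [dqceb_ord_act, ← H0 _ (hρ0 x hx), dq_PM_q, hfun]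
  have hWJ : (ModelAlg.act (dq_PM N) γ • W0).ord (ModelAlg.JM (dq_PM N)) < 0 := by
    rw [dqceb_ord_act_J]
    exact hW0J
  -- Step 3: restriction to `F'`
  have hsF : (ModelAlg.JM (dq_PM N))⁻¹ ∈ ModelAlg.Fp (dq_PM N) :=
    inv_mem (ModelAlg.JM_mem_Fp (dq_PM N))
  have hWs : 0 < (ModelAlg.act (dq_PM N) γ • W0).ord (ModelAlg.JM (dq_PM N))⁻¹ := by
    rw [Place.ord_inv]
    omega
  obtain ⟨w, e, he, -, H2⟩ := hRes Kbar (ModelAlg.MM (dq_PM N)) SL(2, ℤ) (ModelAlg.act (dq_PM N))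
    (ModelAlg.JM (dq_PM N))⁻¹ (ModelAlg.act_finite_range (dq_PM N))
    (GalB.transcendental_of_adjoin_eq (ModelAlg.JM_transc (dq_PM N))
      (GalB.adjoin_inv (ModelAlg.JM (dq_PM N))))
    (fun x => by
      rw [GalB.adjoin_inv]
      exact ModelAlg.fix_iff (dq_PM N) x)
    (ModelAlg.Fp (dq_PM N)) hsF (ModelAlg.act (dq_PM N) γ • W0) hWs
  -- Step 4: transport to `FNbar N`
  obtain ⟨θ, hθJ, hθ⟩ := hBr N
  have hP : ∀ f : ↥(FNbar N), (ModelCounts.placeMap θ.symm w).ord f = w.ord (θ f) := by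
    intro f
    have h := ModelCounts.placeMap_ord θ.symm w (θ f)
    rwa [AlgEquiv.symm_apply_apply] at h
  have he0' : (0 : ℤ) < e0 := by exact_mod_cast he0
  have he' : (0 : ℤ) < e := by exact_mod_cast he
  refine ⟨ModelCounts.placeMap θ.symm w, e0 * e, Nat.mul_pos he0 he, ?_, ?_⟩
  · rw [hP, hθJ]
    have hJne : (⟨ModelAlg.JM (dq_PM N), ModelAlg.JM_mem_Fp (dq_PM N)⟩ :
        ↥(ModelAlg.Fp (dq_PM N))) ≠ 0 := by
      intro h
      have h' : ModelAlg.JM (dq_PM N) = 0 := congrArg Subtype.val h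
      rw [h', Place.ord_zero] at hW0J
      exact lt_irrefl _ hW0J
    have h := H2 _ hJne
    change (ModelAlg.act (dq_PM N) γ • W0).ord (ModelAlg.JM (dq_PM N)) = _ at h
    by_contra ho
    have ho' := not_lt.mp ho
    nlinarith
  · intro f φ hf hAn hMod
    obtain ⟨x₁, x₂, hx₁, hx₂, hmul, hfun12⟩ := hθ f φ hf hAn
    have hψ : IsCuspMer N (fun z : ℍ => φ (γ • z)) := hMod.2 γ
    have hψ₂ : IsCuspMer N (fun z : ℍ => dq_fun N x₂ (γ • z)) := by
      rw [← hfun]
      exact (dq_good N).cusp _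
    have hprod : (fun z : ℍ => φ (γ • z)) * (fun z : ℍ => dq_fun N x₂ (γ • z)) =
        fun z : ℍ => dq_fun N x₁ (γ • z) := by
      funext z
      exact hfun12 (γ • z)
    have hQ := (dq_hQ.2.1 N _ _ hψ hψ₂).2.2.2
    rw [hprod] at hQ
    have hne₁ : Qexp N (fun z : ℍ => dq_fun N x₁ (γ • z)) ≠ 0 := by
      rw [← hfun, ← dq_PM_q]
      exact hq0 _ (hρ0 x₁ hx₁)
    have hne₂ : Qexp N (fun z : ℍ => dq_fun N x₂ (γ • z)) ≠ 0 := by
      rw [← hfun, ← dq_PM_q]
      exact hq0 _ (hρ0 x₂ hx₂)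
    have hne : Qexp N (fun z : ℍ => φ (γ • z)) ≠ 0 := by
      intro h0
      rw [h0, zero_mul] at hQ
      exact hne₁ hQ
    have hord := HahnSeries.order_mul hne hne₂
    rw [← hQ, H1 x₁ hx₁, H1 x₂ hx₂] at hord
    have hθf : θ f ≠ 0 := (EmbeddingLike.map_ne_zero_iff (f := θ)).mpr hf
    have hθfM : ((θ f : ↥(ModelAlg.Fp (dq_PM N))) : ModelAlg.MM (dq_PM N)) ≠ 0 := by
      intro h
      exact hθf (Subtype.ext h)
    have ha₂ : algebraMap (dq_PM N).R (ModelAlg.MM (dq_PM N)) x₂ ≠ 0 := by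
      intro h
      exact hx₂ ((IsFractionRing.injective (dq_PM N).R (ModelAlg.MM (dq_PM N)))
        (h.trans (map_zero _).symm))
    rw [← hmul, Place.ord_mul _ hθfM ha₂, H2 _ hθf] at hord
    rw [hP]
    push_cast
    linear_combination (-1 : ℤ) * hord
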