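/-
S42 moonshot, block DQ, package CW (twin A): every infinite place of `FNbar N` comes from some
`γ ∈ SL(2, ℤ)`.
-/
import Fermat.Agent.S42.DQInterfaces

set_option autoImplicit false

open UpperHalfPlane ModularForm Complex CongruenceSubgroup ModularGroup AlgebraicCurve
open IntermediateField
open scoped MatrixGroups Manifold Real

namespace Fermat.Agent.S42

open Fermat.Agent.S24

noncomputable section

/-- Step 1: the place at infinity of the model, with its order formula. -/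
theorem dqcwa_Winf (N : ℕ) [NeZero N] :
    ∃ (W : Place Kbar (ModelAlg.MM (dq_PM N))) (e : ℕ), 0 < e ∧
      (∀ x : (dq_PM N).R, x ≠ 0 →
        ((dq_PM N).q x).order
          = e * W.ord (algebraMap (dq_PM N).R (ModelAlg.MM (dq_PM N)) x)) ∧
      W.ord (ModelAlg.JM (dq_PM N)) < 0 := by
  have hq0 : ∀ x : (dq_PM N).R, x ≠ 0 → (dq_PM N).q x ≠ 0 := fun x hx =>
    (map_ne_zero_iff _ (dq_PM N).q_injective).mpr hx
  have hJ0 : (dq_PM N).J ≠ 0 := by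
    have h := ModelAlg.J_sub_ne_zero (dq_PM N) 0
    rwa [map_zero, sub_zero] at h
  have hN : (0 : ℤ) < N := by exact_mod_cast Nat.pos_of_ne_zero (NeZero.ne N)
  obtain ⟨W, e, he, h1, -, -⟩ := ModelAlg.exists_place_of_val (dq_PM N) dq_hV
    (fun x => ((dq_PM N).q x).order)
    (fun x y hx hy => by
      rw [map_mul, HahnSeries.order_mul (hq0 x hx) (hq0 y hy)])
    (fun x y hx hy hxy => by
      rw [map_add]
      exact HahnSeries.min_order_le_order_add (by rw [← map_add]; exact hq0 _ hxy))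
    (fun c hc => by
      rw [(dq_PM N).q_algebraMap, HahnSeries.order_C])
    ⟨(dq_PM N).J, hJ0, by
      rw [ModelAlg.order_q_J]
      omega⟩
  refine ⟨W, e, he, h1, ?_⟩
  have h := h1 _ hJ0
  rw [ModelAlg.order_q_J] at h
  have he' : (0 : ℤ) < e := by exact_mod_cast he
  change -(N : ℤ) = e * W.ord (ModelAlg.JM (dq_PM N)) at h
  by_contra ho
  have ho' := not_lt.mp ho
  nlinarith

/-- Step 4: the order of the expansion of `x ∘ γ` in terms of the conjugate place. -/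
theorem dqcwa_order_conj (N : ℕ) [NeZero N] (W : Place Kbar (ModelAlg.MM (dq_PM N))) (e : ℕ)
    (H0 : ∀ x : (dq_PM N).R, x ≠ 0 →
        ((dq_PM N).q x).order
          = e * W.ord (algebraMap (dq_PM N).R (ModelAlg.MM (dq_PM N)) x))
    (γ : SL(2, ℤ)) (x : (dq_PM N).R) (hx : x ≠ 0) :
    (Qexp N (fun τ : ℍ => dq_fun N x (γ • τ))).order
      = e * (ModelAlg.act (dq_PM N) γ • W).ord
          (algebraMap (dq_PM N).R (ModelAlg.MM (dq_PM N)) x) := by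
  have hρ : (dq_PM N).ρ γ⁻¹ x ≠ 0 :=
    (map_ne_zero_iff _ ((dq_PM N).ρ γ⁻¹).injective).mpr hx
  have h := H0 _ hρ
  have hfun : dq_fun N ((dq_PM N).ρ γ⁻¹ x) = fun τ : ℍ => dq_fun N x (γ • τ) := by
    funext τ
    rw [dq_PM_rho, inv_inv]
  rw [dq_PM_q, hfun] at h
  rw [h, GalB.ord_smul_apply, ← map_inv (ModelAlg.act (dq_PM N)) γ, ModelAlg.act_algebraMap]

/-- (CW) Every infinite place of `FNbar N` comes from some `γ ∈ SL(2, ℤ)`. -/
theorem dqcwa_main : dq_BridgeStatement → dq_TransferStatement → dq_CuspWeakStatement := by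
  intro hBr hTr N _ P hP
  obtain ⟨θ, hθJ, hθ⟩ := hBr N
  obtain ⟨Winf, einf, heinf, H0, hWJ⟩ := dqcwa_Winf N
  -- `s := J⁻¹`
  have hsF : (ModelAlg.JM (dq_PM N))⁻¹ ∈ ModelAlg.Fp (dq_PM N) :=
    inv_mem (ModelAlg.JM_mem_Fp (dq_PM N))
  have hadj := GalB.adjoin_inv (K := Kbar) (ModelAlg.JM (dq_PM N))
  have hs : Transcendental Kbar (ModelAlg.JM (dq_PM N))⁻¹ :=
    GalB.transcendental_of_adjoin_eq (ModelAlg.JM_transc (dq_PM N)) hadj
  have hfix : ∀ x : ModelAlg.MM (dq_PM N),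
      (∀ γ : SL(2, ℤ), ModelAlg.act (dq_PM N) γ x = x) ↔ x ∈ Kbar⟮(ModelAlg.JM (dq_PM N))⁻¹⟯ := by
    intro x
    rw [hadj]
    exact ModelAlg.fix_iff (dq_PM N) x
  have hwJ : (ModelCounts.placeMap θ P).ord
      (⟨ModelAlg.JM (dq_PM N), ModelAlg.JM_mem_Fp (dq_PM N)⟩ : ↥(ModelAlg.Fp (dq_PM N))) < 0 := by
    rw [← hθJ, ModelCounts.placeMap_ord]
    exact hP
  have hws : 0 < (ModelCounts.placeMap θ P).ord
      (⟨(ModelAlg.JM (dq_PM N))⁻¹, hsF⟩ : ↥(ModelAlg.Fp (dq_PM N))) := by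
    have h : (⟨(ModelAlg.JM (dq_PM N))⁻¹, hsF⟩ : ↥(ModelAlg.Fp (dq_PM N)))
        = (⟨ModelAlg.JM (dq_PM N), ModelAlg.JM_mem_Fp (dq_PM N)⟩ :
            ↥(ModelAlg.Fp (dq_PM N)))⁻¹ := rfl
    rw [h, Place.ord_inv]
    omega
  have hWs : 0 < Winf.ord (ModelAlg.JM (dq_PM N))⁻¹ := by
    rw [Place.ord_inv]
    omega
  obtain ⟨γ, e, he, H1⟩ := hTr Kbar (ModelAlg.MM (dq_PM N)) SL(2, ℤ) (ModelAlg.act (dq_PM N))
    (ModelAlg.JM (dq_PM N))⁻¹ (ModelAlg.act_finite_range (dq_PM N)) hs hfix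
    (ModelAlg.Fp (dq_PM N)) hsF (ModelCounts.placeMap θ P) Winf hws hWs
  refine ⟨γ, einf * e, Nat.mul_pos heinf he, ?_⟩
  intro f φ hf hAn hMod
  obtain ⟨x₁, x₂, hx₁, hx₂, hrel, hfun⟩ := hθ f φ hf hAn
  have hinj : Function.Injective (algebraMap (dq_PM N).R (ModelAlg.MM (dq_PM N))) :=
    IsFractionRing.injective (dq_PM N).R (ModelAlg.MM (dq_PM N))
  have ha₁ : algebraMap (dq_PM N).R (ModelAlg.MM (dq_PM N)) x₁ ≠ 0 :=
    (map_ne_zero_iff _ hinj).mpr hx₁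
  have ha₂ : algebraMap (dq_PM N).R (ModelAlg.MM (dq_PM N)) x₂ ≠ 0 :=
    (map_ne_zero_iff _ hinj).mpr hx₂
  have hθf : θ f ≠ 0 := (map_ne_zero_iff _ θ.injective).mpr hf
  have hθfM : ((θ f : ↥(ModelAlg.Fp (dq_PM N))) : ModelAlg.MM (dq_PM N)) ≠ 0 := by
    intro h0
    exact hθf (Subtype.ext h0)
  -- orders of the conjugated functions
  have h₁ := dqcwa_order_conj N Winf einf H0 γ x₁ hx₁
  have h₂ := dqcwa_order_conj N Winf einf H0 γ x₂ hx₂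
  -- the functions
  have hρ₁ : (dq_PM N).ρ γ⁻¹ x₁ ≠ 0 :=
    (map_ne_zero_iff _ ((dq_PM N).ρ γ⁻¹).injective).mpr hx₁
  have hρ₂ : (dq_PM N).ρ γ⁻¹ x₂ ≠ 0 :=
    (map_ne_zero_iff _ ((dq_PM N).ρ γ⁻¹).injective).mpr hx₂
  have hfun₁ : dq_fun N ((dq_PM N).ρ γ⁻¹ x₁) = fun τ : ℍ => dq_fun N x₁ (γ • τ) := by
    funext τ
    rw [dq_PM_rho, inv_inv]
  have hfun₂ : dq_fun N ((dq_PM N).ρ γ⁻¹ x₂) = fun τ : ℍ => dq_fun N x₂ (γ • τ) := by
    funext τ
    rw [dq_PM_rho, inv_inv]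
  have hc₂ : IsCuspMer N (fun τ : ℍ => dq_fun N x₂ (γ • τ)) := by
    rw [← hfun₂]
    exact (dq_good N).cusp ((dq_PM N).ρ γ⁻¹ x₂)
  have hcψ : IsCuspMer N (fun z : ℍ => φ (γ • z)) := hMod.2 γ
  have hprod : (fun z : ℍ => φ (γ • z)) * (fun τ : ℍ => dq_fun N x₂ (γ • τ))
      = fun τ : ℍ => dq_fun N x₁ (γ • τ) := by
    funext z
    exact hfun (γ • z)
  have hQmul := (dq_hQ.2.1 N _ _ hcψ hc₂).2.2.2
  rw [hprod] at hQmul
  have hq₁ : Qexp N (fun τ : ℍ => dq_fun N x₁ (γ • τ)) ≠ 0 := by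
    rw [← hfun₁, ← dq_PM_q]
    exact (map_ne_zero_iff _ (dq_PM N).q_injective).mpr hρ₁
  have hq₂ : Qexp N (fun τ : ℍ => dq_fun N x₂ (γ • τ)) ≠ 0 := by
    rw [← hfun₂, ← dq_PM_q]
    exact (map_ne_zero_iff _ (dq_PM N).q_injective).mpr hρ₂
  have hqψ : Qexp N (fun z : ℍ => φ (γ • z)) ≠ 0 := by
    intro h0
    rw [h0, zero_mul] at hQmul
    exact hq₁ hQmul
  have hord := HahnSeries.order_mul hqψ hq₂
  rw [← hQmul, h₁, h₂] at hord
  -- the algebraic side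
  have hW := (ModelAlg.act (dq_PM N) γ • Winf).ord_mul hθfM ha₂
  rw [hrel] at hW
  have hH1 := H1 (θ f) hθf
  rw [ModelCounts.placeMap_ord] at hH1
  rw [hH1] at hW
  rw [hW] at hord
  push_cast
  linarith
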