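/-
S42 moonshot — block DQ, package CXA (DQ4 assembly: cusps and widths), twin A.
`dqcxa_main : al_PeriodStatement → dict_RepStatement → dq_CuspEveryStatement →
  dq_CuspWeakStatement → dq_CuspCountStatement → dict_CuspPlaceStatement`.
-/
import Fermat.Agent.S42.DQInterfaces
import Fermat.Agent.S42.ALInterfaces

set_option autoImplicit false

open UpperHalfPlane ModularForm Complex CongruenceSubgroup ModularGroup AlgebraicCurve
open IntermediateField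
open scoped MatrixGroups Manifold Real

namespace Fermat.Agent.S42

open Fermat.Agent.S24

noncomputable section

/-- `(P, e)` is attached to `γ`. -/
def dqcxa_Att (N : ℕ) [NeZero N] (γ : SL(2, ℤ)) (P : Place Kbar ↥(FNbar N)) (e : ℕ) : Prop :=
  0 < e ∧ ∀ (f : ↥(FNbar N)) (φ : ℍ → ℂ), f ≠ 0 → dict_An (f : LaurentSeries Kbar) φ →
    dict_ModFun N φ →
    ((Qexp N (fun z : ℍ => φ (γ • z))).order : ℤ) = (e : ℤ) * P.ord f

/-- Extension of an additive property from realised elements to all nonzero elements. -/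
theorem dqcxa_rep (hRep : dict_RepStatement) (N : ℕ) [NeZero N] (A : ↥(FNbar N) → ℤ)
    (S : AddSubgroup ℤ)
    (hA : ∀ f g : ↥(FNbar N), f ≠ 0 → g ≠ 0 → A (f * g) = A f + A g)
    (h : ∀ (f : ↥(FNbar N)) (φ : ℍ → ℂ), f ≠ 0 → dict_An (f : LaurentSeries Kbar) φ →
      dict_ModFun N φ → A f ∈ S) :
    ∀ f : ↥(FNbar N), f ≠ 0 → A f ∈ S := by
  intro f hf
  obtain ⟨f₁, f₂, φ₁, φ₂, hf₂, hff, h1, h2, hm1, hm2⟩ := hRep N f
  have hf₁ : f₁ ≠ 0 := by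
    rw [← hff]
    exact mul_ne_zero hf hf₂
  have e1 := hA f f₂ hf hf₂
  rw [hff] at e1
  have m1 := h f₁ φ₁ hf₁ h1 hm1
  have m2 := h f₂ φ₂ hf₂ h2 hm2
  have e2 : A f = A f₁ - A f₂ := by omega
  rw [e2]
  exact S.sub_mem m1 m2

/-- (U) Uniqueness of the attached place. -/
theorem dqcxa_uniq (hRep : dict_RepStatement) (N : ℕ) [NeZero N] (γ γ' : SL(2, ℤ))
    (P P' : Place Kbar ↥(FNbar N)) (e e' : ℕ) (h1 : dqcxa_Att N γ P e)
    (h2 : dqcxa_Att N γ' P' e')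
    (h : ∀ (f : ↥(FNbar N)) (φ : ℍ → ℂ), f ≠ 0 → dict_An (f : LaurentSeries Kbar) φ →
      dict_ModFun N φ →
      (Qexp N (fun z : ℍ => φ (γ • z))).order = (Qexp N (fun z : ℍ => φ (γ' • z))).order) :
    P = P' := by
  have key : ∀ f : ↥(FNbar N), f ≠ 0 →
      (fun f : ↥(FNbar N) => (e : ℤ) * P.ord f - (e' : ℤ) * P'.ord f) f ∈
        (⊥ : AddSubgroup ℤ) := by
    apply dqcxa_rep hRep N (fun f => (e : ℤ) * P.ord f - (e' : ℤ) * P'.ord f) ⊥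
    · intro f g hf hg
      show (e : ℤ) * P.ord (f * g) - (e' : ℤ) * P'.ord (f * g) = _
      rw [P.ord_mul hf hg, P'.ord_mul hf hg]
      ring
    · intro f φ hf hAn hM
      have a1 := h1.2 f φ hf hAn hM
      have a2 := h2.2 f φ hf hAn hM
      rw [h f φ hf hAn hM] at a1
      rw [AddSubgroup.mem_bot]
      show (e : ℤ) * P.ord f - (e' : ℤ) * P'.ord f = 0
      linarith
  have key' : ∀ f : ↥(FNbar N), f ≠ 0 → (e : ℤ) * P.ord f = (e' : ℤ) * P'.ord f := by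
    intro f hf
    have h0 := key f hf
    rw [AddSubgroup.mem_bot] at h0
    have h0' : (e : ℤ) * P.ord f - (e' : ℤ) * P'.ord f = 0 := h0
    linarith
  have he : (0 : ℤ) < e := by exact_mod_cast h1.1
  have he' : (0 : ℤ) < e' := by exact_mod_cast h2.1
  apply Place.ext
  apply SetLike.ext
  intro f
  rw [GalB.mem_iff_ord_nonneg, GalB.mem_iff_ord_nonneg]
  rcases eq_or_ne f 0 with rfl | hf
  · simp
  have h3 := key' f hf
  constructor
  · intro h0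
    by_contra hc
    have hc' := not_le.mp hc
    nlinarith
  · intro h0
    by_contra hc
    have hc' := not_le.mp hc
    nlinarith

/-- (J) `j` is realised by `Jfun`. -/
theorem dqcxa_J_an (N : ℕ) [NeZero N] :
    dict_An ((jBar N : ↥(FNbar N)) : LaurentSeries Kbar) Jfun := by
  refine ⟨⟨1, dq_hJQ.1⟩, ?_⟩
  rw [dq_hJQ.2]
  ext n
  show _ = (ModularCurve.coeffMap iotaHom (ModularCurve.coeffEmb Kbar ModularCurve.jq)).coeff n
  rw [ModularCurve.coeffMap_coeff, ModularCurve.coeffMap_coeff, ModularCurve.coeffEmb_coeff,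
    PreModelGens.iotaHom_algebraMap_rat]

theorem dqcxa_J_comp (γ : SL(2, ℤ)) : (fun z : ℍ => Jfun (γ • z)) = Jfun := by
  funext z
  exact dq_hJB.2.1 γ z

theorem dqcxa_J_mod (N : ℕ) [NeZero N] : dict_ModFun N Jfun := by
  refine ⟨fun γ _ z => dq_hJB.2.1 γ z, fun γ => ?_⟩
  rw [dqcxa_J_comp]
  exact (dq_hQ.2.2.2.2.2.1 N Jfun ⟨1, dq_hJQ.1⟩).1

theorem dqcxa_J_order (N : ℕ) [NeZero N] (γ : SL(2, ℤ)) :
    (Qexp N (fun z : ℍ => Jfun (γ • z))).order = -(N : ℤ) := by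
  rw [dqcxa_J_comp]
  have h := ModelAlg.order_q_J (dq_PM N)
  rw [dq_PM_q, dq_PM_J] at h
  exact h

theorem dqcxa_J_ne (N : ℕ) [NeZero N] : jBar N ≠ 0 := by
  intro h0
  have h1 := (dqcxa_J_an N).2
  rw [h0] at h1
  have h2 : Qexp 1 Jfun = 0 := by
    rw [h1]
    simp
  have h3 := (dq_hQ.2.2.2.2.2.1 N Jfun ⟨1, dq_hJQ.1⟩).2
  rw [h2, map_zero] at h3
  have h4 := dqcxa_J_order N 1
  rw [dqcxa_J_comp, h3, HahnSeries.order_zero] at h4
  have hN : (N : ℤ) ≠ 0 := by exact_mod_cast NeZero.ne N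
  omega

/-- (J) consequence. -/
theorem dqcxa_att_J (N : ℕ) [NeZero N] (γ : SL(2, ℤ)) (P : Place Kbar ↥(FNbar N)) (e : ℕ)
    (h : dqcxa_Att N γ P e) : -(N : ℤ) = (e : ℤ) * P.ord (jBar N) := by
  have h1 := h.2 (jBar N) Jfun (dqcxa_J_ne N) (dqcxa_J_an N) (dqcxa_J_mod N)
  rw [dqcxa_J_order] at h1
  exact h1

/-- Periodicity of `φ ∘ γ` with the period `h` when `γ T^h γ⁻¹ ∈ Γ₀(N)`. -/
theorem dqcxa_periodic (N : ℕ) (γ : SL(2, ℤ)) (h : ℕ)
    (hγ : γ * T ^ h * γ⁻¹ ∈ Gamma0 N) (φ : ℍ → ℂ) (hInv : dict_Inv N φ) :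
    Function.Periodic ((fun z : ℍ => φ (γ • z)) ∘ ofComplex) ((h : ℝ) : ℂ) := by
  intro z
  show φ (γ • ofComplex (z + ((h : ℝ) : ℂ))) = φ (γ • ofComplex z)
  by_cases hz : 0 < z.im
  · have hz' : 0 < (z + ((h : ℝ) : ℂ)).im := by simpa using hz
    rw [ofComplex_apply_of_im_pos hz, ofComplex_apply_of_im_pos hz']
    have e1 : (⟨z + ((h : ℝ) : ℂ), hz'⟩ : ℍ) = T ^ (h : ℤ) • (⟨z, hz⟩ : ℍ) := by
      rw [modular_T_zpow_smul]
      apply UpperHalfPlane.ext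
      rw [coe_vadd]
      show z + ((h : ℝ) : ℂ) = ((((h : ℤ) : ℝ)) : ℂ) + z
      push_cast
      ring
    rw [e1, zpow_natCast]
    have e2 : γ • (T ^ h • (⟨z, hz⟩ : ℍ)) = (γ * T ^ h * γ⁻¹) • (γ • (⟨z, hz⟩ : ℍ)) := by
      rw [← mul_smul, ← mul_smul]
      congr 1
      group
    rw [e2]
    exact hInv _ hγ _
  · have hz1 : z.im ≤ 0 := not_lt.mp hz
    have hz' : (z + ((h : ℝ) : ℂ)).im ≤ 0 := by simpa using hz1
    rw [ofComplex_apply_of_im_nonpos hz1, ofComplex_apply_of_im_nonpos hz']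

/-- (D) Divisibility. -/
theorem dqcxa_div (hPer : al_PeriodStatement) (hRep : dict_RepStatement) (N : ℕ) [NeZero N]
    (γ : SL(2, ℤ)) (P : Place Kbar ↥(FNbar N)) (e : ℕ) (hAtt : dqcxa_Att N γ P e)
    (h : ℕ) (h0 : 0 < h) (hN : h ∣ N) (hγ : γ * T ^ h * γ⁻¹ ∈ Gamma0 N) : (N / h) ∣ e := by
  have : NeZero h := ⟨by omega⟩
  have key : ∀ f : ↥(FNbar N), f ≠ 0 →
      (fun f : ↥(FNbar N) => (e : ℤ) * P.ord f) f ∈
        AddSubgroup.zmultiples (((N / h : ℕ) : ℤ)) := by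
    apply dqcxa_rep hRep N (fun f => (e : ℤ) * P.ord f) _
    · intro f g hf hg
      show (e : ℤ) * P.ord (f * g) = _
      rw [P.ord_mul hf hg]
      ring
    · intro f φ hf hAn hM
      show (e : ℤ) * P.ord f ∈ _
      rw [← hAtt.2 f φ hf hAn hM, Int.mem_zmultiples_iff]
      by_cases hq : Qexp N (fun z : ℍ => φ (γ • z)) = 0
      · rw [hq, HahnSeries.order_zero]
        exact dvd_zero _
      · exact hPer N h (fun z : ℍ => φ (γ • z)) hN (hM.2 γ)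
          (dqcxa_periodic N γ h hγ φ hM.1) _ (fun hc => hq (HahnSeries.coeff_order_eq_zero.mp hc))
  obtain ⟨u, hu⟩ := IsDiscreteValuationRing.exists_irreducible P.toValuationSubring
  have h1 := P.ord_coe_irreducible hu
  have hu0 : ((u : ↥(FNbar N))) ≠ 0 := by
    intro hc
    rw [hc, Place.ord_zero] at h1
    omega
  have h2 := key _ hu0
  rw [Int.mem_zmultiples_iff] at h2
  have h3 : (((N / h : ℕ) : ℤ)) ∣ (e : ℤ) * P.ord ((u : ↥(FNbar N))) := h2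
  rw [h1, mul_one] at h3
  exact_mod_cast h3

/-- The lower left entry of `γ T^k γ⁻¹`. -/
theorem dqcxa_conj_entry (γ : SL(2, ℤ)) (k : ℤ) :
    ((γ * T ^ k * γ⁻¹ : SL(2, ℤ)) 1 0 : ℤ) = -((γ 1 0) ^ 2 * k) := by
  rw [Matrix.SpecialLinearGroup.coe_mul, Matrix.SpecialLinearGroup.coe_mul, coe_T_zpow,
    Matrix.SpecialLinearGroup.coe_inv, Matrix.adjugate_fin_two]
  simp [Matrix.mul_apply, Fin.sum_univ_two]
  ring

theorem dqcxa_conj_mem (N : ℕ) (γ : SL(2, ℤ)) (k : ℤ) :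
    γ * T ^ k * γ⁻¹ ∈ Gamma0 N ↔ (N : ℤ) ∣ (γ 1 0) ^ 2 * k := by
  rw [Gamma0_mem, ZMod.intCast_zmod_eq_zero_iff_dvd, dqcxa_conj_entry, dvd_neg]

theorem dqcxa_conj_gcd (N : ℕ) (γ : SL(2, ℤ)) (h : ℕ) (hγ : γ * T ^ h * γ⁻¹ ∈ Gamma0 N) :
    γ * T ^ (Nat.gcd h N) * γ⁻¹ ∈ Gamma0 N := by
  rw [← zpow_natCast, dqcxa_conj_mem] at hγ ⊢
  rw [Nat.gcd_eq_gcd_ab, mul_add]
  apply dvd_add
  · rw [← mul_assoc]
    exact Dvd.dvd.mul_right hγ _
  · rw [← mul_assoc]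
    exact Dvd.dvd.mul_right (Dvd.intro_left _ rfl) _

/-- (L) Bound. -/
theorem dqcxa_bound (hPer : al_PeriodStatement) (hRep : dict_RepStatement) (N : ℕ) [NeZero N]
    (γ : SL(2, ℤ)) (P : Place Kbar ↥(FNbar N)) (e : ℕ) (hAtt : dqcxa_Att N γ P e)
    (h : ℕ) (h0 : 0 < h) (hγ : γ * T ^ h * γ⁻¹ ∈ Gamma0 N) :
    -P.ord (jBar N) ≤ (h : ℤ) := by
  have hN0 : 0 < N := Nat.pos_of_ne_zero (NeZero.ne N)
  have hg0 : 0 < Nat.gcd h N := Nat.gcd_pos_of_pos_left N h0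
  have hgN : Nat.gcd h N ∣ N := Nat.gcd_dvd_right h N
  have hgh : Nat.gcd h N ≤ h := Nat.gcd_le_left N h0
  have hd := dqcxa_div hPer hRep N γ P e hAtt (Nat.gcd h N) hg0 hgN (dqcxa_conj_gcd N γ h hγ)
  have hJ := dqcxa_att_J N γ P e hAtt
  have he : 0 < e := hAtt.1
  -- N ≤ e * gcd
  have h1 : N / Nat.gcd h N ≤ e := Nat.le_of_dvd he hd
  have h2 : N ≤ e * Nat.gcd h N := by
    calc N = N / Nat.gcd h N * Nat.gcd h N := (Nat.div_mul_cancel hgN).symm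
      _ ≤ e * Nat.gcd h N := Nat.mul_le_mul_right _ h1
  have h3 : (N : ℤ) ≤ (e : ℤ) * (Nat.gcd h N : ℤ) := by exact_mod_cast h2
  have h4 : ((Nat.gcd h N : ℕ) : ℤ) ≤ (h : ℤ) := by exact_mod_cast hgh
  have he' : (0 : ℤ) < e := by exact_mod_cast he
  by_contra hc
  have hc' := not_le.mp hc
  nlinarith

/-- (A) Assembly. -/
theorem dqcxa_main : al_PeriodStatement → dict_RepStatement → dq_CuspEveryStatement →
    dq_CuspWeakStatement → dq_CuspCountStatement → dict_CuspPlaceStatement := by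
  intro hPer hRep hCE hCW hCC N _ P hP
  choose p e hpe using hCE N
  have hAtt : ∀ γ, dqcxa_Att N γ (p γ) (e γ) := fun γ => ⟨(hpe γ).1, (hpe γ).2.2⟩
  have hp1 : ∀ γ, (p γ).ord (jBar N) < 0 := fun γ => (hpe γ).2.1
  have hp2 : ∀ γ g : SL(2, ℤ), g ∈ Gamma0 N → p (g * γ) = p γ := by
    intro γ g hg
    apply dqcxa_uniq hRep N (g * γ) γ _ _ _ _ (hAtt (g * γ)) (hAtt γ)
    intro f φ hf hAn hM
    have e1 : (fun z : ℍ => φ ((g * γ) • z)) = (fun z : ℍ => φ (γ • z)) := by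
      funext z
      rw [mul_smul]
      exact hM.1 g hg _
    rw [e1]
  have hp3 : ∀ γ : SL(2, ℤ), p (γ * T) = p γ := by
    intro γ
    apply dqcxa_uniq hRep N (γ * T) γ _ _ _ _ (hAtt (γ * T)) (hAtt γ)
    intro f φ hf hAn hM
    have e1 : (fun τ : ℍ => (fun z : ℍ => φ ((γ * T) • z)) (T⁻¹ • τ)) =
        (fun z : ℍ => φ (γ • z)) := by
      funext z
      show φ ((γ * T) • (T⁻¹ • z)) = φ (γ • z)
      rw [← mul_smul]
      congr 2
      group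
    have e2 := PreModelGens.qexp_translate_order dq_hQ N (fun z : ℍ => φ ((γ * T) • z))
      (hM.2 (γ * T)) (by rw [e1]; exact hM.2 γ)
    rw [e1] at e2
    exact e2.symm
  have hp4 : ∀ P : Place Kbar ↥(FNbar N), P.ord (jBar N) < 0 → ∃ γ, p γ = P := by
    intro P hP
    obtain ⟨γ, e', he', hh⟩ := hCW N P hP
    refine ⟨γ, ?_⟩
    exact dqcxa_uniq hRep N γ γ _ _ _ _ (hAtt γ) ⟨he', hh⟩ (fun _ _ _ _ _ => rfl)
  have hp5 : ∀ (γ : SL(2, ℤ)) (h : ℕ), 0 < h → γ * T ^ h * γ⁻¹ ∈ Gamma0 N →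
      - (p γ).ord (jBar N) ≤ (h : ℤ) := by
    intro γ h h0 hγ
    exact dqcxa_bound hPer hRep N γ (p γ) (e γ) (hAtt γ) h h0 hγ
  have hcc := hCC N p hp1 hp2 hp3 hp4 hp5
  obtain ⟨γ, rfl⟩ := hp4 P hP
  have hJ := dqcxa_att_J N γ (p γ) (e γ) (hAtt γ)
  have hneg := hp1 γ
  have hnat : (((- (p γ).ord (jBar N)).toNat : ℕ) : ℤ) = - (p γ).ord (jBar N) :=
    Int.toNat_of_nonneg (by omega)
  have hNe : N = e γ * (- (p γ).ord (jBar N)).toNat := by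
    have : (N : ℤ) = (e γ : ℤ) * (((- (p γ).ord (jBar N)).toNat : ℕ) : ℤ) := by
      rw [hnat]
      linarith
    exact_mod_cast this
  have hpos : 0 < (- (p γ).ord (jBar N)).toNat := by
    have : (0 : ℤ) < (((- (p γ).ord (jBar N)).toNat : ℕ) : ℤ) := by
      rw [hnat]
      omega
    exact_mod_cast this
  refine ⟨γ, (- (p γ).ord (jBar N)).toNat, hpos, Dvd.intro_left _ hNe.symm, hcc γ, ?_⟩
  intro f φ hf hAn hM
  have hdiv : N / (- (p γ).ord (jBar N)).toNat = e γ :=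
    Nat.div_eq_of_eq_mul_left hpos hNe
  rw [hdiv]
  exact (hAtt γ).2 f φ hf hAn hM

end

end Fermat.Agent.S42
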