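/-
S42 moonshot, block DQ, package GEN (twin A): the generators `j(q^d)`, `d ∣ N`, of `FNbar N` are
realised by the integral modular functions `τ ↦ j(dτ)` (`slConj d 1`).
Main theorem: `dqgena_main : dq_GenStatement`.
-/
import Fermat.Agent.S42.DQInterfaces

set_option autoImplicit false

open UpperHalfPlane ModularForm Complex CongruenceSubgroup ModularGroup AlgebraicCurve
open IntermediateField
open scoped MatrixGroups Manifold Real

namespace Fermat.Agent.S42

open Fermat.Agent.S24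

noncomputable section

/-- (a) `τ ↦ j(dτ)` is `1`-periodic, meromorphic at `∞`, with `q`-expansion `jq(q^d)`. -/
theorem dqgena_an (d : ℕ) [NeZero d] :
    dict_An (ModularCurve.coeffEmb Kbar (ModularCurve.qExpand ℚ d ModularCurve.jq))
      (slConj d 1) := by
  have hd0 : 0 < d := NeZero.pos d
  have hJ1 : IsCuspMer 1 Jfun := ⟨1, dq_hJQ.1⟩
  obtain ⟨h1, h2⟩ := dq_hQ.2.2.2.2.2.2.2.2 d 1 0 1 hd0 one_pos (one_dvd 1) Jfun hJ1
  rw [PreModelGens.slConj_one]
  show IsCuspMer 1 (fun τ : ℍ => Jfun (utGL d 0 1 • τ)) ∧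
    Qexp 1 (fun τ : ℍ => Jfun (utGL d 0 1 • τ)) = ModularCurve.coeffMap iotaHom
      (ModularCurve.coeffEmb Kbar (ModularCurve.qExpand ℚ d ModularCurve.jq))
  refine ⟨h1, ?_⟩
  ext n
  rw [h2 n, Nat.div_one, mul_one]
  by_cases hn : (d : ℤ) ∣ n
  · rw [if_pos hn]
    obtain ⟨m, rfl⟩ := hn
    have hd' : (d : ℤ) ≠ 0 := by positivity
    rw [Int.mul_ediv_cancel_left _ hd', dq_hJQ.2, ModularCurve.coeffMap_coeff,
      ModularCurve.coeffMap_coeff, ModularCurve.coeffEmb_coeff, ModularCurve.qExpand_coeff_mul,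
      PreModelGens.iotaHom_algebraMap_rat]
    simp
  · rw [if_neg hn, ModularCurve.coeffMap_coeff, ModularCurve.coeffEmb_coeff,
      ModularCurve.qExpand_coeff_of_not_dvd d _ hn, map_zero, map_zero]

/-- (b) `τ ↦ j(dτ)` is `Γ₀(N)`-invariant for `d ∣ N`. -/
theorem dqgena_inv (N : ℕ) (d : ℕ) [NeZero d] (hd : d ∣ N) : dict_Inv N (slConj d 1) := by
  have hd0 : 0 < d := NeZero.pos d
  intro γ hγ z
  have hγd : γ ∈ Gamma0 d := by
    rw [Gamma0_mem, ZMod.intCast_zmod_eq_zero_iff_dvd] at hγ ⊢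
    exact (Int.natCast_dvd_natCast.mpr hd).trans hγ
  rw [PreModelGens.slConj_one]
  exact (dq_hC.2.2.1 d γ hd0).mpr hγd z

/-- (c) `τ ↦ j(dτ)` is meromorphic at all cusps (period `N`, `d ∣ N`). -/
theorem dqgena_cuspMer (N : ℕ) [NeZero N] (d : ℕ) [NeZero d] (hd : d ∣ N) :
    dict_CuspMer N (slConj d 1) := by
  intro γ
  have h : (fun z : ℍ => slConj d 1 (γ • z)) = slConj d γ⁻¹ := by
    funext z
    rw [PreModelGens.slConj_apply, PreModelGens.slConj_apply, inv_one, one_smul, inv_inv]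
  rw [h]
  exact (PreModelGens.slConj_props dq_hJB dq_hJQ dq_hQ dq_hC N d hd γ⁻¹).2.1

/-- (GEN) -/
theorem dqgena_main : dq_GenStatement := by
  intro N _ d _ hd
  exact ⟨dqgena_an d, dqgena_inv N d hd, dqgena_cuspMer N d hd⟩

end

end Fermat.Agent.S42
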