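/-
S42 moonshot, block DQ, package LD (linear disjointness), twin A.
An element of `FNC N` all of whose coefficients lie in `ℚ̄` comes from `FNbar N`.
-/
import Fermat.Agent.S42.DQInterfaces

set_option autoImplicit false

open UpperHalfPlane ModularForm Complex CongruenceSubgroup ModularGroup AlgebraicCurve
open IntermediateField
open scoped MatrixGroups Manifold Real

namespace Fermat.Agent.S42

open Fermat.Agent.S24

noncomputable section

/-- The generators of `FNC N` are the images of the generators of `FNbar N`. -/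
theorem dqlda_gen (d : ℕ) [NeZero d] :
    ModularCurve.coeffMap iotaHom
        (ModularCurve.coeffEmb Kbar (ModularCurve.qExpand ℚ d ModularCurve.jq)) =
      ModularCurve.qExpand ℂ d (ModularCurve.jqModC ℂ) := by
  rw [ModularCurve.coeffEmb, ModularCurve.coeffMap_coeffMap, ModularCurve.coeffMap_qExpand,
    ← ModularCurve.jqModC_rat, ModularCurve.coeffMap_jqModC]

/-- The monoid generated by the generators of `FNC N` consists of images of elements of
`FNbar N`. -/
theorem dqlda_closure (N : ℕ) [NeZero N] (w : LaurentSeries ℂ)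
    (hw : w ∈ Submonoid.closure (ModularCurve.divisorExpansionsC ℂ N)) :
    ∃ a : LaurentSeries Kbar, a ∈ FNbar N ∧ ModularCurve.coeffMap iotaHom a = w := by
  induction hw using Submonoid.closure_induction with
  | mem w hw =>
    obtain ⟨d, hd, hdN, rfl⟩ := hw
    have hd' : NeZero d := hd
    exact ⟨_, ModularCurve.coeffEmb_mem_laurentBaseChange Kbar (ModularCurve.jqd_mem_full N hdN),
      dqlda_gen d⟩
  | one => exact ⟨1, one_mem _, map_one _⟩
  | mul w₁ w₂ _ _ h₁ h₂ =>
    obtain ⟨a₁, ha₁, rfl⟩ := h₁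
    obtain ⟨a₂, ha₂, rfl⟩ := h₂
    exact ⟨a₁ * a₂, mul_mem ha₁ ha₂, map_mul _ _ _⟩

/-- Coefficientwise `ℚ̄`-linear functionals map the `ℂ`-algebra generated by the generators of
`FNC N` into `FNbar N` and are linear over `ℚ̄((q))` there. -/
theorem dqlda_key (N : ℕ) [NeZero N] (f₀ : LaurentSeries Kbar) (w : LaurentSeries ℂ)
    (hw : w ∈ Algebra.adjoin ℂ (ModularCurve.divisorExpansionsC ℂ N)) :
    ∀ l : ℂ →+ Kbar, (∀ (a : Kbar) (z : ℂ), l (iotaHom a * z) = a * l z) →
      (w.map l ∈ FNbar N ∧ (ModularCurve.coeffMap iotaHom f₀ * w).map l = f₀ * w.map l) := by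
  have h1 : w ∈ Subalgebra.toSubmodule
      (Algebra.adjoin ℂ (ModularCurve.divisorExpansionsC ℂ N)) := hw
  rw [Algebra.adjoin_eq_span] at h1
  clear hw
  induction h1 using Submodule.span_induction with
  | mem w hw =>
    obtain ⟨a, ha, rfl⟩ := dqlda_closure N w hw
    intro l hl
    have h1 : ∀ b : LaurentSeries Kbar, (ModularCurve.coeffMap iotaHom b).map l =
        algebraMap Kbar (LaurentSeries Kbar) (l 1) * b := by
      intro b
      ext n
      rw [ModularCurve.algebraMap_laurentSeries_eq_single, HahnSeries.map_coeff,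
        ModularCurve.coeffMap_coeff, HahnSeries.coeff_single_mul, sub_zero]
      have h := hl (b.coeff n) 1
      rw [mul_one] at h
      rw [h, mul_comm]
    constructor
    · rw [h1]
      exact mul_mem ((FNbar N).algebraMap_mem _) ha
    · rw [← map_mul, h1, h1, mul_left_comm]
  | zero =>
    intro l hl
    have h0 : (0 : LaurentSeries ℂ).map l = 0 := by
      ext n
      simp
    rw [mul_zero, h0, mul_zero]
    exact ⟨zero_mem _, rfl⟩
  | add w₁ w₂ _ _ h₁ h₂ =>
    intro l hl
    have hadd : ∀ u v : LaurentSeries ℂ, (u + v).map l = u.map l + v.map l := by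
      intro u v
      ext n
      simp
    obtain ⟨h11, h12⟩ := h₁ l hl
    obtain ⟨h21, h22⟩ := h₂ l hl
    refine ⟨?_, ?_⟩
    · rw [hadd]
      exact add_mem h11 h21
    · rw [mul_add, hadd, hadd, h12, h22, mul_add]
  | smul z w _ h =>
    intro l hl
    have hlz' : ∀ (a : Kbar) (y : ℂ),
        (l.comp (AddMonoidHom.mulLeft z)) (iotaHom a * y) =
          a * (l.comp (AddMonoidHom.mulLeft z)) y := by
      intro a y
      show l (z * (iotaHom a * y)) = a * l (z * y)
      rw [← hl, mul_left_comm]
    have hsm : ∀ u : LaurentSeries ℂ, (algebraMap ℂ (LaurentSeries ℂ) z * u).map l =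
        u.map (l.comp (AddMonoidHom.mulLeft z)) := by
      intro u
      ext n
      rw [ModularCurve.algebraMap_laurentSeries_eq_single, HahnSeries.map_coeff,
        HahnSeries.map_coeff, HahnSeries.coeff_single_mul, sub_zero]
      rfl
    obtain ⟨h1, h2⟩ := h (l.comp (AddMonoidHom.mulLeft z)) hlz'
    rw [Algebra.smul_def]
    refine ⟨?_, ?_⟩
    · rw [hsm]
      exact h1
    · rw [mul_left_comm, hsm, hsm, h2]

/-- A `ℚ̄`-linear functional on `ℂ` not vanishing at a given nonzero number. -/
theorem dqlda_exists_functional (z₀ : ℂ) (hz₀ : z₀ ≠ 0) :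
    ∃ l : ℂ →+ Kbar, (∀ (a : Kbar) (z : ℂ), l (iotaHom a * z) = a * l z) ∧ l z₀ ≠ 0 := by
  let _inst : Module Kbar ℂ := Module.compHom ℂ iotaHom
  have h := (Module.forall_dual_apply_eq_zero_iff Kbar z₀).not.mpr hz₀
  push Not at h
  obtain ⟨φ, hφ⟩ := h
  refine ⟨φ.toAddMonoidHom, ?_, hφ⟩
  intro a z
  have h1 : iotaHom a * z = a • z := rfl
  show φ (iotaHom a * z) = a * φ z
  rw [h1, map_smul, smul_eq_mul]

/-- (LD) Linear disjointness. -/
theorem dqlda_main : dq_LDStatement := by
  intro N _ x hx hrat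
  choose g hg using hrat
  have hinj : Function.Injective iotaHom := iotaHom.injective
  let f₀ : LaurentSeries Kbar := ⟨g, x.isPWO_support.mono (by
    intro n hn
    rw [Function.mem_support] at hn
    rw [HahnSeries.mem_support]
    intro h0
    apply hn
    apply hinj
    rw [hg, h0, map_zero])⟩
  have hf₀ : ModularCurve.coeffMap iotaHom f₀ = x := by
    ext n
    exact hg n
  refine ⟨f₀, ?_, hf₀⟩
  obtain ⟨A, hA, B, hB, hxAB⟩ := IntermediateField.mem_adjoin_iff_div.mp hx
  by_cases hB0 : B = 0
  · have hx0 : x = 0 := by rw [hxAB, hB0, div_zero]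
    have hf0 : f₀ = 0 := by
      apply (ModularCurve.coeffMap iotaHom).injective
      rw [hf₀, hx0, map_zero]
    rw [hf0]
    exact zero_mem _
  · have hxB : x * B = A := by rw [hxAB, div_mul_cancel₀ _ hB0]
    obtain ⟨n, hn⟩ : ∃ n, B.coeff n ≠ 0 := by
      by_contra hcon
      apply hB0
      ext n
      by_contra hn
      exact hcon ⟨n, hn⟩
    obtain ⟨l, hl, hln⟩ := dqlda_exists_functional _ hn
    obtain ⟨hB1, hB2⟩ := dqlda_key N f₀ B hB l hl
    obtain ⟨hA1, -⟩ := dqlda_key N f₀ A hA l hl
    rw [hf₀, hxB] at hB2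
    have hBl : B.map l ≠ 0 := by
      intro h
      apply hln
      have h' := congrArg (fun u : LaurentSeries Kbar => u.coeff n) h
      simpa using h'
    have hf : f₀ = A.map l / B.map l := by
      rw [hB2, mul_div_assoc, div_self hBl, mul_one]
    rw [hf]
    exact div_mem hA1 hB1

end

end Fermat.Agent.S42
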