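/-
S42 moonshot — block DQ, package PPA (twin A): finite places of `FNbar N` come from points of
the upper half plane (`dict_PlacePointStatement`), from the bridge and the Galois transfer.
-/
import Fermat.Agent.S42.DQInterfaces

set_option autoImplicit false

open UpperHalfPlane ModularForm Complex CongruenceSubgroup ModularGroup AlgebraicCurve
open IntermediateField
open scoped MatrixGroups Manifold Real

namespace Fermat.Agent.S42

open Fermat.Agent.S24

noncomputable section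

/-- For every `c : ℚ̄` there is a point `z₀` with `j(z₀) = c` at which `j - c` vanishes to order
`1`, `2` or `3`. -/
theorem dqppa_point (c : Kbar) : ∃ z₀ : ℍ, Jfun z₀ = iotaHom c ∧
    (ordAt z₀ (fun z => Jfun z - iotaHom c) = 1 ∨ ordAt z₀ (fun z => Jfun z - iotaHom c) = 2 ∨
      ordAt z₀ (fun z => Jfun z - iotaHom c) = 3) := by
  by_cases h1 : c = 1728
  · subst h1
    refine ⟨ellI, ?_, Or.inr (Or.inl ?_)⟩
    · rw [map_ofNat iotaHom 1728]
      exact dq_hJB.2.2.1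
    · have h : (fun z => Jfun z - iotaHom 1728) = fun z => Jfun z - 1728 := by
        funext z
        rw [map_ofNat iotaHom 1728]
      rw [h]
      exact dq_hJO.2.1
  · by_cases h0 : c = 0
    · subst h0
      refine ⟨ellRho, ?_, Or.inr (Or.inr ?_)⟩
      · rw [map_zero]
        exact dq_hJB.2.2.2
      · have h : (fun z => Jfun z - iotaHom 0) = Jfun := by
          funext z
          rw [map_zero, sub_zero]
        rw [h]
        exact dq_hJO.2.2
    · obtain ⟨z₀, hz₀⟩ := dq_hJS (iotaHom c)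
      refine ⟨z₀, hz₀, Or.inl ?_⟩
      rw [← hz₀]
      refine dq_hJO.1 z₀ ?_ ?_
      · rw [hz₀]
        exact (map_ne_zero iotaHom).mpr h0
      · rw [hz₀]
        intro h
        apply h1
        apply iotaHom.injective
        rw [h]
        exact (map_ofNat iotaHom 1728).symm

/-- Integer arithmetic: `k = m * o` with `k ∈ {1, 2, 3}`, `m ≥ 1`, `o ≥ 1` forces
`m ∈ {1, 2, 3}`. -/
theorem dqppa_arith {k m : ℕ} {o : ℤ} (hk : k = 1 ∨ k = 2 ∨ k = 3) (hm : 0 < m) (ho : 0 < o)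
    (h : (k : ℤ) = m * o) : m = 1 ∨ m = 2 ∨ m = 3 := by
  have hm' : (1 : ℤ) ≤ m := by exact_mod_cast hm
  have hle : (m : ℤ) ≤ k := by nlinarith
  have hle' : m ≤ k := by exact_mod_cast hle
  rcases hk with rfl | rfl | rfl <;> omega

/-- (DQ3) Every finite place of `FNbar N` comes from a point of `ℍ`, with multiplicity
`m ∈ {1, 2, 3}`. -/
theorem dqppa_main : dq_BridgeStatement → dq_TransferStatement → dict_PlacePointStatement := by
  intro hBr hTr N _ P h0
  have hMM : ModularModelStatement := ModelAlg.modularModelStatement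
    (PreModelBuild.preModelStatement dq_hJB dq_hJO dq_hJS dq_hJQ dq_hQ dq_hLP dq_hC dq_hPV) dq_hV
  have hMC := ModelCounts.modelCountsStatement dq_hGal dq_hZeros hMM N
  obtain ⟨c, hc⟩ := dq_hCenter Kbar ↥(FNbar N) (jBar N) hMC.1 hMC.2.1 P h0
  obtain ⟨z₀, hz₀, hk₀⟩ := dqppa_point c
  obtain ⟨θ, hθj, hθ⟩ := hBr N
  -- the valuation at `z₀`
  have hv : IsAddVal (PreModelBuild.valAt N z₀) :=
    PreModelBuild.isAddVal_valAt dq_hPV (dq_good N) z₀
  have hx₀ : (dq_PM N).J - algebraMap Kbar (dq_PM N).R c ≠ 0 :=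
    ModelAlg.J_sub_ne_zero (dq_PM N) c
  have hfun₀ : dq_fun N ((dq_PM N).J - algebraMap Kbar (dq_PM N).R c)
      = fun z => Jfun z - iotaHom c := by
    funext z
    show dq_fun N (dq_PM N).J z - iotaHom c = Jfun z - iotaHom c
    rw [dq_PM_J]
  have hhol : MDifferentiable 𝓘(ℂ) 𝓘(ℂ) (fun z => Jfun z - iotaHom c) := by
    rw [← hfun₀]
    exact (dq_good N).mdiff _
  have hvx₀ : PreModelBuild.valAt N z₀ ((dq_PM N).J - algebraMap Kbar (dq_PM N).R c)
      = ordAt z₀ (fun z => Jfun z - iotaHom c) := by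
    rw [dq_valAt, hfun₀]
  have hk₀pos : 0 < ordAt z₀ (fun z => Jfun z - iotaHom c) := by
    rcases hk₀ with h | h | h <;> rw [h] <;> norm_num
  obtain ⟨W₀, e₀, he₀, H0, -, -⟩ := ModelAlg.exists_place_of_isAddVal (dq_PM N) dq_hV
    (PreModelBuild.valAt N z₀) hv ⟨_, hx₀, by rw [hvx₀]; exact hk₀pos.ne'⟩
  -- the element `s = J - c`
  have hsF : ModelAlg.JM (dq_PM N) - algebraMap Kbar (ModelAlg.MM (dq_PM N)) c
      ∈ ModelAlg.Fp (dq_PM N) :=
    sub_mem (ModelAlg.JM_mem_Fp (dq_PM N)) ((ModelAlg.Fp (dq_PM N)).algebraMap_mem c)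
  have hax₀ : algebraMap (dq_PM N).R (ModelAlg.MM (dq_PM N))
      ((dq_PM N).J - algebraMap Kbar (dq_PM N).R c)
      = ModelAlg.JM (dq_PM N) - algebraMap Kbar (ModelAlg.MM (dq_PM N)) c :=
    ModelAlg.algebraMap_J_sub (dq_PM N) c
  have he₀' : (0 : ℤ) < e₀ := by exact_mod_cast he₀
  have hW₀ : 0 < W₀.ord (ModelAlg.JM (dq_PM N) - algebraMap Kbar (ModelAlg.MM (dq_PM N)) c) := by
    have h := H0 _ hx₀
    rw [hvx₀, hax₀] at h
    have hk' : (0 : ℤ) < (ordAt z₀ (fun z => Jfun z - iotaHom c) : ℤ) := by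
      exact_mod_cast hk₀pos
    by_contra hneg
    have hneg' := not_lt.mp hneg
    nlinarith
  -- the place `w` of `F'`
  have hθs : θ (jBar N - algebraMap Kbar ↥(FNbar N) c)
      = ⟨ModelAlg.JM (dq_PM N) - algebraMap Kbar (ModelAlg.MM (dq_PM N)) c, hsF⟩ := by
    rw [map_sub, hθj, AlgEquiv.commutes]
    rfl
  have hw : 0 < (ModelCounts.placeMap θ P).ord
      (⟨ModelAlg.JM (dq_PM N) - algebraMap Kbar (ModelAlg.MM (dq_PM N)) c, hsF⟩ :
        ↥(ModelAlg.Fp (dq_PM N))) := by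
    rw [← hθs, ModelCounts.placeMap_ord]
    exact hc
  -- the Galois transfer
  have hadj := GalB.adjoin_sub_algebraMap (K := Kbar) (ModelAlg.JM (dq_PM N)) c
  have hstr : Transcendental Kbar
      (ModelAlg.JM (dq_PM N) - algebraMap Kbar (ModelAlg.MM (dq_PM N)) c) :=
    GalB.transcendental_of_adjoin_eq (ModelAlg.JM_transc (dq_PM N)) hadj
  have hfix : ∀ x : ModelAlg.MM (dq_PM N),
      (∀ γ : SL(2, ℤ), ModelAlg.act (dq_PM N) γ x = x) ↔
        x ∈ Kbar⟮ModelAlg.JM (dq_PM N) - algebraMap Kbar (ModelAlg.MM (dq_PM N)) c⟯ := by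
    intro x
    rw [hadj]
    exact ModelAlg.fix_iff (dq_PM N) x
  obtain ⟨γ, e, he, H1⟩ := hTr Kbar (ModelAlg.MM (dq_PM N)) SL(2, ℤ) (ModelAlg.act (dq_PM N)) _
    (ModelAlg.act_finite_range (dq_PM N)) hstr hfix (ModelAlg.Fp (dq_PM N)) hsF
    (ModelCounts.placeMap θ P) W₀ hw hW₀
  -- orders at `γ • z₀` in terms of the place `act γ • W₀`
  have H2 : ∀ x : (dq_PM N).R, x ≠ 0 → (ordAt (γ • z₀) (dq_fun N x) : ℤ)
      = e₀ * (ModelAlg.act (dq_PM N) γ • W₀).ord
          (algebraMap (dq_PM N).R (ModelAlg.MM (dq_PM N)) x) := by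
    intro x hx
    have hx' : (dq_PM N).ρ γ⁻¹ x ≠ 0 :=
      (map_ne_zero_iff _ ((dq_PM N).ρ γ⁻¹).injective).mpr hx
    have h := H0 _ hx'
    rw [GalB.ord_smul_apply, ← map_inv, ModelAlg.act_algebraMap, ← h, dq_valAt]
    have h5 := (dq_hPV.2.2.2.2.1 z₀ γ (dq_fun N x) ((dq_good N).mdiff x)).2
    have h6 : dq_fun N ((dq_PM N).ρ γ⁻¹ x) = fun τ => dq_fun N x (γ • τ) := by
      funext τ
      rw [dq_PM_rho, inv_inv]
    rw [h6, h5]
  refine ⟨γ • z₀, e₀ * e, ?_, ?_⟩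
  · -- the multiplicity is `1`, `2` or `3`
    have h1 := H2 _ hx₀
    rw [hax₀] at h1
    have hs0 : (⟨ModelAlg.JM (dq_PM N) - algebraMap Kbar (ModelAlg.MM (dq_PM N)) c, hsF⟩ :
        ↥(ModelAlg.Fp (dq_PM N))) ≠ 0 := by
      intro h
      rw [h] at hw
      simp at hw
    have h2 : (ModelAlg.act (dq_PM N) γ • W₀).ord
        (ModelAlg.JM (dq_PM N) - algebraMap Kbar (ModelAlg.MM (dq_PM N)) c) = _ :=
      H1 ⟨_, hsF⟩ hs0
    have h3 : ordAt (γ • z₀) (dq_fun N ((dq_PM N).J - algebraMap Kbar (dq_PM N).R c))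
        = ordAt z₀ (fun z => Jfun z - iotaHom c) := by
      rw [hfun₀]
      have h5 := (dq_hPV.2.2.2.2.1 z₀ γ (fun z => Jfun z - iotaHom c) hhol).2
      have h7 : (fun τ : ℍ => (fun z => Jfun z - iotaHom c) (γ • τ))
          = fun z => Jfun z - iotaHom c := by
        funext τ
        show Jfun (γ • τ) - iotaHom c = Jfun τ - iotaHom c
        rw [dq_hJB.2.1 γ τ]
      rw [h7] at h5
      exact h5.symm
    rw [h3, h2] at h1
    refine dqppa_arith hk₀ (Nat.mul_pos he₀ he) hw ?_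
    rw [h1]
    push_cast
    ring
  · intro f φ hf hAn hMF
    obtain ⟨x₁, x₂, hx₁, hx₂, hθf, hφ⟩ := hθ f φ hf hAn
    have hφhol : MDifferentiable 𝓘(ℂ) 𝓘(ℂ) φ := PreModelBuild.mdiff_of_isCuspMer hAn.1
    have hφx : φ * dq_fun N x₂ = dq_fun N x₁ := funext hφ
    have hx₁f : dq_fun N x₁ ≠ 0 := fun h => hx₁ (dq_fun_injective N (by rw [h]; rfl))
    have hx₂f : dq_fun N x₂ ≠ 0 := fun h => hx₂ (dq_fun_injective N (by rw [h]; rfl))
    have hφ0 : φ ≠ 0 := by
      rintro rfl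
      apply hx₁f
      rw [← hφx, zero_mul]
    have hord := dq_hPV.2.1 (γ • z₀) φ (dq_fun N x₂) hφhol ((dq_good N).mdiff x₂) hφ0 hx₂f
    rw [hφx] at hord
    have h1 := H2 x₁ hx₁
    have h2 := H2 x₂ hx₂
    have hθf0 : θ f ≠ 0 := (map_ne_zero_iff _ θ.injective).mpr hf
    have hθf0' : ((θ f : ↥(ModelAlg.Fp (dq_PM N))) : ModelAlg.MM (dq_PM N)) ≠ 0 :=
      fun h => hθf0 (Subtype.ext h)
    have hax₂ : algebraMap (dq_PM N).R (ModelAlg.MM (dq_PM N)) x₂ ≠ 0 :=
      (map_ne_zero_iff _ (IsFractionRing.injective (dq_PM N).R (ModelAlg.MM (dq_PM N)))).mpr hx₂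
    have h3 := (ModelAlg.act (dq_PM N) γ • W₀).ord_mul hθf0' hax₂
    rw [hθf] at h3
    have h4 := H1 (θ f) hθf0
    rw [ModelCounts.placeMap_ord θ P f] at h4
    rw [h3, h4, hord] at h1
    push_cast at h1 ⊢
    linear_combination h1 - h2

end

end Fermat.Agent.S42
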