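/-
S42 moonshot, block DQ, package REPA (twin B): every element of `FNbar N` is a quotient of two
elements realised by integral modular functions.
-/
import Fermat.Agent.S42.DQInterfaces
import Fermat.Agent.S24.ModelLemmas

set_option autoImplicit false

open UpperHalfPlane ModularForm Complex CongruenceSubgroup ModularGroup AlgebraicCurve
open IntermediateField
open scoped MatrixGroups Manifold Real

namespace Fermat.Agent.S42

open Fermat.Agent.S24

noncomputable section

/-- The generating set of `FNbar N`: the series `j(q^d)`, `d ∣ N`. -/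
def dqrepb_S (N : ℕ) : Set (LaurentSeries Kbar) :=
  {x : LaurentSeries Kbar | ∃ d : ℕ, ∃ _ : NeZero d,
    d ∣ N ∧ x = ModularCurve.coeffEmb Kbar (ModularCurve.qExpand ℚ d ModularCurve.jq)}

/-- The subalgebra of the series realised by integral modular functions of level `N`. -/
def dqrepb_Real (hR : dq_RingStatement) (N : ℕ) [NeZero N] :
    Subalgebra Kbar (LaurentSeries Kbar) where
  carrier := {y | ∃ φ : ℍ → ℂ, dict_An y φ ∧ dict_ModFun N φ}
  mul_mem' := by
    rintro a b ⟨φ, h1, h2⟩ ⟨ψ, h3, h4⟩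
    have h := (hR N).2 a b φ ψ h1 h2 h3 h4
    exact ⟨φ * ψ, h.2.2.1, h.2.2.2⟩
  add_mem' := by
    rintro a b ⟨φ, h1, h2⟩ ⟨ψ, h3, h4⟩
    have h := (hR N).2 a b φ ψ h1 h2 h3 h4
    exact ⟨φ + ψ, h.1, h.2.1⟩
  algebraMap_mem' := by
    intro c
    have h := (hR N).1 c
    have hc : algebraMap Kbar (LaurentSeries Kbar) c = HahnSeries.C c := by
      rw [ModularCurve.algebraMap_laurentSeries_eq_single]
      rfl
    refine ⟨fun _ => iotaHom c, ?_, h.2⟩
    rw [hc]
    exact h.1

theorem dqrepb_mem_Real (hR : dq_RingStatement) (N : ℕ) [NeZero N] (y : LaurentSeries Kbar) :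
    y ∈ dqrepb_Real hR N ↔ ∃ φ : ℍ → ℂ, dict_An y φ ∧ dict_ModFun N φ :=
  Iff.rfl

theorem dqrepb_adjoin_le (hG : dq_GenStatement) (hR : dq_RingStatement) (N : ℕ) [NeZero N] :
    Algebra.adjoin Kbar (dqrepb_S N) ≤ dqrepb_Real hR N := by
  apply Algebra.adjoin_le
  rintro x ⟨d, hd, hdN, rfl⟩
  have := hd
  exact ⟨slConj d 1, (hG N d hdN).1, (hG N d hdN).2⟩

/-- (REPA) Every element of `FNbar N` is a quotient of two elements realised by integral modular
functions. -/
theorem dqrepb_main : dq_GenStatement → dq_RingStatement → dict_RepStatement := by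
  intro hG hR N _ f
  have hF : FNbar N = IntermediateField.adjoin Kbar (dqrepb_S N) :=
    ModelLemmas.modularFunctionFieldBar_eq_adjoin N
  have hle : ∀ y ∈ Algebra.adjoin Kbar (dqrepb_S N), y ∈ FNbar N := by
    intro y hy
    rw [hF]
    exact IntermediateField.algebra_adjoin_le_adjoin Kbar _ hy
  have hreal : ∀ y ∈ Algebra.adjoin Kbar (dqrepb_S N),
      ∃ φ : ℍ → ℂ, dict_An y φ ∧ dict_ModFun N φ :=
    fun y hy => (dqrepb_mem_Real hR N y).mp (dqrepb_adjoin_le hG hR N hy)
  have hf : (f : LaurentSeries Kbar) ∈ IntermediateField.adjoin Kbar (dqrepb_S N) := by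
    rw [← hF]
    exact f.2
  obtain ⟨r, hr, s, hs, hfrs⟩ := IntermediateField.mem_adjoin_iff_div.mp hf
  by_cases hs0 : s = 0
  · have hf0 : f = 0 := by
      apply Subtype.ext
      rw [hfrs, hs0, div_zero]
      rfl
    obtain ⟨φ₁, h1, h1'⟩ := hreal 0 (zero_mem _)
    obtain ⟨φ₂, h2, h2'⟩ := hreal 1 (one_mem _)
    exact ⟨0, 1, φ₁, φ₂, one_ne_zero, by rw [hf0, zero_mul], h1, h2, h1', h2'⟩
  · obtain ⟨φ₁, h1, h1'⟩ := hreal r hr
    obtain ⟨φ₂, h2, h2'⟩ := hreal s hs
    refine ⟨⟨r, hle r hr⟩, ⟨s, hle s hs⟩, φ₁, φ₂, ?_, ?_, h1, h2, h1', h2'⟩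
    · intro h
      exact hs0 (congrArg Subtype.val h)
    · apply Subtype.ext
      show (f : LaurentSeries Kbar) * s = r
      rw [hfrs, div_mul_cancel₀ _ hs0]

end

end Fermat.Agent.S42
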