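/-
S42 moonshot, block DQ, package RING (twin B): realisations by integral modular functions are
closed under constants, sums and products (and negation); change of period `1 → N`.
-/
import Fermat.Agent.S42.DQInterfaces

set_option autoImplicit false

open UpperHalfPlane ModularForm Complex CongruenceSubgroup ModularGroup AlgebraicCurve
open IntermediateField
open scoped MatrixGroups Manifold Real

namespace Fermat.Agent.S42

open Fermat.Agent.S24

noncomputable section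

/-- `coeffMap` of a constant series. -/
theorem dqringb_coeffMap_C (c : Kbar) :
    ModularCurve.coeffMap iotaHom (HahnSeries.C c : LaurentSeries Kbar) =
      (HahnSeries.C (iotaHom c) : LaurentSeries ℂ) := by
  rw [HahnSeries.C_apply, HahnSeries.C_apply, ModularCurve.coeffMap_single]

/-- Constant functions are integral modular functions of every level. -/
theorem dqringb_const (N : ℕ) [NeZero N] (c : ℂ) : dict_ModFun N (fun _ : ℍ => c) :=
  ⟨fun _ _ _ => rfl, fun _ => ⟨0, (dq_hQ.1 N c).1⟩⟩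

/-- Constant functions realise the constant series. -/
theorem dqringb_constAn (c : Kbar) : dict_An (HahnSeries.C c) (fun _ : ℍ => iotaHom c) := by
  refine ⟨⟨0, (dq_hQ.1 1 (iotaHom c)).1⟩, ?_⟩
  rw [(dq_hQ.1 1 (iotaHom c)).2, dqringb_coeffMap_C]

/-- Sums and products of realisations. -/
theorem dqringb_add_mul (N : ℕ) [NeZero N] (f g : LaurentSeries Kbar) (φ ψ : ℍ → ℂ)
    (hf : dict_An f φ) (hφ : dict_ModFun N φ) (hg : dict_An g ψ) (hψ : dict_ModFun N ψ) :
    dict_An (f + g) (φ + ψ) ∧ dict_ModFun N (φ + ψ) ∧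
      dict_An (f * g) (φ * ψ) ∧ dict_ModFun N (φ * ψ) := by
  obtain ⟨h1, h2, h3, h4⟩ := dq_hQ.2.1 1 φ ψ hf.1 hg.1
  refine ⟨⟨h1, ?_⟩, ⟨?_, ?_⟩, ⟨h2, ?_⟩, ⟨?_, ?_⟩⟩
  · rw [h3, hf.2, hg.2, map_add]
  · intro γ hγ z
    show φ (γ • z) + ψ (γ • z) = φ z + ψ z
    rw [hφ.1 γ hγ z, hψ.1 γ hγ z]
  · intro γ
    exact (dq_hQ.2.1 N _ _ (hφ.2 γ) (hψ.2 γ)).1
  · rw [h4, hf.2, hg.2, map_mul]
  · intro γ hγ z
    show φ (γ • z) * ψ (γ • z) = φ z * ψ z
    rw [hφ.1 γ hγ z, hψ.1 γ hγ z]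
  · intro γ
    exact (dq_hQ.2.1 N _ _ (hφ.2 γ) (hψ.2 γ)).2.1

/-- (RING) -/
theorem dqringb_main : dq_RingStatement := by
  intro N _
  exact ⟨fun c => ⟨dqringb_constAn c, dqringb_const N (iotaHom c)⟩, dqringb_add_mul N⟩

/-- Negation of a realisation. -/
theorem dqringb_neg : ∀ (N : ℕ) [NeZero N] (f : LaurentSeries Kbar) (φ : ℍ → ℂ),
    dict_An f φ → dict_ModFun N φ → dict_An (-f) (-φ) ∧ dict_ModFun N (-φ) := by
  intro N _ f φ hf hφ
  have h := dqringb_add_mul N (HahnSeries.C (-1 : Kbar)) f (fun _ : ℍ => iotaHom (-1)) φ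
    (dqringb_constAn (-1)) (dqringb_const N _) hf hφ
  have e1 : (HahnSeries.C (-1 : Kbar) : LaurentSeries Kbar) * f = -f := by
    rw [map_neg, map_one, neg_one_mul]
  have e2 : (fun _ : ℍ => iotaHom (-1)) * φ = -φ := by
    funext z
    simp
  rw [e1, e2] at h
  exact ⟨h.2.2.1, h.2.2.2⟩

/-- Change of period `1 → N` for a realisation over `ℂ`. -/
theorem dqringb_isCuspMerN : ∀ (N : ℕ) [NeZero N] (x : LaurentSeries ℂ) (φ : ℍ → ℂ),
    dict_AnC x φ → IsCuspMer N φ ∧ Qexp N φ = ModularCurve.qExpand ℂ N x := by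
  intro N _ x φ h
  have h2 := dq_hQ.2.2.2.2.2.1 N φ h.1
  rw [h.2] at h2
  exact h2

end

end Fermat.Agent.S42
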