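/-
S42 moonshot, block DQ, package TR (twin B): Galois transfer and restriction of places.
-/
import Fermat.Agent.S42.DQInterfaces

set_option autoImplicit false

open UpperHalfPlane ModularForm Complex CongruenceSubgroup ModularGroup AlgebraicCurve
open IntermediateField
open scoped MatrixGroups Manifold Real

namespace Fermat.Agent.S42

open Fermat.Agent.S24

noncomputable section

/-- (RAM) If the place `W` of `M` lies above the place `w` of `L`, then `ord_W = e * ord_w` on
`L` for some `e ≥ 1`. -/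
theorem dqtrb_ram {K L M : Type*} [Field K] [Field L] [Field M] [Algebra K L] [Algebra K M]
    [Algebra L M] [IsScalarTower K L M] {W : Place K M} {w : Place K L}
    (h : GalB.IsAbove W w) :
    ∃ e : ℕ, 0 < e ∧ ∀ x : L, x ≠ 0 → W.ord (algebraMap L M x) = (e : ℤ) * w.ord x := by
  obtain ⟨ϖ, hϖ⟩ := IsDiscreteValuationRing.exists_irreducible w.toValuationSubring
  have hϖ1 : w.ord (ϖ : L) = 1 := w.ord_coe_irreducible hϖ
  have hϖpos : 0 < W.ord (algebraMap L M (ϖ : L)) :=
    (h.ord_pos_iff _).mpr (by rw [hϖ1]; exact one_pos)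
  refine ⟨(W.ord (algebraMap L M (ϖ : L))).toNat, by omega, ?_⟩
  intro x hx
  obtain ⟨u, hu⟩ := w.exists_unit_mul_zpow hx hϖ
  have hϖ0 : (ϖ : L) ≠ 0 := fun h0 => hϖ.ne_zero (Subtype.ext h0)
  have hu0 : ((u : w.toValuationSubring) : L) ≠ 0 := fun h0 =>
    u.ne_zero (Subtype.ext h0)
  have hWu : W.ord (algebraMap L M ((u : w.toValuationSubring) : L)) = 0 := by
    have h1 : 0 ≤ W.ord (algebraMap L M ((u : w.toValuationSubring) : L)) :=
      (h.ord_nonneg_iff _).mpr (by rw [w.ord_coe_unit])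
    have h2 : 0 ≤ W.ord (algebraMap L M (((u : w.toValuationSubring) : L)⁻¹)) :=
      (h.ord_nonneg_iff _).mpr (by rw [Place.ord_inv, w.ord_coe_unit]; simp)
    rw [map_inv₀, Place.ord_inv] at h2
    omega
  have hMu0 : algebraMap L M ((u : w.toValuationSubring) : L) ≠ 0 :=
    (map_ne_zero (algebraMap L M)).mpr hu0
  have hMϖ0 : algebraMap L M (ϖ : L) ≠ 0 := (map_ne_zero (algebraMap L M)).mpr hϖ0
  have hx' : algebraMap L M x = algebraMap L M ((u : w.toValuationSubring) : L)
      * (algebraMap L M (ϖ : L)) ^ (w.ord x) := by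
    conv_lhs => rw [hu]
    rw [map_mul, map_zpow₀]
  rw [hx', W.ord_mul hMu0 (zpow_ne_zero _ hMϖ0), hWu, zero_add, W.ord_zpow,
    Int.toNat_of_nonneg hϖpos.le]
  ring

/-- (TR) Galois transfer of places. -/
theorem dqtrb_main : dq_TransferStatement := by
  intro K M Γ _ _ _ _ _ _ act s hfin hs hfix F' hsF w W₀ hw hW₀
  have := hfin
  have hfixH := GalB.fix_fixer act s hfix F' hsF
  have hfinH := GalB.finite_map_fixer act F'
  have hH : IsGaloisGroup ((fixer act F').map act) F' M := GalB.isGaloisGroup_of_fix _ _ hfixH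
  have hgal : IsGalois F' M := IsGaloisGroup.isGalois ((fixer act F').map act) F' M
  have hfd : FiniteDimensional F' M :=
    IsGaloisGroup.finiteDimensional ((fixer act F').map act) F' M
  obtain ⟨W, hW⟩ := GalB.exists_isAbove (M := M) w
  have hWs : 0 < W.ord s := (hW.ord_pos_iff ⟨s, hsF⟩).mpr hw
  obtain ⟨γ, hγ⟩ := GalB.exists_act_smul_eq act s hfix hW₀ hWs
  obtain ⟨e, he, hram⟩ := dqtrb_ram hW
  exact ⟨γ, e, he, fun x hx => by rw [hγ]; exact hram x hx⟩

/-- (RES) Restriction of places. -/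
theorem dqtrb_res : dq_RestrictStatement := by
  intro K M Γ _ _ _ _ _ _ act s hfin hs hfix F' hsF W hW
  have hex : ∃ x : F', algebraMap F' M x ∉ W.toValuationSubring := by
    refine ⟨(⟨s, hsF⟩ : F')⁻¹, ?_⟩
    rw [GalB.mem_iff_ord_nonneg]
    have h1 : algebraMap F' M ((⟨s, hsF⟩ : F')⁻¹) = s⁻¹ := rfl
    rw [h1, Place.ord_inv]
    omega
  have hab : GalB.IsAbove W (GalB.restrict W hex) := GalB.isAbove_restrict W hex
  obtain ⟨e, he, hram⟩ := dqtrb_ram hab
  exact ⟨GalB.restrict W hex, e, he, (hab.ord_pos_iff ⟨s, hsF⟩).mp hW, fun x hx => hram x hx⟩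

end

end Fermat.Agent.S42
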