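/-
S42 moonshot — block DQ (the dictionary over ℚ̄; sub-lead helper181): BLOCK MAIN FILE.

Deliverables (statements in `DictInterfaces.lean`):
* `dqImg_main        : dict_FieldCStatement → dict_ImgStatement`      (DQ1)
* `dqRep_main        : dict_RepStatement`                              (DQ2)
* `dqPlacePoint_main : dict_PlacePointStatement`                       (DQ3)
* `dqCuspPlace_main  : dict_CuspPlaceStatement`                        (DQ4)
-/
import Fermat.Agent.S42.DQInterfaces
import Fermat.Agent.S42.ALInterfaces
import Fermat.Agent.S42.AL5A
import Fermat.Agent.S42.DQImgA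
import Fermat.Agent.S42.DQRepB
import Fermat.Agent.S42.DQRingB
import Fermat.Agent.S42.DQGenA
import Fermat.Agent.S42.DQLDA
import Fermat.Agent.S42.DQBrB
import Fermat.Agent.S42.DQTrB
import Fermat.Agent.S42.DQCEB
import Fermat.Agent.S42.DQCWA
import Fermat.Agent.S42.DQCCB
import Fermat.Agent.S42.DQCXA
import Fermat.Agent.S42.DQPPA

set_option autoImplicit false

namespace Fermat.Agent.S42

open Fermat.Agent.S24

/-- (DQ2) Every element of `FNbar N` is a quotient of two elements realised by integral modular
functions. -/
theorem dqRep_main : dict_RepStatement :=
  dqrepb_main dqgena_main dqringb_main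

/-- (DQ1) An integral modular function with `ℚ̄`-rational `q`-expansion realises an element of
`FNbar N` (given the statement DC1 of block DC). -/
theorem dqImg_main : dict_FieldCStatement → dict_ImgStatement :=
  fun hC => dqimga_main hC dqlda_main

/-- The bridge between `FNbar N` and the concrete model of S24. -/
theorem dqBridge_main : dq_BridgeStatement := dqbrb_main

/-- The Galois transfer of places. -/
theorem dqTransfer_main : dq_TransferStatement := dqtrb_main

/-- (DQ3) Every finite place of `FNbar N` comes from a point of `ℍ`, with multiplicity
`m ∈ {1, 2, 3}`. -/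
theorem dqPlacePoint_main : dict_PlacePointStatement := dqppa_main dqbrb_main dqtrb_main

/-- (DQ4) Every infinite place of `FNbar N` comes from a cusp `γ ∞`, with local parameter `q_h`,
`h` the width of the cusp. -/
theorem dqCuspPlace_main : dict_CuspPlaceStatement :=
  dqcxa_main al5A_main dqRep_main (dqceb_main dqbrb_main dqtrb_res)
    (dqcwa_main dqbrb_main dqtrb_main) dqccb_main

end Fermat.Agent.S42
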