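/-
S42 moonshot — block KUM (sub-lead helper179): INNER INTERFACE of the block.
Statement-`Prop`s only: the shared analytic / formal lemmas used by the packages K1–K4, KA1–KA3, KE.
Each is proved by its own package (file `Fermat/Agent/S42/Kum<Pkg><twin>.lean`).
-/
import Fermat.Agent.S42.KumInterfaces

set_option autoImplicit false

open UpperHalfPlane ModularForm Complex CongruenceSubgroup ModularGroup AlgebraicCurve
open scoped MatrixGroups Manifold Real

namespace Fermat.Agent.S42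

open Fermat.Agent.S24

noncomputable section

/-- (AL1) Two holomorphic functions on `ℍ` with the same `p`-th power differ by a constant
`p`-th root of unity. -/
def kumL_AL1Statement : Prop :=
  ∀ (p : ℕ) (f g : ℍ → ℂ), 0 < p → Hol f → Hol g → (∀ z : ℍ, f z ^ p = g z ^ p) →
    ∃ ω : ℂ, ω ^ p = 1 ∧ ∀ z : ℍ, f z = ω * g z

/-- (KL1) A holomorphic `N`-periodic function whose `p`-th power is meromorphic at `∞` is
meromorphic at `∞`. -/
def kumL_KL1Statement : Prop :=
  ∀ (N : ℕ) [NeZero N] (p : ℕ) (t : ℍ → ℂ), 0 < p → Hol t →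
    (∀ z : ℍ, t (((N : ℕ) : ℝ) +ᵥ z) = t z) →
    IsCuspMer N (fun z : ℍ => t z ^ p) → IsCuspMer N t

/-- (KL2) If `t` is `IsCuspMer N` and moreover `h`-periodic with `h ∣ N`, then the order of its
`q_N`-expansion is divisible by `N / h`. -/
def kumL_KL2Statement : Prop :=
  ∀ (N : ℕ) [NeZero N] (h : ℕ) (t : ℍ → ℂ), 0 < h → h ∣ N → IsCuspMer N t →
    (∀ z : ℍ, t (((h : ℕ) : ℝ) +ᵥ z) = t z) →
    (((N / h : ℕ) : ℤ) ∣ (Qexp N t).order)

/-- (KL3) A nonzero Laurent series over `ℂ` whose `p`-th power has coefficients in `ℚ̄` is a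
nonzero constant times a Laurent series with coefficients in `ℚ̄`. -/
def kumL_KL3Statement : Prop :=
  ∀ (p : ℕ) (x : LaurentSeries ℂ), 0 < p → x ≠ 0 →
    (∀ n : ℤ, (x ^ p).coeff n ∈ Set.range iotaHom) →
    ∃ (a : ℂ) (y : LaurentSeries Kbar), a ≠ 0 ∧
      x = HahnSeries.C a * ModularCurve.coeffMap iotaHom y

/-- (QUOT) A holomorphic quotient of two functions meromorphic at the cusp `∞` is meromorphic
at the cusp `∞`. -/
def kumL_QuotStatement : Prop :=
  ∀ (N : ℕ) [NeZero N] (u φ₁ φ₂ : ℍ → ℂ), Hol u → IsCuspMer N φ₁ → IsCuspMer N φ₂ → φ₂ ≠ 0 →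
    (∀ z : ℍ, u z * φ₂ z = φ₁ z) → IsCuspMer N u

/-- (SUM) The Laurent expansion at `∞` converges to the function, as a sum over `ℤ`. -/
def kumL_SumStatement : Prop :=
  ∀ (F : ℍ → ℂ), IsCuspMer 1 F → ∀ τ : ℍ,
    HasSum (fun n : ℤ => (Qexp 1 F).coeff n *
      Complex.exp (2 * Real.pi * Complex.I * (n : ℂ) * (τ : ℂ))) (F τ)

/-- (OS) Conversely: a holomorphic function on `ℍ` which, for `Im τ > B`, is the sum of the
Laurent series `x` in `q = exp(2πiτ)`, is `1`-periodic, meromorphic at `∞`, with `Qexp 1 = x`. -/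
def kumL_OfSumStatement : Prop :=
  ∀ (G : ℍ → ℂ) (x : LaurentSeries ℂ) (B : ℝ), Hol G →
    (∀ τ : ℍ, B < τ.im →
      HasSum (fun n : ℤ => x.coeff n *
        Complex.exp (2 * Real.pi * Complex.I * (n : ℂ) * (τ : ℂ))) (G τ)) →
    IsCuspMer 1 G ∧ Qexp 1 G = x

end

end Fermat.Agent.S42
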