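/-
S42 moonshot — block KUM, package K1: `kum_ExistsStatement` from DESC and DQ1.
-/
import Mathlib
import Fermat.Agent.S42.KumInner
import Fermat.Agent.S24.Qexp

set_option autoImplicit false

open UpperHalfPlane ModularForm Complex CongruenceSubgroup ModularGroup AlgebraicCurve
open scoped MatrixGroups Manifold Real

namespace Fermat.Agent.S42

open Fermat.Agent.S24

theorem kumk1_main : desc_Statement → dict_ImgStatement → kum_ExistsStatement := by
  intro hD hI N _ p hp hp5 χ s₀ hs₀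
  obtain ⟨s, hs, hrat⟩ := hD N p hp hp5 χ s₀ hs₀
  have hmod : dict_ModFun N (fun z : ℍ => s z ^ p) := by
    refine ⟨?_, hs.2.2.2⟩
    intro γ hγ z
    have := hs.2.2.1 ⟨γ, hγ⟩
    show s (γ • z) ^ p = s z ^ p
    rw [this.2 z, mul_pow, this.1, one_mul]
  obtain ⟨f, hf⟩ := hI N _ hmod hrat
  refine ⟨f, s, ?_, hs, hf⟩
  intro hf0
  have hq : Qexp 1 (fun z : ℍ => s z ^ p) = 0 := by
    have := hf.2
    rw [this, hf0]
    simp
  have h0 := Qexp.qexpStatement.2.2.1 1 _ hf.1 hq
  apply hs.2.1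
  funext z
  have h1 : s z ^ p = 0 := congrFun h0 z
  exact pow_eq_zero_iff (hp.ne_zero) |>.mp h1

end Fermat.Agent.S42
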