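/-
S42 moonshot — block KUM, package K3 (twin A).
`kumk3a_al1 : kumL_AL1Statement` (two holomorphic functions on `ℍ` with the same `p`-th power
differ by a constant `p`-th root of unity) and
`kumk3a_main : dict_RepStatement → kumL_AL1Statement → kum_InjStatement`.
-/
import Mathlib
import Fermat.Agent.S42.KumInner
import Fermat.Agent.S24.Qexp
import Fermat.Agent.S24.PointVal

set_option autoImplicit false

namespace Fermat.Agent.S42

open Fermat.Agent.S24
open UpperHalfPlane ModularForm Complex CongruenceSubgroup ModularGroup AlgebraicCurve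
open scoped MatrixGroups Manifold Real

/-- Holomorphic functions on `ℍ` form a domain. -/
theorem kumk3a_domain (f g : ℍ → ℂ) (hf : Hol f) (hg : Hol g) (h : f * g = 0) :
    f = 0 ∨ g = 0 :=
  PointVal.pointValStatement.1 f g hf hg h

/-- A finite product of holomorphic functions on `ℍ` is holomorphic, and if it vanishes
identically then one of the factors does. -/
theorem kumk3a_prod {ι : Type} (s : Finset ι) (F : ι → ℍ → ℂ) (hF : ∀ i ∈ s, Hol (F i)) :
    Hol (∏ i ∈ s, F i) ∧ ((∏ i ∈ s, F i) = 0 → ∃ i ∈ s, F i = 0) := by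
  classical
  induction s using Finset.induction_on with
  | empty =>
    refine ⟨?_, ?_⟩
    · rw [Finset.prod_empty]
      exact (mdifferentiable_const : MDifferentiable 𝓘(ℂ) 𝓘(ℂ) (fun _ : ℍ => (1 : ℂ)))
    · intro h
      exfalso
      have h1 := congrFun h UpperHalfPlane.I
      simp at h1
  | insert a s ha ih =>
    have ih' := ih (fun i hi => hF i (Finset.mem_insert_of_mem hi))
    have hFa : Hol (F a) := hF a (Finset.mem_insert_self a s)
    rw [Finset.prod_insert ha]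
    refine ⟨MDifferentiable.mul hFa ih'.1, ?_⟩
    intro h
    rcases kumk3a_domain _ _ hFa ih'.1 h with h0 | h0
    · exact ⟨a, Finset.mem_insert_self a s, h0⟩
    · obtain ⟨i, hi, hi0⟩ := ih'.2 h0
      exact ⟨i, Finset.mem_insert_of_mem hi, hi0⟩

/-- (AL1) Two holomorphic functions on `ℍ` with the same `p`-th power differ by a constant
`p`-th root of unity. -/
theorem kumk3a_al1 : kumL_AL1Statement := by
  intro p f g hp hf hg hfg
  classical
  have hζ : IsPrimitiveRoot (Complex.exp (2 * π * Complex.I / p)) p :=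
    Complex.isPrimitiveRoot_exp p hp.ne'
  have hHol : ∀ ω ∈ Polynomial.nthRootsFinset p (1 : ℂ),
      Hol ((fun (ω : ℂ) (z : ℍ) => f z - ω * g z) ω) := by
    intro ω _
    have h1 : MDifferentiable 𝓘(ℂ) 𝓘(ℂ) (fun _ : ℍ => ω) := mdifferentiable_const
    exact MDifferentiable.sub hf (MDifferentiable.mul h1 hg)
  have hprod : (∏ ω ∈ Polynomial.nthRootsFinset p (1 : ℂ),
      (fun (ω : ℂ) (z : ℍ) => f z - ω * g z) ω) = 0 := by
    funext z
    rw [Finset.prod_apply]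
    simp only [Pi.zero_apply]
    rw [← hζ.pow_sub_pow_eq_prod_sub_mul (f z) (g z) hp, hfg z, sub_self]
  obtain ⟨ω, hω, h0⟩ := (kumk3a_prod _ _ hHol).2 hprod
  refine ⟨ω, (Polynomial.mem_nthRootsFinset hp 1).1 hω, ?_⟩
  intro z
  have h1 := congrFun h0 z
  simp only [Pi.zero_apply] at h1
  exact sub_eq_zero.1 h1

/-- Powers of functions meromorphic at `∞`, and their `q`-expansions. -/
theorem kumk3a_pow (h : ℕ) [NeZero h] (f : ℍ → ℂ) (hf : IsCuspMer h f) (n : ℕ) :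
    IsCuspMer h (f ^ n) ∧ Qexp h (f ^ n) = Qexp h f ^ n := by
  induction n with
  | zero =>
    have h1 : (f ^ 0) = fun _ : ℍ => (1 : ℂ) := by
      funext z; simp
    rw [h1, pow_zero]
    exact ⟨⟨0, Qexp.cm_const h 1⟩, by rw [Qexp.Qexp_const]; rfl⟩
  | succ n ih =>
    rw [pow_succ, pow_succ]
    obtain ⟨-, h2, -, h4⟩ := Qexp.qexpStatement.2.1 h _ _ ih.1 hf
    exact ⟨h2, by rw [h4, ih.2]⟩

/-- `coeffMap iotaHom` is injective at `0`. -/
theorem kumk3a_coeffMap_eq_zero (x : LaurentSeries Kbar)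
    (hx : ModularCurve.coeffMap iotaHom x = 0) : x = 0 := by
  ext n
  have h1 : (ModularCurve.coeffMap iotaHom x).coeff n = 0 := by rw [hx]; rfl
  rw [ModularCurve.coeffMap_coeff] at h1
  have h2 : iotaHom (x.coeff n) = iotaHom 0 := by rw [h1, map_zero]
  simpa using iotaHom.injective h2

/-- (K3) Injectivity. -/
theorem kumk3a_main : dict_RepStatement → kumL_AL1Statement → kum_InjStatement := by
  intro hRep hAL1 N _ p hp χ s f h c hroot hAn hfh γ
  obtain ⟨hsHol, hs0, hχ, -⟩ := hroot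
  obtain ⟨h₁, h₂, η₁, η₂, hh₂, hmul, hAn₁, hAn₂, hMF₁, hMF₂⟩ := hRep N h
  obtain ⟨hQ_const, hQ_alg, hQ_inj, -⟩ := Qexp.qexpStatement
  have hp0 : 0 < p := hp.pos
  obtain ⟨hcm_sp, hq_sp⟩ := hAn
  obtain ⟨hcm₁, hq₁⟩ := hAn₁
  obtain ⟨hcm₂, hq₂⟩ := hAn₂
  have hη₁Hol : Hol η₁ := by obtain ⟨k, hk⟩ := hcm₁; exact hk.1
  have hη₂Hol : Hol η₂ := by obtain ⟨k, hk⟩ := hcm₂; exact hk.1
  -- the identity in Laurent series over `ℚ̄`
  have hLS : (f : LaurentSeries Kbar) * (h₂ : LaurentSeries Kbar) ^ p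
      = HahnSeries.single 0 c * (h₁ : LaurentSeries Kbar) ^ p := by
    have h1 : f * h₂ ^ p = algebraMap Kbar ↥(FNbar N) c * h₁ ^ p := by
      rw [hfh, ← hmul, mul_pow]; ring
    have h2 := congrArg (fun x : ↥(FNbar N) => (x : LaurentSeries Kbar)) h1
    have h3 : ((algebraMap Kbar ↥(FNbar N) c : ↥(FNbar N)) : LaurentSeries Kbar)
        = HahnSeries.single 0 c := by
      rw [← ModularCurve.algebraMap_laurentSeries_eq_single]; rfl
    simpa [h3] using h2
  -- transported to `ℂ`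
  have hLSC : ModularCurve.coeffMap iotaHom (f : LaurentSeries Kbar)
        * ModularCurve.coeffMap iotaHom (h₂ : LaurentSeries Kbar) ^ p
      = HahnSeries.C (iotaHom c) * ModularCurve.coeffMap iotaHom (h₁ : LaurentSeries Kbar) ^ p := by
    have h1 := congrArg (ModularCurve.coeffMap iotaHom) hLS
    rw [map_mul, map_mul, map_pow, map_pow, ModularCurve.coeffMap_single] at h1
    exact h1
  -- the functions
  obtain ⟨hcmp₂, hqp₂⟩ := kumk3a_pow 1 η₂ hcm₂ p
  obtain ⟨hcmp₁, hqp₁⟩ := kumk3a_pow 1 η₁ hcm₁ p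
  have hcmc : IsCuspMer 1 (fun _ : ℍ => iotaHom c) := ⟨0, (hQ_const 1 (iotaHom c)).1⟩
  have hcmm : IsCuspMer 1 (fun _ : ℍ => (-1 : ℂ)) := ⟨0, (hQ_const 1 (-1)).1⟩
  obtain ⟨-, hF, -, hqF⟩ := hQ_alg 1 _ _ hcm_sp hcmp₂
  obtain ⟨-, hG, -, hqG⟩ := hQ_alg 1 _ _ hcmc hcmp₁
  obtain ⟨-, hG', -, hqG'⟩ := hQ_alg 1 _ _ hcmm hG
  obtain ⟨hFG, -, hqFG, -⟩ := hQ_alg 1 _ _ hF hG'
  have hzero : ((fun z : ℍ => s z ^ p) * η₂ ^ p
      + (fun _ : ℍ => (-1 : ℂ)) * ((fun _ : ℍ => iotaHom c) * η₁ ^ p)) = 0 := by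
    apply hQ_inj 1 _ hFG
    rw [hqFG, hqF, hqG', hqG, hqp₂, hqp₁, hq_sp, hq₂, hq₁, (hQ_const 1 (iotaHom c)).2,
      (hQ_const 1 (-1)).2, hLSC]
    rw [map_neg, map_one]
    ring
  have hpt : ∀ z : ℍ, s z ^ p * η₂ z ^ p = iotaHom c * η₁ z ^ p := by
    intro z
    have h1 := congrFun hzero z
    simp only [Pi.add_apply, Pi.mul_apply, Pi.pow_apply, Pi.zero_apply] at h1
    linear_combination h1
  -- a `p`-th root of `ι c`
  obtain ⟨c', hc'⟩ := IsAlgClosed.exists_pow_nat_eq (iotaHom c) hp0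
  have hc'Hol : MDifferentiable 𝓘(ℂ) 𝓘(ℂ) (fun _ : ℍ => c') := mdifferentiable_const
  obtain ⟨ω, -, hω⟩ := hAL1 p (fun z => s z * η₂ z) (fun z => c' * η₁ z) hp0
    (MDifferentiable.mul hsHol hη₂Hol) (MDifferentiable.mul hc'Hol hη₁Hol)
    (fun z => by rw [mul_pow, mul_pow, hc', hpt z])
  -- `η₂ ≠ 0`
  have hη₂0 : η₂ ≠ 0 := by
    intro h0
    apply hh₂
    have h1 : Qexp 1 η₂ = 0 := by
      rw [h0]
      have h2 := (hQ_const 1 (0 : ℂ)).2
      rw [map_zero] at h2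
      exact h2
    rw [hq₂] at h1
    have h2 := kumk3a_coeffMap_eq_zero _ h1
    exact Subtype.ext h2
  -- a point where `s * η₂` does not vanish
  have hex : ∃ z : ℍ, s z * η₂ z ≠ 0 := by
    by_contra hcon
    have h1 : s * η₂ = 0 := by
      funext z
      by_contra hz
      exact hcon ⟨z, hz⟩
    rcases kumk3a_domain s η₂ hsHol hη₂Hol h1 with h2 | h2
    · exact hs0 h2
    · exact hη₂0 h2
  obtain ⟨z, hz⟩ := hex
  have h1 : s ((γ : SL(2, ℤ)) • z) * η₂ ((γ : SL(2, ℤ)) • z)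
      = ω * (c' * η₁ ((γ : SL(2, ℤ)) • z)) := hω ((γ : SL(2, ℤ)) • z)
  have h1' : s z * η₂ z = ω * (c' * η₁ z) := hω z
  rw [(hχ γ).2 z, hMF₂.1 (γ : SL(2, ℤ)) γ.2 z, hMF₁.1 (γ : SL(2, ℤ)) γ.2 z, ← h1'] at h1
  have h2 : χ γ * (s z * η₂ z) = 1 * (s z * η₂ z) := by
    rw [one_mul, ← mul_assoc]; exact h1
  exact mul_right_cancel₀ hz h2

end Fermat.Agent.S42
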