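/-
S42 moonshot — block KUM, package K4 (twin A): uniqueness of the Kummer generator.
Two Kummer generators with the same multiplier differ by a constant times a `p`-th power.
-/
import Mathlib
import Fermat.Agent.S42.KumInner
import Fermat.Agent.S24.Qexp
import Fermat.Agent.S24.PointVal

set_option autoImplicit false

open UpperHalfPlane ModularForm Complex CongruenceSubgroup ModularGroup AlgebraicCurve
open scoped MatrixGroups Manifold Real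

namespace Fermat.Agent.S42

open Fermat.Agent.S24

/-- Powers of functions meromorphic at the cusp. -/
theorem kumk4a_pow (h : ℕ) [NeZero h] (f : ℍ → ℂ) (hf : IsCuspMer h f) (n : ℕ) :
    IsCuspMer h (f ^ n) ∧ Qexp h (f ^ n) = Qexp h f ^ n := by
  obtain ⟨hc, hmul, -⟩ := Fermat.Agent.S24.Qexp.qexpStatement
  induction n with
  | zero =>
    have h1 := hc h (1 : ℂ)
    rw [pow_zero, pow_zero]
    have e : (1 : ℍ → ℂ) = fun _ => (1 : ℂ) := rfl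
    rw [e]
    exact ⟨⟨0, h1.1⟩, by rw [h1.2, map_one]⟩
  | succ n ih =>
    rw [pow_succ, pow_succ]
    obtain ⟨-, h2, -, h4⟩ := hmul h (f ^ n) f ih.1 hf
    exact ⟨h2, by rw [h4, ih.2]⟩

/-- `coeffMap iotaHom` is injective. -/
theorem kumk4a_coeffMap_inj : Function.Injective (ModularCurve.coeffMap iotaHom) := by
  intro x y hxy
  ext k
  apply iotaHom.injective
  have := congrArg (fun s => s.coeff k) hxy
  simpa using this

/-- The formal comparison. -/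
theorem kumk4a_formal (p : ℕ) (a : ℂ) (ha : a ≠ 0) (h₀ g : LaurentSeries Kbar) (hh₀ : h₀ ≠ 0)
    (hx : (HahnSeries.C a * ModularCurve.coeffMap iotaHom h₀) ^ p
      = ModularCurve.coeffMap iotaHom g) :
    ∃ c : Kbar, c ≠ 0 ∧ g = HahnSeries.C c * h₀ ^ p := by
  have hinj : Function.Injective iotaHom := iotaHom.injective
  have hhp : h₀ ^ p ≠ 0 := pow_ne_zero p hh₀
  obtain ⟨n, hn⟩ : ∃ n : ℤ, (h₀ ^ p).coeff n ≠ 0 := by
    by_contra hcon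
    apply hhp
    ext k
    by_contra hk
    exact hcon ⟨k, hk⟩
  rw [mul_pow, ← map_pow, ← map_pow] at hx
  have hcoef : ∀ k : ℤ, a ^ p * iotaHom ((h₀ ^ p).coeff k) = iotaHom (g.coeff k) := by
    intro k
    have h1 := congrArg (fun s => s.coeff k) hx
    simp only [HahnSeries.C_mul_eq_smul, HahnSeries.coeff_smul, smul_eq_mul,
      ModularCurve.coeffMap_coeff] at h1
    exact h1
  have h2 : iotaHom ((h₀ ^ p).coeff n) ≠ 0 := fun h => hn (hinj (by rw [h, map_zero]))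
  have hac : a ^ p = iotaHom (g.coeff n / (h₀ ^ p).coeff n) := by
    rw [map_div₀, eq_div_iff h2]
    exact hcoef n
  refine ⟨g.coeff n / (h₀ ^ p).coeff n, ?_, ?_⟩
  · intro hc0
    rw [hc0, map_zero] at hac
    exact pow_ne_zero p ha hac
  · ext k
    apply hinj
    rw [← hcoef k, hac]
    simp

/-- `δ T^N δ⁻¹ ∈ Γ₀(N)`. -/
theorem kumk4a_conj_mem (N : ℕ) (δ : SL(2, ℤ)) : δ * T ^ (N : ℤ) * δ⁻¹ ∈ Gamma0 N := by
  have h1 : T ^ (N : ℤ) ∈ CongruenceSubgroup.Gamma N := by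
    simpa using ModularGroup_T_pow_mem_Gamma (N : ℤ) (N : ℤ) dvd_rfl
  have h2 : δ * T ^ (N : ℤ) * δ⁻¹ ∈ CongruenceSubgroup.Gamma N :=
    (Gamma_normal N).conj_mem _ h1 δ
  rw [Gamma0_mem]
  exact (Gamma_mem.mp h2).2.2.1

/-- `T ∈ Γ₀(N)`. -/
theorem kumk4a_T_mem (N : ℕ) : T ∈ Gamma0 N := by
  rw [Gamma0_mem]
  simp [ModularGroup.T]

/-- The function `w = s₁ s₂^(p-1)` is an integral modular function. -/
theorem kumk4a_w (hKL1 : kumL_KL1Statement) (N : ℕ) [NeZero N] (p : ℕ) (hp : 0 < p)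
    (χ : ↥(Gamma0 N) → ℂ) (s₁ s₂ : ℍ → ℂ)
    (hR₁ : kum_Root N p χ s₁) (hR₂ : kum_Root N p χ s₂) :
    dict_ModFun N (fun z => s₁ z * s₂ z ^ (p - 1)) ∧
      IsCuspMer 1 (fun z => s₁ z * s₂ z ^ (p - 1)) := by
  obtain ⟨hs₁hol, -, hs₁χ, hs₁cm⟩ := hR₁
  obtain ⟨hs₂hol, -, hs₂χ, hs₂cm⟩ := hR₂
  obtain ⟨hQc, hQmul, hQinj, -, -, hQ1N, hQN1, -, -⟩ := Fermat.Agent.S24.Qexp.qexpStatement
  have hwhol : MDifferentiable 𝓘(ℂ) 𝓘(ℂ) (fun z => s₁ z * s₂ z ^ (p - 1)) :=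
    hs₁hol.mul (hs₂hol.pow (p - 1))
  have hwinv : dict_Inv N (fun z => s₁ z * s₂ z ^ (p - 1)) := by
    intro γ hγ z
    obtain ⟨h1, h1'⟩ := hs₁χ ⟨γ, hγ⟩
    obtain ⟨-, h2'⟩ := hs₂χ ⟨γ, hγ⟩
    have e1 : s₁ (γ • z) = χ ⟨γ, hγ⟩ * s₁ z := h1' z
    have e2 : s₂ (γ • z) = χ ⟨γ, hγ⟩ * s₂ z := h2' z
    have e3 : χ ⟨γ, hγ⟩ * χ ⟨γ, hγ⟩ ^ (p - 1) = 1 := by
      rw [← pow_succ', Nat.sub_add_cancel hp]
      exact h1
    show s₁ (γ • z) * s₂ (γ • z) ^ (p - 1) = s₁ z * s₂ z ^ (p - 1)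
    rw [e1, e2, mul_pow]
    calc χ ⟨γ, hγ⟩ * s₁ z * (χ ⟨γ, hγ⟩ ^ (p - 1) * s₂ z ^ (p - 1))
        = (χ ⟨γ, hγ⟩ * χ ⟨γ, hγ⟩ ^ (p - 1)) * (s₁ z * s₂ z ^ (p - 1)) := by ring
      _ = s₁ z * s₂ z ^ (p - 1) := by rw [e3, one_mul]
  have hper : ∀ (δ : SL(2, ℤ)) (z : ℍ),
      (fun z => s₁ z * s₂ z ^ (p - 1)) (δ • (((N : ℕ) : ℝ) +ᵥ z))
        = (fun z => s₁ z * s₂ z ^ (p - 1)) (δ • z) := by
    intro δ z
    have e : δ • (((N : ℕ) : ℝ) +ᵥ z) = (δ * T ^ (N : ℤ) * δ⁻¹) • (δ • z) := by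
      rw [mul_smul, mul_smul, inv_smul_smul, modular_T_zpow_smul]
      simp
    rw [e]
    exact hwinv _ (kumk4a_conj_mem N δ) _
  have hwcm : dict_CuspMer N (fun z => s₁ z * s₂ z ^ (p - 1)) := by
    intro δ
    apply hKL1 N p (fun z => (fun z => s₁ z * s₂ z ^ (p - 1)) (δ • z)) hp
      (PointVal.mdifferentiable_comp_smul δ hwhol) (hper δ)
    have e : (fun z : ℍ => (fun z => (fun z => s₁ z * s₂ z ^ (p - 1)) (δ • z)) z ^ p)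
        = (fun z : ℍ => (fun z => s₁ z ^ p) (δ • z)) *
          (fun z : ℍ => (fun z => s₂ z ^ p) (δ • z)) ^ (p - 1) := by
      funext z
      simp only [Pi.mul_apply, Pi.pow_apply]
      rw [mul_pow, ← pow_mul, ← pow_mul, mul_comm (p - 1) p]
    rw [e]
    exact (hQmul N _ _ (hs₁cm δ) (kumk4a_pow N _ (hs₂cm δ) (p - 1)).1).2.1
  refine ⟨⟨hwinv, hwcm⟩, ?_⟩
  apply hQN1 N
  · have h1 := hwcm 1
    simpa using h1
  · rw [Qexp.periodic_iff]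
    intro τ
    have e : (1 : ℝ) +ᵥ τ = T • τ := (modular_T_smul τ).symm
    rw [e]
    exact hwinv T (kumk4a_T_mem N) τ

/-- (K4) Two Kummer generators with the same multiplier differ by a constant times a `p`-th
power. -/
theorem kumk4a_main :
    dict_ImgStatement → kumL_KL1Statement → kumL_KL3Statement → kum_UniqStatement := by
  intro hImg hKL1 hKL3 N _ p hp χ s₁ s₂ f₁ f₂ hR₁ hR₂ hA₁ hA₂
  obtain ⟨hQc, hQmul, hQinj, -, -, hQ1N, hQN1, -, -⟩ := Fermat.Agent.S24.Qexp.qexpStatement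
  have hp0 : 0 < p := hp.pos
  obtain ⟨hwmod, hw1⟩ := kumk4a_w hKL1 N p hp0 χ s₁ s₂ hR₁ hR₂
  obtain ⟨hφ₁cm, hφ₁q⟩ := hA₁
  obtain ⟨hφ₂cm, hφ₂q⟩ := hA₂
  -- `f₁ ≠ 0`, `f₂ ≠ 0`
  have hne : ∀ (s : ℍ → ℂ) (f : ↥(FNbar N)), s ≠ 0 → IsCuspMer 1 (fun z : ℍ => s z ^ p) →
      Qexp 1 (fun z : ℍ => s z ^ p) = ModularCurve.coeffMap iotaHom (f : LaurentSeries Kbar) →
      f ≠ 0 := by
    intro s f hs hcm hq h0
    rw [h0] at hq
    have hq0 : Qexp 1 (fun z : ℍ => s z ^ p) = 0 := by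
      rw [hq]
      simp
    have hfun := hQinj 1 _ hcm hq0
    obtain ⟨z, hz⟩ := Function.ne_iff.mp hs
    exact hz ((pow_eq_zero_iff hp.ne_zero).mp (congrFun hfun z))
  have hf₁ : f₁ ≠ 0 := hne s₁ f₁ hR₁.2.1 hφ₁cm hφ₁q
  have hf₂ : f₂ ≠ 0 := hne s₂ f₂ hR₂.2.1 hφ₂cm hφ₂q
  have hf₁' : (f₁ : LaurentSeries Kbar) ≠ 0 := fun h => hf₁ (Subtype.ext h)
  have hf₂' : (f₂ : LaurentSeries Kbar) ≠ 0 := fun h => hf₂ (Subtype.ext h)
  -- the `q`-expansion of `w`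
  have hxp : Qexp 1 (fun z => s₁ z * s₂ z ^ (p - 1)) ^ p = ModularCurve.coeffMap iotaHom
      ((f₁ : LaurentSeries Kbar) * (f₂ : LaurentSeries Kbar) ^ (p - 1)) := by
    rw [← (kumk4a_pow 1 _ hw1 p).2]
    have e : (fun z => s₁ z * s₂ z ^ (p - 1)) ^ p
        = (fun z => s₁ z ^ p) * (fun z => s₂ z ^ p) ^ (p - 1) := by
      funext z
      simp only [Pi.pow_apply, Pi.mul_apply]
      rw [mul_pow, ← pow_mul, ← pow_mul, mul_comm (p - 1) p]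
    rw [e, (hQmul 1 _ _ hφ₁cm (kumk4a_pow 1 _ hφ₂cm (p - 1)).1).2.2.2,
      (kumk4a_pow 1 _ hφ₂cm (p - 1)).2, hφ₁q, hφ₂q, map_mul, map_pow]
  have hg0 : (f₁ : LaurentSeries Kbar) * (f₂ : LaurentSeries Kbar) ^ (p - 1) ≠ 0 :=
    mul_ne_zero hf₁' (pow_ne_zero _ hf₂')
  have hx0 : Qexp 1 (fun z => s₁ z * s₂ z ^ (p - 1)) ≠ 0 := by
    intro h0
    rw [h0, zero_pow hp.ne_zero] at hxp
    apply hg0
    apply kumk4a_coeffMap_inj
    rw [← hxp, map_zero]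
  obtain ⟨a, y, ha, hxy⟩ := hKL3 p _ hp0 hx0 (by
    intro n
    rw [hxp]
    exact ⟨_, (ModularCurve.coeffMap_coeff _ _ _).symm⟩)
  -- the normalised function `w₀ = a⁻¹ w`
  have hca : ∀ (h : ℕ) [NeZero h], IsCuspMer h (fun _ : ℍ => a⁻¹) := fun h _ => ⟨0, (hQc h a⁻¹).1⟩
  have hw₀mod : dict_ModFun N (fun z => a⁻¹ * (s₁ z * s₂ z ^ (p - 1))) := by
    refine ⟨fun γ hγ z => ?_, fun δ => ?_⟩
    · show a⁻¹ * _ = a⁻¹ * _
      rw [show s₁ (γ • z) * s₂ (γ • z) ^ (p - 1) = s₁ z * s₂ z ^ (p - 1) from hwmod.1 γ hγ z]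
    · exact (hQmul N _ _ (hca N) (hwmod.2 δ)).2.1
  have hw₀1 : IsCuspMer 1 (fun z => a⁻¹ * (s₁ z * s₂ z ^ (p - 1))) :=
    (hQmul 1 _ _ (hca 1) hw1).2.1
  have hw₀q : Qexp 1 (fun z => a⁻¹ * (s₁ z * s₂ z ^ (p - 1)))
      = ModularCurve.coeffMap iotaHom y := by
    have h1 : Qexp 1 ((fun _ : ℍ => a⁻¹) * (fun z => s₁ z * s₂ z ^ (p - 1)))
        = Qexp 1 (fun _ : ℍ => a⁻¹) * Qexp 1 (fun z => s₁ z * s₂ z ^ (p - 1)) :=
      (hQmul 1 _ _ (hca 1) hw1).2.2.2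
    have h2 : Qexp 1 (fun z => a⁻¹ * (s₁ z * s₂ z ^ (p - 1)))
        = Qexp 1 (fun _ : ℍ => a⁻¹) * Qexp 1 (fun z => s₁ z * s₂ z ^ (p - 1)) := h1
    rw [h2, (hQc 1 a⁻¹).2, hxy, ← mul_assoc, ← map_mul, inv_mul_cancel₀ ha, map_one, one_mul]
  obtain ⟨h₀, -, hh₀q⟩ := hImg N _ hw₀mod (by
    intro n
    rw [hw₀q]
    exact ⟨_, (ModularCurve.coeffMap_coeff _ _ _).symm⟩)
  have hyh : ModularCurve.coeffMap iotaHom y
      = ModularCurve.coeffMap iotaHom (h₀ : LaurentSeries Kbar) := by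
    rw [← hw₀q, hh₀q]
  rw [hyh] at hxy
  have hh₀0 : (h₀ : LaurentSeries Kbar) ≠ 0 := by
    intro h0
    rw [h0, map_zero, mul_zero] at hxy
    exact hx0 hxy
  rw [hxy] at hxp
  obtain ⟨c, hc0, hcg⟩ := kumk4a_formal p a ha _ _ hh₀0 hxp
  have hh₀ne : h₀ ≠ 0 := fun h => hh₀0 (by rw [h]; rfl)
  have hfield : f₁ * f₂ ^ (p - 1) = algebraMap Kbar ↥(FNbar N) c * h₀ ^ p := by
    apply Subtype.ext
    have e1 : ((f₁ * f₂ ^ (p - 1) : ↥(FNbar N)) : LaurentSeries Kbar)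
        = (f₁ : LaurentSeries Kbar) * (f₂ : LaurentSeries Kbar) ^ (p - 1) := rfl
    have e2 : ((algebraMap Kbar ↥(FNbar N) c * h₀ ^ p : ↥(FNbar N)) : LaurentSeries Kbar)
        = algebraMap Kbar (LaurentSeries Kbar) c * (h₀ : LaurentSeries Kbar) ^ p := rfl
    rw [e1, e2, hcg, ModularCurve.algebraMap_laurentSeries_eq_single]
    rfl
  refine ⟨c, h₀ / f₂, hc0, div_ne_zero hh₀ne hf₂, ?_⟩
  have hf₂p : f₂ ^ (p - 1) ≠ 0 := pow_ne_zero _ hf₂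
  have hpow : f₂ ^ p = f₂ ^ (p - 1) * f₂ := by
    rw [← pow_succ, Nat.sub_add_cancel hp.one_le]
  have hfinal : algebraMap Kbar ↥(FNbar N) c * (h₀ / f₂) ^ p * f₂ = f₁ := by
    rw [div_pow, hpow, eq_comm]
    have h3 : f₁ = algebraMap Kbar ↥(FNbar N) c * h₀ ^ p / f₂ ^ (p - 1) := by
      rw [eq_div_iff hf₂p]
      exact hfield
    rw [h3]
    field_simp
  exact hfinal.symm

end Fermat.Agent.S42
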