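/-
S42 moonshot — block KUM, package KA1 (twin A): the adapter (AD1) from helper26's `RootProp`
to the S24-style data (`kum_Root`, `dict_An`).
-/
import Mathlib
import Fermat.Agent.S42.KumInner
import Fermat.Agent.S24.Qexp
import Fermat.Agent.S24.PointVal

set_option autoImplicit false

open UpperHalfPlane ModularForm Complex CongruenceSubgroup ModularGroup AlgebraicCurve
open scoped MatrixGroups Manifold Real

namespace Fermat.Agent.S42

open Fermat.Agent.S24

/-- `chiOf N p c γ` is a `p`-th root of unity. -/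
theorem kumka1a_chi_pow (N p : ℕ) [Fact p.Prime] (c : Additive ↥(Gamma0 N) →+ ZMod p)
    (γ : ↥(Gamma0 N)) : chiOf N p c γ ^ p = 1 := by
  have hp : (p : ℂ) ≠ 0 := Nat.cast_ne_zero.mpr (Fact.out : p.Prime).ne_zero
  unfold chiOf
  rw [← Complex.exp_nat_mul]
  have h : (p : ℂ) * (2 * Real.pi * Complex.I * (((c (Additive.ofMul γ)).val : ℕ) : ℂ) / (p : ℂ))
      = (((c (Additive.ofMul γ)).val : ℕ) : ℂ) * (2 * Real.pi * Complex.I) := by
    field_simp
  rw [h]
  exact Complex.exp_nat_mul_two_pi_mul_I _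

/-- `coeffMap iotaHom` is injective. -/
theorem kumka1a_coeffMap_inj (x : LaurentSeries Kbar)
    (h : ModularCurve.coeffMap iotaHom x = 0) : x = 0 := by
  ext n
  have h1 : (ModularCurve.coeffMap iotaHom x).coeff n = 0 := by rw [h]; rfl
  rw [ModularCurve.coeffMap_coeff] at h1
  have h2 : iotaHom (x.coeff n) = iotaHom 0 := by rw [h1, map_zero]
  simpa using iotaHom.injective h2

/-- (AD1) from `RootProp` to the S24-style data. -/
theorem kumka1a_main : dict_RepStatement → kumL_QuotStatement → kumL_OfSumStatement →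
    adapt_OfRootPropStatement := by
  intro hRep hQuot hOS N p _ _ c f hroot
  obtain ⟨s, hs, ⟨τ₀, hτ₀⟩, hmul, B, hB⟩ := hroot
  have hGhol : MDifferentiable 𝓘(ℂ) 𝓘(ℂ) (fun z : ℍ => s z ^ p) := hs.pow p
  have hAn : dict_An (f : LaurentSeries Kbar) (fun z : ℍ => s z ^ p) := by
    refine hOS (fun z : ℍ => s z ^ p) (ModularCurve.coeffMap iotaHom (f : LaurentSeries Kbar)) B
      hGhol ?_
    intro τ hτ
    have h1 := hB τ hτ
    simp only [ModularCurve.coeffMap_coeff]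
    exact h1
  refine ⟨s, ⟨hs, ?_, ?_, ?_⟩, hAn⟩
  · intro h0
    exact hτ₀ (by rw [h0]; rfl)
  · intro γ
    exact ⟨kumka1a_chi_pow N p c γ, hmul γ⟩
  · obtain ⟨f₁, f₂, φ₁, φ₂, hf₂, hff, hA₁, hA₂, hM₁, hM₂⟩ := hRep N f
    obtain ⟨hc1, hc2, hinj, -, -, -, -, -, -⟩ := Qexp.qexpStatement
    have hGc : IsCuspMer 1 (fun z : ℍ => s z ^ p) := hAn.1
    have hφ₁c : IsCuspMer 1 φ₁ := hA₁.1
    have hφ₂c : IsCuspMer 1 φ₂ := hA₂.1
    have hconst := hc1 1 (-1 : ℂ)
    -- `G * φ₂ = φ₁`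
    have hGφ : (fun z : ℍ => s z ^ p) * φ₂ + (fun _ : ℍ => (-1 : ℂ)) * φ₁ = 0 := by
      have hm1 := hc2 1 (fun z : ℍ => s z ^ p) φ₂ hGc hφ₂c
      have hm2 := hc2 1 (fun _ : ℍ => (-1 : ℂ)) φ₁ ⟨0, hconst.1⟩ hφ₁c
      have hsum := hc2 1 _ _ hm1.2.1 hm2.2.1
      apply hinj 1 _ hsum.1
      rw [hsum.2.2.1, hm1.2.2.2, hm2.2.2.2, hconst.2, hAn.2, hA₁.2, hA₂.2, ← map_mul]
      have h3 : ((f₁ : ↥(FNbar N)) : LaurentSeries Kbar)
          = (f : LaurentSeries Kbar) * (f₂ : LaurentSeries Kbar) := by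
        rw [← hff]; rfl
      rw [h3, map_neg, map_one]
      ring
    -- `φ₂ ≠ 0`
    have hφ₂ne : φ₂ ≠ 0 := by
      intro h0
      apply hf₂
      have h4 : ModularCurve.coeffMap iotaHom (f₂ : LaurentSeries Kbar) = 0 := by
        rw [← hA₂.2, h0]
        have h7 : Qexp 1 (fun _ : ℍ => (0 : ℂ)) = HahnSeries.C (0 : ℂ) := (hc1 1 (0 : ℂ)).2
        rw [map_zero] at h7
        exact h7
      have h5 := kumka1a_coeffMap_inj _ h4
      exact Subtype.ext h5
    intro γ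
    have hu : Hol (fun z : ℍ => s (γ • z) ^ p) :=
      PointVal.mdifferentiable_comp_smul γ hGhol
    have h1 : IsCuspMer N (fun z : ℍ => φ₁ (γ • z)) := hM₁.2 γ
    have h2 : IsCuspMer N (fun z : ℍ => φ₂ (γ • z)) := hM₂.2 γ
    have hne : (fun z : ℍ => φ₂ (γ • z)) ≠ 0 := by
      intro h0
      apply hφ₂ne
      funext z
      have := congrFun h0 (γ⁻¹ • z)
      simpa using this
    refine hQuot N (fun z : ℍ => s (γ • z) ^ p) (fun z : ℍ => φ₁ (γ • z))
      (fun z : ℍ => φ₂ (γ • z)) hu h1 h2 hne ?_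
    intro z
    have h6 := congrFun hGφ (γ • z)
    simp only [Pi.add_apply, Pi.mul_apply, Pi.zero_apply] at h6
    linear_combination h6

end Fermat.Agent.S42
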