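/-
S42 moonshot — block KUM, package KA2 (twin A).
(SUM) the Laurent expansion at `∞` converges to the function, as a sum over `ℤ`;
(AD2) from the S24-style Kummer data to `RootProp`.
-/
import Mathlib
import Fermat.Agent.S42.KumInner
import Fermat.Agent.S24.QexpBasic

set_option autoImplicit false

open UpperHalfPlane ModularForm Complex CongruenceSubgroup ModularGroup AlgebraicCurve
open scoped MatrixGroups Manifold Real

namespace Fermat.Agent.S42

open Fermat.Agent.S24

/-- `exp(2πi n τ) = q^n` with `q = qParam 1 τ`. -/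
theorem kumka2a_exp_eq (τ : ℂ) (n : ℤ) :
    Complex.exp (2 * Real.pi * Complex.I * (n : ℂ) * τ)
      = Function.Periodic.qParam (((1 : ℕ) : ℝ)) τ ^ n := by
  unfold Function.Periodic.qParam
  rw [← Complex.exp_int_mul]
  congr 1
  push_cast
  ring

/-- (SUM) The Laurent expansion at `∞` converges to the function, as a sum over `ℤ`. -/
theorem kumka2a_sum : kumL_SumStatement := by
  intro F hF τ
  obtain ⟨k, hk⟩ := hF
  have hs := Fermat.Agent.S24.Qexp.hasSum_Qexp hk τ
  have hq0 : Function.Periodic.qParam (((1 : ℕ) : ℝ)) (τ : ℂ) ≠ 0 := by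
    unfold Function.Periodic.qParam
    exact Complex.exp_ne_zero _
  have hs2 := hs.mul_left ((Function.Periodic.qParam (((1 : ℕ) : ℝ)) (τ : ℂ) ^ k)⁻¹)
  rw [← mul_assoc, inv_mul_cancel₀ (pow_ne_zero k hq0), one_mul] at hs2
  have hinj : Function.Injective (fun m : ℕ => (m : ℤ) - (k : ℤ)) := by
    intro a b hab
    simp only [sub_left_inj, Nat.cast_inj] at hab
    exact hab
  refine (hinj.hasSum_iff ?_).mp ?_
  · intro n hn
    have hlt : n < -(k : ℤ) := by
      by_contra h
      have h' : -(k : ℤ) ≤ n := not_lt.mp h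
      refine hn ⟨(n + k).toNat, ?_⟩
      show (((n + k).toNat : ℕ) : ℤ) - (k : ℤ) = n
      rw [Int.toNat_of_nonneg (by omega)]
      ring
    rw [Fermat.Agent.S24.Qexp.coeff_Qexp_of_lt hk hlt, zero_mul]
  · have hfun : ((fun n : ℤ => (Qexp 1 F).coeff n *
          Complex.exp (2 * Real.pi * Complex.I * (n : ℂ) * (τ : ℂ))) ∘
            (fun m : ℕ => (m : ℤ) - (k : ℤ)))
        = fun i : ℕ => (Function.Periodic.qParam (((1 : ℕ) : ℝ)) (τ : ℂ) ^ k)⁻¹ *
            (Qexp 1 F).coeff ((i : ℤ) - (k : ℤ)) •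
              Function.Periodic.qParam (((1 : ℕ) : ℝ)) (τ : ℂ) ^ i := by
      funext m
      simp only [Function.comp_apply]
      rw [kumka2a_exp_eq, smul_eq_mul, zpow_sub₀ hq0, zpow_natCast, zpow_natCast,
        div_eq_mul_inv]
      ring
    rw [hfun]
    exact hs2

/-- (AD2) from the S24-style data to `RootProp`. -/
theorem kumka2a_main : kumL_SumStatement → adapt_ToRootPropStatement := by
  intro hsum N p _ _ c f s hroot han
  obtain ⟨hhol, hne, hmult, -⟩ := hroot
  obtain ⟨hcm, hq⟩ := han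
  refine ⟨s, hhol, ?_, fun γ τ => (hmult γ).2 τ, 0, fun τ _ => ?_⟩
  · by_contra h
    apply hne
    funext z
    by_contra hz
    exact h ⟨z, hz⟩
  · have h1 := hsum _ hcm τ
    rw [hq] at h1
    simp only [ModularCurve.coeffMap_coeff] at h1
    exact h1


end Fermat.Agent.S42
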