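/-
S42 moonshot — block KUM, package KA3: `adapt_ChiStatement`.
-/
import Mathlib
import Fermat.Agent.S42.KumInner

set_option autoImplicit false

open UpperHalfPlane ModularForm Complex CongruenceSubgroup ModularGroup AlgebraicCurve
open scoped MatrixGroups Manifold Real

namespace Fermat.Agent.S42

open Fermat.Agent.S24

theorem kumka3_chi_eq_one_iff (N p : ℕ) [Fact p.Prime] (c : Additive ↥(Gamma0 N) →+ ZMod p)
    (γ : ↥(Gamma0 N)) : chiOf N p c γ = 1 ↔ c (Additive.ofMul γ) = 0 := by
  have hp : (p : ℂ) ≠ 0 := Nat.cast_ne_zero.mpr (Fact.out : p.Prime).ne_zero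
  have hp0 : 0 < p := (Fact.out : p.Prime).pos
  unfold chiOf
  constructor
  · intro h
    rw [Complex.exp_eq_one_iff] at h
    obtain ⟨n, hn⟩ := h
    have h2 : (((c (Additive.ofMul γ)).val : ℕ) : ℂ) = (n : ℂ) * (p : ℂ) := by
      have hpi : (2 * (Real.pi : ℂ) * Complex.I) ≠ 0 := by
        simp [Real.pi_ne_zero, Complex.I_ne_zero]
      field_simp at hn
      rw [hn]; ring
    have h3 : (((c (Additive.ofMul γ)).val : ℕ) : ℤ) = n * (p : ℤ) := by
      exact_mod_cast h2
    have hlt : (c (Additive.ofMul γ)).val < p := ZMod.val_lt _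
    have hn0 : n = 0 := by
      by_contra hne
      rcases lt_or_gt_of_ne hne with h | h
      · have : n * (p : ℤ) < 0 := mul_neg_of_neg_of_pos h (by exact_mod_cast hp0)
        omega
      · have : (p : ℤ) ≤ n * (p : ℤ) := by
          have : (1 : ℤ) ≤ n := h
          nlinarith [(by exact_mod_cast hp0 : (0 : ℤ) < (p : ℤ))]
        omega
    rw [hn0] at h3
    have h4 : (c (Additive.ofMul γ)).val = 0 := by
      have : (((c (Additive.ofMul γ)).val : ℕ) : ℤ) = 0 := by simpa using h3
      exact_mod_cast this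
    exact (ZMod.val_eq_zero _).mp h4
  · intro h
    rw [h]
    simp

theorem kumka3_main : adapt_ChiStatement := by
  intro N p _ _ c
  refine ⟨?_, ?_⟩
  · intro γ hγ
    rw [kumka3_chi_eq_one_iff]
    exact c.2 γ hγ
  · intro h
    apply Subtype.ext
    apply AddMonoidHom.ext
    intro x
    have := (kumka3_chi_eq_one_iff N p (c : Additive ↥(Gamma0 N) →+ ZMod p) (Additive.toMul x)).mp
      (h (Additive.toMul x))
    simpa using this

end Fermat.Agent.S42
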