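/-
S42 moonshot — block EIS (χ-twisted weight-12 Eisenstein-type series on Γ₀(N)).
INTERFACE FILE: definitions and statement-`Prop`s only.  Every EIS package proves one of the
`EIS…Statement : Prop` below in its own file `Fermat/Agent/S42/EIS<Package>.lean`, possibly assuming
other statements as explicit hypotheses.

For `c : Γ₀(N) → ℤ/p` a homomorphism, `chiOf N p c γ = exp(2πi c(γ)/p)` (shared interface).  A function `φ : ℍ → ℂ`
is a `χ`-twisted modular form of weight `k` (`EISTwisted N k χ φ`) if it is holomorphic, satisfies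
`φ ∣[k] γ = χ γ • φ` for `γ ∈ Γ₀(N)` and all its slashes by `SL(2, ℤ)` are bounded at `i∞`.
The series is `eisE N p c = ∑' v, eisCoef N p c v * (v 0 z + v 1)^(-12)` where `eisCoef N p c v =
(χ γ)⁻¹` if `v` is the bottom row of `γ ∈ Γ₀(N)` (well defined when `c` is parabolic) and `0` else.
-/
import Mathlib
import Fermat.Agent.S42.Interfaces

set_option autoImplicit false

open UpperHalfPlane CongruenceSubgroup ModularCurve ModularCurve.Period Filter Topology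
open scoped MatrixGroups ModularForm Manifold

namespace Fermat.Agent.S42

noncomputable section

/-- `χ`-twisted modular forms of weight `k` and level `Γ₀(N)`. -/
structure EISTwisted (N : ℕ) (k : ℤ) (χ : Gamma0 N → ℂ) (φ : ℍ → ℂ) : Prop where
  holo : MDifferentiable 𝓘(ℂ) 𝓘(ℂ) φ
  slash : ∀ γ : Gamma0 N, φ ∣[k] (γ : SL(2, ℤ)) = χ γ • φ
  bdd : ∀ δ : SL(2, ℤ), IsBoundedAtImInfty (φ ∣[k] δ)

/-- Eisenstein-type series with coefficients `w` on the lattice of bottom rows. -/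
def eisSeries (k : ℤ) (w : (Fin 2 → ℤ) → ℂ) (z : ℍ) : ℂ :=
  ∑' v : Fin 2 → ℤ, w v * EisensteinSeries.eisSummand k v z

open Classical in
/-- The coefficient function of the twisted series: `(χ γ)⁻¹` on the bottom row of `γ ∈ Γ₀(N)`. -/
def eisCoef (N p : ℕ) (c : Additive (Gamma0 N) →+ ZMod p) (v : Fin 2 → ℤ) : ℂ :=
  if h : ∃ γ : Gamma0 N, ((γ : SL(2, ℤ)) : Matrix (Fin 2) (Fin 2) ℤ) 1 = v then
    (chiOf N p c h.choose)⁻¹
  else 0

/-- The `χ`-twisted Eisenstein series of weight 12. -/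
def eisE (N p : ℕ) (c : Additive (Gamma0 N) →+ ZMod p) : ℍ → ℂ :=
  eisSeries 12 (eisCoef N p c)

/-! ## Character packages -/

/-- (CHAR) `chiOf` is a unitary character of order dividing `p`. -/
def EISCharStatement : Prop :=
  ∀ (N : ℕ) [NeZero N] (p : ℕ) [NeZero p] (c : Additive (Gamma0 N) →+ ZMod p),
    chiOf N p c 1 = 1 ∧
    (∀ γ δ : Gamma0 N, chiOf N p c (γ * δ) = chiOf N p c γ * chiOf N p c δ) ∧
    (∀ γ : Gamma0 N, ‖chiOf N p c γ‖ = 1) ∧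
    (∀ γ : Gamma0 N, c (Additive.ofMul γ) = 0 → chiOf N p c γ = 1) ∧
    (∀ γ : Gamma0 N, chiOf N p c γ ^ p = 1)

/-- (COEF) The coefficient function: values, equivariance, bound, support. -/
def EISCoefStatement : Prop :=
  ∀ (N : ℕ) [NeZero N] (p : ℕ) [NeZero p] (c : Lam N p),
    (∀ γ : Gamma0 N, eisCoef N p c (((γ : SL(2, ℤ)) : Matrix (Fin 2) (Fin 2) ℤ) 1) =
      (chiOf N p c γ)⁻¹) ∧
    (∀ (v : Fin 2 → ℤ) (γ : Gamma0 N),
      eisCoef N p c (Matrix.vecMul v ((γ : SL(2, ℤ)) : Matrix (Fin 2) (Fin 2) ℤ)) =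
        eisCoef N p c v * (chiOf N p c γ)⁻¹) ∧
    (∀ v : Fin 2 → ℤ, ‖eisCoef N p c v‖ ≤ 1) ∧
    (∀ v : Fin 2 → ℤ, eisCoef N p c v ≠ 0 → IsCoprime (v 0) (v 1))

/-! ## Generic analytic packages (bounded coefficients, weight `k ≥ 3`) -/

/-- (SUMMABLE) Absolute convergence. -/
def EISSummableStatement : Prop :=
  ∀ (k : ℤ), 3 ≤ k → ∀ (w : (Fin 2 → ℤ) → ℂ), (∀ v, ‖w v‖ ≤ 1) → ∀ z : ℍ,
    Summable (fun v : Fin 2 → ℤ => ‖w v * EisensteinSeries.eisSummand k v z‖)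

/-- (HOLO) Holomorphy. -/
def EISHoloStatement : Prop :=
  ∀ (k : ℤ), 3 ≤ k → ∀ (w : (Fin 2 → ℤ) → ℂ), (∀ v, ‖w v‖ ≤ 1) →
    MDifferentiable 𝓘(ℂ) 𝓘(ℂ) (eisSeries k w)

/-- (SLASH) Slashing by `δ ∈ SL(2, ℤ)` transports the coefficient function. -/
def EISSlashStatement : Prop :=
  ∀ (k : ℤ) (w : (Fin 2 → ℤ) → ℂ) (δ : SL(2, ℤ)),
    eisSeries k w ∣[k] δ =
      eisSeries k (fun v => w (Matrix.vecMul v ((δ⁻¹ : SL(2, ℤ)) : Matrix (Fin 2) (Fin 2) ℤ)))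

/-- (BDD) Boundedness at `i∞`. -/
def EISBddStatement : Prop :=
  ∀ (k : ℤ), 3 ≤ k → ∀ (w : (Fin 2 → ℤ) → ℂ), (∀ v, ‖w v‖ ≤ 1) →
    IsBoundedAtImInfty (eisSeries k w)

/-- (LIMIT) The limit at `i∞` (even weight, coefficients supported on coprime pairs). -/
def EISLimitStatement : Prop :=
  ∀ (k : ℤ), 3 ≤ k → Even k → ∀ (w : (Fin 2 → ℤ) → ℂ), (∀ v, ‖w v‖ ≤ 1) →
    (∀ v : Fin 2 → ℤ, w v ≠ 0 → IsCoprime (v 0) (v 1)) →
    Tendsto (eisSeries k w) atImInfty (𝓝 (w ![0, 1] + w ![0, -1]))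

/-! ## Output of the block -/

/-- (EIS-MAIN) The twisted Eisenstein series is a nonzero `χ`-twisted modular form of weight 12. -/
def EISMainStatement : Prop :=
  ∀ (N : ℕ) [NeZero N] (p : ℕ) [NeZero p] (c : Lam N p),
    EISTwisted N 12 (chiOf N p c) (eisE N p c) ∧
    Tendsto (eisE N p c) atImInfty (𝓝 2) ∧ eisE N p c ≠ 0

/-- (PERIODIC) Twisted forms for a character that is trivial on parabolic elements are
`N`-periodic after slashing by any element of `SL(2, ℤ)`. -/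
def EISPeriodicStatement : Prop :=
  ∀ (N : ℕ) [NeZero N] (k : ℤ) (χ : Gamma0 N → ℂ) (φ : ℍ → ℂ),
    (∀ γ : Gamma0 N, φ ∣[k] (γ : SL(2, ℤ)) = χ γ • φ) →
    (∀ γ : Gamma0 N,
      (((γ : SL(2, ℤ)) : Matrix (Fin 2) (Fin 2) ℤ).trace) ^ 2 = 4 → χ γ = 1) →
    ∀ δ : SL(2, ℤ), Function.Periodic ((φ ∣[k] δ) ∘ ofComplex) (N : ℂ)

end

end Fermat.Agent.S42
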