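/-
S42 moonshot — block KUM, package KE (twin A): the Kummer root `E^χ / Δ` from the twisted
Eisenstein series of block EIS.
-/
import Mathlib
import Fermat.Agent.S42.KumInner
import Fermat.Agent.S42.EISInterfaces
import Fermat.Agent.S24.JLocalBasic
import Fermat.Agent.S24.JOrdersBG
import Fermat.Agent.S24.PointVal

set_option autoImplicit false

namespace Fermat.Agent.S42

open Fermat.Agent.S24
open UpperHalfPlane ModularForm Complex CongruenceSubgroup ModularGroup AlgebraicCurve
open scoped MatrixGroups Manifold Real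

noncomputable section

/-- The quotient `φ / Δ`. -/
def kumkea_quot (φ : ℍ → ℂ) : ℍ → ℂ := fun z => φ z / ModularForm.discriminant z

theorem kumkea_hol (φ : ℍ → ℂ) (hφ : MDifferentiable 𝓘(ℂ) 𝓘(ℂ) φ) : Hol (kumkea_quot φ) :=
  hφ.div JLocal.discriminant_mdifferentiable discriminant_ne_zero

/-- `(φ / Δ) (δ z) = (φ ∣[12] δ) z / Δ z`. -/
theorem kumkea_quot_smul (φ : ℍ → ℂ) (δ : SL(2, ℤ)) (z : ℍ) :
    kumkea_quot φ (δ • z) = (φ ∣[(12 : ℤ)] δ) z / ModularForm.discriminant z := by
  unfold kumkea_quot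
  rw [SL_slash_apply, JLocal.discriminant_smul]
  have hd : denom δ z ≠ 0 := denom_ne_zero _ _
  have hΔ := discriminant_ne_zero z
  rw [zpow_neg]
  field_simp

/-- Powers of functions bounded at `i∞` are bounded at `i∞`. -/
theorem kumkea_bdd_pow {f : ℍ → ℂ} (hf : IsBoundedAtImInfty f) (n : ℕ) :
    IsBoundedAtImInfty (fun z => f z ^ n) := by
  induction n with
  | zero =>
    have h : (fun z : ℍ => f z ^ 0) = fun _ => (1 : ℂ) := by
      funext z
      simp
    rw [h]
    exact Filter.const_boundedAtFilter atImInfty (1 : ℂ)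
  | succ n ih =>
    have h : (fun z : ℍ => f z ^ (n + 1)) = (fun z : ℍ => f z ^ n) * f := by
      funext z
      simp [pow_succ]
    rw [h]
    exact ih.mul hf

/-- `Δ ∘ ofComplex` is `N`-periodic. -/
theorem kumkea_periodic_discriminant (N : ℕ) :
    Function.Periodic (ModularForm.discriminant ∘ ofComplex) (N : ℂ) := by
  have h1 : Function.Periodic (ModularForm.discriminant ∘ ofComplex) ((1 : ℝ) : ℂ) :=
    SlashInvariantFormClass.periodic_comp_ofComplex CuspForm.discriminant one_mem_strictPeriods_SL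
  have h2 := h1.nat_mul N
  simpa using h2

/-- `q_N ^ N = q`. -/
theorem kumkea_qParam_pow (N : ℕ) [NeZero N] (w : ℂ) :
    Function.Periodic.qParam (N : ℝ) w ^ N = Function.Periodic.qParam (1 : ℝ) w := by
  have hN : (N : ℂ) ≠ 0 := Nat.cast_ne_zero.mpr (NeZero.ne N)
  unfold Function.Periodic.qParam
  rw [← Complex.exp_nat_mul]
  congr 1
  push_cast
  field_simp

/-- The cusp condition for the `p`-th power of `φ / Δ`. -/
theorem kumkea_cuspMer (N : ℕ) [NeZero N] (p : ℕ) (φ : ℍ → ℂ)
    (hφ : MDifferentiable 𝓘(ℂ) 𝓘(ℂ) φ)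
    (hper : ∀ δ : SL(2, ℤ), Function.Periodic ((φ ∣[(12 : ℤ)] δ) ∘ ofComplex) (N : ℂ))
    (hbdd : ∀ δ : SL(2, ℤ), IsBoundedAtImInfty (φ ∣[(12 : ℤ)] δ)) :
    dict_CuspMer N (fun z : ℍ => kumkea_quot φ z ^ p) := by
  intro δ
  refine ⟨p * N, ?_, ?_, ?_⟩
  · exact (PointVal.mdifferentiable_comp_smul δ (kumkea_hol φ hφ)).pow p
  · have hfun : (fun z : ℍ => kumkea_quot φ (δ • z) ^ p) ∘ ofComplex =
        fun w : ℂ => (((φ ∣[(12 : ℤ)] δ) ∘ ofComplex) w /
          (ModularForm.discriminant ∘ ofComplex) w) ^ p := by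
      funext w
      simp only [Function.comp_apply]
      rw [kumkea_quot_smul]
    rw [hfun]
    intro w
    have h1 := hper δ w
    have h2 := kumkea_periodic_discriminant N w
    have hc : ((N : ℝ) : ℂ) = (N : ℂ) := by push_cast; rfl
    simp only [hc]
    rw [h1, h2]
  · have hfun : (fun τ : ℍ => Function.Periodic.qParam (N : ℝ) (τ : ℂ) ^ (p * N) *
          kumkea_quot φ (δ • τ) ^ p) =
        (fun τ : ℍ => (φ ∣[(12 : ℤ)] δ) τ ^ p) *
          (fun τ : ℍ => (Function.Periodic.qParam (1 : ℝ) (τ : ℂ) /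
            ModularForm.discriminant τ) ^ p) := by
      funext τ
      simp only [Pi.mul_apply]
      rw [kumkea_quot_smul, mul_comm p N, pow_mul, kumkea_qParam_pow, div_pow, div_pow]
      ring
    rw [hfun]
    exact (kumkea_bdd_pow (hbdd δ) p).mul
      (kumkea_bdd_pow JOrdersB.isBounded_q_div_discriminant p)

/-- (KE) The Kummer root `E^χ / Δ`. -/
theorem kumkea_main : EISMainStatement → EISPeriodicStatement → EISCharStatement →
    adapt_ChiStatement → eis_RootStatement := by
  intro hMain hPer hChar hChi N p _ hp _ c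
  have : NeZero p := ⟨hp.out.ne_zero⟩
  obtain ⟨hE, -, hne⟩ := hMain N p c
  have hpar := (hChi N p c).1
  have hchar := (hChar N p (c : Additive ↥(Gamma0 N) →+ ZMod p)).2.2.2.2
  refine ⟨kumkea_quot (eisE N p c), kumkea_hol _ hE.holo, ?_, ?_, ?_⟩
  · intro h0
    apply hne
    funext z
    have h1 := congrFun h0 z
    have hΔ := discriminant_ne_zero z
    simp only [kumkea_quot, Pi.zero_apply, div_eq_zero_iff] at h1
    simpa using h1.resolve_right hΔ
  · intro γ
    refine ⟨hchar γ, fun z => ?_⟩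
    rw [kumkea_quot_smul, hE.slash γ]
    simp only [kumkea_quot, Pi.smul_apply, smul_eq_mul]
    ring
  · exact kumkea_cuspMer N p _ hE.holo (hPer N 12 _ _ hE.slash hpar) hE.bdd

end

end Fermat.Agent.S42
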