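/-
S42 moonshot — block KUM, package KL1 (twin A).
`kumkl1a_main : kumL_KL1Statement`: a holomorphic `N`-periodic function on `ℍ` whose `p`-th power
is meromorphic at the cusp `∞` is itself meromorphic at `∞` (with the same pole order bound).
-/
import Mathlib
import Fermat.Agent.S42.KumInner
import Fermat.Agent.S24.QexpBasic

set_option autoImplicit false

namespace Fermat.Agent.S42

open Fermat.Agent.S24
open UpperHalfPlane ModularForm Complex CongruenceSubgroup ModularGroup AlgebraicCurve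
open scoped MatrixGroups Manifold Real

/-- (KL1) A holomorphic `N`-periodic function whose `p`-th power is meromorphic at `∞` is
meromorphic at `∞`. -/
theorem kumkl1a_main : kumL_KL1Statement := by
  intro N _ p t hp ht hper hcm
  obtain ⟨k, -, -, hbdd⟩ := hcm
  refine ⟨k, ht, (Qexp.periodic_iff t ((N : ℕ) : ℝ)).2 hper, ?_⟩
  rw [UpperHalfPlane.isBoundedAtImInfty_iff] at hbdd ⊢
  obtain ⟨M, A, hMA⟩ := hbdd
  refine ⟨max 1 M, A, fun z hz => ?_⟩
  have hN : (0 : ℝ) < ((N : ℕ) : ℝ) := Nat.cast_pos.2 (NeZero.pos N)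
  have hq1 : ‖Function.Periodic.qParam ((N : ℕ) : ℝ) (z : ℂ)‖ ≤ 1 :=
    (Qexp.norm_qParam_lt_one' hN z).le
  have h1 : ‖Function.Periodic.qParam ((N : ℕ) : ℝ) (z : ℂ) ^ k * t z ^ p‖ ≤ M := hMA z hz
  have h2 : ‖Function.Periodic.qParam ((N : ℕ) : ℝ) (z : ℂ) ^ k * t z‖ ^ p ≤ M := by
    refine le_trans ?_ h1
    rw [norm_mul, norm_mul, norm_pow, norm_pow, mul_pow, ← pow_mul]
    apply mul_le_mul_of_nonneg_right _ (by positivity)
    exact pow_le_pow_of_le_one (norm_nonneg _) hq1 (Nat.le_mul_of_pos_right k hp)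
  by_cases hy : ‖Function.Periodic.qParam ((N : ℕ) : ℝ) (z : ℂ) ^ k * t z‖ ≤ 1
  · exact le_trans hy (le_max_left _ _)
  · have hy' : 1 ≤ ‖Function.Periodic.qParam ((N : ℕ) : ℝ) (z : ℂ) ^ k * t z‖ :=
      (not_le.1 hy).le
    exact le_trans (le_trans (le_self_pow₀ hy' hp.ne') h2) (le_max_right _ _)

end Fermat.Agent.S42
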