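/-
S42 moonshot — block KUM, package KL2 (twin A): if `t` is `IsCuspMer N` and `h`-periodic with
`h ∣ N`, then the order of its `q_N`-expansion is divisible by `N / h`.
-/
import Mathlib
import Fermat.Agent.S42.KumInner
import Fermat.Agent.S24.Qexp

set_option autoImplicit false

namespace Fermat.Agent.S42

open Fermat.Agent.S24
open UpperHalfPlane ModularForm Complex CongruenceSubgroup ModularGroup AlgebraicCurve
open scoped MatrixGroups Manifold Real

/-- Iterating the translation conjunct of `qexpStatement` `j` times. -/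
theorem kumkl2a_iter (N : ℕ) [NeZero N] (t : ℍ → ℂ) (ht : IsCuspMer N t) (j : ℕ) :
    IsCuspMer N (fun τ : ℍ => t (((j : ℕ) : ℝ) +ᵥ τ)) ∧
    ∀ n : ℤ, (Qexp N (fun τ : ℍ => t (((j : ℕ) : ℝ) +ᵥ τ))).coeff n
      = Complex.exp (2 * π * Complex.I * n / N) ^ j * (Qexp N t).coeff n := by
  induction j with
  | zero =>
    have h0 : (fun τ : ℍ => t (((0 : ℕ) : ℝ) +ᵥ τ)) = t := by
      funext τ
      simp
    rw [h0]
    exact ⟨ht, fun n => by simp⟩
  | succ j ih =>
    obtain ⟨h1, h2⟩ := ih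
    have hT := Qexp.qexpStatement.2.2.2.2.2.2.2.1 N _ h1
    have h0 : (fun τ : ℍ => t (((j + 1 : ℕ) : ℝ) +ᵥ τ))
        = (fun τ : ℍ => (fun τ : ℍ => t (((j : ℕ) : ℝ) +ᵥ τ)) ((1 : ℝ) +ᵥ τ)) := by
      funext τ
      simp only
      rw [vadd_vadd]
      congr 2
      push_cast
      ring
    rw [h0]
    refine ⟨hT.1, fun n => ?_⟩
    rw [hT.2 n, h2 n, pow_succ]
    ring

/-- (KL2) -/
theorem kumkl2a_main : kumL_KL2Statement := by
  intro N _ h t hh hN ht hper
  by_cases h0 : Qexp N t = 0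
  · rw [h0, HahnSeries.order_zero]
    exact dvd_zero _
  · have hc : (Qexp N t).coeff (Qexp N t).order ≠ 0 := fun hz => h0 (HahnSeries.coeff_order_eq_zero.mp hz)
    obtain ⟨-, h2⟩ := kumkl2a_iter N t ht h
    have heq : (fun τ : ℍ => t (((h : ℕ) : ℝ) +ᵥ τ)) = t := funext hper
    rw [heq] at h2
    have h3 := h2 (Qexp N t).order
    have h4 : Complex.exp (2 * π * Complex.I * ((Qexp N t).order : ℤ) / N) ^ h = 1 := by
      have h5 : (Complex.exp (2 * π * Complex.I * ((Qexp N t).order : ℤ) / N) ^ h - 1)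
          * (Qexp N t).coeff (Qexp N t).order = 0 := by
        rw [sub_mul, one_mul, ← h3, sub_self]
      rcases mul_eq_zero.mp h5 with h6 | h6
      · exact sub_eq_zero.mp h6
      · exact absurd h6 hc
    rw [← Complex.exp_nat_mul, Complex.exp_eq_one_iff] at h4
    obtain ⟨m, hm⟩ := h4
    obtain ⟨d, rfl⟩ := hN
    have hd : 0 < d := by
      rcases Nat.eq_zero_or_pos d with hd | hd
      · exfalso
        exact NeZero.ne (h * d) (by rw [hd, mul_zero])
      · exact hd
    have hdiv : h * d / h = d := Nat.mul_div_cancel_left d hh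
    rw [hdiv]
    have hpi : (2 * (π : ℂ) * Complex.I) ≠ 0 := Complex.two_pi_I_ne_zero
    have hhC : (h : ℂ) ≠ 0 := Nat.cast_ne_zero.mpr hh.ne'
    have hdC : (d : ℂ) ≠ 0 := Nat.cast_ne_zero.mpr hd.ne'
    have h7 : (((Qexp (h * d) t).order : ℤ) : ℂ) = (m : ℂ) * (d : ℂ) := by
      have h8 : (h : ℂ) * (2 * π * Complex.I * ((Qexp (h * d) t).order : ℤ) / ((h * d : ℕ) : ℂ))
          = (m : ℂ) * (2 * π * Complex.I) := hm
      push_cast at h8
      field_simp at h8
      rw [h8, mul_comm]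
    have h9 : (Qexp (h * d) t).order = m * (d : ℤ) := by
      exact_mod_cast h7
    rw [h9]
    exact dvd_mul_left _ _

end Fermat.Agent.S42
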