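/-
S42 moonshot, block KUM, package KUM/KL3 (twin B): formal algebra.
A nonzero Laurent series over `ℂ` whose `p`-th power has coefficients in `ℚ̄` is a nonzero constant
times a Laurent series with coefficients in `ℚ̄`.

Key lemma (power series over a field `L` of characteristic zero, `ι : K →+* L`): if `v` has constant
coefficient `1` and all coefficients of `v ^ p` lie in the range of `ι`, then all coefficients of `v`
lie in the range of `ι`.  Proof: by induction on `n` there is `A` in the subring
`(PowerSeries.map ι).range` with `X ^ (n + 1) ∣ v - A`; for the step write `v - A = X ^ (n + 1) * W`,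
then `v ^ p - A ^ p = X ^ (n + 1) * (W * G)` with `G = ∑ v ^ i * A ^ (p - 1 - i)` of constant
coefficient `p`, so `p * W₀` is a coefficient of `v ^ p - A ^ p`, hence in the range.
-/
import Mathlib
import Fermat.Agent.S42.KumInner

set_option autoImplicit false

namespace Fermat.Agent.S42

open Fermat.Agent.S24

/-- A power series lies in the range of `PowerSeries.map ι` iff all its coefficients lie in the
range of `ι`. -/
theorem kumkl3b_mem_iff {K L : Type*} [Field K] [Field L] (ι : K →+* L) (f : PowerSeries L) :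
    f ∈ (PowerSeries.map ι).range ↔ ∀ n, PowerSeries.coeff n f ∈ Set.range ι := by
  constructor
  · rintro ⟨g, rfl⟩ n
    exact ⟨PowerSeries.coeff n g, (PowerSeries.coeff_map _ _ _).symm⟩
  · intro h
    choose c hc using h
    refine ⟨PowerSeries.mk c, ?_⟩
    ext n
    rw [PowerSeries.coeff_map, PowerSeries.coeff_mk, hc]

/-- KEY LEMMA: descent of coefficients along `p`-th roots with constant coefficient `1`. -/
theorem kumkl3b_key {K L : Type*} [Field K] [Field L] [CharZero L] (ι : K →+* L) (p : ℕ)
    (hp : 0 < p) (v : PowerSeries L) (hv : PowerSeries.constantCoeff v = 1)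
    (h : ∀ n, PowerSeries.coeff n (v ^ p) ∈ Set.range ι) :
    ∀ n, PowerSeries.coeff n v ∈ Set.range ι := by
  have hS : v ^ p ∈ (PowerSeries.map ι).range := (kumkl3b_mem_iff ι _).mpr h
  have key : ∀ n : ℕ, ∃ A ∈ (PowerSeries.map ι).range, PowerSeries.X ^ (n + 1) ∣ v - A := by
    intro n
    induction n with
    | zero =>
      refine ⟨1, one_mem _, ?_⟩
      rw [zero_add, pow_one, PowerSeries.X_dvd_iff, map_sub, hv, map_one, sub_self]
    | succ n ih =>
      obtain ⟨A, hA, W, hW⟩ := ih
      have hA0 : PowerSeries.constantCoeff A = 1 := by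
        have h1 := congrArg PowerSeries.constantCoeff hW
        rw [map_sub, map_mul, map_pow, PowerSeries.constantCoeff_X, zero_pow (Nat.succ_ne_zero n),
          zero_mul, hv] at h1
        exact (sub_eq_zero.mp h1).symm
      have htel : v ^ p - A ^ p =
          PowerSeries.X ^ (n + 1) * (W * ∑ i ∈ Finset.range p, v ^ i * A ^ (p - 1 - i)) := by
        rw [← mul_assoc, ← hW, mul_comm]
        exact (geom_sum₂_mul v A p).symm
      have hG0 : PowerSeries.constantCoeff (∑ i ∈ Finset.range p, v ^ i * A ^ (p - 1 - i)) =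
          (p : L) := by
        rw [map_sum]
        simp [hv, hA0]
      have hcoef : PowerSeries.coeff (n + 1) (v ^ p - A ^ p) =
          PowerSeries.constantCoeff W * (p : L) := by
        rw [htel, PowerSeries.coeff_X_pow_mul', if_pos le_rfl, Nat.sub_self,
          PowerSeries.coeff_zero_eq_constantCoeff_apply, map_mul, hG0]
      obtain ⟨d, hd⟩ := (kumkl3b_mem_iff ι _).mp (sub_mem hS (pow_mem hA p)) (n + 1)
      have hpL : (p : L) ≠ 0 := Nat.cast_ne_zero.mpr hp.ne'
      have hc : PowerSeries.constantCoeff W = ι (d / (p : K)) := by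
        rw [map_div₀, map_natCast, hd, hcoef, mul_div_cancel_right₀ _ hpL]
      refine ⟨A + PowerSeries.X ^ (n + 1) * PowerSeries.C (PowerSeries.constantCoeff W),
        add_mem hA ?_, ?_⟩
      · rw [hc]
        exact ⟨PowerSeries.X ^ (n + 1) * PowerSeries.C (d / (p : K)), by
          rw [map_mul, map_pow, PowerSeries.map_X, PowerSeries.map_C]⟩
      · have hX : PowerSeries.X ∣ W - PowerSeries.C (PowerSeries.constantCoeff W) := by
          rw [PowerSeries.X_dvd_iff, map_sub, PowerSeries.constantCoeff_C, sub_self]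
        obtain ⟨W', hW'⟩ := hX
        refine ⟨W', ?_⟩
        have h2 : v - (A + PowerSeries.X ^ (n + 1) * PowerSeries.C (PowerSeries.constantCoeff W)) =
            PowerSeries.X ^ (n + 1) * (W - PowerSeries.C (PowerSeries.constantCoeff W)) := by
          rw [mul_sub, ← hW]
          ring
        rw [h2, hW']
        ring
  intro n
  obtain ⟨A, hA, W, hW⟩ := key n
  have hv' : v = A + PowerSeries.X ^ (n + 1) * W := by
    rw [← hW]
    ring
  have h3 : PowerSeries.coeff n v = PowerSeries.coeff n A := by
    rw [hv', map_add, PowerSeries.coeff_X_pow_mul', if_neg (by omega), add_zero]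
  rw [h3]
  exact (kumkl3b_mem_iff ι _).mp hA n

/-- `coeffMap` commutes with the coercion from power series. -/
theorem kumkl3b_coeffMap_coe {K L : Type*} [Field K] [Field L] (ι : K →+* L)
    (g : PowerSeries K) :
    ModularCurve.coeffMap ι (g : LaurentSeries K) =
      ((PowerSeries.map ι g : PowerSeries L) : LaurentSeries L) := by
  ext i
  rw [ModularCurve.coeffMap_coeff, PowerSeries.coeff_coe, PowerSeries.coeff_coe]
  split_ifs
  · exact map_zero _
  · rw [PowerSeries.coeff_map]

/-- (KL3) A nonzero Laurent series over `ℂ` whose `p`-th power has coefficients in `ℚ̄` is a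
nonzero constant times a Laurent series with coefficients in `ℚ̄`. -/
theorem kumkl3b_main : kumL_KL3Statement := by
  intro p x hp hx hcoef
  obtain ⟨m, v₀, hxv, ha⟩ : ∃ (m : ℤ) (v₀ : PowerSeries ℂ),
      HahnSeries.single m (1 : ℂ) * (v₀ : LaurentSeries ℂ) = x ∧
        PowerSeries.constantCoeff v₀ ≠ 0 := by
    refine ⟨x.order, x.powerSeriesPart, LaurentSeries.single_order_mul_powerSeriesPart x, ?_⟩
    rw [← PowerSeries.coeff_zero_eq_constantCoeff_apply, LaurentSeries.powerSeriesPart_coeff]
    simpa using hx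
  have hpow : x ^ p = HahnSeries.single (p • m) (1 : ℂ) *
      ((v₀ ^ p : PowerSeries ℂ) : LaurentSeries ℂ) := by
    rw [← hxv, mul_pow, HahnSeries.single_pow, one_pow, PowerSeries.coe_pow]
  have hv₀p : ∀ n : ℕ, PowerSeries.coeff n (v₀ ^ p) ∈ Set.range iotaHom := by
    intro n
    have h1 := hcoef ((n : ℤ) + p • m)
    rwa [hpow, HahnSeries.coeff_single_mul_add, one_mul, LaurentSeries.coeff_coe_powerSeries] at h1
  obtain ⟨α, hα⟩ : ∃ α : Kbar, iotaHom α = (PowerSeries.constantCoeff v₀) ^ p := by
    obtain ⟨α, hα⟩ := hv₀p 0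
    exact ⟨α, by rw [hα, PowerSeries.coeff_zero_eq_constantCoeff_apply, map_pow]⟩
  have hv1 : PowerSeries.constantCoeff
      (PowerSeries.C (PowerSeries.constantCoeff v₀)⁻¹ * v₀) = 1 := by
    rw [map_mul, PowerSeries.constantCoeff_C, inv_mul_cancel₀ ha]
  have hvp : ∀ n : ℕ, PowerSeries.coeff n
      ((PowerSeries.C (PowerSeries.constantCoeff v₀)⁻¹ * v₀) ^ p) ∈ Set.range iotaHom := by
    intro n
    obtain ⟨β, hβ⟩ := hv₀p n
    refine ⟨α⁻¹ * β, ?_⟩
    rw [mul_pow, ← map_pow, PowerSeries.coeff_C_mul, map_mul, map_inv₀, hα, hβ, inv_pow]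
  have hv := kumkl3b_key iotaHom p hp _ hv1 hvp
  choose c hc using hv
  have hmap : PowerSeries.map iotaHom (PowerSeries.mk c) =
      PowerSeries.C (PowerSeries.constantCoeff v₀)⁻¹ * v₀ := by
    ext n
    rw [PowerSeries.coeff_map, PowerSeries.coeff_mk, hc]
  have hCC : HahnSeries.C (PowerSeries.constantCoeff v₀) *
      HahnSeries.C (PowerSeries.constantCoeff v₀)⁻¹ = (1 : LaurentSeries ℂ) := by
    rw [← map_mul, mul_inv_cancel₀ ha, map_one]
  refine ⟨PowerSeries.constantCoeff v₀, HahnSeries.single m (1 : Kbar) *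
    ((PowerSeries.mk c : PowerSeries Kbar) : LaurentSeries Kbar), ha, ?_⟩
  rw [map_mul, ModularCurve.coeffMap_single, map_one, kumkl3b_coeffMap_coe, hmap,
    PowerSeries.coe_mul, PowerSeries.coe_C, ← hxv]
  calc HahnSeries.single m (1 : ℂ) * (v₀ : LaurentSeries ℂ)
      = (HahnSeries.C (PowerSeries.constantCoeff v₀) *
          HahnSeries.C (PowerSeries.constantCoeff v₀)⁻¹) *
          (HahnSeries.single m (1 : ℂ) * (v₀ : LaurentSeries ℂ)) := by rw [hCC, one_mul]
    _ = _ := by ring

end Fermat.Agent.S42
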