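/-
S42 moonshot — block KUM: assembly of N1–N4 from the package statements (all as hypotheses).
-/
import Fermat.Agent.S42.KumInner
import Fermat.Agent.S42.EISInterfaces

set_option autoImplicit false

open UpperHalfPlane ModularForm Complex CongruenceSubgroup ModularGroup AlgebraicCurve
open scoped MatrixGroups Manifold Real

namespace Fermat.Agent.S42

open Fermat.Agent.S24

/-- (N1) from the Eisenstein root, existence and the adapter. -/
theorem kumN1_of (hE : eis_RootStatement) (hK1 : kum_ExistsStatement)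
    (hA2 : adapt_ToRootPropStatement) : ExistRootStatement := by
  intro N p _ _ hp c
  obtain ⟨s₀, hs₀⟩ := hE N p hp c
  obtain ⟨f, s, _, hs, hf⟩ := hK1 N p (Fact.out) hp _ s₀ hs₀
  exact ⟨f, hA2 N p _ f s hs hf⟩

/-- (N2) -/
theorem kumN2_of (hA1 : adapt_OfRootPropStatement) (hA3 : adapt_ChiStatement)
    (hK2 : kum_DivStatement) : DivByPStatement := by
  intro N p _ _ hp c f hf P
  obtain ⟨s, hs, hfs⟩ := hA1 N p _ f hf
  exact hK2 N p (Fact.out) hp _ s f (hA3 N p c).1 hs hfs P

/-- (N3) -/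
theorem kumN3_of (hA1 : adapt_OfRootPropStatement) (hK4 : kum_UniqStatement) :
    SameCharStatement := by
  intro N p _ _ hp c f f' hf hf'
  obtain ⟨s, hs, hfs⟩ := hA1 N p _ f hf
  obtain ⟨s', hs', hfs'⟩ := hA1 N p _ f' hf'
  obtain ⟨a, h, ha, hh, h3⟩ := hK4 N p (Fact.out) _ s' s f' f hs' hs hfs' hfs
  exact ⟨a, h, ha, hh, h3⟩

/-- (N4) -/
theorem kumN4_of (hA1 : adapt_OfRootPropStatement) (hA3 : adapt_ChiStatement)
    (hK3 : kum_InjStatement) : TrivCharStatement := by
  intro N p _ _ hp c a h hf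
  obtain ⟨s, hs, hfs⟩ := hA1 N p _ _ hf
  exact (hA3 N p c).2 (hK3 N p (Fact.out) _ s _ h a hs hfs rfl)

end Fermat.Agent.S42
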