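/-
S42 moonshot — block KUM, package KUM/OS (twin B): a holomorphic function on `ℍ` which, for
`Im τ > B`, is the sum of a Laurent series `x` in `q = exp(2πiτ)`, is `1`-periodic, meromorphic at
`∞`, with `Qexp 1 = x`.

Route: shift by `i b` (`b > max B 0`): the shifted function `τ ↦ G (τ + i b)` has a convergent
expansion on ALL of `ℍ`, so the S24 toolkit (`cm_of_hasSum`, `coeff_Qexp_of_hasSum`) applies to it;
boundedness and the coefficients are then transferred back to `G`.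
-/
import Mathlib
import Fermat.Agent.S42.KumInner
import Fermat.Agent.S24.QexpBasic
import Fermat.Agent.S24.PointVal

set_option autoImplicit false

open UpperHalfPlane ModularForm Complex CongruenceSubgroup ModularGroup AlgebraicCurve
open scoped MatrixGroups Manifold Real

namespace Fermat.Agent.S42

open Fermat.Agent.S24

noncomputable section

/-- `exp(2πi n z) = q(z) ^ n`. -/
theorem kumosb_exp_eq (n : ℤ) (z : ℂ) :
    Complex.exp (2 * Real.pi * Complex.I * (n : ℂ) * z) =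
      Function.Periodic.qParam ((1 : ℕ) : ℝ) z ^ n := by
  unfold Function.Periodic.qParam
  rw [← Complex.exp_int_mul]
  congr 1
  push_cast
  ring

/-- Reindexing a Laurent sum over `ℤ` with vanishing coefficients below `-K` as a sum over `ℕ`. -/
theorem kumosb_reindex (a : ℤ → ℂ) (K : ℕ) (ha : ∀ n : ℤ, n < -(K : ℤ) → a n = 0) (q S : ℂ)
    (hq : q ≠ 0) (hs : HasSum (fun n : ℤ => a n * q ^ n) S) :
    HasSum (fun m : ℕ => a ((m : ℤ) - K) • q ^ m) (q ^ K * S) := by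
  have hinj : Function.Injective (fun m : ℕ => (m : ℤ) - K) := by
    intro m m' h
    have h' : (m : ℤ) - K = (m' : ℤ) - K := h
    omega
  have h1 : HasSum ((fun n : ℤ => a n * q ^ n) ∘ (fun m : ℕ => (m : ℤ) - K)) S := by
    rw [hinj.hasSum_iff]
    · exact hs
    · intro n hn
      have hlt : n < -(K : ℤ) := by
        by_contra hcon
        apply hn
        refine ⟨(n + K).toNat, ?_⟩
        show (((n + K).toNat : ℕ) : ℤ) - K = n
        have := Int.toNat_of_nonneg (show 0 ≤ n + K by omega)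
        omega
      show a n * q ^ n = 0
      rw [ha n hlt, zero_mul]
  have h2 := h1.mul_left (q ^ K)
  have hf : (fun m : ℕ => a ((m : ℤ) - K) • q ^ m) = fun m : ℕ =>
      q ^ K * ((fun n : ℤ => a n * q ^ n) ∘ (fun m : ℕ => (m : ℤ) - K)) m := by
    funext m
    simp only [Function.comp_apply, smul_eq_mul]
    rw [zpow_sub₀ hq, zpow_natCast, zpow_natCast]
    field_simp
  rw [hf]
  exact h2

/-- Rescaling the variable of a power series. -/
theorem kumosb_rescale (a : ℤ → ℂ) (K : ℕ) (q c S : ℂ) (hc : c ≠ 0)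
    (hs : HasSum (fun m : ℕ => a ((m : ℤ) - K) • (c * q) ^ m) ((c * q) ^ K * S)) :
    HasSum (fun m : ℕ => (a ((m : ℤ) - K) * c ^ ((m : ℤ) - K)) • q ^ m) (q ^ K * S) := by
  have h2 := hs.mul_left ((c ^ K)⁻¹)
  have hcK : c ^ K ≠ 0 := pow_ne_zero K hc
  have hf : (fun m : ℕ => (a ((m : ℤ) - K) * c ^ ((m : ℤ) - K)) • q ^ m) = fun m : ℕ =>
      (c ^ K)⁻¹ * a ((m : ℤ) - K) • (c * q) ^ m := by
    funext m
    simp only [smul_eq_mul]
    rw [zpow_sub₀ hc, zpow_natCast, zpow_natCast, mul_pow]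
    field_simp
  have hS : q ^ K * S = (c ^ K)⁻¹ * ((c * q) ^ K * S) := by
    rw [mul_pow]
    field_simp
  rw [hf, hS]
  exact h2

/-- The shift `τ ↦ τ + i b` of the upper half plane (`b > 0`). -/
def kumosb_sh (b : ℝ) (hb : 0 < b) (τ : ℍ) : ℍ :=
  ⟨(τ : ℂ) + (b : ℂ) * Complex.I, by
    have h := τ.im_pos
    simp only [Complex.add_im, Complex.mul_im, Complex.ofReal_re, Complex.I_im, mul_one,
      Complex.ofReal_im, Complex.I_re, mul_zero, add_zero, UpperHalfPlane.coe_im]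
    linarith⟩

theorem kumosb_sh_coe (b : ℝ) (hb : 0 < b) (τ : ℍ) :
    ((kumosb_sh b hb τ : ℍ) : ℂ) = (τ : ℂ) + (b : ℂ) * Complex.I := rfl

theorem kumosb_sh_im (b : ℝ) (hb : 0 < b) (τ : ℍ) :
    (kumosb_sh b hb τ).im = τ.im + b := by
  rw [← UpperHalfPlane.coe_im, kumosb_sh_coe]
  simp

/-- `q (τ + i b) = exp(-2π b) * q τ`. -/
theorem kumosb_q_sh (b : ℝ) (hb : 0 < b) (τ : ℍ) :
    Function.Periodic.qParam ((1 : ℕ) : ℝ) ((kumosb_sh b hb τ : ℍ) : ℂ) =
      Complex.exp (-(2 * Real.pi * b)) * Function.Periodic.qParam ((1 : ℕ) : ℝ) (τ : ℂ) := by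
  rw [kumosb_sh_coe]
  unfold Function.Periodic.qParam
  rw [← Complex.exp_add]
  congr 1
  push_cast
  linear_combination (2 * (Real.pi : ℂ) * (b : ℂ)) * Complex.I_mul_I

/-- (OS, twin B) A holomorphic function on `ℍ` which, for `Im τ > B`, is the sum of the Laurent
series `x` in `q = exp(2πiτ)`, is `1`-periodic, meromorphic at `∞`, with `Qexp 1 = x`. -/
theorem kumosb_main : kumL_OfSumStatement := by
  intro G x B hG hsum
  -- a bound for the pole order
  obtain ⟨K, hK⟩ : ∃ K : ℕ, ∀ n : ℤ, n < -(K : ℤ) → x.coeff n = 0 := by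
    refine ⟨(-x.order).toNat, fun n hn => HahnSeries.coeff_eq_zero_of_lt_order ?_⟩
    have := Int.self_le_toNat (-x.order)
    omega
  -- the height of the shift
  obtain ⟨b, hb0, hbB⟩ : ∃ b : ℝ, 0 < b ∧ B < b :=
    ⟨max B 0 + 1, by have := le_max_right B 0; linarith, by have := le_max_left B 0; linarith⟩
  obtain ⟨c, hcdef⟩ : ∃ c : ℂ, c = Complex.exp (-(2 * Real.pi * b)) := ⟨_, rfl⟩
  have hc : c ≠ 0 := by
    rw [hcdef]
    exact Complex.exp_ne_zero _
  -- the expansion over `ℕ` for `Im τ > B`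
  have hb1 : ∀ τ : ℍ, B < τ.im →
      HasSum (fun m : ℕ => x.coeff ((m : ℤ) - K) •
        Function.Periodic.qParam ((1 : ℕ) : ℝ) (τ : ℂ) ^ m)
        (Function.Periodic.qParam ((1 : ℕ) : ℝ) (τ : ℂ) ^ K * G τ) := by
    intro τ hτ
    apply kumosb_reindex (fun n => x.coeff n) K hK _ _ (Function.Periodic.qParam_ne_zero _)
    have h := hsum τ hτ
    simp only [kumosb_exp_eq] at h
    exact h
  -- periodicity for `Im τ > B`
  have hper1 : ∀ τ : ℍ, B < τ.im → G (((1 : ℕ) : ℝ) +ᵥ τ) = G τ := by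
    intro τ hτ
    have h1 := hsum (((1 : ℕ) : ℝ) +ᵥ τ) (by rw [UpperHalfPlane.vadd_im]; exact hτ)
    have h2 := hsum τ hτ
    simp only [kumosb_exp_eq] at h1 h2
    rw [Qexp.qParam_vadd (by norm_num)] at h1
    exact h1.unique h2
  -- periodicity everywhere, by the identity theorem
  have hper : ∀ τ : ℍ, G (((1 : ℕ) : ℝ) +ᵥ τ) = G τ := by
    have hDhol : MDifferentiable 𝓘(ℂ) 𝓘(ℂ) (fun τ : ℍ => G (((1 : ℕ) : ℝ) +ᵥ τ) - G τ) := by
      have h1 : MDifferentiable 𝓘(ℂ) 𝓘(ℂ) (fun τ : ℍ => G (((1 : ℕ) : ℝ) +ᵥ τ)) :=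
        Qexp.mdiff_comp hG (fun τ => ((1 : ℕ) : ℝ) +ᵥ τ)
          (Φ := fun z => (((1 : ℕ) : ℝ) : ℂ) + z) (by fun_prop) (fun τ => by rw [coe_vadd])
      exact h1.sub hG
    have hD0 : (fun τ : ℍ => G (((1 : ℕ) : ℝ) +ᵥ τ) - G τ) = 0 := by
      by_contra hne
      have hτ₁ : 0 < (((b + 1 : ℝ) : ℂ) * Complex.I).im := by
        simp only [Complex.mul_im, Complex.ofReal_re, Complex.I_im, mul_one, Complex.ofReal_im,
          Complex.I_re, mul_zero, add_zero]
        linarith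
      have h1 := PointVal.order_ne_top hDhol hne ⟨((b + 1 : ℝ) : ℂ) * Complex.I, hτ₁⟩
      apply h1
      rw [analyticOrderAt_eq_top]
      have hopen : IsOpen {z : ℂ | b < z.im} := isOpen_lt continuous_const Complex.continuous_im
      have hmem : (((b + 1 : ℝ) : ℂ) * Complex.I) ∈ {z : ℂ | b < z.im} := by
        show b < (((b + 1 : ℝ) : ℂ) * Complex.I).im
        simp only [Complex.mul_im, Complex.ofReal_re, Complex.I_im, mul_one, Complex.ofReal_im,
          Complex.I_re, mul_zero, add_zero]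
        linarith
      filter_upwards [hopen.mem_nhds hmem] with z hz
      have hz' : b < z.im := hz
      have hz0 : 0 < z.im := hb0.trans hz'
      simp only [Function.comp_apply, ofComplex_apply_of_im_pos hz0]
      rw [sub_eq_zero]
      exact hper1 ⟨z, hz0⟩ (hbB.trans hz')
    intro τ
    have h := congrFun hD0 τ
    exact sub_eq_zero.mp h
  -- the shifted function
  obtain ⟨GB, hGB⟩ : ∃ GB : ℍ → ℂ, GB = fun τ => G (kumosb_sh b hb0 τ) := ⟨_, rfl⟩
  have hGBhol : MDifferentiable 𝓘(ℂ) 𝓘(ℂ) GB := by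
    rw [hGB]
    exact Qexp.mdiff_comp hG (kumosb_sh b hb0) (Φ := fun z => z + (b : ℂ) * Complex.I)
      (by fun_prop) (fun τ => rfl)
  have hGBper : ∀ τ : ℍ, GB (((1 : ℕ) : ℝ) +ᵥ τ) = GB τ := by
    intro τ
    have h1 : kumosb_sh b hb0 (((1 : ℕ) : ℝ) +ᵥ τ) = ((1 : ℕ) : ℝ) +ᵥ kumosb_sh b hb0 τ := by
      apply UpperHalfPlane.ext
      rw [coe_vadd, kumosb_sh_coe, kumosb_sh_coe, coe_vadd]
      ring
    rw [hGB]
    show G (kumosb_sh b hb0 (((1 : ℕ) : ℝ) +ᵥ τ)) = G (kumosb_sh b hb0 τ)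
    rw [h1, hper]
  have him_sh : ∀ τ : ℍ, B < (kumosb_sh b hb0 τ).im := by
    intro τ
    rw [kumosb_sh_im]
    have := τ.im_pos
    linarith
  have hq_sh : ∀ τ : ℍ, Function.Periodic.qParam ((1 : ℕ) : ℝ) ((kumosb_sh b hb0 τ : ℍ) : ℂ) =
      c * Function.Periodic.qParam ((1 : ℕ) : ℝ) (τ : ℂ) := by
    intro τ
    rw [hcdef]
    exact kumosb_q_sh b hb0 τ
  have hGBval : ∀ τ : ℍ, GB τ = G (kumosb_sh b hb0 τ) := by
    intro τ
    rw [hGB]
  -- the expansion of the shifted function, on all of `ℍ`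
  have hGBsum : ∀ τ : ℍ, HasSum (fun m : ℕ => (fun n : ℤ => x.coeff n * c ^ n) ((m : ℤ) - K) •
      Function.Periodic.qParam ((1 : ℕ) : ℝ) (τ : ℂ) ^ m)
      (Function.Periodic.qParam ((1 : ℕ) : ℝ) (τ : ℂ) ^ K * GB τ) := by
    intro τ
    have h := hb1 (kumosb_sh b hb0 τ) (him_sh τ)
    rw [hq_sh, ← hGBval] at h
    exact kumosb_rescale (fun n => x.coeff n) K _ c _ hc h
  have hGBcm : IsCuspMerOrder 1 K GB :=
    Qexp.cm_of_hasSum hGBhol hGBper K (fun n : ℤ => x.coeff n * c ^ n) hGBsum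
  have hGBcoeff : ∀ n : ℤ, (Qexp 1 GB).coeff n = x.coeff n * c ^ n := fun n =>
    Qexp.coeff_Qexp_of_hasSum hGBhol hGBper K (fun n : ℤ => x.coeff n * c ^ n)
      (fun n hn => by
        show x.coeff n * c ^ n = 0
        rw [hK n hn, zero_mul]) hGBsum n
  -- boundedness of `q ^ K * G` at `i∞`
  have hbdd : IsBoundedAtImInfty
      (fun τ : ℍ => Function.Periodic.qParam ((1 : ℕ) : ℝ) (τ : ℂ) ^ K * G τ) := by
    have h1 : IsBoundedAtImInfty
        (fun τ : ℍ => Function.Periodic.qParam ((1 : ℕ) : ℝ) (τ : ℂ) ^ K * GB τ) := hGBcm.2.2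
    rw [isBoundedAtImInfty_iff] at h1 ⊢
    obtain ⟨M, A, hMA⟩ := h1
    refine ⟨‖c ^ K‖ * M, max A 0 + b + 1, fun τ hτ => ?_⟩
    have hτim : (τ : ℂ).im = τ.im := UpperHalfPlane.coe_im τ
    have hmax1 := le_max_left A 0
    have hmax2 := le_max_right A 0
    have hσim : ((τ : ℂ) - (b : ℂ) * Complex.I).im = τ.im - b := by
      simp only [Complex.sub_im, Complex.mul_im, Complex.ofReal_re, Complex.I_im, mul_one,
        Complex.ofReal_im, Complex.I_re, mul_zero, add_zero, hτim]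
    have hσ : 0 < ((τ : ℂ) - (b : ℂ) * Complex.I).im := by
      rw [hσim]
      linarith
    obtain ⟨σ, hσdef⟩ : ∃ σ : ℍ, σ = ⟨(τ : ℂ) - (b : ℂ) * Complex.I, hσ⟩ := ⟨_, rfl⟩
    have hσcoe : (σ : ℂ) = (τ : ℂ) - (b : ℂ) * Complex.I := by
      rw [hσdef]
    have hτσ : kumosb_sh b hb0 σ = τ := by
      apply UpperHalfPlane.ext
      rw [kumosb_sh_coe, hσcoe]
      ring
    have hσA : A ≤ σ.im := by
      rw [← UpperHalfPlane.coe_im, hσcoe, hσim]
      linarith
    have h2 := hMA σ hσA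
    have h3 : Function.Periodic.qParam ((1 : ℕ) : ℝ) (τ : ℂ) ^ K * G τ =
        c ^ K * (Function.Periodic.qParam ((1 : ℕ) : ℝ) (σ : ℂ) ^ K * GB σ) := by
      rw [hGBval σ, hτσ]
      have h4 := hq_sh σ
      rw [hτσ] at h4
      rw [h4, mul_pow]
      ring
    rw [h3, norm_mul]
    exact mul_le_mul_of_nonneg_left h2 (norm_nonneg _)
  -- `G` is meromorphic at the cusp
  have hGcm : IsCuspMerOrder 1 K G :=
    ⟨hG, (Qexp.periodic_iff G ((1 : ℕ) : ℝ)).mpr hper, hbdd⟩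
  refine ⟨⟨K, hGcm⟩, ?_⟩
  -- the coefficients
  have hGsum' : ∀ τ : ℍ, HasSum
      (fun m : ℕ => (fun n : ℤ => (Qexp 1 G).coeff n * c ^ n) ((m : ℤ) - K) •
        Function.Periodic.qParam ((1 : ℕ) : ℝ) (τ : ℂ) ^ m)
      (Function.Periodic.qParam ((1 : ℕ) : ℝ) (τ : ℂ) ^ K * GB τ) := by
    intro τ
    have h := Qexp.hasSum_Qexp hGcm (kumosb_sh b hb0 τ)
    rw [hq_sh, ← hGBval] at h
    exact kumosb_rescale (fun n => (Qexp 1 G).coeff n) K _ c _ hc h
  have hGBcoeff' : ∀ n : ℤ, (Qexp 1 GB).coeff n = (Qexp 1 G).coeff n * c ^ n := fun n =>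
    Qexp.coeff_Qexp_of_hasSum hGBhol hGBper K (fun n : ℤ => (Qexp 1 G).coeff n * c ^ n)
      (fun n hn => by
        show (Qexp 1 G).coeff n * c ^ n = 0
        rw [Qexp.coeff_Qexp_of_lt hGcm hn, zero_mul]) hGsum' n
  ext n
  have h := (hGBcoeff' n).symm.trans (hGBcoeff n)
  exact mul_right_cancel₀ (zpow_ne_zero n hc) h

end

end Fermat.Agent.S42
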