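/-
S42 moonshot, block KUM, package QUOT (twin A):
a holomorphic quotient of two functions meromorphic at the cusp `∞` is meromorphic at the cusp `∞`.
`kumquota_main : kumL_QuotStatement`.
-/
import Mathlib
import Fermat.Agent.S42.KumInner
import Fermat.Agent.S24.QexpBasic

set_option autoImplicit false

namespace Fermat.Agent.S42

open Fermat.Agent.S24
open UpperHalfPlane ModularForm Complex CongruenceSubgroup ModularGroup AlgebraicCurve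
open scoped MatrixGroups Manifold Real

/-- (a) The quotient is `N`-periodic. -/
theorem kumquota_periodic (N : ℕ) [NeZero N] (u φ₁ φ₂ : ℍ → ℂ) (hu : Hol u)
    (h1 : IsCuspMer N φ₁) (h2 : IsCuspMer N φ₂) (h20 : φ₂ ≠ 0)
    (hq : ∀ z : ℍ, u z * φ₂ z = φ₁ z) : ∀ z : ℍ, u (((N : ℕ) : ℝ) +ᵥ z) = u z := by
  obtain ⟨k₁, hk₁⟩ := h1
  obtain ⟨k₂, hk₂⟩ := h2
  have hp1 := Qexp.cm_vadd hk₁
  have hp2 := Qexp.cm_vadd hk₂
  have hd : MDifferentiable 𝓘(ℂ) 𝓘(ℂ) (fun z : ℍ => u (((N : ℕ) : ℝ) +ᵥ z)) :=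
    Qexp.mdiff_comp hu (fun z => ((N : ℕ) : ℝ) +ᵥ z) (Φ := fun w => (((N : ℕ) : ℝ) : ℂ) + w)
      (by fun_prop) (fun τ => by rw [coe_vadd])
  have hmul : (fun z : ℍ => u (((N : ℕ) : ℝ) +ᵥ z) - u z) * φ₂ = 0 := by
    funext z
    simp only [Pi.mul_apply, Pi.zero_apply]
    have e1 := hq (((N : ℕ) : ℝ) +ᵥ z)
    rw [hp2 z, hp1 z, ← hq z] at e1
    rw [sub_mul, e1, sub_self]
  rcases (UpperHalfPlane.mul_eq_zero_iff (hd.sub hu) hk₂.1).mp hmul with h | h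
  · intro z
    have h3 := congrFun h z
    simp only [Pi.zero_apply] at h3
    exact sub_eq_zero.mp h3
  · exact absurd h h20

/-- (QUOT) A holomorphic quotient of two functions meromorphic at the cusp `∞` is meromorphic
at the cusp `∞`. -/
theorem kumquota_main : kumL_QuotStatement := by
  intro N _ u φ₁ φ₂ hu h1 h2 h20 hq
  have hper := kumquota_periodic N u φ₁ φ₂ hu h1 h2 h20 hq
  obtain ⟨k₁, hk₁⟩ := h1
  obtain ⟨k₂, hk₂⟩ := h2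
  have hN : (0 : ℝ) < ((N : ℕ) : ℝ) := Qexp.hpos N
  have hgan : AnalyticAt ℂ (cuspFunction ((N : ℕ) : ℝ) (Qexp.tw N k₂ φ₂)) 0 :=
    Qexp.cm_analytic_tw hk₂
  have hgper := Qexp.cm_periodic_tw hk₂
  have hg0 : Qexp.tw N k₂ φ₂ ≠ 0 := by
    intro h
    apply h20
    funext τ
    have h3 := congrFun h τ
    simp only [Qexp.tw_apply, Pi.zero_apply, mul_eq_zero] at h3
    rcases h3 with h3 | h3
    · exact absurd h3 (pow_ne_zero _ (Function.Periodic.qParam_ne_zero _))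
    · exact h3
  have hqexp : qExpansion ((N : ℕ) : ℝ) (Qexp.tw N k₂ φ₂) ≠ 0 := by
    rw [Ne, UpperHalfPlane.qExpansion_eq_zero_iff hN hgper (Qexp.cm_mdiff_tw hk₂)
      (Qexp.cm_bdd_tw hk₂)]
    exact hg0
  have hnz : ¬ ∀ᶠ w in nhds (0 : ℂ), cuspFunction ((N : ℕ) : ℝ) (Qexp.tw N k₂ φ₂) w = 0 := by
    intro hev
    apply hqexp
    ext m
    rw [qExpansion_coeff, map_zero]
    have h3 : cuspFunction ((N : ℕ) : ℝ) (Qexp.tw N k₂ φ₂) =ᶠ[nhds 0] (fun _ => (0 : ℂ)) := hev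
    have h4 : iteratedDeriv m (cuspFunction ((N : ℕ) : ℝ) (Qexp.tw N k₂ φ₂)) 0 = 0 := by
      rw [h3.iteratedDeriv_eq m]
      simp
    rw [h4, mul_zero]
  obtain ⟨m, e, he, he0, heq⟩ := hgan.exists_eventuallyEq_pow_smul_nonzero_iff.mpr hnz
  have hc : 0 < ‖e 0‖ / 2 := by
    have := norm_pos_iff.mpr he0
    positivity
  have hev1 : ∀ᶠ w in nhds (0 : ℂ), ‖e 0‖ / 2 < ‖e w‖ :=
    he.continuousAt.norm.eventually (lt_mem_nhds (half_lt_self (norm_pos_iff.mpr he0)))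
  have hev2 : ∀ᶠ w in nhds (0 : ℂ),
      ‖e 0‖ / 2 * ‖w‖ ^ m ≤ ‖cuspFunction ((N : ℕ) : ℝ) (Qexp.tw N k₂ φ₂) w‖ := by
    filter_upwards [hev1, heq] with w hw1 hw2
    rw [hw2, sub_zero, norm_smul, norm_pow, mul_comm]
    exact mul_le_mul_of_nonneg_left hw1.le (by positivity)
  have hev3 := (qParam_tendsto_atImInfty hN).eventually hev2
  obtain ⟨A₂, hA₂⟩ := (UpperHalfPlane.atImInfty_mem _).mp hev3
  obtain ⟨M₁, A₁, hM₁⟩ := UpperHalfPlane.isBoundedAtImInfty_iff.mp hk₁.2.2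
  refine ⟨k₁ + m, hu, (Qexp.periodic_iff u N).mpr hper, ?_⟩
  rw [UpperHalfPlane.isBoundedAtImInfty_iff]
  refine ⟨M₁ / (‖e 0‖ / 2), max A₁ A₂, fun τ hτ => ?_⟩
  have hτ1 := hM₁ τ (le_trans (le_max_left _ _) hτ)
  have hτ2 := hA₂ τ (le_trans (le_max_right _ _) hτ)
  simp only [Set.mem_ofPred_eq] at hτ2
  rw [eq_cuspFunction τ hN.ne' hgper] at hτ2
  rw [le_div_iff₀ hc]
  have hq1 : ‖Function.Periodic.qParam ((N : ℕ) : ℝ) (τ : ℂ)‖ ≤ 1 :=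
    (Qexp.norm_qParam_lt_one' hN τ).le
  have hgτ : Qexp.tw N k₂ φ₂ τ = Function.Periodic.qParam ((N : ℕ) : ℝ) (τ : ℂ) ^ k₂ * φ₂ τ := rfl
  calc ‖Function.Periodic.qParam ((N : ℕ) : ℝ) (τ : ℂ) ^ (k₁ + m) * u τ‖ * (‖e 0‖ / 2)
      = ‖Function.Periodic.qParam ((N : ℕ) : ℝ) (τ : ℂ)‖ ^ k₁ * ‖u τ‖ *
          (‖e 0‖ / 2 * ‖Function.Periodic.qParam ((N : ℕ) : ℝ) (τ : ℂ)‖ ^ m) := by
        rw [norm_mul, norm_pow, pow_add]
        ring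
    _ ≤ ‖Function.Periodic.qParam ((N : ℕ) : ℝ) (τ : ℂ)‖ ^ k₁ * ‖u τ‖ *
          ‖Qexp.tw N k₂ φ₂ τ‖ := mul_le_mul_of_nonneg_left hτ2 (by positivity)
    _ = ‖Function.Periodic.qParam ((N : ℕ) : ℝ) (τ : ℂ)‖ ^ k₂ *
          ‖Function.Periodic.qParam ((N : ℕ) : ℝ) (τ : ℂ) ^ k₁ * φ₁ τ‖ := by
        rw [hgτ, ← hq τ]
        simp only [norm_mul, norm_pow]
        ring
    _ ≤ 1 * M₁ := mul_le_mul (pow_le_one₀ (norm_nonneg _) hq1) hτ1 (norm_nonneg _) zero_le_one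
    _ = M₁ := one_mul _

end Fermat.Agent.S42
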