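/-
S42 moonshot — block KUM (sub-lead helper179): the four cross-block deliverables N1–N4
(`ExistRootStatement`, `DivByPStatement`, `SameCharStatement`, `TrivCharStatement`) assembled from
the packages of the block.  The only hypotheses are statements of other blocks
(`EISInterfaces.lean`, `DictInterfaces.lean`).
-/
import Fermat.Agent.S42.KumMainAux
import Fermat.Agent.S42.KumKA3
import Fermat.Agent.S42.KumK1
import Fermat.Agent.S42.KumKEA
import Fermat.Agent.S42.KumKA2A
import Fermat.Agent.S42.KumKA1A
import Fermat.Agent.S42.KumQUOTA
import Fermat.Agent.S42.KumOSB
import Fermat.Agent.S42.KumK2A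
import Fermat.Agent.S42.KumKL1A
import Fermat.Agent.S42.KumKL2A
import Fermat.Agent.S42.KumK3A
import Fermat.Agent.S42.KumK4A
import Fermat.Agent.S42.KumKL3B

set_option autoImplicit false

namespace Fermat.Agent.S42

open Fermat.Agent.S24

/-! ## Intermediate statements of the block -/

/-- (KE) the Eisenstein root. -/
theorem kum_eisRoot : EISMainStatement → EISPeriodicStatement → EISCharStatement →
    eis_RootStatement :=
  fun hM hP hC => kumkea_main hM hP hC kumka3_main

/-- (K1) existence of the Kummer generator. -/
theorem kum_exists : desc_Statement → dict_ImgStatement → kum_ExistsStatement := kumk1_main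

/-- (K2) the divisor of a Kummer generator is divisible by `p`. -/
theorem kum_div : dict_PlacePointStatement → dict_CuspPlaceStatement → kum_DivStatement :=
  fun hPP hCP => kumk2a_main hPP hCP kumkl1a_main kumkl2a_main

/-- (K3) injectivity. -/
theorem kum_inj : dict_RepStatement → kum_InjStatement :=
  fun hR => kumk3a_main hR kumk3a_al1

/-- (K4) uniqueness. -/
theorem kum_uniq : dict_ImgStatement → kum_UniqStatement :=
  fun hI => kumk4a_main hI kumkl1a_main kumkl3b_main

/-- (AD1) from `RootProp` to the S24-style data. -/
theorem kum_adaptOf : dict_RepStatement → adapt_OfRootPropStatement :=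
  fun hR => kumka1a_main hR kumquota_main kumosb_main

/-- (AD2) from the S24-style data to `RootProp`. -/
theorem kum_adaptTo : adapt_ToRootPropStatement := kumka2a_main kumka2a_sum

/-- (AD3) the character `chiOf`. -/
theorem kum_adaptChi : adapt_ChiStatement := kumka3_main

/-! ## The four deliverables -/

/-- (N1) existence of root functions. -/
theorem kumN1_main : EISMainStatement → EISPeriodicStatement → EISCharStatement →
    desc_Statement → dict_ImgStatement → ExistRootStatement :=
  fun hM hP hC hD hI => kumN1_of (kum_eisRoot hM hP hC) (kum_exists hD hI) kum_adaptTo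

/-- (N2) the divisor of a root function is divisible by `p`. -/
theorem kumN2_main : dict_RepStatement → dict_PlacePointStatement → dict_CuspPlaceStatement →
    DivByPStatement :=
  fun hR hPP hCP => kumN2_of (kum_adaptOf hR) kum_adaptChi (kum_div hPP hCP)

/-- (N3) two root functions for the same character differ by `a * h ^ p`. -/
theorem kumN3_main : dict_RepStatement → dict_ImgStatement → SameCharStatement :=
  fun hR hI => kumN3_of (kum_adaptOf hR) (kum_uniq hI)

/-- (N4) a root function of the form `a * h ^ p` has trivial character. -/
theorem kumN4_main : dict_RepStatement → TrivCharStatement :=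
  fun hR => kumN4_of (kum_adaptOf hR) kum_adaptChi (kum_inj hR)

end Fermat.Agent.S42
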