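/-
S42 moonshot — block EIS, SECOND INTERFACE FILE (additional statement-`Prop`s).
-/
import Mathlib
import Fermat.Agent.S42.EISInterfaces

set_option autoImplicit false

open UpperHalfPlane CongruenceSubgroup ModularCurve ModularCurve.Period Filter Topology
open scoped MatrixGroups ModularForm Manifold

namespace Fermat.Agent.S42

noncomputable section

/-- (NORMSUM) The full-lattice sum of the norms of the Eisenstein summands is bounded on
`{z | 1 ≤ im z}`. -/
def EISNormSumStatement : Prop :=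
  ∀ (k : ℤ), 3 ≤ k → ∃ C : ℝ, ∀ z : ℍ, 1 ≤ z.im →
    ∑' v : Fin 2 → ℤ, ‖EisensteinSeries.eisSummand k v z‖ ≤ C

/-- (LIMIT12) The limit at `i∞` in weight 12 (coefficients bounded by 1 and supported on coprime
pairs). -/
def EISLimit12Statement : Prop :=
  ∀ (w : (Fin 2 → ℤ) → ℂ), (∀ v, ‖w v‖ ≤ 1) →
    (∀ v : Fin 2 → ℤ, w v ≠ 0 → IsCoprime (v 0) (v 1)) →
    Tendsto (eisSeries 12 w) atImInfty (𝓝 (w ![0, 1] + w ![0, -1]))

end

end Fermat.Agent.S42
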