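/-
S42 moonshot — block EIS, package EISBdd.

Boundedness at `i∞` of the Eisenstein-type series `eisSeries k w` (weight `k ≥ 3`, coefficients
bounded by `1`), assuming the uniform bound `EISNormSumStatement` for the full-lattice sum of the
norms of the Eisenstein summands on `{z | 1 ≤ im z}`.
-/
import Mathlib
import Fermat.Agent.S42.EISInterfaces
import Fermat.Agent.S42.EISInterfaces2

set_option autoImplicit false

open UpperHalfPlane Filter Topology
open scoped MatrixGroups ModularForm

namespace Fermat.Agent.S42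

/-- Termwise bound: a coefficient of norm at most `1` does not increase the norm of a summand. -/
theorem eisBdd_norm_term_le (k : ℤ) (w : (Fin 2 → ℤ) → ℂ) (hw : ∀ v, ‖w v‖ ≤ 1) (z : ℍ)
    (v : Fin 2 → ℤ) :
    ‖w v * EisensteinSeries.eisSummand k v z‖ ≤ ‖EisensteinSeries.eisSummand k v z‖ := by
  rw [norm_mul]
  exact mul_le_of_le_one_left (norm_nonneg _) (hw v)

/-- Summability of the norms of the weighted summands. -/
theorem eisBdd_summable_norm (k : ℤ) (hk : 3 ≤ k) (w : (Fin 2 → ℤ) → ℂ) (hw : ∀ v, ‖w v‖ ≤ 1)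
    (z : ℍ) :
    Summable (fun v : Fin 2 → ℤ => ‖w v * EisensteinSeries.eisSummand k v z‖) :=
  (EisensteinSeries.summable_norm_eisSummand hk z).of_nonneg_of_le (fun _ => norm_nonneg _)
    (eisBdd_norm_term_le k w hw z)

/-- The norm of the weighted series is at most the full-lattice sum of the norms. -/
theorem eisBdd_norm_le_tsum_norm (k : ℤ) (hk : 3 ≤ k) (w : (Fin 2 → ℤ) → ℂ)
    (hw : ∀ v, ‖w v‖ ≤ 1) (z : ℍ) :
    ‖eisSeries k w z‖ ≤ ∑' v : Fin 2 → ℤ, ‖EisensteinSeries.eisSummand k v z‖ := by
  unfold eisSeries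
  exact (norm_tsum_le_tsum_norm (eisBdd_summable_norm k hk w hw z)).trans
    ((eisBdd_summable_norm k hk w hw z).tsum_le_tsum (eisBdd_norm_term_le k w hw z)
      (EisensteinSeries.summable_norm_eisSummand hk z))

/-- (BDD) Boundedness at `i∞` of `eisSeries k w`, from the uniform norm-sum bound. -/
theorem eisBdd_main (hN : EISNormSumStatement) : EISBddStatement := by
  intro k hk w hw
  obtain ⟨C, hC⟩ := hN k hk
  rw [UpperHalfPlane.isBoundedAtImInfty_iff]
  exact ⟨C, 1, fun z hz => (eisBdd_norm_le_tsum_norm k hk w hw z).trans (hC z hz)⟩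

end Fermat.Agent.S42
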