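import Mathlib
import Fermat.Agent.S42.Interfaces
import Fermat.Agent.S42.EISInterfaces

/-
S42 moonshot — block EIS, package CHAR.
`chiOf N p c γ = exp (2πi c(γ)/p)` is a unitary character of `Γ₀(N)` of order dividing `p`.
-/

set_option autoImplicit false

open CongruenceSubgroup

namespace Fermat.Agent.S42

/-- If `a + b = s + p * q` in `ℕ`, then `exp (2πi s / p) = exp (2πi a / p) * exp (2πi b / p)`. -/
theorem eisChar_exp_add_of_eq (p a b s q : ℕ) (hp0 : p ≠ 0) (h : a + b = s + p * q) :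
    Complex.exp (2 * Real.pi * Complex.I * (s : ℂ) / (p : ℂ)) =
      Complex.exp (2 * Real.pi * Complex.I * (a : ℂ) / (p : ℂ)) *
        Complex.exp (2 * Real.pi * Complex.I * (b : ℂ) / (p : ℂ)) := by
  have hp : (p : ℂ) ≠ 0 := Nat.cast_ne_zero.mpr hp0
  have hC : (a : ℂ) + (b : ℂ) = (s : ℂ) + (p : ℂ) * (q : ℂ) := by
    exact_mod_cast h
  have h1 : (s : ℂ) = (a : ℂ) + (b : ℂ) - (p : ℂ) * (q : ℂ) := by
    rw [hC]; ring
  rw [← Complex.exp_add, Complex.exp_eq_exp_iff_exists_int]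
  refine ⟨-(q : ℤ), ?_⟩
  rw [h1, Int.cast_neg, Int.cast_natCast]
  field_simp
  ring

/-- Additivity of `x ↦ exp (2πi x.val / p)` on `ZMod p`. -/
theorem eisChar_exp_add (p : ℕ) [NeZero p] (x y : ZMod p) :
    Complex.exp (2 * Real.pi * Complex.I * (((x + y).val : ℕ) : ℂ) / (p : ℂ)) =
      Complex.exp (2 * Real.pi * Complex.I * ((x.val : ℕ) : ℂ) / (p : ℂ)) *
        Complex.exp (2 * Real.pi * Complex.I * ((y.val : ℕ) : ℂ) / (p : ℂ)) := by
  refine eisChar_exp_add_of_eq p x.val y.val (x + y).val ((x.val + y.val) / p) (NeZero.ne p) ?_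
  rw [ZMod.val_add]
  exact (Nat.mod_add_div _ _).symm

/-- `exp (2πi n / p)` has norm one. -/
theorem eisChar_norm_exp (p n : ℕ) :
    ‖Complex.exp (2 * Real.pi * Complex.I * (n : ℂ) / (p : ℂ))‖ = 1 := by
  have h : 2 * (Real.pi : ℂ) * Complex.I * (n : ℂ) / (p : ℂ) =
      ((2 * Real.pi * (n : ℝ) / (p : ℝ) : ℝ) : ℂ) * Complex.I := by
    push_cast
    ring
  rw [h, Complex.norm_exp_ofReal_mul_I]

/-- `exp (2πi n / p) ^ p = 1`. -/
theorem eisChar_exp_pow (p n : ℕ) [NeZero p] :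
    Complex.exp (2 * Real.pi * Complex.I * (n : ℂ) / (p : ℂ)) ^ p = 1 := by
  have hp : (p : ℂ) ≠ 0 := Nat.cast_ne_zero.mpr (NeZero.ne p)
  rw [← Complex.exp_nat_mul]
  have h : (p : ℂ) * (2 * (Real.pi : ℂ) * Complex.I * (n : ℂ) / (p : ℂ)) =
      (n : ℂ) * (2 * Real.pi * Complex.I) := by
    field_simp
  rw [h, Complex.exp_nat_mul_two_pi_mul_I]

/-- (CHAR) `chiOf` is a unitary character of order dividing `p`. -/
theorem eisChar_main : EISCharStatement := by
  intro N _ p _ c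
  refine ⟨?_, ?_, ?_, ?_, ?_⟩
  · have h1 : c (Additive.ofMul (1 : Gamma0 N)) = 0 := by
      rw [ofMul_one, map_zero]
    simp only [chiOf, h1, ZMod.val_zero, Nat.cast_zero, mul_zero, zero_div, Complex.exp_zero]
  · intro γ δ
    have h : c (Additive.ofMul (γ * δ)) = c (Additive.ofMul γ) + c (Additive.ofMul δ) := by
      rw [ofMul_mul, map_add]
    simp only [chiOf, h]
    exact eisChar_exp_add p _ _
  · intro γ
    exact eisChar_norm_exp p _
  · intro γ hγ
    simp only [chiOf, hγ, ZMod.val_zero, Nat.cast_zero, mul_zero, zero_div, Complex.exp_zero]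
  · intro γ
    exact eisChar_exp_pow p _

end Fermat.Agent.S42
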