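/-
S42 moonshot — block EIS, package EISCoef (suffix A).
The coefficient function `eisCoef N p c` of the twisted Eisenstein series: values on bottom rows,
equivariance under `Γ₀(N)`, bound by `1` and support on coprime pairs.
-/
import Mathlib
import Fermat.Agent.S42.EISInterfaces

set_option autoImplicit false

open UpperHalfPlane CongruenceSubgroup ModularCurve ModularCurve.Period Filter Topology
open scoped MatrixGroups ModularForm Manifold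

namespace Fermat.Agent.S42

/-- If `γ, γ' ∈ SL(2, ℤ)` have the same bottom row, then `γ' * γ⁻¹` has trace `2`. -/
theorem eisCoefA_trace_mul_inv (γ γ' : SL(2, ℤ))
    (h : (γ' : Matrix (Fin 2) (Fin 2) ℤ) 1 = (γ : Matrix (Fin 2) (Fin 2) ℤ) 1) :
    ((γ' * γ⁻¹ : SL(2, ℤ)) : Matrix (Fin 2) (Fin 2) ℤ).trace = 2 := by
  have h0 : (γ' : Matrix (Fin 2) (Fin 2) ℤ) 1 0 = (γ : Matrix (Fin 2) (Fin 2) ℤ) 1 0 :=
    congrFun h 0
  have h1 : (γ' : Matrix (Fin 2) (Fin 2) ℤ) 1 1 = (γ : Matrix (Fin 2) (Fin 2) ℤ) 1 1 :=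
    congrFun h 1
  have hd : (γ : Matrix (Fin 2) (Fin 2) ℤ).det = 1 := γ.2
  have hd' : (γ' : Matrix (Fin 2) (Fin 2) ℤ).det = 1 := γ'.2
  rw [Matrix.det_fin_two] at hd hd'
  rw [Matrix.SpecialLinearGroup.coe_mul, Matrix.SpecialLinearGroup.coe_inv,
    Matrix.adjugate_fin_two, Matrix.trace_fin_two, Matrix.mul_apply, Matrix.mul_apply,
    Fin.sum_univ_two, Fin.sum_univ_two]
  simp only [Matrix.of_apply, Matrix.cons_val_zero, Matrix.cons_val_one, Matrix.cons_val',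
    Matrix.cons_val_fin_one]
  rw [h0, h1] at hd'
  rw [h0, h1]
  linarith

/-- The bottom row of a product is the bottom row of the first factor times the second factor. -/
theorem eisCoefA_row_mul (A B : Matrix (Fin 2) (Fin 2) ℤ) :
    (A * B) 1 = Matrix.vecMul (A 1) B := by
  ext j
  simp only [Matrix.mul_apply, Matrix.vecMul, dotProduct]

/-- Well-definedness: elements of `Γ₀(N)` with the same bottom row have the same character
value (for a parabolic `c`). -/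
theorem eisCoefA_chi_eq (hC : EISCharStatement) (N : ℕ) [NeZero N] (p : ℕ) [NeZero p]
    (c : Lam N p) (γ γ' : Gamma0 N)
    (h : ((γ' : SL(2, ℤ)) : Matrix (Fin 2) (Fin 2) ℤ) 1 =
      ((γ : SL(2, ℤ)) : Matrix (Fin 2) (Fin 2) ℤ) 1) :
    chiOf N p c γ' = chiOf N p c γ := by
  obtain ⟨-, hmul, -, hker, -⟩ := hC N p (c : Additive (Gamma0 N) →+ ZMod p)
  have htr : (((γ' * γ⁻¹ : Gamma0 N) : SL(2, ℤ)) : Matrix (Fin 2) (Fin 2) ℤ).trace ^ 2 = 4 := by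
    have := eisCoefA_trace_mul_inv (γ : SL(2, ℤ)) (γ' : SL(2, ℤ)) h
    have h2 : ((γ' * γ⁻¹ : Gamma0 N) : SL(2, ℤ)) = (γ' : SL(2, ℤ)) * (γ : SL(2, ℤ))⁻¹ := rfl
    rw [h2, this]
    norm_num
  have hpar : IsParabolicHom (Gamma0 N) (c : Additive (Gamma0 N) →+ ZMod p) := c.2
  have h1 : chiOf N p c (γ' * γ⁻¹) = 1 := hker _ (hpar _ htr)
  have h3 : γ' = (γ' * γ⁻¹) * γ := by group
  calc chiOf N p c γ' = chiOf N p c ((γ' * γ⁻¹) * γ) := by rw [← h3]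
    _ = chiOf N p c (γ' * γ⁻¹) * chiOf N p c γ := hmul _ _
    _ = chiOf N p c γ := by rw [h1, one_mul]

/-- (1) Value of `eisCoef` on the bottom row of an element of `Γ₀(N)`. -/
theorem eisCoefA_row (hC : EISCharStatement) (N : ℕ) [NeZero N] (p : ℕ) [NeZero p]
    (c : Lam N p) (γ : Gamma0 N) :
    eisCoef N p c (((γ : SL(2, ℤ)) : Matrix (Fin 2) (Fin 2) ℤ) 1) = (chiOf N p c γ)⁻¹ := by
  have hex : ∃ γ' : Gamma0 N, ((γ' : SL(2, ℤ)) : Matrix (Fin 2) (Fin 2) ℤ) 1 =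
      ((γ : SL(2, ℤ)) : Matrix (Fin 2) (Fin 2) ℤ) 1 := ⟨γ, rfl⟩
  unfold eisCoef
  rw [dif_pos hex, eisCoefA_chi_eq hC N p c γ hex.choose hex.choose_spec]

/-- `eisCoef` vanishes off the bottom rows of `Γ₀(N)`. -/
theorem eisCoefA_eq_zero (N p : ℕ) (c : Additive (Gamma0 N) →+ ZMod p) (v : Fin 2 → ℤ)
    (h : ¬ ∃ γ : Gamma0 N, ((γ : SL(2, ℤ)) : Matrix (Fin 2) (Fin 2) ℤ) 1 = v) :
    eisCoef N p c v = 0 := by
  unfold eisCoef
  rw [dif_neg h]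

/-- (2) Equivariance of `eisCoef` under right multiplication by `Γ₀(N)`. -/
theorem eisCoefA_vecMul (hC : EISCharStatement) (N : ℕ) [NeZero N] (p : ℕ) [NeZero p]
    (c : Lam N p) (v : Fin 2 → ℤ) (γ : Gamma0 N) :
    eisCoef N p c (Matrix.vecMul v ((γ : SL(2, ℤ)) : Matrix (Fin 2) (Fin 2) ℤ)) =
      eisCoef N p c v * (chiOf N p c γ)⁻¹ := by
  obtain ⟨-, hmul, -, -, -⟩ := hC N p (c : Additive (Gamma0 N) →+ ZMod p)
  by_cases h : ∃ g : Gamma0 N, ((g : SL(2, ℤ)) : Matrix (Fin 2) (Fin 2) ℤ) 1 = v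
  · obtain ⟨g, rfl⟩ := h
    have hrow : Matrix.vecMul (((g : SL(2, ℤ)) : Matrix (Fin 2) (Fin 2) ℤ) 1)
        ((γ : SL(2, ℤ)) : Matrix (Fin 2) (Fin 2) ℤ) =
        (((g * γ : Gamma0 N) : SL(2, ℤ)) : Matrix (Fin 2) (Fin 2) ℤ) 1 := by
      have h2 : (((g * γ : Gamma0 N) : SL(2, ℤ)) : Matrix (Fin 2) (Fin 2) ℤ) =
          ((g : SL(2, ℤ)) : Matrix (Fin 2) (Fin 2) ℤ) *
            ((γ : SL(2, ℤ)) : Matrix (Fin 2) (Fin 2) ℤ) := rfl
      rw [h2, eisCoefA_row_mul]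
    rw [hrow, eisCoefA_row hC, eisCoefA_row hC, hmul, mul_inv]
  · have h' : ¬ ∃ g : Gamma0 N, ((g : SL(2, ℤ)) : Matrix (Fin 2) (Fin 2) ℤ) 1 =
        Matrix.vecMul v ((γ : SL(2, ℤ)) : Matrix (Fin 2) (Fin 2) ℤ) := by
      rintro ⟨g, hg⟩
      apply h
      refine ⟨g * γ⁻¹, ?_⟩
      have h2 : (((g * γ⁻¹ : Gamma0 N) : SL(2, ℤ)) : Matrix (Fin 2) (Fin 2) ℤ) =
          ((g : SL(2, ℤ)) : Matrix (Fin 2) (Fin 2) ℤ) *
            (((γ : SL(2, ℤ))⁻¹ : SL(2, ℤ)) : Matrix (Fin 2) (Fin 2) ℤ) := rfl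
      have h3 : ((γ : SL(2, ℤ)) : Matrix (Fin 2) (Fin 2) ℤ) *
          (((γ : SL(2, ℤ))⁻¹ : SL(2, ℤ)) : Matrix (Fin 2) (Fin 2) ℤ) = 1 := by
        rw [← Matrix.SpecialLinearGroup.coe_mul, mul_inv_cancel, Matrix.SpecialLinearGroup.coe_one]
      rw [h2, eisCoefA_row_mul, hg, Matrix.vecMul_vecMul, h3, Matrix.vecMul_one]
    rw [eisCoefA_eq_zero N p c _ h', eisCoefA_eq_zero N p c _ h, zero_mul]

/-- (3) `eisCoef` is bounded by `1`. -/
theorem eisCoefA_norm_le (hC : EISCharStatement) (N : ℕ) [NeZero N] (p : ℕ) [NeZero p]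
    (c : Additive (Gamma0 N) →+ ZMod p) (v : Fin 2 → ℤ) :
    ‖eisCoef N p c v‖ ≤ 1 := by
  obtain ⟨-, -, hnorm, -, -⟩ := hC N p c
  unfold eisCoef
  split_ifs with h
  · rw [norm_inv, hnorm, inv_one]
  · rw [norm_zero]
    exact zero_le_one

/-- (4) `eisCoef` is supported on coprime pairs. -/
theorem eisCoefA_isCoprime (N p : ℕ) (c : Additive (Gamma0 N) →+ ZMod p) (v : Fin 2 → ℤ)
    (hv : eisCoef N p c v ≠ 0) : IsCoprime (v 0) (v 1) := by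
  by_cases h : ∃ g : Gamma0 N, ((g : SL(2, ℤ)) : Matrix (Fin 2) (Fin 2) ℤ) 1 = v
  · obtain ⟨g, rfl⟩ := h
    have hd : ((g : SL(2, ℤ)) : Matrix (Fin 2) (Fin 2) ℤ).det = 1 := (g : SL(2, ℤ)).2
    rw [Matrix.det_fin_two] at hd
    refine ⟨-((g : SL(2, ℤ)) : Matrix (Fin 2) (Fin 2) ℤ) 0 1,
      ((g : SL(2, ℤ)) : Matrix (Fin 2) (Fin 2) ℤ) 0 0, ?_⟩
    linarith
  · exact absurd (eisCoefA_eq_zero N p c v h) hv

/-- (COEF) The coefficient function: values, equivariance, bound, support. -/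
theorem eisCoefA_main (hC : EISCharStatement) : EISCoefStatement := by
  intro N _ p _ c
  exact ⟨fun γ => eisCoefA_row hC N p c γ, fun v γ => eisCoefA_vecMul hC N p c v γ,
    fun v => eisCoefA_norm_le hC N p c v, fun v hv => eisCoefA_isCoprime N p c v hv⟩

end Fermat.Agent.S42
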