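import Mathlib
import Fermat.Agent.S42.EISInterfaces

/-
S42 moonshot — block EIS, package EISHolo (variant A).
Holomorphy of the Eisenstein-type series `eisSeries k w` with bounded coefficients, weight `k ≥ 3`.
The proof follows Mathlib's proof for the untwisted series: Weierstrass M-test on vertical strips
plus the fact that locally uniform limits of holomorphic functions are holomorphic.
-/

set_option autoImplicit false

open UpperHalfPlane Filter Function Complex Manifold Topology

namespace Fermat.Agent.S42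

/-- Termwise bound: multiplying by a coefficient of norm at most one does not increase the norm
of the Eisenstein summand, which is bounded on vertical strips. -/
theorem eisHoloA_term_bound {k : ℤ} (hk : 3 ≤ k) (w : (Fin 2 → ℤ) → ℂ) (hw : ∀ v, ‖w v‖ ≤ 1)
    {A B : ℝ} (hB : 0 < B) (v : Fin 2 → ℤ) {z : ℍ} (hz : z ∈ verticalStrip A B) :
    ‖w v * EisensteinSeries.eisSummand k v z‖ ≤
      EisensteinSeries.r ⟨⟨A, B⟩, hB⟩ ^ (-k : ℝ) * ‖v‖ ^ (-k) := by
  have hk0 : (0 : ℝ) ≤ k := by
    have : (0 : ℤ) ≤ k := by omega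
    exact_mod_cast this
  have h1 : ‖EisensteinSeries.eisSummand k v z‖ ≤
      EisensteinSeries.r ⟨⟨A, B⟩, hB⟩ ^ (-k : ℝ) * ‖v‖ ^ (-k) := by
    simpa only [EisensteinSeries.eisSummand, one_div, ← zpow_neg, norm_zpow, ← Real.rpow_intCast,
      Int.cast_neg] using EisensteinSeries.summand_bound_of_mem_verticalStrip hk0 v hB hz
  calc ‖w v * EisensteinSeries.eisSummand k v z‖
      = ‖w v‖ * ‖EisensteinSeries.eisSummand k v z‖ := norm_mul _ _
    _ ≤ 1 * ‖EisensteinSeries.eisSummand k v z‖ :=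
        mul_le_mul_of_nonneg_right (hw v) (norm_nonneg _)
    _ = ‖EisensteinSeries.eisSummand k v z‖ := one_mul _
    _ ≤ _ := h1

/-- The sum defining `eisSeries k w` converges locally uniformly on `ℍ`. -/
theorem eisHoloA_tendstoLocallyUniformly {k : ℤ} (hk : 3 ≤ k) (w : (Fin 2 → ℤ) → ℂ)
    (hw : ∀ v, ‖w v‖ ≤ 1) :
    TendstoLocallyUniformly
      (fun (s : Finset (Fin 2 → ℤ)) ↦
        (fun z : ℍ ↦ ∑ x ∈ s, w x * EisensteinSeries.eisSummand k x z))
      (eisSeries k w) Filter.atTop := by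
  have hk' : (2 : ℝ) < k := by norm_cast
  have p_sum : Summable fun x : Fin 2 → ℤ ↦ ‖x‖ ^ (-k) :=
    mod_cast (EisensteinSeries.summable_one_div_norm_rpow hk')
  rw [tendstoLocallyUniformly_iff_forall_isCompact]
  intro K hK
  obtain ⟨A, B, hB, HABK⟩ := subset_verticalStrip_of_isCompact hK
  exact (tendstoUniformlyOn_tsum
    (hu := p_sum.mul_left <| EisensteinSeries.r ⟨⟨A, B⟩, hB⟩ ^ (-k : ℝ))
    (fun p z hz ↦ eisHoloA_term_bound hk w hw hB p hz)).mono HABK

/-- Variant of `eisHoloA_tendstoLocallyUniformly` formulated with maps `ℂ → ℂ`. -/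
theorem eisHoloA_tendstoLocallyUniformlyOn {k : ℤ} (hk : 3 ≤ k) (w : (Fin 2 → ℤ) → ℂ)
    (hw : ∀ v, ‖w v‖ ≤ 1) :
    TendstoLocallyUniformlyOn
      (fun (s : Finset (Fin 2 → ℤ)) ↦
        ↑ₕ(fun z : ℍ ↦ ∑ x ∈ s, w x * EisensteinSeries.eisSummand k x z))
      (↑ₕ(eisSeries k w)) Filter.atTop {z : ℂ | 0 < z.im} := by
  rw [← upperHalfPlaneSet, ← range_coe, ← Set.image_univ]
  apply TendstoLocallyUniformlyOn.comp (s := ⊤) _ _ _ (OpenPartialHomeomorph.continuousOn_symm _)
  · simp only [Set.top_eq_univ, tendstoLocallyUniformlyOn_univ]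
    exact eisHoloA_tendstoLocallyUniformly hk w hw
  · simp only [IsOpenEmbedding.toOpenPartialHomeomorph_target, Set.top_eq_univ,
      Set.mapsTo_range_iff, Set.mem_univ, forall_const]

/-- Each partial sum, extended to `ℂ`, is holomorphic on the upper half plane. -/
theorem eisHoloA_partial_differentiableOn (k : ℤ) (w : (Fin 2 → ℤ) → ℂ)
    (s : Finset (Fin 2 → ℤ)) :
    DifferentiableOn ℂ
      (↑ₕ(fun z : ℍ ↦ ∑ x ∈ s, w x * EisensteinSeries.eisSummand k x z))
      {z : ℂ | 0 < z.im} := by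
  have h : DifferentiableOn ℂ
      (fun z : ℂ ↦ ∑ x ∈ s, w x * (↑ₕ(EisensteinSeries.eisSummand k x)) z)
      {z : ℂ | 0 < z.im} :=
    DifferentiableOn.fun_sum fun x _ ↦
      (EisensteinSeries.eisSummand_extension_differentiableOn k x).const_mul (w x)
  refine h.congr fun z _ ↦ ?_
  simp only [Function.comp_apply]

/-- (HOLO) Holomorphy of the Eisenstein-type series with bounded coefficients. -/
theorem eisHoloA_main : EISHoloStatement := by
  intro k hk w hw τ
  suffices DifferentiableAt ℂ (↑ₕ(eisSeries k w)) τ.1 by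
    have h := MDifferentiableAt.comp τ (DifferentiableAt.mdifferentiableAt this)
      τ.mdifferentiable_coe
    have he : (↑ₕ(eisSeries k w)) ∘ (fun z : ℍ ↦ (z : ℂ)) = eisSeries k w :=
      funext fun z ↦ comp_ofComplex (eisSeries k w) z
    rwa [he] at h
  refine DifferentiableOn.differentiableAt ?_ (isOpen_upperHalfPlaneSet.mem_nhds τ.2)
  exact (eisHoloA_tendstoLocallyUniformlyOn hk w hw).differentiableOn
    (Eventually.of_forall fun s ↦ eisHoloA_partial_differentiableOn k w s)
    isOpen_upperHalfPlaneSet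

end Fermat.Agent.S42
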