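import Mathlib
import Fermat.Agent.S42.EISInterfaces
import Fermat.Agent.S42.EISInterfaces2

/-!
S42 moonshot, block EIS, package EISLimit (suffix A).
The limit at `i∞` of the weight-12 Eisenstein-type series with bounded coefficients supported on
coprime pairs, assuming the uniform bound (NORMSUM) for the weight-11 norm sums.
-/

set_option autoImplicit false

open UpperHalfPlane Filter Topology

namespace Fermat.Agent.S42

/-- The point of `ℍ` with the same real part as `z` and imaginary part `1`. -/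
noncomputable def eisLimitA_pt (z : ℍ) : ℍ := ⟨⟨z.re, 1⟩, by simp⟩

lemma eisLimitA_pt_im (z : ℍ) : (eisLimitA_pt z).im = 1 := rfl

lemma eisLimitA_real_bound {a b y : ℝ} (hb : 0 < b) (hba : b ≤ a) (hy : 0 < y) (hya : y ≤ a) :
    (a ^ 12)⁻¹ ≤ y⁻¹ * (b ^ 11)⁻¹ := by
  have ha : 0 < a := lt_of_lt_of_le hb hba
  rw [← mul_inv]
  apply inv_anti₀ (by positivity)
  calc y * b ^ 11 ≤ a * a ^ 11 := by gcongr
    _ = a ^ 12 := by ring

lemma eisLimitA_norm_sq (c d : ℤ) (x y : ℝ) :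
    ‖(c : ℂ) * (⟨x, y⟩ : ℂ) + d‖ ^ 2 = (c * x + d) ^ 2 + (c * y) ^ 2 := by
  rw [Complex.sq_norm, Complex.normSq_apply]
  simp
  ring

lemma eisLimitA_coe_eq (z : ℍ) : (z : ℂ) = ⟨z.re, z.im⟩ := rfl

lemma eisLimitA_pt_coe (z : ℍ) : ((eisLimitA_pt z : ℍ) : ℂ) = ⟨z.re, 1⟩ := rfl

lemma eisLimitA_one_le_sq {c : ℤ} (hc : c ≠ 0) : (1 : ℝ) ≤ (c : ℝ) ^ 2 := by
  have h1 : (1 : ℤ) ≤ c ^ 2 := by
    have := sq_nonneg c
    have h2 : c ^ 2 ≠ 0 := pow_ne_zero 2 hc
    omega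
  exact_mod_cast h1

lemma eisLimitA_term_bound (v : Fin 2 → ℤ) (hv : v 0 ≠ 0) (z : ℍ) (hz : 1 ≤ z.im) :
    ‖EisensteinSeries.eisSummand 12 v z‖ ≤
      (z.im)⁻¹ * ‖EisensteinSeries.eisSummand 11 v (eisLimitA_pt z)‖ := by
  have hc := eisLimitA_one_le_sq hv
  have hy : 0 < z.im := z.im_pos
  set a : ℝ := ‖(v 0 : ℂ) * (z : ℂ) + v 1‖ with ha_def
  set b : ℝ := ‖(v 0 : ℂ) * ((eisLimitA_pt z : ℍ) : ℂ) + v 1‖ with hb_def
  have ha2 : a ^ 2 = (v 0 * z.re + v 1) ^ 2 + (v 0 * z.im) ^ 2 := by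
    rw [ha_def, eisLimitA_coe_eq, eisLimitA_norm_sq]
  have hb2 : b ^ 2 = (v 0 * z.re + v 1) ^ 2 + (v 0 * 1) ^ 2 := by
    rw [hb_def, eisLimitA_pt_coe, eisLimitA_norm_sq]
  have ha0 : 0 ≤ a := norm_nonneg _
  have hb0 : 0 ≤ b := norm_nonneg _
  have hbpos : 0 < b := by
    have : 0 < b ^ 2 := by
      rw [hb2]
      have := sq_nonneg ((v 0 : ℝ) * z.re + v 1)
      nlinarith
    exact lt_of_le_of_ne hb0 (fun h => by rw [← h] at this; simp at this)
  have hba : b ≤ a := by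
    apply le_of_sq_le_sq _ ha0
    rw [ha2, hb2]
    have : ((v 0 : ℝ) * 1) ^ 2 ≤ ((v 0 : ℝ) * z.im) ^ 2 := by
      rw [mul_pow, mul_pow]
      have : (1 : ℝ) ^ 2 ≤ z.im ^ 2 := by nlinarith
      nlinarith
    linarith
  have hya : z.im ≤ a := by
    apply le_of_sq_le_sq _ ha0
    rw [ha2]
    have := sq_nonneg ((v 0 : ℝ) * z.re + v 1)
    have : z.im ^ 2 ≤ ((v 0 : ℝ) * z.im) ^ 2 := by
      rw [mul_pow]
      have := sq_nonneg z.im
      nlinarith
    linarith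
  have key := eisLimitA_real_bound hbpos hba hy hya
  simp only [EisensteinSeries.eisSummand, norm_zpow, zpow_neg, norm_inv]
  exact_mod_cast key

lemma eisLimitA_summable_norm (w : (Fin 2 → ℤ) → ℂ) (hw : ∀ v, ‖w v‖ ≤ 1) (z : ℍ) :
    Summable (fun v : Fin 2 → ℤ => ‖w v * EisensteinSeries.eisSummand 12 v z‖) := by
  refine Summable.of_nonneg_of_le (fun _ => norm_nonneg _) (fun v => ?_)
    (EisensteinSeries.summable_norm_eisSummand (k := 12) (by norm_num) z)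
  rw [norm_mul]
  exact mul_le_of_le_one_left (norm_nonneg _) (hw v)

lemma eisLimitA_vec_ne : (![0, 1] : Fin 2 → ℤ) ≠ ![0, -1] := by
  intro h
  have := congrFun h 1
  simp at this

lemma eisLimitA_support (w : (Fin 2 → ℤ) → ℂ)
    (hcop : ∀ v : Fin 2 → ℤ, w v ≠ 0 → IsCoprime (v 0) (v 1)) (v : Fin 2 → ℤ) (hv0 : v 0 = 0)
    (hv : v ∉ ({![0, 1], ![0, -1]} : Finset (Fin 2 → ℤ))) : w v = 0 := by
  by_contra hne
  have h := hcop v hne
  rw [hv0, isCoprime_zero_left, Int.isUnit_iff] at h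
  apply hv
  simp only [Finset.mem_insert, Finset.mem_singleton]
  rcases h with h | h
  · left
    ext i
    fin_cases i <;> simp [hv0, h]
  · right
    ext i
    fin_cases i <;> simp [hv0, h]

lemma eisLimitA_tsum_zero_part (w : (Fin 2 → ℤ) → ℂ)
    (hcop : ∀ v : Fin 2 → ℤ, w v ≠ 0 → IsCoprime (v 0) (v 1)) (z : ℍ) :
    ∑' v : Fin 2 → ℤ, (if v 0 = 0 then w v * EisensteinSeries.eisSummand 12 v z else 0) =
      w ![0, 1] + w ![0, -1] := by
  rw [tsum_eq_sum (s := ({![0, 1], ![0, -1]} : Finset (Fin 2 → ℤ)))]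
  · rw [Finset.sum_pair eisLimitA_vec_ne]
    have e1 : EisensteinSeries.eisSummand 12 ![0, 1] z = 1 := by
      simp [EisensteinSeries.eisSummand]
    have e2 : EisensteinSeries.eisSummand 12 ![0, -1] z = 1 := by
      have h12 : ((-1 : ℂ) ^ (12 : ℕ)) = 1 := by norm_num
      simp [EisensteinSeries.eisSummand, h12]
    have c1 : (![0, 1] : Fin 2 → ℤ) 0 = 0 := rfl
    have c2 : (![0, -1] : Fin 2 → ℤ) 0 = 0 := rfl
    rw [if_pos c1, if_pos c2, e1, e2, mul_one, mul_one]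
  · intro v hv
    by_cases hv0 : v 0 = 0
    · rw [if_pos hv0, eisLimitA_support w hcop v hv0 hv, zero_mul]
    · rw [if_neg hv0]

lemma eisLimitA_bound (w : (Fin 2 → ℤ) → ℂ) (hw : ∀ v, ‖w v‖ ≤ 1)
    (hcop : ∀ v : Fin 2 → ℤ, w v ≠ 0 → IsCoprime (v 0) (v 1)) (C : ℝ)
    (hC : ∀ z : ℍ, 1 ≤ z.im → ∑' v : Fin 2 → ℤ, ‖EisensteinSeries.eisSummand 11 v z‖ ≤ C)
    (z : ℍ) (hz : 1 ≤ z.im) :
    ‖eisSeries 12 w z - (w ![0, 1] + w ![0, -1])‖ ≤ C * (z.im)⁻¹ := by
  set f : (Fin 2 → ℤ) → ℂ := fun v => w v * EisensteinSeries.eisSummand 12 v z with hf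
  set g : (Fin 2 → ℤ) → ℂ := fun v => if v 0 = 0 then f v else 0 with hg
  set h : (Fin 2 → ℤ) → ℂ := fun v => if v 0 = 0 then 0 else f v with hh
  have hfn : Summable (fun v => ‖f v‖) := eisLimitA_summable_norm w hw z
  have hgn : Summable (fun v => ‖g v‖) := by
    refine Summable.of_nonneg_of_le (fun _ => norm_nonneg _) (fun v => ?_) hfn
    simp only [hg]
    split_ifs
    · exact le_rfl
    · simp
  have hhn : Summable (fun v => ‖h v‖) := by
    refine Summable.of_nonneg_of_le (fun _ => norm_nonneg _) (fun v => ?_) hfn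
    simp only [hh]
    split_ifs
    · simp
    · exact le_rfl
  have hsplit : ∀ v, f v = g v + h v := by
    intro v
    simp only [hg, hh]
    split_ifs <;> simp
  have h1 : eisSeries 12 w z = ∑' v, g v + ∑' v, h v := by
    rw [← Summable.tsum_add hgn.of_norm hhn.of_norm]
    exact tsum_congr hsplit
  have h2 : ∑' v, g v = w ![0, 1] + w ![0, -1] := eisLimitA_tsum_zero_part w hcop z
  rw [h1, h2, add_sub_cancel_left]
  have h11 : Summable (fun v : Fin 2 → ℤ =>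
      (z.im)⁻¹ * ‖EisensteinSeries.eisSummand 11 v (eisLimitA_pt z)‖) :=
    (EisensteinSeries.summable_norm_eisSummand (k := 11) (by norm_num) (eisLimitA_pt z)).mul_left _
  calc ‖∑' v, h v‖ ≤ ∑' v, ‖h v‖ := norm_tsum_le_tsum_norm hhn
    _ ≤ ∑' v : Fin 2 → ℤ, (z.im)⁻¹ * ‖EisensteinSeries.eisSummand 11 v (eisLimitA_pt z)‖ := by
        refine Summable.tsum_le_tsum (fun v => ?_) hhn h11
        simp only [hh]
        split_ifs with hv0
        · rw [norm_zero]; positivity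
        · rw [hf, norm_mul]
          calc ‖w v‖ * ‖EisensteinSeries.eisSummand 12 v z‖
              ≤ 1 * ‖EisensteinSeries.eisSummand 12 v z‖ := by gcongr; exact hw v
            _ = ‖EisensteinSeries.eisSummand 12 v z‖ := one_mul _
            _ ≤ _ := eisLimitA_term_bound v hv0 z hz
    _ = (z.im)⁻¹ * ∑' v : Fin 2 → ℤ, ‖EisensteinSeries.eisSummand 11 v (eisLimitA_pt z)‖ :=
        tsum_mul_left
    _ ≤ (z.im)⁻¹ * C := by
        have hy : 0 ≤ (z.im)⁻¹ := inv_nonneg.mpr z.im_pos.le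
        exact mul_le_mul_of_nonneg_left (hC _ (le_of_eq (eisLimitA_pt_im z).symm)) hy
    _ = C * (z.im)⁻¹ := mul_comm _ _

theorem eisLimitA_main (hN : EISNormSumStatement) : EISLimit12Statement := by
  intro w hw hcop
  obtain ⟨C, hC⟩ := hN 11 (by norm_num)
  rw [tendsto_iff_norm_sub_tendsto_zero]
  have him : Tendsto UpperHalfPlane.im atImInfty atTop := tendsto_comap
  have hev : ∀ᶠ z : ℍ in atImInfty, 1 ≤ z.im := him.eventually (eventually_ge_atTop 1)
  have hlim : Tendsto (fun z : ℍ => C * (z.im)⁻¹) atImInfty (𝓝 0) := by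
    have h2 : Tendsto (fun z : ℍ => (z.im)⁻¹) atImInfty (𝓝 0) := tendsto_inv_atTop_zero.comp him
    simpa using h2.const_mul C
  refine squeeze_zero' (Eventually.of_forall fun _ => norm_nonneg _) ?_ hlim
  filter_upwards [hev] with z hz
  exact eisLimitA_bound w hw hcop C hC z hz

end Fermat.Agent.S42
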