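/-
S42 moonshot — block EIS, package EISMain.
Assembles the statement `EISMainStatement` from the character, coefficient, holomorphy, slash,
boundedness and limit packages (all taken as explicit hypotheses).
-/
import Mathlib
import Fermat.Agent.S42.Interfaces
import Fermat.Agent.S42.EISInterfaces
import Fermat.Agent.S42.EISInterfaces2

set_option autoImplicit false

open UpperHalfPlane CongruenceSubgroup ModularCurve ModularCurve.Period Filter Topology
open scoped MatrixGroups ModularForm Manifold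

namespace Fermat.Agent.S42

noncomputable section

/-- Pulling a constant out of the coefficient function of `eisSeries`. -/
theorem eisMain_eisSeries_mul_const (k : ℤ) (w : (Fin 2 → ℤ) → ℂ) (a : ℂ) :
    eisSeries k (fun v => w v * a) = a • eisSeries k w := by
  funext z
  simp only [eisSeries, Pi.smul_apply, smul_eq_mul]
  rw [← tsum_mul_left]
  refine tsum_congr fun v => ?_
  ring

/-- `χ γ⁻¹ = (χ γ)⁻¹`, from multiplicativity and `χ 1 = 1`. -/
theorem eisMain_chi_inv (hC : EISCharStatement) (N : ℕ) [NeZero N] (p : ℕ) [NeZero p]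
    (c : Additive (Gamma0 N) →+ ZMod p) (γ : Gamma0 N) :
    chiOf N p c γ⁻¹ = (chiOf N p c γ)⁻¹ := by
  obtain ⟨h1, hmul, -, -, -⟩ := hC N p c
  have h : chiOf N p c γ * chiOf N p c γ⁻¹ = 1 := by
    rw [← hmul, mul_inv_cancel, h1]
  exact eq_inv_of_mul_eq_one_right h

/-- `-1 ∈ Γ₀(N)`. -/
theorem eisMain_neg_one_mem (N : ℕ) : (-1 : SL(2, ℤ)) ∈ Gamma0 N := by
  rw [Gamma0_mem]
  simp

/-- The bottom row of `1`. -/
theorem eisMain_row_one (N : ℕ) :
    (((1 : Gamma0 N) : SL(2, ℤ)) : Matrix (Fin 2) (Fin 2) ℤ) 1 = ![0, 1] := by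
  funext i
  fin_cases i <;> simp

/-- The bottom row of `-1`. -/
theorem eisMain_row_neg_one (N : ℕ) :
    (((⟨-1, eisMain_neg_one_mem N⟩ : Gamma0 N) : SL(2, ℤ)) : Matrix (Fin 2) (Fin 2) ℤ) 1 =
      ![0, -1] := by
  funext i
  fin_cases i <;> simp

/-- The value of the coefficient function at `![0, 1]`. -/
theorem eisMain_coef_one (hC : EISCharStatement) (hCo : EISCoefStatement)
    (N : ℕ) [NeZero N] (p : ℕ) [NeZero p] (c : Lam N p) :
    eisCoef N p c ![0, 1] = 1 := by
  have h := (hCo N p c).1 1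
  rw [eisMain_row_one] at h
  rw [h, (hC N p c).1, inv_one]

/-- The value of the coefficient function at `![0, -1]`. -/
theorem eisMain_coef_neg_one (hC : EISCharStatement) (hCo : EISCoefStatement)
    (N : ℕ) [NeZero N] (p : ℕ) [NeZero p] (c : Lam N p) :
    eisCoef N p c ![0, -1] = 1 := by
  have h := (hCo N p c).1 ⟨-1, eisMain_neg_one_mem N⟩
  rw [eisMain_row_neg_one] at h
  have hpar : (c : Additive (Gamma0 N) →+ ZMod p)
      (Additive.ofMul (⟨-1, eisMain_neg_one_mem N⟩ : Gamma0 N)) = 0 := by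
    refine c.2 _ ?_
    simp
  rw [h, (hC N p c).2.2.2.1 _ hpar, inv_one]

/-- The limit of the twisted Eisenstein series at `i∞`. -/
theorem eisMain_tendsto (hC : EISCharStatement) (hCo : EISCoefStatement)
    (hL : EISLimit12Statement) (N : ℕ) [NeZero N] (p : ℕ) [NeZero p] (c : Lam N p) :
    Tendsto (eisE N p c) atImInfty (𝓝 2) := by
  have h := hL (eisCoef N p c) (hCo N p c).2.2.1 (hCo N p c).2.2.2
  rw [eisMain_coef_one hC hCo, eisMain_coef_neg_one hC hCo] at h
  have h2 : (1 : ℂ) + 1 = 2 := by norm_num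
  rw [h2] at h
  exact h

/-- The slash of the twisted Eisenstein series by an element of `Γ₀(N)`. -/
theorem eisMain_slash (hC : EISCharStatement) (hCo : EISCoefStatement)
    (hSl : EISSlashStatement) (N : ℕ) [NeZero N] (p : ℕ) [NeZero p] (c : Lam N p)
    (γ : Gamma0 N) :
    eisE N p c ∣[(12 : ℤ)] (γ : SL(2, ℤ)) = chiOf N p c γ • eisE N p c := by
  unfold eisE
  rw [hSl 12 (eisCoef N p c) γ, ← eisMain_eisSeries_mul_const]
  congr 1
  funext v
  have h := (hCo N p c).2.1 v γ⁻¹
  rw [eisMain_chi_inv hC, inv_inv] at h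
  rw [← h]
  rfl

/-- All slashes of the twisted Eisenstein series are bounded at `i∞`. -/
theorem eisMain_bdd (hCo : EISCoefStatement)
    (hSl : EISSlashStatement) (hB : EISBddStatement)
    (N : ℕ) [NeZero N] (p : ℕ) [NeZero p] (c : Lam N p) (δ : SL(2, ℤ)) :
    IsBoundedAtImInfty (eisE N p c ∣[(12 : ℤ)] δ) := by
  unfold eisE
  rw [hSl 12 (eisCoef N p c) δ]
  exact hB 12 (by norm_num) _ (fun v => (hCo N p c).2.2.1 _)

theorem eisMain_main (hC : EISCharStatement) (hCo : EISCoefStatement) (hH : EISHoloStatement)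
    (hSl : EISSlashStatement) (hB : EISBddStatement)
    (hL : EISLimit12Statement) : EISMainStatement := by
  intro N _ p _ c
  have hlim := eisMain_tendsto hC hCo hL N p c
  refine ⟨⟨?_, ?_, ?_⟩, hlim, ?_⟩
  · exact hH 12 (by norm_num) _ (hCo N p c).2.2.1
  · exact fun γ => eisMain_slash hC hCo hSl N p c γ
  · exact fun δ => eisMain_bdd hCo hSl hB N p c δ
  · intro h0
    rw [h0] at hlim
    have h0' : Tendsto (0 : ℍ → ℂ) atImInfty (𝓝 0) := tendsto_const_nhds
    have := tendsto_nhds_unique hlim h0'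
    norm_num at this

end

end Fermat.Agent.S42
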