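import Mathlib
import Fermat.Agent.S42.EISInterfaces2

/-!
S42 moonshot — block EIS, package EISNormSum (variant A).

The full-lattice sum of the norms of the Eisenstein summands `(v 0 * z + v 1)^(-k)` (`3 ≤ k`) is
bounded on `{z | 1 ≤ im z}`.

Proof: on the vertical strip `{|re z| ≤ 1, 1 ≤ im z}` the bound is the one used in Mathlib for
`isBoundedAtImInfty_eisensteinSeriesSIF`; a general `z` with `1 ≤ im z` is moved into that strip
by a horizontal integer translation, which only reindexes the lattice sum by a shear.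
-/

set_option autoImplicit false

open UpperHalfPlane

namespace Fermat.Agent.S42

/-- The shear `v ↦ ![v 0, v 1 + n * v 0]` as a self-equivalence of `Fin 2 → ℤ`. -/
def eisNormSumA_shear (n : ℤ) : (Fin 2 → ℤ) ≃ (Fin 2 → ℤ) where
  toFun v := ![v 0, v 1 + n * v 0]
  invFun v := ![v 0, v 1 - n * v 0]
  left_inv v := by
    ext i
    fin_cases i <;> simp
  right_inv v := by
    ext i
    fin_cases i <;> simp

/-- The constant bounding the norm sum on the vertical strip `{|re z| ≤ 1, 1 ≤ im z}`. -/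
noncomputable def eisNormSumA_const (k : ℤ) : ℝ :=
  ∑' x : Fin 2 → ℤ, EisensteinSeries.r ⟨⟨1, 1⟩, one_pos⟩ ^ (-k) * ‖x‖ ^ (-k)

/-- The bound on the vertical strip (as in Mathlib's proof of boundedness at `i∞`). -/
theorem eisNormSumA_strip (k : ℤ) (hk : 3 ≤ k) (z : ℍ) (hz : z ∈ verticalStrip 1 1) :
    ∑' v : Fin 2 → ℤ, ‖EisensteinSeries.eisSummand k v z‖ ≤ eisNormSumA_const k := by
  have hk' : (2 : ℝ) < k := by norm_cast
  unfold eisNormSumA_const
  apply (EisensteinSeries.summable_norm_eisSummand hk _).tsum_le_tsum _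
  · exact_mod_cast (EisensteinSeries.summable_one_div_norm_rpow hk').mul_left <|
      EisensteinSeries.r ⟨⟨1, 1⟩, one_pos⟩ ^ (-k)
  · intro x
    simp_rw [EisensteinSeries.eisSummand, norm_zpow]
    exact_mod_cast
      EisensteinSeries.summand_bound_of_mem_verticalStrip (lt_trans two_pos hk').le x one_pos hz

/-- A horizontal integer translation of `z` is a shear of the lattice vector. -/
theorem eisNormSumA_summand_shift (k : ℤ) (n : ℤ) (v : Fin 2 → ℤ) (z : ℍ) :
    EisensteinSeries.eisSummand k v z =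
      EisensteinSeries.eisSummand k (eisNormSumA_shear n v) ((-(n : ℝ)) +ᵥ z) := by
  simp only [EisensteinSeries.eisSummand, eisNormSumA_shear, Equiv.coe_fn_mk, Matrix.cons_val_zero,
    Matrix.cons_val_one, UpperHalfPlane.coe_vadd]
  congr 1
  push_cast
  ring

/-- The norm sum is invariant under horizontal integer translations. -/
theorem eisNormSumA_tsum_shift (k : ℤ) (n : ℤ) (z : ℍ) :
    ∑' v : Fin 2 → ℤ, ‖EisensteinSeries.eisSummand k v z‖ =
      ∑' v : Fin 2 → ℤ, ‖EisensteinSeries.eisSummand k v ((-(n : ℝ)) +ᵥ z)‖ := by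
  rw [← (eisNormSumA_shear n).tsum_eq
    (fun v => ‖EisensteinSeries.eisSummand k v ((-(n : ℝ)) +ᵥ z)‖)]
  exact tsum_congr fun v => by rw [eisNormSumA_summand_shift k n v z]

/-- Translating by `-⌊re z⌋` moves `z` into the vertical strip of width `1`. -/
theorem eisNormSumA_mem_strip (z : ℍ) (hz : 1 ≤ z.im) :
    ((-((⌊z.re⌋ : ℤ) : ℝ)) +ᵥ z) ∈ verticalStrip 1 1 := by
  rw [mem_verticalStrip_iff, UpperHalfPlane.vadd_re, UpperHalfPlane.vadd_im]
  refine ⟨?_, hz⟩
  have h1 : (⌊z.re⌋ : ℝ) ≤ z.re := Int.floor_le _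
  have h2 : z.re < ⌊z.re⌋ + 1 := Int.lt_floor_add_one _
  rw [abs_le]
  constructor <;> linarith

/-- (NORMSUM) The full-lattice sum of the norms of the Eisenstein summands is bounded on
`{z | 1 ≤ im z}`. -/
theorem eisNormSumA_main : EISNormSumStatement := by
  intro k hk
  refine ⟨eisNormSumA_const k, fun z hz => ?_⟩
  rw [eisNormSumA_tsum_shift k ⌊z.re⌋ z]
  exact eisNormSumA_strip k hk _ (eisNormSumA_mem_strip z hz)

end Fermat.Agent.S42
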