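/-
S42 moonshot — block EIS, package EISPeriodic.

If `φ ∣[k] γ = χ γ • φ` for all `γ ∈ Γ₀(N)` and `χ γ = 1` whenever `trace γ ^ 2 = 4`, then for
every `δ : SL(2, ℤ)` the function `(φ ∣[k] δ) ∘ ofComplex` is periodic with period `N`.
-/
import Mathlib
import Fermat.Agent.S42.EISInterfaces

set_option autoImplicit false

open UpperHalfPlane CongruenceSubgroup ModularCurve ModularCurve.Period Filter Topology
open scoped MatrixGroups ModularForm Manifold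

namespace Fermat.Agent.S42

/-- `T ^ N` lies in the principal congruence subgroup `Γ(N)`. -/
lemma eisPeriodic_T_pow_mem_Gamma (N : ℕ) : ModularGroup.T ^ (N : ℤ) ∈ Gamma N := by
  simpa using ModularGroup_T_pow_mem_Gamma (N : ℤ) (N : ℤ) dvd_rfl

/-- `Γ(N) ≤ Γ₀(N)`. -/
lemma eisPeriodic_Gamma_le_Gamma0 (N : ℕ) : Gamma N ≤ Gamma0 N := by
  intro x hx
  rw [Gamma_mem] at hx
  rw [Gamma0_mem]
  exact hx.2.2.1

/-- The conjugate `δ * T ^ N * δ⁻¹` lies in `Γ₀(N)`. -/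
lemma eisPeriodic_conj_mem (N : ℕ) (δ : SL(2, ℤ)) :
    δ * ModularGroup.T ^ (N : ℤ) * δ⁻¹ ∈ Gamma0 N :=
  eisPeriodic_Gamma_le_Gamma0 N
    ((Gamma_normal N).conj_mem _ (eisPeriodic_T_pow_mem_Gamma N) δ)

/-- The conjugate `δ * T ^ N * δ⁻¹` has trace `2`. -/
lemma eisPeriodic_conj_trace (N : ℕ) (δ : SL(2, ℤ)) :
    ((δ * ModularGroup.T ^ (N : ℤ) * δ⁻¹ : SL(2, ℤ)) : Matrix (Fin 2) (Fin 2) ℤ).trace = 2 := by
  have h1 : ((δ * ModularGroup.T ^ (N : ℤ) * δ⁻¹ : SL(2, ℤ)) : Matrix (Fin 2) (Fin 2) ℤ) =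
      ((δ * ModularGroup.T ^ (N : ℤ) : SL(2, ℤ)) : Matrix (Fin 2) (Fin 2) ℤ) *
        ((δ⁻¹ : SL(2, ℤ)) : Matrix (Fin 2) (Fin 2) ℤ) :=
    Matrix.SpecialLinearGroup.coe_mul _ _
  rw [h1, Matrix.trace_mul_comm]
  have h2 : ((δ⁻¹ : SL(2, ℤ)) : Matrix (Fin 2) (Fin 2) ℤ) *
      ((δ * ModularGroup.T ^ (N : ℤ) : SL(2, ℤ)) : Matrix (Fin 2) (Fin 2) ℤ) =
      ((ModularGroup.T ^ (N : ℤ) : SL(2, ℤ)) : Matrix (Fin 2) (Fin 2) ℤ) := by
    rw [← Matrix.SpecialLinearGroup.coe_mul, inv_mul_cancel_left]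
  rw [h2, ModularGroup.coe_T_zpow, Matrix.trace_fin_two]
  simp

/-- Slash invariance under `T ^ N` of every `SL(2, ℤ)`-slash of a twisted form whose character
is trivial on parabolic elements. -/
lemma eisPeriodic_slash_T_pow (N : ℕ) (k : ℤ) (χ : Gamma0 N → ℂ) (φ : ℍ → ℂ)
    (hφ : ∀ γ : Gamma0 N, φ ∣[k] (γ : SL(2, ℤ)) = χ γ • φ)
    (hχ : ∀ γ : Gamma0 N,
      (((γ : SL(2, ℤ)) : Matrix (Fin 2) (Fin 2) ℤ).trace) ^ 2 = 4 → χ γ = 1)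
    (δ : SL(2, ℤ)) :
    (φ ∣[k] δ) ∣[k] (ModularGroup.T ^ (N : ℤ)) = φ ∣[k] δ := by
  have hχe : χ ⟨δ * ModularGroup.T ^ (N : ℤ) * δ⁻¹, eisPeriodic_conj_mem N δ⟩ = 1 := by
    apply hχ
    have h2 : ((δ * ModularGroup.T ^ (N : ℤ) * δ⁻¹ : SL(2, ℤ)) :
        Matrix (Fin 2) (Fin 2) ℤ).trace = 2 := eisPeriodic_conj_trace N δ
    show ((δ * ModularGroup.T ^ (N : ℤ) * δ⁻¹ : SL(2, ℤ)) :
        Matrix (Fin 2) (Fin 2) ℤ).trace ^ 2 = 4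
    rw [h2]
    norm_num
  have hφe : φ ∣[k] (δ * ModularGroup.T ^ (N : ℤ) * δ⁻¹) = φ := by
    have h3 := hφ ⟨δ * ModularGroup.T ^ (N : ℤ) * δ⁻¹, eisPeriodic_conj_mem N δ⟩
    rw [hχe, one_smul] at h3
    exact h3
  calc (φ ∣[k] δ) ∣[k] (ModularGroup.T ^ (N : ℤ))
      = φ ∣[k] (δ * ModularGroup.T ^ (N : ℤ)) := (SlashAction.slash_mul k δ _ φ).symm
    _ = φ ∣[k] ((δ * ModularGroup.T ^ (N : ℤ) * δ⁻¹) * δ) := by
        rw [inv_mul_cancel_right]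
    _ = (φ ∣[k] (δ * ModularGroup.T ^ (N : ℤ) * δ⁻¹)) ∣[k] δ := SlashAction.slash_mul k _ δ φ
    _ = φ ∣[k] δ := by rw [hφe]

/-- Slashing by `T ^ n` is translating by `n`. -/
lemma eisPeriodic_slash_T_zpow_apply (k : ℤ) (g : ℍ → ℂ) (n : ℤ) (z : ℍ) :
    (g ∣[k] (ModularGroup.T ^ n)) z = g ((n : ℝ) +ᵥ z) := by
  rw [ModularForm.SL_slash_apply, UpperHalfPlane.modular_T_zpow_smul]
  have hden : denom (ModularGroup.T ^ n : SL(2, ℤ)) z = 1 := by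
    rw [ModularGroup.denom_apply, ModularGroup.coe_T_zpow]
    simp
  rw [hden, one_zpow, mul_one]

theorem eisPeriodic_main : EISPeriodicStatement := by
  intro N _ k χ φ hφ hχ δ w
  have hinv := eisPeriodic_slash_T_pow N k χ φ hφ hχ δ
  by_cases hw : 0 < w.im
  · have hw' : 0 < (w + (N : ℂ)).im := by simpa using hw
    simp only [Function.comp_apply, ofComplex_apply_of_im_pos hw', ofComplex_apply_of_im_pos hw]
    have h1 := eisPeriodic_slash_T_zpow_apply k (φ ∣[k] δ) (N : ℤ) ⟨w, hw⟩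
    rw [hinv] at h1
    rw [h1]
    have h4 : (⟨w + (N : ℂ), hw'⟩ : ℍ) = (((N : ℤ) : ℝ) +ᵥ (⟨w, hw⟩ : ℍ)) := by
      ext
      simp [UpperHalfPlane.coe_vadd, add_comm]
    rw [h4]
  · have hw0 : w.im ≤ 0 := not_lt.mp hw
    have hw' : (w + (N : ℂ)).im ≤ 0 := by simpa using hw0
    simp only [Function.comp_apply, ofComplex_apply_of_im_nonpos hw',
      ofComplex_apply_of_im_nonpos hw0]

end Fermat.Agent.S42
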