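/-
S42 moonshot — block EIS, package EISSummable.
Proves `EISSummableStatement` (absolute convergence of the Eisenstein-type series with bounded
coefficients in weight `k ≥ 3`) and `EISSlashStatement` (slashing by `δ ∈ SL(2, ℤ)` transports
the coefficient function along `v ↦ v ᵥ* δ⁻¹`).
-/
import Mathlib
import Fermat.Agent.S42.EISInterfaces

set_option autoImplicit false

open UpperHalfPlane CongruenceSubgroup ModularCurve ModularCurve.Period Filter Topology
open scoped MatrixGroups ModularForm Manifold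

namespace Fermat.Agent.S42

/-- (SUMMABLE) Absolute convergence of the Eisenstein-type series with coefficients bounded
by `1` in weight `k ≥ 3`. -/
theorem eisSummable_main : EISSummableStatement := by
  intro k hk w hw z
  refine Summable.of_nonneg_of_le (fun v => norm_nonneg _) (fun v => ?_)
    (EisensteinSeries.summable_norm_eisSummand hk z)
  rw [norm_mul]
  exact mul_le_of_le_one_left (norm_nonneg _) (hw v)

/-- The equivalence `v ↦ v ᵥ* δ` of `Fin 2 → ℤ`, with inverse `v ↦ v ᵥ* δ⁻¹`. -/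
def eisSummable_vecMulEquiv (δ : SL(2, ℤ)) : (Fin 2 → ℤ) ≃ (Fin 2 → ℤ) where
  toFun v := Matrix.vecMul v (δ : Matrix (Fin 2) (Fin 2) ℤ)
  invFun v := Matrix.vecMul v ((δ⁻¹ : SL(2, ℤ)) : Matrix (Fin 2) (Fin 2) ℤ)
  left_inv v := by
    simp_rw [Matrix.vecMul_vecMul, ← Matrix.SpecialLinearGroup.coe_mul, mul_inv_cancel,
      Matrix.SpecialLinearGroup.coe_one, Matrix.vecMul_one]
  right_inv v := by
    simp_rw [Matrix.vecMul_vecMul, ← Matrix.SpecialLinearGroup.coe_mul, inv_mul_cancel,
      Matrix.SpecialLinearGroup.coe_one, Matrix.vecMul_one]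

theorem eisSummable_vecMulEquiv_apply (δ : SL(2, ℤ)) (v : Fin 2 → ℤ) :
    eisSummable_vecMulEquiv δ v = Matrix.vecMul v (δ : Matrix (Fin 2) (Fin 2) ℤ) := rfl

theorem eisSummable_vecMul_inv_vecMul (δ : SL(2, ℤ)) (v : Fin 2 → ℤ) :
    Matrix.vecMul (Matrix.vecMul v (δ : Matrix (Fin 2) (Fin 2) ℤ))
      ((δ⁻¹ : SL(2, ℤ)) : Matrix (Fin 2) (Fin 2) ℤ) = v :=
  (eisSummable_vecMulEquiv δ).left_inv v

/-- Pointwise form of the slash formula (no summability hypothesis is needed). -/
theorem eisSummable_slash_apply (k : ℤ) (w : (Fin 2 → ℤ) → ℂ) (δ : SL(2, ℤ)) (z : ℍ) :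
    (eisSeries k w ∣[k] δ) z =
      eisSeries k
        (fun v => w (Matrix.vecMul v ((δ⁻¹ : SL(2, ℤ)) : Matrix (Fin 2) (Fin 2) ℤ))) z := by
  have hd : (denom δ z) ^ k ≠ 0 := zpow_ne_zero _ (denom_ne_zero _ z)
  rw [ModularForm.SL_slash_apply]
  unfold eisSeries
  -- the left-hand side, with the automorphy factor pulled through the sum
  have h1 : ∀ v : Fin 2 → ℤ, w v * EisensteinSeries.eisSummand k v (δ • z) =
      (denom δ z) ^ k *
        (w v * EisensteinSeries.eisSummand k
          (Matrix.vecMul v (δ : Matrix (Fin 2) (Fin 2) ℤ)) z) := by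
    intro v
    rw [EisensteinSeries.eisSummand_SL2_apply]
    ring
  simp_rw [h1]
  rw [tsum_mul_left, zpow_neg, mul_assoc, mul_comm _ ((denom δ z) ^ k)⁻¹, ← mul_assoc,
    mul_inv_cancel₀ hd, one_mul]
  -- reindex along `v ↦ v ᵥ* δ`
  rw [← (eisSummable_vecMulEquiv δ).tsum_eq
    (fun v => w (Matrix.vecMul v ((δ⁻¹ : SL(2, ℤ)) : Matrix (Fin 2) (Fin 2) ℤ)) *
      EisensteinSeries.eisSummand k v z)]
  refine tsum_congr (fun v => ?_)
  rw [eisSummable_vecMulEquiv_apply, eisSummable_vecMul_inv_vecMul]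

/-- (SLASH) Slashing by `δ ∈ SL(2, ℤ)` transports the coefficient function. -/
theorem eisSummable_slash : EISSlashStatement := by
  intro k w δ
  funext z
  exact eisSummable_slash_apply k w δ z

end Fermat.Agent.S42
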