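/-
S42 moonshot — block EIS: FINAL ASSEMBLY.  Hypothesis-free versions of the EIS statements.
-/
import Fermat.Agent.S42.EISChar
import Fermat.Agent.S42.EISCoefA
import Fermat.Agent.S42.EISSummable
import Fermat.Agent.S42.EISHoloA
import Fermat.Agent.S42.EISNormSumA
import Fermat.Agent.S42.EISBdd
import Fermat.Agent.S42.EISLimitA
import Fermat.Agent.S42.EISPeriodic
import Fermat.Agent.S42.EISMain

set_option autoImplicit false

namespace Fermat.Agent.S42

/-- (CHAR), hypothesis-free. -/
theorem eis_char : EISCharStatement := eisChar_main

/-- (COEF), hypothesis-free. -/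
theorem eis_coef : EISCoefStatement := eisCoefA_main eis_char

/-- (HOLO), hypothesis-free. -/
theorem eis_holo : EISHoloStatement := eisHoloA_main

/-- (SLASH), hypothesis-free. -/
theorem eis_slash : EISSlashStatement := eisSummable_slash

/-- (BDD), hypothesis-free. -/
theorem eis_bdd : EISBddStatement := eisBdd_main eisNormSumA_main

/-- (LIMIT12), hypothesis-free. -/
theorem eis_limit12 : EISLimit12Statement := eisLimitA_main eisNormSumA_main

/-- (EIS-MAIN), hypothesis-free: the output of the EIS block. -/
theorem eis_main : EISMainStatement :=
  eisMain_main eis_char eis_coef eis_holo eis_slash eis_bdd eis_limit12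

/-- (PERIODIC), hypothesis-free. -/
theorem eis_periodic : EISPeriodicStatement := eisPeriodic_main

end Fermat.Agent.S42
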