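/-
S42 moonshot — block HECKE-ROOT (N5; helper26): sub-statements.
`scale c` is the substitution `q ↦ c q` (`Fermat.Agent.S28.scale`), `qExpand Qbar m` is `q ↦ q^m`.
-/
import Fermat.Agent.S42.ThetaInterfaces
import Fermat.Agent.S37.KRInterfaces2

set_option autoImplicit false

open ModularCurve AlgebraicCurve CongruenceSubgroup
open UpperHalfPlane
open scoped TensorProduct MatrixGroups Manifold
open Fermat.Agent.S28 (scale)

namespace Fermat.Agent.S42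

noncomputable section

/-! ## Evaluation of formal Laurent series -/

/-- The Laurent series `g` (coefficients through `embC`) converges at `w` to `v`. -/
def HasEval (g : LaurentSeries Qbar) (w v : ℂ) : Prop :=
  HasSum (fun n : ℤ => embC (g.coeff n) * w ^ n) v

/-- (EVAL-MUL) evaluation is multiplicative. -/
def EvalMulStatement : Prop :=
  ∀ (g h : LaurentSeries Qbar) (w u v : ℂ), w ≠ 0 → HasEval g w u → HasEval h w v →
    HasEval (g * h) w (u * v)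

/-- (EVAL-EXPAND) evaluation of `g(q^m)` at `w` is evaluation of `g` at `w^m`. -/
def EvalExpandStatement : Prop :=
  ∀ (m : ℕ) [NeZero m] (g : LaurentSeries Qbar) (w v : ℂ), w ≠ 0 →
    (HasEval (qExpand Qbar m g) w v ↔ HasEval g (w ^ m) v)

/-- (EVAL-SCALE) evaluation of `g(ζ q)` at `w` is evaluation of `g` at `embC ζ * w`. -/
def EvalScaleStatement : Prop :=
  ∀ (ζ : Qbar) (g : LaurentSeries Qbar) (w v : ℂ), w ≠ 0 → ζ ≠ 0 →
    (HasEval (scale ζ g) w v ↔ HasEval g (embC ζ * w) v)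

/-- (QEXP-IFF) `HasQExp` in terms of `HasEval` at `w = e^{2π i τ}`. -/
def QExpIffStatement : Prop :=
  ∀ (N : ℕ) (f : FN N) (F : ℍ → ℂ),
    HasQExp f F ↔ ∃ B : ℝ, ∀ τ : ℍ, B < τ.im →
      HasEval (f : LaurentSeries Qbar) (Complex.exp (2 * Real.pi * Complex.I * (τ : ℂ))) (F τ)

/-- (QEXP-MUL) `HasQExp` is multiplicative. -/
def QExpMulStatement : Prop :=
  ∀ (N : ℕ) [NeZero N] (f f' : FN N) (F F' : ℍ → ℂ), HasQExp f F → HasQExp f' F' →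
    HasQExp (f * f') (fun τ => F τ * F' τ)

/-! ## The algebraic side: the norm along `α` of `β f` -/

/-- (ATKIN-LEHNER) the ring automorphism of `F_{Nℓ}` swapping `α` and `β` (`ℓ ∤ N` prime);
it is obtained from the landed `Fermat.Agent.S37.kr_SInfStatement`. -/
def AtkinLehnerStatement : Prop :=
  ∀ (N ℓ : ℕ) [NeZero N] [NeZero ℓ], ℓ.Prime → ¬ ℓ ∣ N →
    ∃ w : FN (N * ℓ) ≃+* FN (N * ℓ),
      (∀ g : FN N, w (heckeAlphaBar Qbar N ℓ g) = heckeBetaBar Qbar N ℓ g) ∧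
      (∀ f : FN N, w (heckeBetaBar Qbar N ℓ f) = heckeAlphaBar Qbar N ℓ f)

/-- The norm along `α` (the inclusion `F_N ⊆ F_{Nℓ}`) of `β f = f(q^ℓ)`, an element of `F_N`. -/
def normAlpha (N ℓ : ℕ) [NeZero N] [NeZero ℓ] (f : FN N) : FN N :=
  letI := algebraAlong (heckeAlphaBar Qbar N ℓ)
  Algebra.norm (FN N) (heckeBetaBar Qbar N ℓ f)

/-- The formal identity `f'(q^ℓ) = f(q^{ℓ²}) ∏_{b<ℓ} f(ζ^b q)`. -/
def NormIdentity {N : ℕ} (ℓ : ℕ) [NeZero ℓ] (ζ : Qbar) (f f' : FN N) : Prop :=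
  qExpand Qbar ℓ (f' : LaurentSeries Qbar)
    = qExpand Qbar (ℓ * ℓ) (f : LaurentSeries Qbar)
      * ∏ b ∈ Finset.range ℓ, scale (ζ ^ b) (f : LaurentSeries Qbar)

/-- (HECKE-NORM-ID) `normAlpha f` satisfies the formal identity. -/
def HeckeNormIdStatement : Prop :=
  ∀ (N ℓ : ℕ) [NeZero N] [NeZero ℓ], ℓ.Prime → ¬ ℓ ∣ N → ∀ (ζ : Qbar), IsPrimitiveRoot ζ ℓ →
    ∀ f : FN N, NormIdentity ℓ ζ f (normAlpha N ℓ f)

/-- (HECKE-NORM-DIV) the Hecke correspondence maps `div f` to `div (normAlpha f)`. -/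
def HeckeNormDivStatement : Prop :=
  ∀ (N ℓ : ℕ) [NeZero N] [NeZero ℓ] (hI : HeckeInputsAlong Qbar N ℓ) (f : FN N), f ≠ 0 →
    normAlpha N ℓ f ≠ 0 ∧
    ∀ D : Divisor Qbar (FN N), (∀ P : Place Qbar (FN N), D P = P.ord f) →
      ∀ P : Place Qbar (FN N),
        (haveI := hI.snd.snd.fst; heckeDivBar hI.fst hI.snd.fst D) P = P.ord (normAlpha N ℓ f)

/-! ## The analytic side -/

/-- `S(τ) = ∏_i s(α_i τ)` over the `ℓ+1` Hecke representatives `perAlpha ℓ i`. -/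
def heckeProd (ℓ : ℕ) (s : ℍ → ℂ) (τ : ℍ) : ℂ :=
  ∏ i : Option (Fin ℓ), s (perAlpha ℓ i • τ)

/-- (HECKE-AN-TRANS) `heckeProd ℓ s` is holomorphic, nonzero and transforms by the character
of `perTcohLam N ℓ p c`. -/
def HeckeAnTransStatement : Prop :=
  ∀ (N p ℓ : ℕ) [NeZero N] [NeZero ℓ] [Fact p.Prime], ℓ.Prime → ¬ ℓ ∣ N →
    ∀ (c : ↥(Lam N p)) (s : ℍ → ℂ), MDifferentiable 𝓘(ℂ) 𝓘(ℂ) s → (∃ τ : ℍ, s τ ≠ 0) →
      (∀ (γ : ↥(Gamma0 N)) (τ : ℍ),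
        s ((γ : SL(2, ℤ)) • τ) = chiOf N p (c : Additive ↥(Gamma0 N) →+ ZMod p) γ * s τ) →
      MDifferentiable 𝓘(ℂ) 𝓘(ℂ) (heckeProd ℓ s) ∧ (∃ τ : ℍ, heckeProd ℓ s τ ≠ 0) ∧
      ∀ (γ : ↥(Gamma0 N)) (τ : ℍ), heckeProd ℓ s ((γ : SL(2, ℤ)) • τ)
        = chiOf N p (perTcohLam N ℓ p c : Additive ↥(Gamma0 N) →+ ZMod p) γ * heckeProd ℓ s τ

/-- (HECKE-AN-QEXP) if `F` has the `q`-expansion of `f` and `f'` satisfies the norm identity, then
`∏_i F(α_i τ)` has the `q`-expansion of `f'`. -/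
def HeckeAnQExpStatement : Prop :=
  ∀ (N ℓ : ℕ) [NeZero N] [NeZero ℓ], ℓ.Prime → ∀ (ζ : Qbar), IsPrimitiveRoot ζ ℓ →
    ∀ (f f' : FN N) (F : ℍ → ℂ), HasQExp f F → NormIdentity ℓ ζ f f' →
      HasQExp f' (heckeProd ℓ F)

/-- (HECKE-AN) the analytic half of (N5). -/
def HeckeAnStatement : Prop :=
  ∀ (N p ℓ : ℕ) [NeZero N] [NeZero ℓ] [Fact p.Prime], ℓ.Prime → ¬ ℓ ∣ N →
    ∀ (ζ : Qbar), IsPrimitiveRoot ζ ℓ → ∀ (c : ↥(Lam N p)) (f f' : FN N),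
      RootProp N p (c : Additive ↥(Gamma0 N) →+ ZMod p) f → NormIdentity ℓ ζ f f' →
      RootProp N p (perTcohLam N ℓ p c : Additive ↥(Gamma0 N) →+ ZMod p) f'

end

end Fermat.Agent.S42
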