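import Mathlib
import Fermat.Agent.S42.PERInterfaces
import Fermat.Agent.S42.PERInterfaces2

/-!
S42 moonshot — block PER, package PERAction.
The relation `α_i γ = γ_i α_{σ(i)}` of `PERSigStatement`, transported to the upper half-plane.
-/

set_option autoImplicit false

open UpperHalfPlane CongruenceSubgroup ModularCurve ModularCurve.Period
open scoped MatrixGroups ModularForm TensorProduct

namespace Fermat.Agent.S42

/-- The action of `SL(2, ℤ)` on `ℍ` is the action of `GL (Fin 2) ℝ` through `mapGL ℝ`. -/
theorem perAction_sl_smul (g : SL(2, ℤ)) (z : ℍ) :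
    g • z = Matrix.SpecialLinearGroup.mapGL ℝ g • z := rfl

/-- A relation `a * mapGL g = mapGL g' * b` in `GL (Fin 2) ℝ` gives the corresponding relation
between the actions on the upper half-plane. -/
theorem perAction_of_rel (a b : GL (Fin 2) ℝ) (g g' : SL(2, ℤ))
    (h : a * Matrix.SpecialLinearGroup.mapGL ℝ g = Matrix.SpecialLinearGroup.mapGL ℝ g' * b)
    (z : ℍ) : a • (g • z) = g' • (b • z) := by
  rw [perAction_sl_smul g z, perAction_sl_smul g' (b • z), ← mul_smul, ← mul_smul, h]

/-- (ACTION) The relation `α_i γ = γ_i α_{σ(i)}` on the upper half-plane. -/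
theorem perAction_main (hS : PERSigStatement) : PERActionStatement := by
  intro N l _ hl hlN γ i z
  exact perAction_of_rel _ _ _ _ ((hS N l hl hlN).1 γ i) z

end Fermat.Agent.S42
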