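/-
S42 moonshot — block PER, package PERCompareHecke.
The comparison map `perCompare` intertwines the Hecke operators
(`PERCompareHeckeStatement`), assuming the pure-tensor formula for `perCompare`
(`PERCompareTmulStatement`), the defining formula of `perTcoh` (`PERTcohApplyStatement`) and
that `perTcohLam` is the restriction of `perTcoh` (`PERTcohLamStatement`).
-/
import Mathlib
import Fermat.Agent.S42.PERInterfaces
import Fermat.Agent.S42.PERInterfaces2

set_option autoImplicit false

open UpperHalfPlane CongruenceSubgroup ModularCurve ModularCurve.Period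
open scoped MatrixGroups ModularForm TensorProduct

namespace Fermat.Agent.S42

/-- The intertwining relation on pure tensors, evaluated at `ofMul γ`. -/
theorem perCompareHecke_tmul_apply (hT : PERCompareTmulStatement) (hA : PERTcohApplyStatement)
    (hL : PERTcohLamStatement) (N : ℕ) [NeZero N] (p : ℕ) (K : Type) [Field K]
    [Algebra (ZMod p) K] (l : ℕ) (hl : l.Prime) (hlN : ¬ l ∣ N) (u : K) (c : PERLam N p)
    (γ : Gamma0 N) :
    perCompare N p K (u ⊗ₜ[ZMod p] (perTcohLam N l p c)) (Additive.ofMul γ) =
      perTcoh N l K (perCompare N p K (u ⊗ₜ[ZMod p] c)) (Additive.ofMul γ) := by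
  rw [hT N p K u (perTcohLam N l p c) (Additive.ofMul γ), hL N l hl hlN p c,
    hA N l hl hlN (ZMod p) (c : Additive (Gamma0 N) →+ ZMod p) γ,
    hA N l hl hlN K (perCompare N p K (u ⊗ₜ[ZMod p] c)) γ, map_sum, Finset.mul_sum]
  refine Finset.sum_congr rfl fun i _ => ?_
  rw [hT N p K u c (Additive.ofMul (perGam N l γ i))]

/-- The intertwining relation on pure tensors. -/
theorem perCompareHecke_tmul (hT : PERCompareTmulStatement) (hA : PERTcohApplyStatement)
    (hL : PERTcohLamStatement) (N : ℕ) [NeZero N] (p : ℕ) (K : Type) [Field K]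
    [Algebra (ZMod p) K] (l : ℕ) (hl : l.Prime) (hlN : ¬ l ∣ N) (u : K) (c : PERLam N p) :
    perCompare N p K ((perTcohLam N l p).baseChange K (u ⊗ₜ[ZMod p] c)) =
      perTcoh N l K (perCompare N p K (u ⊗ₜ[ZMod p] c)) := by
  rw [LinearMap.baseChange_tmul]
  refine AddMonoidHom.ext fun x => ?_
  exact perCompareHecke_tmul_apply hT hA hL N p K l hl hlN u c (Additive.toMul x)

/-- (COMPARE-HECKE) The comparison map intertwines the Hecke operators. -/
theorem perCompareHecke_main (hT : PERCompareTmulStatement) (hA : PERTcohApplyStatement)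
    (hL : PERTcohLamStatement) : PERCompareHeckeStatement := by
  intro N _ p _ K _ _ l hl hlN v
  induction v using TensorProduct.induction_on with
  | zero => simp only [map_zero]
  | tmul u c => exact perCompareHecke_tmul hT hA hL N p K l hl hlN u c
  | add x y hx hy => rw [map_add, map_add, map_add, map_add, hx, hy]

end Fermat.Agent.S42
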