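/-
S42 moonshot — block PER, package PERCompareInj (suffix A).
The comparison map `perCompare N p K : K ⊗[ZMod p] PERLam N p → Hom(Γ₀(N), K)` on pure tensors,
and its injectivity (expansion along a `ZMod p`-basis of `K` plus linear independence).
-/
import Mathlib
import Fermat.Agent.S42.PERInterfaces
import Fermat.Agent.S42.PERInterfaces2

set_option autoImplicit false

open UpperHalfPlane CongruenceSubgroup ModularCurve ModularCurve.Period
open scoped MatrixGroups ModularForm TensorProduct

namespace Fermat.Agent.S42

/-- (COMPARE-TMUL) The comparison map on pure tensors. -/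
theorem perCompareInjA_tmul : PERCompareTmulStatement := by
  intro N p K _ _ u c γ
  rfl

/-- The comparison map on a pure tensor, written with a scalar multiplication. -/
theorem perCompareInjA_tmul_smul (N p : ℕ) (K : Type) [Field K] [Algebra (ZMod p) K] (u : K)
    (c : PERLam N p) (γ : Additive (Gamma0 N)) :
    perCompare N p K (u ⊗ₜ[ZMod p] c) γ =
      ((c : Additive (Gamma0 N) →+ ZMod p) γ) • u := by
  rw [perCompareInjA_tmul N p K u c γ, Algebra.smul_def, mul_comm]

/-- The comparison map on a finite sum of pure tensors along a family `b`. -/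
theorem perCompareInjA_sum_apply (N p : ℕ) (K : Type) [Field K] [Algebra (ZMod p) K]
    {ι : Type*} (b : ι → K) (c : ι →₀ PERLam N p) (γ : Additive (Gamma0 N)) :
    perCompare N p K (c.sum fun i n => b i ⊗ₜ[ZMod p] n) γ =
      ∑ i ∈ c.support, ((c i : Additive (Gamma0 N) →+ ZMod p) γ) • b i := by
  rw [Finsupp.sum, map_sum, AddMonoidHom.finsetSum_apply]
  exact Finset.sum_congr rfl fun i _ => perCompareInjA_tmul_smul N p K (b i) (c i) γ

/-- A finitely supported family of elements of `PERLam N p` whose image under the comparison map
(along a linearly independent family `b`) vanishes is zero. -/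
theorem perCompareInjA_coeff_eq_zero (N p : ℕ) (K : Type) [Field K] [Algebra (ZMod p) K]
    {ι : Type*} (b : ι → K) (hb : LinearIndependent (ZMod p) b) (c : ι →₀ PERLam N p)
    (hv : perCompare N p K (c.sum fun i n => b i ⊗ₜ[ZMod p] n) = 0) : c = 0 := by
  classical
  rw [linearIndependent_iff'] at hb
  refine Finsupp.ext fun i => Subtype.ext (DFunLike.ext _ _ fun γ => ?_)
  by_cases hi : i ∈ c.support
  · have h0 : ∑ j ∈ c.support, ((c j : Additive (Gamma0 N) →+ ZMod p) γ) • b j = 0 := by
      rw [← perCompareInjA_sum_apply, hv]
      rfl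
    exact hb c.support (fun j => (c j : Additive (Gamma0 N) →+ ZMod p) γ) h0 i hi
  · rw [Finsupp.notMem_support_iff] at hi
    rw [hi]
    rfl

/-- (COMPARE-INJ) The comparison map is injective. -/
theorem perCompareInjA_main : PERCompareInjStatement := by
  intro N _ p _ K _ _
  rw [injective_iff_map_eq_zero]
  intro v hv
  obtain ⟨c, rfl⟩ :=
    TensorProduct.eq_repr_basis_left (Module.Basis.ofVectorSpace (ZMod p) K) v
  rw [perCompareInjA_coeff_eq_zero N p K _
    (Module.Basis.ofVectorSpace (ZMod p) K).linearIndependent c hv, Finsupp.sum_zero_index]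

end Fermat.Agent.S42
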