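import Mathlib
import Fermat.Agent.S42.PERInterfaces
import Fermat.Agent.S42.PERInterfaces2

/-
S42 moonshot — block PER, package PERCompareSurj (variant A).
Every parabolic `K`-valued homomorphism of `Γ₀(N)` lies in the image of the comparison map
`perCompare N p K : K ⊗[ZMod p] PERLam N p → Hom(Γ₀(N), K)`.
-/

set_option autoImplicit false

open UpperHalfPlane CongruenceSubgroup ModularCurve ModularCurve.Period
open scoped MatrixGroups ModularForm TensorProduct

namespace Fermat.Agent.S42

/-- The image of a homomorphism from a finitely generated group to a module is contained in a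
finitely generated submodule. -/
theorem perCompareSurjA_exists_finite {G : Type*} [Group G] (hG : Group.FG G)
    (k : Type*) [Ring k] {M : Type*} [AddCommGroup M] [Module k M] (c : Additive G →+ M) :
    ∃ U : Submodule k M, Module.Finite k U ∧ ∀ x : Additive G, c x ∈ U := by
  obtain ⟨S, hS⟩ := hG.out
  refine ⟨Submodule.span k ((fun g : G => c (Additive.ofMul g)) '' (S : Set G)),
    Module.Finite.span_of_finite k ((Finset.finite_toSet S).image _), ?_⟩
  have key : ∀ g : G, g ∈ Subgroup.closure (S : Set G) →
      c (Additive.ofMul g) ∈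
        Submodule.span k ((fun g : G => c (Additive.ofMul g)) '' (S : Set G)) := by
    intro g hg
    induction hg using Subgroup.closure_induction with
    | mem x hx => exact Submodule.subset_span ⟨x, hx, rfl⟩
    | one =>
      rw [ofMul_one, map_zero]
      exact Submodule.zero_mem _
    | mul x y _ _ hx hy =>
      rw [ofMul_mul, map_add]
      exact Submodule.add_mem _ hx hy
    | inv x _ hx =>
      rw [ofMul_inv, map_neg]
      exact Submodule.neg_mem _ hx
  intro x
  have hx : Additive.toMul x ∈ Subgroup.closure (S : Set G) := by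
    rw [hS]; exact Subgroup.mem_top _
  exact key (Additive.toMul x) hx

/-- The `k`-th coordinate homomorphism of a homomorphism `c'` with values in a subspace `U` with
basis `b`. -/
noncomputable def perCompareSurjA_coord {G : Type*} [Group G] {k : Type*} [Field k]
    {M : Type*} [AddCommGroup M] [Module k M] (c' : Additive G →+ M) (U : Submodule k M)
    (hU : ∀ x : Additive G, c' x ∈ U) {ι : Type*} (b : Module.Basis ι k U) (i : ι) :
    Additive G →+ k :=
  ((b.coord i : U →ₗ[k] k).toAddMonoidHom).comp (c'.codRestrict U hU)

theorem perCompareSurjA_coord_apply {G : Type*} [Group G] {k : Type*} [Field k]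
    {M : Type*} [AddCommGroup M] [Module k M] (c' : Additive G →+ M) (U : Submodule k M)
    (hU : ∀ x : Additive G, c' x ∈ U) {ι : Type*} (b : Module.Basis ι k U) (i : ι)
    (x : Additive G) :
    perCompareSurjA_coord c' U hU b i x = b.repr ⟨c' x, hU x⟩ i := rfl

theorem perCompareSurjA_coord_eq_zero {G : Type*} [Group G] {k : Type*} [Field k]
    {M : Type*} [AddCommGroup M] [Module k M] (c' : Additive G →+ M) (U : Submodule k M)
    (hU : ∀ x : Additive G, c' x ∈ U) {ι : Type*} (b : Module.Basis ι k U) (i : ι)
    (x : Additive G) (hx : c' x = 0) :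
    perCompareSurjA_coord c' U hU b i x = 0 := by
  rw [perCompareSurjA_coord_apply]
  have h0 : (⟨c' x, hU x⟩ : U) = 0 := Subtype.ext hx
  rw [h0, map_zero, Finsupp.zero_apply]

theorem perCompareSurjA_sum_coord {G : Type*} [Group G] {k : Type*} [Field k]
    {M : Type*} [AddCommGroup M] [Module k M] (c' : Additive G →+ M) (U : Submodule k M)
    (hU : ∀ x : Additive G, c' x ∈ U) {ι : Type*} [Fintype ι] (b : Module.Basis ι k U)
    (x : Additive G) :
    ∑ i, perCompareSurjA_coord c' U hU b i x • (b i : M) = c' x := by
  have h := congrArg (Subtype.val) (b.sum_repr ⟨c' x, hU x⟩)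
  rw [Submodule.coe_sum] at h
  simpa only [perCompareSurjA_coord_apply, Submodule.coe_smul] using h

theorem perCompareSurjA_main (hFG : PERFGStatement) (hT : PERCompareTmulStatement) :
    PERCompareSurjStatement := by
  intro N _ p _ K _ _ c' hc'
  obtain ⟨U, hUfin, hU⟩ := perCompareSurjA_exists_finite (hFG N) (ZMod p) c'
  let b := Module.finBasis (ZMod p) U
  have hpar : ∀ i, perCompareSurjA_coord c' U hU b i ∈ PERLam N p := by
    intro i γ hγ
    exact perCompareSurjA_coord_eq_zero c' U hU b i _ (hc' γ hγ)
  refine ⟨∑ i, ((b i : U) : K) ⊗ₜ[ZMod p]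
    (⟨perCompareSurjA_coord c' U hU b i, hpar i⟩ : PERLam N p), ?_⟩
  refine AddMonoidHom.ext fun γ => ?_
  rw [map_sum, AddMonoidHom.finsetSum_apply]
  rw [← perCompareSurjA_sum_coord c' U hU b γ]
  refine Finset.sum_congr rfl fun i _ => ?_
  rw [hT, Algebra.smul_def, mul_comm]

end Fermat.Agent.S42
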