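/-
S42 moonshot — block PER, package PERCosetEx: EXISTENCE half of `PERCosetStatement`.
For `γ ∈ Γ₀(N)` and a coset index `i` there are an index `i'` and `γ' ∈ Γ₀(N)` with
`α_i γ = γ' α_{i'}` in `GL (Fin 2) ℝ`.
-/
import Mathlib
import Fermat.Agent.S42.PERInterfaces

set_option autoImplicit false

open UpperHalfPlane CongruenceSubgroup ModularCurve ModularCurve.Period
open scoped MatrixGroups ModularForm TensorProduct

namespace Fermat.Agent.S42

/-- Integer version of the coset representatives `perAlpha`. -/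
def perCosetEx_alphaZ (l : ℕ) : Option (Fin l) → Matrix (Fin 2) (Fin 2) ℤ
  | none => !![(l : ℤ), 0; 0, 1]
  | some j => !![1, ((j : ℕ) : ℤ); 0, (l : ℤ)]

/-- The real matrix of `perAlpha l i` is the cast of the integer matrix `perCosetEx_alphaZ l i`. -/
theorem perCosetEx_val_perAlpha (l : ℕ) (hl : l ≠ 0) (i : Option (Fin l)) :
    ((perAlpha l i : GL (Fin 2) ℝ) : Matrix (Fin 2) (Fin 2) ℝ) =
      (perCosetEx_alphaZ l i).map (Int.cast : ℤ → ℝ) := by
  cases i with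
  | none =>
    simp only [perAlpha, perCosetEx_alphaZ, ModularForm.val_heckeDiagMatrix hl]
    ext x y
    fin_cases x <;> fin_cases y <;> simp
  | some j =>
    simp only [perAlpha, perCosetEx_alphaZ, ModularForm.val_heckeMatrix hl]
    ext x y
    fin_cases x <;> fin_cases y <;> simp

/-- The relation `PERRel` follows from the corresponding identity of integer matrices. -/
theorem perCosetEx_rel_of_int (N l : ℕ) (hl : l ≠ 0) (γ γ' : Gamma0 N) (i i' : Option (Fin l))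
    (h : perCosetEx_alphaZ l i * ((γ : SL(2, ℤ)) : Matrix (Fin 2) (Fin 2) ℤ) =
      ((γ' : SL(2, ℤ)) : Matrix (Fin 2) (Fin 2) ℤ) * perCosetEx_alphaZ l i') :
    PERRel N l γ i i' γ' := by
  unfold PERRel
  apply Units.ext
  rw [Units.val_mul, Units.val_mul, perCosetEx_val_perAlpha l hl, perCosetEx_val_perAlpha l hl,
    Matrix.SpecialLinearGroup.mapGL_coe_matrix, Matrix.SpecialLinearGroup.mapGL_coe_matrix]
  have h1 : ((Matrix.SpecialLinearGroup.map (algebraMap ℤ ℝ) (γ : SL(2, ℤ)) : SL(2, ℝ)) :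
      Matrix (Fin 2) (Fin 2) ℝ) =
      (((γ : SL(2, ℤ)) : Matrix (Fin 2) (Fin 2) ℤ)).map (Int.cast : ℤ → ℝ) := rfl
  have h2 : ((Matrix.SpecialLinearGroup.map (algebraMap ℤ ℝ) (γ' : SL(2, ℤ)) : SL(2, ℝ)) :
      Matrix (Fin 2) (Fin 2) ℝ) =
      (((γ' : SL(2, ℤ)) : Matrix (Fin 2) (Fin 2) ℤ)).map (Int.cast : ℤ → ℝ) := rfl
  rw [h1, h2]
  have h3 := congrArg (fun M : Matrix (Fin 2) (Fin 2) ℤ => M.map (Int.castRingHom ℝ)) h
  simp only [Matrix.map_mul] at h3
  exact h3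

/-- Solving a linear congruence modulo a prime: the index `j'`. -/
theorem perCosetEx_exists_index (l : ℕ) (hl : l.Prime) (u v : ℤ) (hu : ¬ (l : ℤ) ∣ u) :
    ∃ j : Fin l, (l : ℤ) ∣ v - ((j : ℕ) : ℤ) * u := by
  have : Fact l.Prime := ⟨hl⟩
  have : NeZero l := ⟨hl.ne_zero⟩
  have hu' : (u : ZMod l) ≠ 0 := by
    rwa [Ne, ZMod.intCast_zmod_eq_zero_iff_dvd]
  refine ⟨⟨((v : ZMod l) * (u : ZMod l)⁻¹).val, ZMod.val_lt _⟩, ?_⟩
  rw [← ZMod.intCast_zmod_eq_zero_iff_dvd]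
  push_cast
  rw [ZMod.natCast_zmod_val, mul_assoc, inv_mul_cancel₀ hu', mul_one, sub_self]

/-- Building an element of `Γ₀(N)` from its entries. -/
theorem perCosetEx_mk (N : ℕ) (a b c d : ℤ) (hdet : a * d - b * c = 1) (hc : (N : ℤ) ∣ c) :
    ∃ γ' : Gamma0 N, ((γ' : SL(2, ℤ)) : Matrix (Fin 2) (Fin 2) ℤ) = !![a, b; c, d] := by
  have hdet' : (!![a, b; c, d] : Matrix (Fin 2) (Fin 2) ℤ).det = 1 := by
    rw [Matrix.det_fin_two_of]; exact hdet
  have hmem : (⟨!![a, b; c, d], hdet'⟩ : SL(2, ℤ)) ∈ Gamma0 N :=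
    Gamma0_mem.mpr (by simpa using (ZMod.intCast_zmod_eq_zero_iff_dvd c N).mpr hc)
  exact ⟨⟨_, hmem⟩, rfl⟩

/-- The entries of an element of `Γ₀(N)`. -/
theorem perCosetEx_entries (N : ℕ) (γ : Gamma0 N) :
    ∃ a b c d : ℤ, ((γ : SL(2, ℤ)) : Matrix (Fin 2) (Fin 2) ℤ) = !![a, b; c, d] ∧
      a * d - b * c = 1 ∧ (N : ℤ) ∣ c := by
  refine ⟨(γ : SL(2, ℤ)) 0 0, (γ : SL(2, ℤ)) 0 1, (γ : SL(2, ℤ)) 1 0, (γ : SL(2, ℤ)) 1 1,
    ?_, ?_, ?_⟩
  · ext x y
    fin_cases x <;> fin_cases y <;> rfl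
  · have h := (γ : SL(2, ℤ)).det_coe
    rw [Matrix.det_fin_two] at h
    exact h
  · have h := γ.2
    rw [Gamma0_mem] at h
    exact (ZMod.intCast_zmod_eq_zero_iff_dvd _ N).mp h

/-- (COSET, existence) For `γ ∈ Γ₀(N)` and an index `i` there are `i'` and `γ' ∈ Γ₀(N)` with
`α_i γ = γ' α_{i'}`. -/
theorem perCosetEx_main : ∀ (N l : ℕ) [NeZero N], l.Prime → ¬ l ∣ N →
    ∀ (γ : Gamma0 N) (i : Option (Fin l)),
      ∃ (i' : Option (Fin l)) (γ' : Gamma0 N), PERRel N l γ i i' γ' := by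
  intro N l _ hl hlN γ i
  obtain ⟨a, b, c, d, hγ, hdet, hNc⟩ := perCosetEx_entries N γ
  cases i with
  | some j =>
    by_cases hdiv : (l : ℤ) ∣ a + ((j : ℕ) : ℤ) * c
    · obtain ⟨q, hq⟩ := hdiv
      obtain ⟨γ', hγ'⟩ := perCosetEx_mk N q (b + ((j : ℕ) : ℤ) * d) c ((l : ℤ) * d)
        (by linear_combination hdet - d * hq) hNc
      refine ⟨none, γ', perCosetEx_rel_of_int N l hl.ne_zero γ γ' _ _ ?_⟩
      rw [hγ, hγ']
      simp only [perCosetEx_alphaZ]
      ext x y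
      fin_cases x <;> fin_cases y <;> simp [Matrix.mul_apply, Fin.sum_univ_two] <;>
        first | linear_combination hq | ring1
    · obtain ⟨j', q, hq⟩ := perCosetEx_exists_index l hl (a + ((j : ℕ) : ℤ) * c)
        (b + ((j : ℕ) : ℤ) * d) hdiv
      obtain ⟨γ', hγ'⟩ := perCosetEx_mk N (a + ((j : ℕ) : ℤ) * c) q ((l : ℤ) * c)
        (d - ((j' : ℕ) : ℤ) * c)
        (by linear_combination hdet + c * hq) (Dvd.dvd.mul_left hNc _)
      refine ⟨some j', γ', perCosetEx_rel_of_int N l hl.ne_zero γ γ' _ _ ?_⟩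
      rw [hγ, hγ']
      simp only [perCosetEx_alphaZ]
      ext x y
      fin_cases x <;> fin_cases y <;> simp [Matrix.mul_apply, Fin.sum_univ_two] <;>
        first | linear_combination hq | ring1
  | none =>
    by_cases hdiv : (l : ℤ) ∣ c
    · obtain ⟨q, hq⟩ := hdiv
      have hNq : (N : ℤ) ∣ q := by
        have hcop : IsCoprime (N : ℤ) (l : ℤ) := by
          rw [Int.isCoprime_iff_gcd_eq_one, Int.gcd_natCast_natCast]
          exact (Nat.Coprime.symm ((Nat.Prime.coprime_iff_not_dvd hl).mpr hlN))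
        exact hcop.dvd_of_dvd_mul_left (hq ▸ hNc)
      obtain ⟨γ', hγ'⟩ := perCosetEx_mk N a ((l : ℤ) * b) q d
        (by linear_combination hdet + b * hq) hNq
      refine ⟨none, γ', perCosetEx_rel_of_int N l hl.ne_zero γ γ' _ _ ?_⟩
      rw [hγ, hγ']
      simp only [perCosetEx_alphaZ]
      ext x y
      fin_cases x <;> fin_cases y <;> simp [Matrix.mul_apply, Fin.sum_univ_two] <;>
        first | linear_combination hq | ring1
    · obtain ⟨j', q, hq⟩ := perCosetEx_exists_index l hl c d hdiv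
      obtain ⟨γ', hγ'⟩ := perCosetEx_mk N ((l : ℤ) * a) (b - ((j' : ℕ) : ℤ) * a) c q
        (by linear_combination hdet - a * hq) hNc
      refine ⟨some j', γ', perCosetEx_rel_of_int N l hl.ne_zero γ γ' _ _ ?_⟩
      rw [hγ, hγ']
      simp only [perCosetEx_alphaZ]
      ext x y
      fin_cases x <;> fin_cases y <;> simp [Matrix.mul_apply, Fin.sum_univ_two] <;>
        first | linear_combination hq | ring1

end Fermat.Agent.S42
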