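import Mathlib
import Fermat.Agent.S42.PERInterfaces

/-!
S42 moonshot, block PER, package PERCosetUniq: uniqueness half of `PERCosetStatement`.
If `x * α_a = y * α_b` in `GL (Fin 2) ℝ` with `x, y ∈ Γ₀(N)` and `α` the Hecke coset
representatives, then `a = b` and `x = y`.
-/

set_option autoImplicit false

open UpperHalfPlane CongruenceSubgroup ModularCurve ModularCurve.Period
open scoped MatrixGroups ModularForm TensorProduct

namespace Fermat.Agent.S42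

/-- Entries of `x * [[1, j], [0, l]]`. -/
theorem perCosetUniq_entries_some (l : ℕ) (hl : l ≠ 0) (x : SL(2, ℤ)) (j : Fin l) (i : Fin 2) :
    ((Matrix.SpecialLinearGroup.mapGL ℝ x * perAlpha l (some j) : GL (Fin 2) ℝ) :
        Matrix (Fin 2) (Fin 2) ℝ) i 0 = (((x : Matrix (Fin 2) (Fin 2) ℤ) i 0 : ℤ) : ℝ) ∧
    ((Matrix.SpecialLinearGroup.mapGL ℝ x * perAlpha l (some j) : GL (Fin 2) ℝ) :
        Matrix (Fin 2) (Fin 2) ℝ) i 1 =
      (((x : Matrix (Fin 2) (Fin 2) ℤ) i 0 : ℤ) : ℝ) * ((j : ℕ) : ℝ) +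
        (((x : Matrix (Fin 2) (Fin 2) ℤ) i 1 : ℤ) : ℝ) * (l : ℝ) := by
  constructor
  · simp [perAlpha, Units.val_mul, Matrix.mul_apply, Fin.sum_univ_two,
      ModularForm.val_heckeMatrix hl, Matrix.SpecialLinearGroup.mapGL_coe_matrix]
  · simp [perAlpha, Units.val_mul, Matrix.mul_apply, Fin.sum_univ_two,
      ModularForm.val_heckeMatrix hl, Matrix.SpecialLinearGroup.mapGL_coe_matrix]

/-- Entries of `x * [[l, 0], [0, 1]]`. -/
theorem perCosetUniq_entries_none (l : ℕ) (hl : l ≠ 0) (x : SL(2, ℤ)) (i : Fin 2) :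
    ((Matrix.SpecialLinearGroup.mapGL ℝ x * perAlpha l none : GL (Fin 2) ℝ) :
        Matrix (Fin 2) (Fin 2) ℝ) i 0 =
      (((x : Matrix (Fin 2) (Fin 2) ℤ) i 0 : ℤ) : ℝ) * (l : ℝ) ∧
    ((Matrix.SpecialLinearGroup.mapGL ℝ x * perAlpha l none : GL (Fin 2) ℝ) :
        Matrix (Fin 2) (Fin 2) ℝ) i 1 = (((x : Matrix (Fin 2) (Fin 2) ℤ) i 1 : ℤ) : ℝ) := by
  constructor
  · simp [perAlpha, Units.val_mul, Matrix.mul_apply, Fin.sum_univ_two,
      ModularForm.val_heckeDiagMatrix hl, Matrix.SpecialLinearGroup.mapGL_coe_matrix]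
  · simp [perAlpha, Units.val_mul, Matrix.mul_apply, Fin.sum_univ_two,
      ModularForm.val_heckeDiagMatrix hl, Matrix.SpecialLinearGroup.mapGL_coe_matrix]

/-- Determinant one, entrywise. -/
theorem perCosetUniq_det (x : SL(2, ℤ)) :
    (x : Matrix (Fin 2) (Fin 2) ℤ) 0 0 * (x : Matrix (Fin 2) (Fin 2) ℤ) 1 1 -
      (x : Matrix (Fin 2) (Fin 2) ℤ) 0 1 * (x : Matrix (Fin 2) (Fin 2) ℤ) 1 0 = 1 := by
  have h := x.det_coe
  rw [Matrix.det_fin_two] at h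
  exact h

/-- Two elements of `SL(2, ℤ)` with the same four entries are equal. -/
theorem perCosetUniq_ext (x y : SL(2, ℤ))
    (h00 : (x : Matrix (Fin 2) (Fin 2) ℤ) 0 0 = (y : Matrix (Fin 2) (Fin 2) ℤ) 0 0)
    (h01 : (x : Matrix (Fin 2) (Fin 2) ℤ) 0 1 = (y : Matrix (Fin 2) (Fin 2) ℤ) 0 1)
    (h10 : (x : Matrix (Fin 2) (Fin 2) ℤ) 1 0 = (y : Matrix (Fin 2) (Fin 2) ℤ) 1 0)
    (h11 : (x : Matrix (Fin 2) (Fin 2) ℤ) 1 1 = (y : Matrix (Fin 2) (Fin 2) ℤ) 1 1) : x = y := by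
  apply Matrix.SpecialLinearGroup.ext
  intro i j
  fin_cases i <;> fin_cases j
  · exact h00
  · exact h01
  · exact h10
  · exact h11

/-- Integer core of the `some`/`some` case: the indices agree. -/
theorem perCosetUniq_int_index (l : ℕ) (j j' : ℕ) (hj : j < l) (hj' : j' < l)
    (x00 x01 x10 x11 y00 y01 y10 y11 : ℤ)
    (hx : x00 * x11 - x01 * x10 = 1)
    (h00 : x00 = y00) (h10 : x10 = y10)
    (h01 : x00 * (j : ℤ) + x01 * (l : ℤ) = y00 * (j' : ℤ) + y01 * (l : ℤ))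
    (h11 : x10 * (j : ℤ) + x11 * (l : ℤ) = y10 * (j' : ℤ) + y11 * (l : ℤ)) : j = j' := by
  subst h00 h10
  have key : ((j : ℤ) - (j' : ℤ)) = (l : ℤ) * (x11 * (y01 - x01) - x01 * (y11 - x11)) := by
    have e1 : x00 * ((j : ℤ) - (j' : ℤ)) = (l : ℤ) * (y01 - x01) := by linarith
    have e2 : x10 * ((j : ℤ) - (j' : ℤ)) = (l : ℤ) * (y11 - x11) := by linarith
    calc ((j : ℤ) - (j' : ℤ)) = (x00 * x11 - x01 * x10) * ((j : ℤ) - (j' : ℤ)) := by
          rw [hx, one_mul]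
      _ = x11 * (x00 * ((j : ℤ) - (j' : ℤ))) - x01 * (x10 * ((j : ℤ) - (j' : ℤ))) := by ring
      _ = (l : ℤ) * (x11 * (y01 - x01) - x01 * (y11 - x11)) := by rw [e1, e2]; ring
  have hdvd : (l : ℤ) ∣ ((j : ℤ) - (j' : ℤ)) := ⟨_, key⟩
  have habs : |(j : ℤ) - (j' : ℤ)| < (l : ℤ) := by
    rw [abs_lt]
    constructor <;> omega
  have hz : (j : ℤ) - (j' : ℤ) = 0 := Int.eq_zero_of_abs_lt_dvd hdvd habs
  omega

theorem perCosetUniq_main : ∀ (N l : ℕ) [NeZero N], l.Prime → ¬ l ∣ N →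
    ∀ (x y : Gamma0 N) (a b : Option (Fin l)),
      Matrix.SpecialLinearGroup.mapGL ℝ (x : SL(2, ℤ)) * perAlpha l a =
        Matrix.SpecialLinearGroup.mapGL ℝ (y : SL(2, ℤ)) * perAlpha l b → a = b ∧ x = y := by
  intro N l _ hl _ x y a b h
  have hl0 : l ≠ 0 := hl.ne_zero
  have hlR : (l : ℤ) ≠ 0 := by exact_mod_cast hl0
  have hx := perCosetUniq_det (x : SL(2, ℤ))
  have hy := perCosetUniq_det (y : SL(2, ℤ))
  -- entrywise form of the hypothesis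
  have hent : ∀ i k : Fin 2,
      ((Matrix.SpecialLinearGroup.mapGL ℝ (x : SL(2, ℤ)) * perAlpha l a : GL (Fin 2) ℝ) :
        Matrix (Fin 2) (Fin 2) ℝ) i k =
      ((Matrix.SpecialLinearGroup.mapGL ℝ (y : SL(2, ℤ)) * perAlpha l b : GL (Fin 2) ℝ) :
        Matrix (Fin 2) (Fin 2) ℝ) i k := by
    intro i k; rw [h]
  cases a with
  | none =>
    cases b with
    | none =>
      refine ⟨rfl, Subtype.ext (perCosetUniq_ext _ _ ?_ ?_ ?_ ?_)⟩
      · have e := hent 0 0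
        rw [(perCosetUniq_entries_none l hl0 _ 0).1, (perCosetUniq_entries_none l hl0 _ 0).1] at e
        have e' : ((x : SL(2, ℤ)) : Matrix (Fin 2) (Fin 2) ℤ) 0 0 * (l : ℤ) =
            ((y : SL(2, ℤ)) : Matrix (Fin 2) (Fin 2) ℤ) 0 0 * (l : ℤ) := by exact_mod_cast e
        exact mul_right_cancel₀ hlR e'
      · have e := hent 0 1
        rw [(perCosetUniq_entries_none l hl0 _ 0).2, (perCosetUniq_entries_none l hl0 _ 0).2] at e
        exact_mod_cast e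
      · have e := hent 1 0
        rw [(perCosetUniq_entries_none l hl0 _ 1).1, (perCosetUniq_entries_none l hl0 _ 1).1] at e
        have e' : ((x : SL(2, ℤ)) : Matrix (Fin 2) (Fin 2) ℤ) 1 0 * (l : ℤ) =
            ((y : SL(2, ℤ)) : Matrix (Fin 2) (Fin 2) ℤ) 1 0 * (l : ℤ) := by exact_mod_cast e
        exact mul_right_cancel₀ hlR e'
      · have e := hent 1 1
        rw [(perCosetUniq_entries_none l hl0 _ 1).2, (perCosetUniq_entries_none l hl0 _ 1).2] at e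
        exact_mod_cast e
    | some j' =>
      exfalso
      have e0 := hent 0 0
      rw [(perCosetUniq_entries_none l hl0 _ 0).1, (perCosetUniq_entries_some l hl0 _ j' 0).1] at e0
      have e1 := hent 1 0
      rw [(perCosetUniq_entries_none l hl0 _ 1).1, (perCosetUniq_entries_some l hl0 _ j' 1).1] at e1
      have e0' : ((x : SL(2, ℤ)) : Matrix (Fin 2) (Fin 2) ℤ) 0 0 * (l : ℤ) =
          ((y : SL(2, ℤ)) : Matrix (Fin 2) (Fin 2) ℤ) 0 0 := by exact_mod_cast e0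
      have e1' : ((x : SL(2, ℤ)) : Matrix (Fin 2) (Fin 2) ℤ) 1 0 * (l : ℤ) =
          ((y : SL(2, ℤ)) : Matrix (Fin 2) (Fin 2) ℤ) 1 0 := by exact_mod_cast e1
      rw [← e0', ← e1'] at hy
      have hdvd : (l : ℤ) ∣ 1 := Dvd.intro (((x : SL(2, ℤ)) : Matrix (Fin 2) (Fin 2) ℤ) 0 0 *
          ((y : SL(2, ℤ)) : Matrix (Fin 2) (Fin 2) ℤ) 1 1 -
          ((y : SL(2, ℤ)) : Matrix (Fin 2) (Fin 2) ℤ) 0 1 *
          ((x : SL(2, ℤ)) : Matrix (Fin 2) (Fin 2) ℤ) 1 0) (by linear_combination hy)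
      have hdvd' : l ∣ 1 := by exact_mod_cast hdvd
      exact hl.one_lt.ne' (Nat.dvd_one.mp hdvd')
  | some j =>
    cases b with
    | none =>
      exfalso
      have e0 := hent 0 0
      rw [(perCosetUniq_entries_some l hl0 _ j 0).1, (perCosetUniq_entries_none l hl0 _ 0).1] at e0
      have e1 := hent 1 0
      rw [(perCosetUniq_entries_some l hl0 _ j 1).1, (perCosetUniq_entries_none l hl0 _ 1).1] at e1
      have e0' : ((x : SL(2, ℤ)) : Matrix (Fin 2) (Fin 2) ℤ) 0 0 =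
          ((y : SL(2, ℤ)) : Matrix (Fin 2) (Fin 2) ℤ) 0 0 * (l : ℤ) := by exact_mod_cast e0
      have e1' : ((x : SL(2, ℤ)) : Matrix (Fin 2) (Fin 2) ℤ) 1 0 =
          ((y : SL(2, ℤ)) : Matrix (Fin 2) (Fin 2) ℤ) 1 0 * (l : ℤ) := by exact_mod_cast e1
      rw [e0', e1'] at hx
      have hdvd : (l : ℤ) ∣ 1 := Dvd.intro (((y : SL(2, ℤ)) : Matrix (Fin 2) (Fin 2) ℤ) 0 0 *
          ((x : SL(2, ℤ)) : Matrix (Fin 2) (Fin 2) ℤ) 1 1 -
          ((x : SL(2, ℤ)) : Matrix (Fin 2) (Fin 2) ℤ) 0 1 *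
          ((y : SL(2, ℤ)) : Matrix (Fin 2) (Fin 2) ℤ) 1 0) (by linear_combination hx)
      have hdvd' : l ∣ 1 := by exact_mod_cast hdvd
      exact hl.one_lt.ne' (Nat.dvd_one.mp hdvd')
    | some j' =>
      have e00 := hent 0 0
      rw [(perCosetUniq_entries_some l hl0 _ j 0).1, (perCosetUniq_entries_some l hl0 _ j' 0).1]
        at e00
      have e10 := hent 1 0
      rw [(perCosetUniq_entries_some l hl0 _ j 1).1, (perCosetUniq_entries_some l hl0 _ j' 1).1]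
        at e10
      have e01 := hent 0 1
      rw [(perCosetUniq_entries_some l hl0 _ j 0).2, (perCosetUniq_entries_some l hl0 _ j' 0).2]
        at e01
      have e11 := hent 1 1
      rw [(perCosetUniq_entries_some l hl0 _ j 1).2, (perCosetUniq_entries_some l hl0 _ j' 1).2]
        at e11
      have e00' : ((x : SL(2, ℤ)) : Matrix (Fin 2) (Fin 2) ℤ) 0 0 =
          ((y : SL(2, ℤ)) : Matrix (Fin 2) (Fin 2) ℤ) 0 0 := by exact_mod_cast e00
      have e10' : ((x : SL(2, ℤ)) : Matrix (Fin 2) (Fin 2) ℤ) 1 0 =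
          ((y : SL(2, ℤ)) : Matrix (Fin 2) (Fin 2) ℤ) 1 0 := by exact_mod_cast e10
      have e01' : ((x : SL(2, ℤ)) : Matrix (Fin 2) (Fin 2) ℤ) 0 0 * ((j : ℕ) : ℤ) +
          ((x : SL(2, ℤ)) : Matrix (Fin 2) (Fin 2) ℤ) 0 1 * (l : ℤ) =
          ((y : SL(2, ℤ)) : Matrix (Fin 2) (Fin 2) ℤ) 0 0 * ((j' : ℕ) : ℤ) +
          ((y : SL(2, ℤ)) : Matrix (Fin 2) (Fin 2) ℤ) 0 1 * (l : ℤ) := by exact_mod_cast e01
      have e11' : ((x : SL(2, ℤ)) : Matrix (Fin 2) (Fin 2) ℤ) 1 0 * ((j : ℕ) : ℤ) +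
          ((x : SL(2, ℤ)) : Matrix (Fin 2) (Fin 2) ℤ) 1 1 * (l : ℤ) =
          ((y : SL(2, ℤ)) : Matrix (Fin 2) (Fin 2) ℤ) 1 0 * ((j' : ℕ) : ℤ) +
          ((y : SL(2, ℤ)) : Matrix (Fin 2) (Fin 2) ℤ) 1 1 * (l : ℤ) := by exact_mod_cast e11
      have hjj : (j : ℕ) = (j' : ℕ) :=
        perCosetUniq_int_index l j j' j.isLt j'.isLt _ _ _ _ _ _ _ _ hx e00' e10' e01' e11'
      have hjj' : j = j' := Fin.ext hjj
      subst hjj'
      refine ⟨rfl, Subtype.ext (perCosetUniq_ext _ _ e00' ?_ e10' ?_)⟩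
      · rw [e00'] at e01'
        exact mul_right_cancel₀ hlR (add_left_cancel e01')
      · rw [e10'] at e11'
        exact mul_right_cancel₀ hlR (add_left_cancel e11')

end Fermat.Agent.S42
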