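/-
S42 moonshot — block PER, package PEREigen.
A normalized eigenform `g` of level `Γ₀(N)` is an eigenfunction of the prelude's `heckeT 2 l`
(`l` prime, `l ∤ N`) with eigenvalue its `l`-th `q`-coefficient.
-/
import Mathlib
import Fermat.Agent.S42.PERInterfaces
import Fermat.Agent.S49.Eigenform

set_option autoImplicit false

open UpperHalfPlane CongruenceSubgroup
open scoped MatrixGroups ModularForm

namespace Fermat.Agent.S42

/-- `q`-coefficients of a difference of cusp forms. -/
theorem perEigen_qCoeff_sub {N : ℕ} (f h : CuspForm (Gamma0 N) 2) (n : ℕ) :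
    ModularFormClass.qCoeff ⇑(f - h) n =
      ModularFormClass.qCoeff ⇑f n - ModularFormClass.qCoeff ⇑h n := by
  have h1 : ⇑(f - h) = (⇑f - ⇑h : ℍ → ℂ) := by
    ext z
    simp
  simp only [ModularFormClass.qCoeff, h1]
  rw [ModularForm.qExpansion_sub one_pos (Fermat.Agent.S49.ef_one_mem_strictPeriods N) f h]
  simp

/-- The Hecke recursion for the `q`-coefficients of a normalized eigenform at a prime `l ∤ N`:
`a (n l) + [l ∣ n] l a (n / l) = a l * a n`. -/
theorem perEigen_coeff {N : ℕ} (g : CuspForm (Gamma0 N) 2) (hg : g.IsNormalizedEigenform)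
    {l : ℕ} (hl : l.Prime) (hlN : ¬ l ∣ N) (n : ℕ) :
    ModularFormClass.qCoeff ⇑g (n * l) +
        (if l ∣ n then (l : ℂ) * ModularFormClass.qCoeff ⇑g (n / l) else 0) =
      ModularFormClass.qCoeff ⇑g l * ModularFormClass.qCoeff ⇑g n := by
  rcases Nat.eq_zero_or_pos n with hn | hn
  · subst hn
    have h0 : ModularFormClass.qCoeff ⇑g 0 = 0 := Fermat.Agent.S49.ef_qCoeff_zero g
    simp [h0]
  · obtain ⟨r, m, hm, rfl⟩ := Nat.exists_eq_pow_mul_and_not_dvd hn.ne' l hl.ne_one
    have hcop : Nat.Coprime l m := (Nat.Prime.coprime_iff_not_dvd hl).2 hm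
    rcases r with _ | r
    · -- `l ∤ n`
      have hnd : ¬ l ∣ l ^ 0 * m := by simpa using hm
      rw [if_neg hnd, add_zero, pow_zero, one_mul, mul_comm m l,
        hg.qCoeff_mul_of_coprime l m hcop]
    · -- `n = l ^ (r + 1) * m`
      have hd : l ∣ l ^ (r + 1) * m := Dvd.dvd.mul_right (dvd_pow_self l (Nat.succ_ne_zero r)) m
      have e1 : l ^ (r + 1) * m * l = l ^ (r + 2) * m := by ring
      have e2 : l ^ (r + 1) * m / l = l ^ r * m := by
        have : l ^ (r + 1) * m = l * (l ^ r * m) := by ring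
        rw [this, Nat.mul_div_cancel_left _ hl.pos]
      rw [if_pos hd, e1, e2,
        hg.qCoeff_mul_of_coprime (l ^ (r + 2)) m (Nat.Coprime.pow_left _ hcop),
        hg.qCoeff_mul_of_coprime (l ^ r) m (Nat.Coprime.pow_left _ hcop),
        hg.qCoeff_mul_of_coprime (l ^ (r + 1)) m (Nat.Coprime.pow_left _ hcop),
        hg.qCoeff_prime_pow_of_not_dvd l r hl hlN]
      ring

/-- A normalized eigenform is an eigenvector of `CuspForm.heckeTLin 2` at primes `l ∤ N`, with
eigenvalue its `l`-th `q`-coefficient. -/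
theorem perEigen_heckeTLin {N : ℕ} (g : CuspForm (Gamma0 N) 2) (hg : g.IsNormalizedEigenform)
    {l : ℕ} (hl : l.Prime) (hlN : ¬ l ∣ N) :
    CuspForm.heckeTLin 2 hl hlN g = ModularFormClass.qCoeff ⇑g l • g := by
  rw [← sub_eq_zero]
  apply Fermat.Agent.S49.ef_eq_zero_of_forall_qCoeff_eq_zero
  intro n
  rw [perEigen_qCoeff_sub, Fermat.Agent.S49.ef_qCoeff_heckeTLin, Fermat.Agent.S49.ef_qCoeff_smul,
    perEigen_coeff g hg hl hlN n, sub_self]

/-- (EIGEN) A normalized eigenform is an eigenfunction of the prelude's `heckeT 2 l`, `l ∤ N`, with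
eigenvalue its `l`-th `q`-coefficient. -/
theorem perEigen_main : PEREigenStatement := by
  intro N _ g hg l hl hlN
  have h := congrArg (fun F : CuspForm (Gamma0 N) 2 => (⇑F : ℍ → ℂ))
    (perEigen_heckeTLin g hg hl hlN)
  simp only [CuspForm.coe_heckeTLin_apply] at h
  rw [h]
  ext z
  simp

end Fermat.Agent.S42
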