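/-
S42 moonshot — block PER, package PERFunctional.

* `perFunctional_main : PERFunctionalStatement` — a field extension `E / k` has a `k`-linear
  retraction `π : E → k` with `π 1 = 1`.
* `perFunctional_kerMax` — the kernel of a ring homomorphism from the ring of algebraic integers
  `integralClosure ℤ ℂ` to a field of characteristic `p` is a maximal ideal.
-/
import Mathlib
import Fermat.Agent.S42.PERInterfaces

set_option autoImplicit false

namespace Fermat.Agent.S42

/-- A nonzero vector of a vector space is not killed by every linear functional; normalising gives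
a functional with value `1` at the vector. -/
theorem perFunctional_exists_dual_eq_one (k V : Type) [Field k] [AddCommGroup V] [Module k V]
    (x : V) (hx : x ≠ 0) : ∃ π : V →ₗ[k] k, π x = 1 := by
  obtain ⟨f, hf⟩ : ∃ f : Module.Dual k V, f x ≠ 0 := by
    by_contra h
    refine hx ((Module.forall_dual_apply_eq_zero_iff k x).mp fun φ => ?_)
    by_contra hφ
    exact h ⟨φ, hφ⟩
  refine ⟨(f x)⁻¹ • f, ?_⟩
  rw [LinearMap.smul_apply, smul_eq_mul, inv_mul_cancel₀ hf]

/-- (FUNCTIONAL) A field extension has a linear retraction onto the base field. -/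
theorem perFunctional_main : PERFunctionalStatement := by
  intro k E _ _ _
  exact perFunctional_exists_dual_eq_one k E 1 one_ne_zero

/-- The natural number `p` maps to `0` in a `ZMod p`-algebra. -/
theorem perFunctional_natCast_eq_zero (p : ℕ) (K : Type) [Ring K] [Algebra (ZMod p) K] :
    ((p : ℕ) : K) = 0 := by
  have h : algebraMap (ZMod p) K ((p : ℕ) : ZMod p) = ((p : ℕ) : K) := map_natCast _ _
  rw [← h, ZMod.natCast_self, map_zero]

/-- The kernel of a ring homomorphism `ℤ → K`, `K` a field which is a `ZMod p`-algebra (`p` prime),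
is a maximal ideal. -/
theorem perFunctional_int_kerMax (p : ℕ) [Fact p.Prime] (K : Type) [Field K] [Algebra (ZMod p) K]
    (φ : ℤ →+* K) : (RingHom.ker φ).IsMaximal := by
  have hprime : (RingHom.ker φ).IsPrime := RingHom.ker_isPrime φ
  refine Ideal.IsPrime.isMaximal hprime ?_
  intro hbot
  have hp : ((p : ℕ) : ℤ) ∈ RingHom.ker φ := by
    rw [RingHom.mem_ker, map_natCast]
    exact perFunctional_natCast_eq_zero p K
  rw [hbot, Ideal.mem_bot] at hp
  exact (Fact.out : p.Prime).ne_zero (by exact_mod_cast hp)

/-- The kernel of a ring homomorphism from the ring of algebraic integers to a field of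
characteristic `p` is a maximal ideal. -/
theorem perFunctional_kerMax (p : ℕ) [Fact p.Prime] (K : Type) [Field K] [Algebra (ZMod p) K]
    (ψ : integralClosure ℤ ℂ →+* K) : (RingHom.ker ψ).IsMaximal := by
  have hprime : (RingHom.ker ψ).IsPrime := RingHom.ker_isPrime ψ
  refine Ideal.isMaximal_of_isIntegral_of_isMaximal_comap (R := ℤ) (RingHom.ker ψ) ?_
  have hcomap : (RingHom.ker ψ).comap (algebraMap ℤ (integralClosure ℤ ℂ)) =
      RingHom.ker (ψ.comp (algebraMap ℤ (integralClosure ℤ ℂ))) := by
    ext x
    simp only [Ideal.mem_comap, RingHom.mem_ker, RingHom.comp_apply]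
  rw [hcomap]
  exact perFunctional_int_kerMax p K _

end Fermat.Agent.S42
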