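import Mathlib
import Fermat.Agent.S42.PERInterfaces2
import Fermat.Agent.S22
import Fermat.Prelude.Def_CuspForm_HeckeAlgebra
import Fermat.Prelude.Def_FLTPrelim_ModularRep

/-
S42 moonshot — block PER, package PERIntegral (suffix B).
Hecke eigenvalues `a_l(g)` (`l` prime, `l ∤ N`) of a normalized eigenform `g` of level `Γ₀(N)` are
algebraic integers: `T_l` lies in the Hecke algebra, which is a finite `ℤ`-module (S22), hence is
integral over `ℤ`; evaluating a monic integer polynomial annihilating `T_l` at the eigenvector `g`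
shows that the polynomial annihilates the eigenvalue.
-/

set_option autoImplicit false

open UpperHalfPlane CongruenceSubgroup

namespace Fermat.Agent.S42

/-- For an eigenvector `T v = a • v` of a `ℂ`-linear endomorphism and an integer polynomial `P`:
`(P(T)) v = P(a) • v`. -/
theorem perIntegralB_aeval_apply {V : Type*} [AddCommGroup V] [Module ℂ V]
    (T : Module.End ℂ V) (a : ℂ) (v : V) (hv : T v = a • v) (P : Polynomial ℤ) :
    (Polynomial.aeval T P) v = (Polynomial.aeval a P) • v := by
  have hpow : ∀ n : ℕ, (T ^ n) v = a ^ n • v := by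
    intro n
    induction n with
    | zero => simp
    | succ n ih =>
      rw [pow_succ, Module.End.mul_apply, hv, map_smul, ih, smul_smul, pow_succ, mul_comm]
  induction P using Polynomial.induction_on' with
  | add p q hp hq =>
    rw [map_add, map_add, LinearMap.add_apply, hp, hq, add_smul]
  | monomial n c =>
    have h1 : (algebraMap ℤ (Module.End ℂ V) c) v = (algebraMap ℤ ℂ c) • v := by
      rw [Module.algebraMap_end_apply, eq_intCast, Int.cast_smul_eq_zsmul]
    rw [Polynomial.aeval_monomial, Polynomial.aeval_monomial, Module.End.mul_apply, hpow,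
      map_smul, h1, smul_smul, mul_comm]

/-- An eigenvalue (with nonzero eigenvector) of an integral endomorphism is integral. -/
theorem perIntegralB_isIntegral_of_eigen {V : Type*} [AddCommGroup V] [Module ℂ V]
    (T : Module.End ℂ V) (hT : IsIntegral ℤ T) (a : ℂ) (v : V) (hv : T v = a • v) (hv0 : v ≠ 0) :
    IsIntegral ℤ a := by
  obtain ⟨P, hPm, hP⟩ := hT
  refine ⟨P, hPm, ?_⟩
  have h := perIntegralB_aeval_apply T a v hv P
  rw [Polynomial.aeval_def, hP, LinearMap.zero_apply] at h
  rcases smul_eq_zero.mp h.symm with h0 | h0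
  · rwa [Polynomial.aeval_def] at h0
  · exact absurd h0 hv0

/-- The Hecke operator `T_l` (`l` prime, `l ∤ N`) on weight-2 cusp forms of level `Γ₀(N)` is
integral over `ℤ`. -/
theorem perIntegralB_isIntegral_heckeTLin (N : ℕ) [NeZero N] {l : ℕ} (hl : l.Prime)
    (hlN : ¬ l ∣ N) :
    IsIntegral ℤ (CuspForm.heckeTLin 2 hl hlN :
      Module.End ℂ (CuspForm (Gamma0 N) 2)) := by
  have : Module.Finite ℤ (CuspForm.heckeAlgebra N 2 ∅) := Fermat.Agent.S22.result N 2 ∅
  have hint : IsIntegral ℤ
      (CuspForm.heckeAlgebra.T hl hlN (Set.notMem_empty l) : CuspForm.heckeAlgebra N 2 ∅) :=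
    IsIntegral.of_finite ℤ _
  have h := hint.map (CuspForm.heckeAlgebra N 2 ∅).val
  simpa using h

theorem perIntegralB_main (hE : PEREigenStatement) : PERIntegralStatement := by
  intro N _ g hg l hl hlN
  have hT : CuspForm.heckeTLin 2 hl hlN g = ModularFormClass.qCoeff ⇑g l • g := by
    apply DFunLike.coe_injective
    rw [CuspForm.coe_heckeTLin_apply]
    exact hE N g hg l hl hlN
  exact perIntegralB_isIntegral_of_eigen _ (perIntegralB_isIntegral_heckeTLin N hl hlN) _ g hT
    hg.ne_zero

end Fermat.Agent.S42
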