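/-
S42 moonshot — block PER, package PEROrbitSum (suffix A).

(ORBIT-SUM) A function on a finite set all of whose sums over closed `σ`-paths vanish has total
sum zero.  Proof: partition the index set into `σ`-orbits (`Equiv.Perm.SameCycle`); each orbit of a
point `i₀` is enumerated bijectively by `k ↦ (σ ^ k) i₀`, `k < Function.minimalPeriod σ i₀`.
-/
import Mathlib
import Fermat.Agent.S42.PERInterfaces2

set_option autoImplicit false

namespace Fermat.Agent.S42

/-- Every point of a finite type is a periodic point of a permutation: the minimal period is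
positive. -/
theorem perOrbitSumA_minimalPeriod_pos {I : Type} [Finite I] (σ : Equiv.Perm I) (i : I) :
    0 < Function.minimalPeriod (⇑σ) i := by
  have hper : Function.IsPeriodicPt (⇑σ) (orderOf σ) i := by
    show (⇑σ)^[orderOf σ] i = i
    rw [Equiv.Perm.iterate_eq_pow, pow_orderOf_eq_one]
    rfl
  exact hper.minimalPeriod_pos (orderOf_pos σ)

/-- `σ ^ (minimal period of i)` fixes `i`. -/
theorem perOrbitSumA_pow_minimalPeriod {I : Type} (σ : Equiv.Perm I) (i : I) :
    (σ ^ Function.minimalPeriod (⇑σ) i) i = i := by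
  have h := Function.isPeriodicPt_minimalPeriod (⇑σ) i
  have h' : (⇑σ)^[Function.minimalPeriod (⇑σ) i] i = i := h
  rwa [Equiv.Perm.iterate_eq_pow] at h'

/-- The sum of `f` over the `σ`-orbit of `i₀` is the sum along the closed `σ`-path through `i₀`
of minimal length. -/
theorem perOrbitSumA_orbit {I : Type} [Fintype I] (σ : Equiv.Perm I) {A : Type} [AddCommGroup A]
    (f : I → A) (i₀ : I) [DecidablePred fun j => σ.SameCycle j i₀] :
    ∑ j ∈ Finset.univ.filter (fun j => σ.SameCycle j i₀), f j =
      ∑ k ∈ Finset.range (Function.minimalPeriod (⇑σ) i₀), f ((σ ^ k) i₀) := by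
  symm
  refine Finset.sum_nbij (fun k => (σ ^ k) i₀) ?_ ?_ ?_ ?_
  · intro k _
    simp only [Finset.mem_filter, Finset.mem_univ, true_and]
    exact Equiv.Perm.sameCycle_pow_left.2 (Equiv.Perm.SameCycle.refl σ i₀)
  · intro k hk k' hk' hkk'
    have hk1 : k ∈ Set.Iio (Function.minimalPeriod (⇑σ) i₀) := by
      simpa using hk
    have hk2 : k' ∈ Set.Iio (Function.minimalPeriod (⇑σ) i₀) := by
      simpa using hk'
    refine Function.iterate_injOn_Iio_minimalPeriod hk1 hk2 ?_
    show (⇑σ)^[k] i₀ = (⇑σ)^[k'] i₀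
    rw [Equiv.Perm.iterate_eq_pow, Equiv.Perm.iterate_eq_pow]
    exact hkk'
  · intro j hj
    have hj' : σ.SameCycle j i₀ := by
      simpa using hj
    obtain ⟨n, hn⟩ := hj'.symm.exists_nat_pow_eq
    refine ⟨n % Function.minimalPeriod (⇑σ) i₀, ?_, ?_⟩
    · simp only [Finset.coe_range, Set.mem_Iio]
      exact Nat.mod_lt _ (perOrbitSumA_minimalPeriod_pos σ i₀)
    · show (σ ^ (n % Function.minimalPeriod (⇑σ) i₀)) i₀ = j
      rw [← Equiv.Perm.iterate_eq_pow, Function.iterate_mod_minimalPeriod_eq,
        Equiv.Perm.iterate_eq_pow]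
      exact hn
  · intro k _
    rfl

/-- (ORBIT-SUM) A function on a finite set all of whose sums over closed `σ`-paths vanish has
total sum zero. -/
theorem perOrbitSumA_main : PEROrbitSumStatement := by
  intro I _ σ A _ f h
  classical
  refine Finset.sum_cancels_of_partition_cancels (Equiv.Perm.SameCycle.setoid σ) ?_
  intro i₀ _
  have key := perOrbitSumA_orbit σ f i₀
  have hzero := h i₀ (Function.minimalPeriod (⇑σ) i₀) (perOrbitSumA_minimalPeriod_pos σ i₀)
    (perOrbitSumA_pow_minimalPeriod σ i₀)
  rw [hzero] at key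
  rw [← key]
  refine Finset.sum_congr ?_ (fun _ _ => rfl)
  ext a
  simp only [Finset.mem_filter, Finset.mem_univ, true_and]
  exact Iff.rfl

end Fermat.Agent.S42
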