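/-
S42 moonshot, block PER, package `PERPeriodEigen` (variant A).

* `perPeriodEigenA_main`: the period homomorphism of a normalized eigenform `g` of level `Γ₀(N)`
  is an eigenvector of the cohomological Hecke operator `perTcoh N l ℂ` (`l` prime, `l ∤ N`) with
  eigenvalue the `l`-th `q`-coefficient of `g`.
* `perPeriodEigenA_ne`: the period homomorphism of a normalized eigenform is nonzero and parabolic.
-/
import Mathlib
import Fermat.Agent.S42.PERInterfaces
import Fermat.Agent.S42.PERInterfaces2
import Fermat.Agent.S21.Main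

set_option autoImplicit false

open UpperHalfPlane CongruenceSubgroup ModularCurve ModularCurve.Period
open scoped MatrixGroups ModularForm

namespace Fermat.Agent.S42

/-- If `F` is a primitive of `f`, then `a * F` is a primitive of `a • f`. -/
theorem perPeriodEigenA_smul_prim (a : ℂ) (f F : ℍ → ℂ) (hF : Fermat.Agent.S21.IsPrim f F) :
    Fermat.Agent.S21.IsPrim (a • f) (fun z : ℍ => a * F z) := by
  intro τ
  have h := (hF τ).const_mul a
  exact h

/-- A normalized eigenform is nonzero. -/
theorem perPeriodEigenA_eigen_ne_zero {N : ℕ} (g : CuspForm (Gamma0 N) 2)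
    (hg : g.IsNormalizedEigenform) : g ≠ 0 := by
  rintro rfl
  have h0 : ModularFormClass.qCoeff (⇑(0 : CuspForm (Gamma0 N) 2)) 1 = 0 := by
    have hcoe : ((0 : CuspForm (Gamma0 N) 2) : ℍ → ℂ) = (0 : ℍ → ℂ) := rfl
    rw [ModularFormClass.qCoeff, hcoe, UpperHalfPlane.qExpansion_zero]
    simp
  exact zero_ne_one (h0 ▸ hg.qCoeff_one)

/-- The period homomorphism of the zero form is zero. -/
theorem perPeriodEigenA_periodMap_zero (N : ℕ) [NeZero N] :
    periodMap N (0 : CuspForm (Gamma0 N) 2) = 0 := by
  have h := (Fermat.Agent.S21.linearStatement N).2 0 (0 : CuspForm (Gamma0 N) 2)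
  rw [zero_smul, zero_smul] at h
  exact h

/-- (PERIOD-EIGEN) The period homomorphism of a normalized eigenform is an eigenvector of
`perTcoh`. -/
theorem perPeriodEigenA_main (hS : PERSigStatement) (hA : PERTcohApplyStatement)
    (hAct : PERActionStatement) (hPH : PERPrimHeckeStatement) (hE : PEREigenStatement) :
    PERPeriodEigenStatement := by
  intro N _ g hg l hl hlN
  obtain ⟨F, hF⟩ := Fermat.Agent.S21.primitiveStatement N g
  have hF1 : Fermat.Agent.S21.IsPrim (⇑g) F := hF.1
  -- `G = ∑ i, F ∘ α_i` is a primitive of `T_l g = a • g`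
  have hG := hPH l hl.pos (⇑g) F hF1
  rw [hE N g hg l hl hlN] at hG
  -- so is `a * F`; hence they differ by a constant
  have haF := perPeriodEigenA_smul_prim (ModularFormClass.qCoeff (⇑g) l) (⇑g) F hF1
  obtain ⟨C, hC⟩ := Fermat.Agent.S21.PrimSlash.primConstStatement _ _ _ hG haF
  obtain ⟨-, hBij, -, -⟩ := hS N l hl hlN
  apply AddMonoidHom.ext
  intro x
  obtain ⟨γ, rfl⟩ := Additive.ofMul.surjective x
  rw [hA N l hl hlN ℂ (periodMap N g) γ, AddMonoidHom.smul_apply, smul_eq_mul]
  have key : ∀ i : Option (Fin l), periodMap N g (Additive.ofMul (perGam N l γ i)) =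
      F (perAlpha l i • ((γ : SL(2, ℤ)) • UpperHalfPlane.I)) -
        F (perAlpha l (perSig N l γ i) • UpperHalfPlane.I) := by
    intro i
    rw [hAct N l hl hlN γ i UpperHalfPlane.I]
    exact Fermat.Agent.S21.periodMapEqStatement N g F hF1 (perGam N l γ i) _
  rw [Finset.sum_congr rfl (fun i _ => key i), Finset.sum_sub_distrib,
    (hBij γ).sum_comp (fun j => F (perAlpha l j • UpperHalfPlane.I)),
    Fermat.Agent.S21.periodMapEqStatement N g F hF1 γ UpperHalfPlane.I]
  have e1 := hC ((γ : SL(2, ℤ)) • UpperHalfPlane.I)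
  have e2 := hC UpperHalfPlane.I
  linear_combination e1 - e2

/-- (PERIOD-NE) The period homomorphism of a normalized eigenform is nonzero and parabolic. -/
theorem perPeriodEigenA_ne : PERPeriodNeZeroStatement := by
  intro N _ g hg
  refine ⟨fun h0 => ?_, ?_⟩
  · have h := Fermat.Agent.S21.injStatement N g 0 (by
      rw [h0, perPeriodEigenA_periodMap_zero, map_zero, add_zero])
    exact perPeriodEigenA_eigen_ne_zero g hg h.1
  · exact mem_parabolicHoms_iff.mp (Fermat.Agent.S21.parabolicStatement N g)

end Fermat.Agent.S42
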