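/-
S42 moonshot — block PER, package PERPow.
Iterating the cocycle rule of `perSig` / `perGam`:
`σ_{γ^r} = σ_γ^r`, `∑_{k<r} c (γ_{σ^k i}) = c ((γ^r)_i)`, and if `σ_γ^r i = i` then `(γ^r)_i` has
the same trace as `γ^r`.
-/
import Mathlib
import Fermat.Agent.S42.PERInterfaces
import Fermat.Agent.S42.PERInterfaces2

set_option autoImplicit false

open UpperHalfPlane CongruenceSubgroup ModularCurve ModularCurve.Period
open scoped MatrixGroups ModularForm TensorProduct

namespace Fermat.Agent.S42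

/-- The real trace of `mapGL ℝ g` is the cast of the integer trace of `g`. -/
theorem perPow_trace_mapGL (g : SL(2, ℤ)) :
    ((Matrix.SpecialLinearGroup.mapGL ℝ g : GL (Fin 2) ℝ) : Matrix (Fin 2) (Fin 2) ℝ).trace =
      (((g : Matrix (Fin 2) (Fin 2) ℤ).trace : ℤ) : ℝ) := by
  rw [Matrix.SpecialLinearGroup.mapGL_coe_matrix]
  simp [Matrix.trace_fin_two, Matrix.SpecialLinearGroup.map_apply_coe]

/-- Conjugate elements of `GL (Fin 2) ℝ` have the same trace. -/
theorem perPow_trace_of_conj (a x y : GL (Fin 2) ℝ) (h : a * x = y * a) :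
    (y : Matrix (Fin 2) (Fin 2) ℝ).trace = (x : Matrix (Fin 2) (Fin 2) ℝ).trace := by
  have hy : y = a * x * a⁻¹ := by rw [h, mul_inv_cancel_right]
  rw [hy, Units.val_mul, Units.val_mul]
  exact Matrix.trace_units_conj a (x : Matrix (Fin 2) (Fin 2) ℝ)

/-- The identity element: `σ_1 = id` and `1_i = 1`. -/
theorem perPow_one (hC : PERCosetStatement) (hS : PERSigStatement) (N l : ℕ) [NeZero N]
    (hl : l.Prime) (hlN : ¬ l ∣ N) (i : Option (Fin l)) :
    perSig N l 1 i = i ∧ perGam N l 1 i = 1 := by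
  obtain ⟨-, huniq⟩ := hC N l hl hlN
  obtain ⟨hrel, -, -, -⟩ := hS N l hl hlN
  have h := hrel 1 i
  unfold PERRel at h
  have h2 : Matrix.SpecialLinearGroup.mapGL ℝ (((1 : Gamma0 N) : Gamma0 N) : SL(2, ℤ)) *
        perAlpha l i =
      Matrix.SpecialLinearGroup.mapGL ℝ ((perGam N l 1 i : Gamma0 N) : SL(2, ℤ)) *
        perAlpha l (perSig N l 1 i) := by
    rw [← h, OneMemClass.coe_one, map_one, one_mul, mul_one]
  obtain ⟨h3, h4⟩ := huniq 1 (perGam N l 1 i) i (perSig N l 1 i) h2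
  exact ⟨h3.symm, h4.symm⟩

/-- Part 1: `σ_{γ^r} = σ_γ^r`. -/
theorem perPow_sig (hC : PERCosetStatement) (hS : PERSigStatement) (N l : ℕ) [NeZero N]
    (hl : l.Prime) (hlN : ¬ l ∣ N) (γ : Gamma0 N) (r : ℕ) (i : Option (Fin l)) :
    perSig N l (γ ^ r) i = (perSig N l γ)^[r] i := by
  obtain ⟨-, -, hsig, -⟩ := hS N l hl hlN
  induction r with
  | zero =>
    rw [pow_zero, Function.iterate_zero, id]
    exact (perPow_one hC hS N l hl hlN i).1
  | succ r ih => rw [pow_succ, hsig, ih, Function.iterate_succ_apply']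

/-- Part 2: `∑_{k<r} c (γ_{σ^k i}) = c ((γ^r)_i)`. -/
theorem perPow_sum (hC : PERCosetStatement) (hS : PERSigStatement) (N l : ℕ) [NeZero N]
    (hl : l.Prime) (hlN : ¬ l ∣ N) (γ : Gamma0 N) (r : ℕ) (i : Option (Fin l))
    (A : Type) [AddCommGroup A] (c : Additive (Gamma0 N) →+ A) :
    ∑ k ∈ Finset.range r, c (Additive.ofMul (perGam N l γ ((perSig N l γ)^[k] i))) =
      c (Additive.ofMul (perGam N l (γ ^ r) i)) := by
  obtain ⟨-, -, -, hgam⟩ := hS N l hl hlN
  induction r with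
  | zero =>
    rw [Finset.sum_range_zero, pow_zero, (perPow_one hC hS N l hl hlN i).2, ofMul_one, map_zero]
  | succ r ih =>
    rw [Finset.sum_range_succ, ih, pow_succ, hgam, ofMul_mul, map_add,
      perPow_sig hC hS N l hl hlN γ r i]

/-- (POW) Iterating the cocycle rule. -/
theorem perPow_main (hC : PERCosetStatement) (hS : PERSigStatement) : PERPowStatement := by
  intro N l _ hl hlN γ r i
  refine ⟨perPow_sig hC hS N l hl hlN γ r i,
    fun A _ c => perPow_sum hC hS N l hl hlN γ r i A c, ?_⟩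
  intro hfix
  obtain ⟨hrel, -, -, -⟩ := hS N l hl hlN
  have h := hrel (γ ^ r) i
  rw [perPow_sig hC hS N l hl hlN γ r i, hfix] at h
  unfold PERRel at h
  have h2 := perPow_trace_of_conj _ _ _ h
  rw [perPow_trace_mapGL, perPow_trace_mapGL] at h2
  exact_mod_cast h2

end Fermat.Agent.S42
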