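import Mathlib
import Fermat.Agent.S42.PERInterfaces

/-
S42 moonshot, block PER, package PERPrimHecke (suffix A).

If `F` is a holomorphic primitive of `f` on the upper half-plane, then `τ ↦ ∑ i, F (α_i • τ)`
(sum over the coset representatives `perAlpha l i`) is a primitive of the prelude's Hecke operator
`heckeT 2 l f`.  Proof: chain rule for the affine maps `w ↦ (w + j) / l` and `w ↦ l * w`, which
agree near every point of the upper half-plane with the action of `heckeMatrix l j` resp.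
`heckeDiagMatrix l` transported along `ofComplex`.
-/

set_option autoImplicit false

open UpperHalfPlane Filter Topology
open scoped MatrixGroups ModularForm

namespace Fermat.Agent.S42

/-- Chain rule for `heckeMatrix l j`: if `F` is a primitive of `f`, then
`τ' ↦ F (heckeMatrix l j • τ')` has derivative `l⁻¹ * f (heckeMatrix l j • τ)` at `τ`. -/
theorem perPrimHeckeA_heckeMatrix {l : ℕ} (hl : l ≠ 0) (j : ℕ) {f F : ℍ → ℂ}
    (hF : Fermat.Agent.S21.IsPrim f F) (τ : ℍ) :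
    HasDerivAt ((fun τ' : ℍ => F (ModularForm.heckeMatrix l j • τ')) ∘ ofComplex)
      ((l : ℂ)⁻¹ * f (ModularForm.heckeMatrix l j • τ)) ↑τ := by
  have h1 : HasDerivAt (fun w : ℂ => (w + (j : ℂ)) / (l : ℂ)) ((l : ℂ)⁻¹) (τ : ℂ) := by
    have h0 : HasDerivAt (fun w : ℂ => w + (j : ℂ)) 1 (τ : ℂ) := (hasDerivAt_id _).add_const _
    have h0' := h0.div_const (l : ℂ)
    rw [one_div] at h0'
    exact h0'
  have h2 : HasDerivAt (F ∘ ofComplex) (f (ModularForm.heckeMatrix l j • τ))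
      (((τ : ℂ) + (j : ℂ)) / (l : ℂ)) := by
    rw [← ModularForm.coe_heckeMatrix_smul hl j τ]
    exact hF _
  have h3 := HasDerivAt.comp (τ : ℂ) h2 h1
  have he : ((fun τ' : ℍ => F (ModularForm.heckeMatrix l j • τ')) ∘ ofComplex) =ᶠ[𝓝 (τ : ℂ)]
      ((F ∘ ofComplex) ∘ (fun w : ℂ => (w + (j : ℂ)) / (l : ℂ))) := by
    filter_upwards [isOpen_upperHalfPlaneSet.mem_nhds τ.im_pos] with w hw
    have hz : ofComplex w = (⟨w, hw⟩ : ℍ) := ofComplex_apply_of_im_pos hw
    have hc : (w + (j : ℂ)) / (l : ℂ) = ((ModularForm.heckeMatrix l j • (⟨w, hw⟩ : ℍ) : ℍ) : ℂ) := by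
      rw [ModularForm.coe_heckeMatrix_smul hl j]
    simp only [Function.comp_apply]
    rw [hz, hc, ofComplex_apply]
  rw [mul_comm]
  exact h3.congr_of_eventuallyEq he

/-- Chain rule for `heckeDiagMatrix l`: if `F` is a primitive of `f`, then
`τ' ↦ F (heckeDiagMatrix l • τ')` has derivative `l * f (heckeDiagMatrix l • τ)` at `τ`. -/
theorem perPrimHeckeA_heckeDiagMatrix {l : ℕ} (hl : l ≠ 0) {f F : ℍ → ℂ}
    (hF : Fermat.Agent.S21.IsPrim f F) (τ : ℍ) :
    HasDerivAt ((fun τ' : ℍ => F (ModularForm.heckeDiagMatrix l • τ')) ∘ ofComplex)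
      ((l : ℂ) * f (ModularForm.heckeDiagMatrix l • τ)) ↑τ := by
  have h1 : HasDerivAt (fun w : ℂ => (l : ℂ) * w) (l : ℂ) (τ : ℂ) := by
    have h0 := (hasDerivAt_id (τ : ℂ)).const_mul (l : ℂ)
    rw [mul_one] at h0
    exact h0
  have h2 : HasDerivAt (F ∘ ofComplex) (f (ModularForm.heckeDiagMatrix l • τ))
      ((l : ℂ) * (τ : ℂ)) := by
    rw [← ModularForm.coe_heckeDiagMatrix_smul hl τ]
    exact hF _
  have h3 := HasDerivAt.comp (τ : ℂ) h2 h1
  have he : ((fun τ' : ℍ => F (ModularForm.heckeDiagMatrix l • τ')) ∘ ofComplex) =ᶠ[𝓝 (τ : ℂ)]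
      ((F ∘ ofComplex) ∘ (fun w : ℂ => (l : ℂ) * w)) := by
    filter_upwards [isOpen_upperHalfPlaneSet.mem_nhds τ.im_pos] with w hw
    have hz : ofComplex w = (⟨w, hw⟩ : ℍ) := ofComplex_apply_of_im_pos hw
    have hc : (l : ℂ) * w = ((ModularForm.heckeDiagMatrix l • (⟨w, hw⟩ : ℍ) : ℍ) : ℂ) := by
      rw [ModularForm.coe_heckeDiagMatrix_smul hl]
    simp only [Function.comp_apply]
    rw [hz, hc, ofComplex_apply]
  rw [mul_comm]
  exact h3.congr_of_eventuallyEq he

/-- (PRIM-HECKE) If `F` is a primitive of `f`, then `∑ i, F ∘ α_i` is a primitive of `T_l f`. -/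
theorem perPrimHeckeA_main : PERPrimHeckeStatement := by
  intro l hl f F hF τ
  have hl' : l ≠ 0 := hl.ne'
  have e : ((fun τ' : ℍ => ∑ i : Option (Fin l), F (perAlpha l i • τ')) ∘ ofComplex)
      = fun w : ℂ => ((fun τ' : ℍ => F (ModularForm.heckeDiagMatrix l • τ')) ∘ ofComplex) w
          + ∑ j : Fin l,
            ((fun τ' : ℍ => F (ModularForm.heckeMatrix l (j : ℕ) • τ')) ∘ ofComplex) w := by
    funext w
    simp only [Function.comp_apply, Fintype.sum_option, perAlpha]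
  have hsum : HasDerivAt
      (fun w : ℂ => ∑ j : Fin l,
        ((fun τ' : ℍ => F (ModularForm.heckeMatrix l (j : ℕ) • τ')) ∘ ofComplex) w)
      (∑ j : Fin l, (l : ℂ)⁻¹ * f (ModularForm.heckeMatrix l (j : ℕ) • τ)) (τ : ℂ) :=
    HasDerivAt.fun_sum (fun j _ => perPrimHeckeA_heckeMatrix hl' (j : ℕ) hF τ)
  have hall := (perPrimHeckeA_heckeDiagMatrix hl' hF τ).add hsum
  have hval : ModularForm.heckeT 2 l f τ
      = (l : ℂ) * f (ModularForm.heckeDiagMatrix l • τ)
        + ∑ j : Fin l, (l : ℂ)⁻¹ * f (ModularForm.heckeMatrix l (j : ℕ) • τ) := by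
    rw [ModularForm.heckeT_apply 2 hl', Finset.mul_sum,
      Fin.sum_univ_eq_sum_range (fun j : ℕ => (l : ℂ)⁻¹ * f (ModularForm.heckeMatrix l j • τ)) l,
      add_comm]
    norm_num
  rw [e, hval]
  exact hall

end Fermat.Agent.S42
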