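import Mathlib
import Fermat.Agent.S42.PERInterfaces
import Fermat.Agent.S42.PERInterfaces2

/-
S42 moonshot — block PER, package PERReduce (worker A).
Reduction of a complex eigen-homomorphism modulo a maximal ideal of the ring of algebraic
integers, assuming finite generation of `Γ₀(N)`, the residue-field statement, the scaling
statement, the linear-retraction statement and naturality of `perTcoh`.
-/

set_option autoImplicit false

open UpperHalfPlane CongruenceSubgroup ModularCurve ModularCurve.Period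
open scoped MatrixGroups ModularForm TensorProduct

namespace Fermat.Agent.S42

/-- Pointwise form of naturality of `perTcoh`. -/
theorem perReduceA_nat_apply (hNat : PERTcohNatStatement) (N l : ℕ) [NeZero N] (hl : l.Prime)
    (hlN : ¬ l ∣ N) (A B : Type) [AddCommGroup A] [AddCommGroup B] (f : A →+ B)
    (c : Additive (Gamma0 N) →+ A) (x : Additive (Gamma0 N)) :
    perTcoh N l B (f.comp c) x = f (perTcoh N l A c x) := by
  rw [hNat N l hl hlN A B f c]
  rfl

/-- Step 1–2: the rescaled homomorphism with values in the valuation ring is again an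
eigenvector. -/
theorem perReduceA_step_val (hNat : PERTcohNatStatement) (N l : ℕ) [NeZero N] (hl : l.Prime)
    (hlN : ¬ l ∣ N) (V : ValuationSubring ℂ) (c : Additive (Gamma0 N) →+ ℂ) (t : ℂ)
    (c₁ : Additive (Gamma0 N) →+ V) (hc₁ : ∀ x, (c₁ x : ℂ) = t * c x) (r : V)
    (hc : perTcoh N l ℂ c = (r : ℂ) • c) (x : Additive (Gamma0 N)) :
    perTcoh N l V c₁ x = r * c₁ x := by
  have h1 : (V.subtype : V →+ ℂ).comp c₁ = (AddMonoidHom.mulLeft t).comp c := by
    ext y
    simp [hc₁]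
  have h2 := perReduceA_nat_apply hNat N l hl hlN V ℂ (V.subtype : V →+ ℂ) c₁ x
  have h3 := perReduceA_nat_apply hNat N l hl hlN ℂ ℂ (AddMonoidHom.mulLeft t) c x
  rw [h1, h3, hc] at h2
  apply Subtype.ext
  have h4 : ((perTcoh N l V c₁ x : V) : ℂ) = t * ((r : ℂ) * c x) := by
    simpa using h2.symm
  rw [h4]
  push_cast
  rw [hc₁]
  ring

/-- Step 3–4 in abstract form: pushing an eigenvector forward along a ring homomorphism followed
by a linear functional. -/
theorem perReduceA_step_push (hNat : PERTcohNatStatement) (N l : ℕ) [NeZero N] (hl : l.Prime)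
    (hlN : ¬ l ∣ N) (V E k : Type) [CommRing V] [Field E] [Field k] [Algebra k E]
    (ρ : V →+* E) (π : E →ₗ[k] k) (c₁ : Additive (Gamma0 N) →+ V) (r : V) (b : k)
    (hrb : ρ r = algebraMap k E b)
    (hc₁ : ∀ x, perTcoh N l V c₁ x = r * c₁ x) (x : Additive (Gamma0 N)) :
    perTcoh N l k (π.toAddMonoidHom.comp ((ρ : V →+ E).comp c₁)) x =
      b * π.toAddMonoidHom.comp ((ρ : V →+ E).comp c₁) x := by
  rw [perReduceA_nat_apply hNat N l hl hlN E k, perReduceA_nat_apply hNat N l hl hlN V E, hc₁]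
  simp only [AddMonoidHom.coe_comp, Function.comp_apply, AddMonoidHom.coe_coe, map_mul, hrb,
    LinearMap.toAddMonoidHom_coe]
  rw [← Algebra.smul_def, map_smul, smul_eq_mul]

theorem perReduceA_main (hFG : PERFGStatement) (hR : PERResidueStatement) (hSc : PERScaleStatement)
    (hF : PERFunctionalStatement) (hNat : PERTcohNatStatement) : PERReduceStatement := by
  intro N _ c hc hpar S hS a ha 𝔪 h𝔪
  obtain ⟨V, hV, E, instE, ρ, ι, hρι⟩ := hR 𝔪 h𝔪
  obtain ⟨t, ht, htV, x₀, hx₀⟩ := hSc (Gamma0 N) (hFG N) ℂ V c hc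
  let c₁ : Additive (Gamma0 N) →+ V :=
    { toFun := fun x => ⟨t * c x, htV x⟩
      map_zero' := Subtype.ext (by simp)
      map_add' := fun x y => Subtype.ext (by simp [mul_add]) }
  have hc₁ : ∀ x, (c₁ x : ℂ) = t * c x := fun x => rfl
  have := h𝔪
  let _ : Field (integralClosure ℤ ℂ ⧸ 𝔪) := Ideal.Quotient.field 𝔪
  let _ : Algebra (integralClosure ℤ ℂ ⧸ 𝔪) E := ι.toAlgebra
  obtain ⟨π, hπ⟩ := hF (integralClosure ℤ ℂ ⧸ 𝔪) E
  refine ⟨π.toAddMonoidHom.comp ((ρ : V →+ E).comp c₁), ?_, ?_, ?_⟩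
  · intro h0
    have h1 : π.toAddMonoidHom.comp ((ρ : V →+ E).comp c₁) x₀ = 1 := by
      have h2 : c₁ x₀ = 1 := Subtype.ext (by rw [hc₁, hx₀]; rfl)
      simp [h2, hπ]
    rw [h0] at h1
    exact zero_ne_one h1
  · intro γ hγ
    have h1 : c₁ (Additive.ofMul γ) = 0 := Subtype.ext (by rw [hc₁, hpar γ hγ, mul_zero]; rfl)
    simp [h1]
  · intro l hl
    obtain ⟨hlp, hlN⟩ := hS l hl
    ext x
    have h1 := perReduceA_step_push hNat N l hlp hlN V E (integralClosure ℤ ℂ ⧸ 𝔪) ρ π c₁
      ⟨(a l : ℂ), hV (a l)⟩ (Ideal.Quotient.mk 𝔪 (a l)) (hρι (a l))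
      (perReduceA_step_val hNat N l hlp hlN V c t c₁ hc₁ ⟨(a l : ℂ), hV (a l)⟩ (ha l hl)) x
    exact h1

end Fermat.Agent.S42
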