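/-
S42 moonshot — block PER, package PERResidue (suffix A).

Reduction to the residue field of a valuation subring of `ℂ` dominating the localization of the
ring of algebraic integers at a maximal ideal.
-/
import Mathlib
import Fermat.Agent.S42.PERInterfaces2

set_option autoImplicit false

namespace Fermat.Agent.S42

/-- A valuation subring of `ℂ` containing the algebraic integers in which every element of the
maximal ideal `𝔪` lies in the maximal ideal. -/
theorem perResidueA_exists_val (𝔪 : Ideal (integralClosure ℤ ℂ)) (h𝔪 : 𝔪.IsMaximal) :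
    ∃ V : ValuationSubring ℂ, ∃ hV : ∀ x : integralClosure ℤ ℂ, (x : ℂ) ∈ V,
      ∀ x : integralClosure ℤ ℂ, x ∈ 𝔪 →
        (⟨(x : ℂ), hV x⟩ : V) ∈ IsLocalRing.maximalIdeal V := by
  -- the identity map from the underlying subring to the subalgebra
  let f : ((integralClosure ℤ ℂ).toSubring) →+* (integralClosure ℤ ℂ) :=
    { toFun := fun x => ⟨(x : ℂ), x.2⟩
      map_one' := rfl
      map_mul' := fun _ _ => rfl
      map_zero' := rfl
      map_add' := fun _ _ => rfl }
  have hI : Ideal.comap f 𝔪 ≠ ⊤ := by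
    intro htop
    apply h𝔪.ne_top
    rw [Ideal.eq_top_iff_one]
    have h1 : (1 : ((integralClosure ℤ ℂ).toSubring)) ∈ Ideal.comap f 𝔪 := by
      rw [htop]; exact Submodule.mem_top
    have h2 : f 1 ∈ 𝔪 := Ideal.mem_comap.mp h1
    rwa [map_one] at h2
  obtain ⟨V, hle, hsub⟩ :=
    Ideal.image_subset_nonunits_valuationSubring (Ideal.comap f 𝔪) hI
  have hV : ∀ x : integralClosure ℤ ℂ, (x : ℂ) ∈ V := fun x => hle x.2
  refine ⟨V, hV, ?_⟩
  intro x hx
  have hxn : (x : ℂ) ∈ V.nonunits := by
    apply hsub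
    refine ⟨⟨(x : ℂ), x.2⟩, ?_, rfl⟩
    show f ⟨(x : ℂ), x.2⟩ ∈ 𝔪
    exact hx
  obtain ⟨_, hmem⟩ := ValuationSubring.mem_nonunits_iff_exists_mem_maximalIdeal.mp hxn
  exact hmem

/-- (RESIDUE) Reduction to the residue field of the valuation ring. -/
theorem perResidueA_main : PERResidueStatement := by
  intro 𝔪 h𝔪
  obtain ⟨V, hV, hmem⟩ := perResidueA_exists_val 𝔪 h𝔪
  let g : integralClosure ℤ ℂ →+* V :=
    { toFun := fun x => ⟨(x : ℂ), hV x⟩
      map_one' := rfl
      map_mul' := fun _ _ => rfl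
      map_zero' := rfl
      map_add' := fun _ _ => rfl }
  refine ⟨V, hV, IsLocalRing.ResidueField V, inferInstance, IsLocalRing.residue V,
    Ideal.Quotient.lift 𝔪 ((IsLocalRing.residue V).comp g) ?_, ?_⟩
  · intro x hx
    show IsLocalRing.residue V (g x) = 0
    rw [IsLocalRing.residue_eq_zero_iff]
    exact hmem x hx
  · intro x
    rfl

end Fermat.Agent.S42
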