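/-
S42 moonshot — block PER, package PERScale (suffix A).
A nonzero homomorphism from a finitely generated group to a field can be rescaled to take values
in a given valuation subring, with the value `1` attained.
-/
import Mathlib
import Fermat.Agent.S42.PERInterfaces

set_option autoImplicit false

namespace Fermat.Agent.S42

/-- If `t * c` takes values in `V` on a generating set, then it takes values in `V` everywhere. -/
theorem perScaleA_mem_of_closure {G : Type} [Group G] {L : Type} [Field L]
    (V : ValuationSubring L) (c : Additive G →+ L) (t : L) (s : Set G)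
    (hs : Subgroup.closure s = ⊤) (h : ∀ g ∈ s, t * c (Additive.ofMul g) ∈ V) (g : G) :
    t * c (Additive.ofMul g) ∈ V := by
  have hg : g ∈ Subgroup.closure s := by rw [hs]; exact Subgroup.mem_top g
  induction hg using Subgroup.closure_induction with
  | mem x hx => exact h x hx
  | one =>
    rw [ofMul_one, map_zero, mul_zero]
    exact V.zero_mem
  | mul x y _ _ hx hy =>
    rw [ofMul_mul, map_add, mul_add]
    exact V.add_mem _ _ hx hy
  | inv x _ hx =>
    rw [ofMul_inv, map_neg, mul_neg]
    exact V.neg_mem _ hx

/-- A homomorphism vanishing on a generating set vanishes everywhere. -/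
theorem perScaleA_eq_zero_of_closure {G : Type} [Group G] {L : Type} [Field L]
    (c : Additive G →+ L) (s : Set G)
    (hs : Subgroup.closure s = ⊤) (h : ∀ g ∈ s, c (Additive.ofMul g) = 0) (g : G) :
    c (Additive.ofMul g) = 0 := by
  have hg : g ∈ Subgroup.closure s := by rw [hs]; exact Subgroup.mem_top g
  induction hg using Subgroup.closure_induction with
  | mem x hx => exact h x hx
  | one => rw [ofMul_one, map_zero]
  | mul x y _ _ hx hy => rw [ofMul_mul, map_add, hx, hy, add_zero]
  | inv x _ hx => rw [ofMul_inv, map_neg, hx, neg_zero]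

/-- (SCALE) A nonzero homomorphism from a finitely generated group to a field can be rescaled to
take values in a given valuation subring, with the value `1` attained. -/
theorem perScaleA_main : PERScaleStatement := by
  intro G _ hfg L _ V c hc
  obtain ⟨s, hs⟩ := hfg.out
  -- some generator has nonzero image
  have hex : ∃ g ∈ s, c (Additive.ofMul g) ≠ 0 := by
    by_contra hno
    apply hc
    refine DFunLike.ext _ _ (fun x => ?_)
    have hx : c (Additive.ofMul (Additive.toMul x)) = 0 :=
      perScaleA_eq_zero_of_closure c (↑s) hs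
        (fun g hg => by
          by_contra hne
          exact hno ⟨g, Finset.mem_coe.mp hg, hne⟩)
        (Additive.toMul x)
    rw [ofMul_toMul] at hx
    rw [hx, AddMonoidHom.zero_apply]
  obtain ⟨g₁, hg₁s, hg₁⟩ := hex
  -- choose a generator of maximal valuation
  obtain ⟨g₀, hg₀s, hmax⟩ := Finset.exists_max_image s
    (fun g => V.valuation (c (Additive.ofMul g))) ⟨g₁, hg₁s⟩
  have hv₁ : V.valuation (c (Additive.ofMul g₁)) ≠ 0 := by
    rw [Ne, map_eq_zero]; exact hg₁
  have hv₀ : V.valuation (c (Additive.ofMul g₀)) ≠ 0 := by
    intro h0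
    have hle := hmax g₁ hg₁s
    rw [h0] at hle
    exact hv₁ (le_antisymm hle zero_le)
  have hg₀ : c (Additive.ofMul g₀) ≠ 0 := by
    intro h0
    apply hv₀
    rw [h0, map_zero]
  refine ⟨(c (Additive.ofMul g₀))⁻¹, inv_ne_zero hg₀, ?_, Additive.ofMul g₀, inv_mul_cancel₀ hg₀⟩
  intro x
  have key : (c (Additive.ofMul g₀))⁻¹ * c (Additive.ofMul (Additive.toMul x)) ∈ V := by
    refine perScaleA_mem_of_closure V c (c (Additive.ofMul g₀))⁻¹ (↑s) hs ?_ (Additive.toMul x)
    intro g hg
    rw [← V.valuation_le_one_iff, map_mul, map_inv₀]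
    exact (inv_mul_le_one₀ (zero_lt_iff.mpr hv₀)).mpr (hmax g (Finset.mem_coe.mp hg))
  rw [ofMul_toMul] at key
  exact key

end Fermat.Agent.S42
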