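/-
S42 moonshot — block PER, package PERSig.
The basic calculus of `perSig`, `perGam` (defining relation, cocycle rules, bijectivity), derived
formally from the existence and uniqueness of the coset decomposition (`PERCosetStatement`).
-/
import Mathlib
import Fermat.Agent.S42.PERInterfaces

set_option autoImplicit false

open UpperHalfPlane CongruenceSubgroup ModularCurve ModularCurve.Period
open scoped MatrixGroups ModularForm TensorProduct

namespace Fermat.Agent.S42

/-- If some decomposition `α_i γ = γ' α_{i'}` exists, then `perSig`, `perGam` give one. -/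
theorem perSig_rel_of_exists (N l : ℕ) (γ : Gamma0 N) (i : Option (Fin l))
    (h : ∃ (i' : Option (Fin l)) (γ' : Gamma0 N), PERRel N l γ i i' γ') :
    PERRel N l γ i (perSig N l γ i) (perGam N l γ i) := by
  unfold perSig perGam
  rw [dif_pos h, dif_pos h]
  exact h.choose_spec.choose_spec

/-- Uniqueness: any decomposition `α_i γ = γ' α_{i'}` is the one given by `perSig`, `perGam`. -/
theorem perSig_unique (N l : ℕ)
    (hex : ∀ (γ : Gamma0 N) (i : Option (Fin l)),
      ∃ (i' : Option (Fin l)) (γ' : Gamma0 N), PERRel N l γ i i' γ')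
    (huniq : ∀ (x y : Gamma0 N) (a b : Option (Fin l)),
      Matrix.SpecialLinearGroup.mapGL ℝ (x : SL(2, ℤ)) * perAlpha l a =
        Matrix.SpecialLinearGroup.mapGL ℝ (y : SL(2, ℤ)) * perAlpha l b → a = b ∧ x = y)
    (γ : Gamma0 N) (i i' : Option (Fin l)) (γ' : Gamma0 N) (h : PERRel N l γ i i' γ') :
    perSig N l γ i = i' ∧ perGam N l γ i = γ' := by
  have h1 : PERRel N l γ i (perSig N l γ i) (perGam N l γ i) :=
    perSig_rel_of_exists N l γ i (hex γ i)
  unfold PERRel at h h1
  obtain ⟨ha, hx⟩ := huniq (perGam N l γ i) γ' (perSig N l γ i) i' (h1.symm.trans h)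
  exact ⟨ha, hx⟩

/-- The trivial decomposition for `γ = 1`. -/
theorem perSig_rel_one (N l : ℕ) (i : Option (Fin l)) : PERRel N l 1 i i 1 := by
  unfold PERRel
  rw [Subgroup.coe_one, map_one, mul_one, one_mul]

/-- Composition of decompositions. -/
theorem perSig_rel_mul (N l : ℕ) (γ δ : Gamma0 N) (i i' i'' : Option (Fin l)) (γ' δ' : Gamma0 N)
    (h1 : PERRel N l γ i i' γ') (h2 : PERRel N l δ i' i'' δ') :
    PERRel N l (γ * δ) i i'' (γ' * δ') := by
  unfold PERRel at h1 h2 ⊢
  rw [Subgroup.coe_mul, Subgroup.coe_mul, map_mul, map_mul, ← mul_assoc, h1, mul_assoc, h2,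
    mul_assoc]

theorem perSig_main (hC : PERCosetStatement) : PERSigStatement := by
  intro N l _ hl hlN
  obtain ⟨hex, huniq⟩ := hC N l hl hlN
  have hrel : ∀ (γ : Gamma0 N) (i : Option (Fin l)),
      PERRel N l γ i (perSig N l γ i) (perGam N l γ i) :=
    fun γ i => perSig_rel_of_exists N l γ i (hex γ i)
  have hmul : ∀ (γ δ : Gamma0 N) (i : Option (Fin l)),
      perSig N l (γ * δ) i = perSig N l δ (perSig N l γ i) ∧
      perGam N l (γ * δ) i = perGam N l γ i * perGam N l δ (perSig N l γ i) :=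
    fun γ δ i => perSig_unique N l hex huniq (γ * δ) i _ _
      (perSig_rel_mul N l γ δ i _ _ _ _ (hrel γ i) (hrel δ (perSig N l γ i)))
  have hone : ∀ i : Option (Fin l), perSig N l 1 i = i :=
    fun i => (perSig_unique N l hex huniq 1 i i 1 (perSig_rel_one N l i)).1
  refine ⟨hrel, ?_, fun γ δ i => (hmul γ δ i).1, fun γ δ i => (hmul γ δ i).2⟩
  intro γ
  refine Function.bijective_iff_has_inverse.mpr ⟨perSig N l γ⁻¹, ?_, ?_⟩
  · intro i
    rw [← (hmul γ γ⁻¹ i).1, mul_inv_cancel, hone]
  · intro i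
    rw [← (hmul γ⁻¹ γ i).1, inv_mul_cancel, hone]

end Fermat.Agent.S42
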