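/-
S42 moonshot — block PER, package PERTcohApply.
The defining formula of the cohomological Hecke operator `perTcoh` and its naturality in the
coefficient group, assuming the calculus of `perSig`, `perGam` (`PERSigStatement`).
-/
import Mathlib
import Fermat.Agent.S42.PERInterfaces

set_option autoImplicit false

open CongruenceSubgroup
open scoped MatrixGroups

namespace Fermat.Agent.S42

/-- The raw formula `γ ↦ ∑ i, c (γ_i)` is additive in `γ` (cocycle rule and reindexing along the
bijection `perSig N l γ`). -/
theorem perTcohApply_raw_add (hS : PERSigStatement) (N l : ℕ) [NeZero N] (hl : l.Prime)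
    (hlN : ¬ l ∣ N) {A : Type*} [AddCommGroup A] (c : Additive (Gamma0 N) →+ A)
    (γ δ : Additive (Gamma0 N)) :
    perTcohRaw N l c (γ + δ) = perTcohRaw N l c γ + perTcohRaw N l c δ := by
  obtain ⟨-, hbij, -, hgam⟩ := hS N l hl hlN
  unfold perTcohRaw
  rw [toMul_add]
  simp only [hgam, ofMul_mul, map_add, Finset.sum_add_distrib]
  congr 1
  exact (hbij (Additive.toMul γ)).sum_comp
    (fun i => c (Additive.ofMul (perGam N l (Additive.toMul δ) i)))

/-- The raw formula is the underlying function of an additive homomorphism. -/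
theorem perTcohApply_exists (hS : PERSigStatement) (N l : ℕ) [NeZero N] (hl : l.Prime)
    (hlN : ¬ l ∣ N) {A : Type*} [AddCommGroup A] (c : Additive (Gamma0 N) →+ A) :
    ∃ φ : Additive (Gamma0 N) →+ A, ⇑φ = perTcohRaw N l c :=
  ⟨AddMonoidHom.mk' (perTcohRaw N l c) (perTcohApply_raw_add hS N l hl hlN c), rfl⟩

/-- `perTcoh N l A c` is given by the raw formula. -/
theorem perTcohApply_coe (hS : PERSigStatement) (N l : ℕ) [NeZero N] (hl : l.Prime)
    (hlN : ¬ l ∣ N) {A : Type*} [AddCommGroup A] (c : Additive (Gamma0 N) →+ A) :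
    ⇑(perTcoh N l A c) = perTcohRaw N l c := by
  have h : ∀ c : Additive (Gamma0 N) →+ A,
      ∃ φ : Additive (Gamma0 N) →+ A, ⇑φ = perTcohRaw N l c :=
    perTcohApply_exists hS N l hl hlN
  unfold perTcoh
  rw [dif_pos h]
  exact (h c).choose_spec

/-- (TCOH-APPLY) The defining formula of `perTcoh`. -/
theorem perTcohApply_main (hS : PERSigStatement) : PERTcohApplyStatement := by
  intro N l _ hl hlN A _ c γ
  rw [perTcohApply_coe hS N l hl hlN c]
  rfl

/-- (TCOH-NAT) Naturality of `perTcoh` in the coefficient group. -/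
theorem perTcohApply_nat (hS : PERSigStatement) : PERTcohNatStatement := by
  intro N l _ hl hlN A B _ _ f c
  refine AddMonoidHom.ext fun γ => ?_
  rw [perTcohApply_coe hS N l hl hlN, AddMonoidHom.comp_apply, perTcohApply_coe hS N l hl hlN]
  simp only [perTcohRaw, AddMonoidHom.comp_apply, map_sum]

end Fermat.Agent.S42
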