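/-
S42 moonshot — block PER, package PERTcohPar.
`perTcoh` preserves parabolic homomorphisms (`perTcohPar_main`, assuming the statements SIG,
TCOH-APPLY, ORBIT-SUM, TRACE-POW, POW), and `perTcohLam` is the restriction of `perTcoh`
(`perTcohPar_lam`, assuming TCOH-PAR).
-/
import Mathlib
import Fermat.Agent.S42.PERInterfaces
import Fermat.Agent.S42.PERInterfaces2

set_option autoImplicit false

open UpperHalfPlane CongruenceSubgroup ModularCurve ModularCurve.Period
open scoped MatrixGroups ModularForm TensorProduct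

namespace Fermat.Agent.S42

/-- Powers of the permutation attached to a bijective self-map are its iterates. -/
theorem perTcohPar_pow_apply {I : Type} (g : I → I) (hg : Function.Bijective g) (k : ℕ) (j : I) :
    ((Equiv.ofBijective g hg : Equiv.Perm I) ^ k) j = g^[k] j := by
  rw [← Equiv.Perm.iterate_eq_pow]
  rfl

/-- (TCOH-PAR) `perTcoh` preserves parabolic homomorphisms. -/
theorem perTcohPar_main (hS : PERSigStatement) (hA : PERTcohApplyStatement)
    (hO : PEROrbitSumStatement) (hT : PERTracePowStatement) (hP : PERPowStatement) :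
    PERTcohParStatement := by
  intro N l _ hl hlN A _ c hc γ hγ
  rw [hA N l hl hlN A c γ]
  obtain ⟨-, hbij, -, -⟩ := hS N l hl hlN
  refine hO (Option (Fin l)) (Equiv.ofBijective (perSig N l γ) (hbij γ)) A
    (fun i => c (Additive.ofMul (perGam N l γ i))) ?_
  intro i r _ hfix
  obtain ⟨-, h2, h3⟩ := hP N l hl hlN γ r i
  rw [perTcohPar_pow_apply] at hfix
  have hsum : ∑ k ∈ Finset.range r,
      c (Additive.ofMul (perGam N l γ (((Equiv.ofBijective (perSig N l γ) (hbij γ) :
        Equiv.Perm (Option (Fin l))) ^ k) i))) =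
      ∑ k ∈ Finset.range r, c (Additive.ofMul (perGam N l γ ((perSig N l γ)^[k] i))) :=
    Finset.sum_congr rfl (fun k _ => by rw [perTcohPar_pow_apply])
  show ∑ k ∈ Finset.range r,
      c (Additive.ofMul (perGam N l γ (((Equiv.ofBijective (perSig N l γ) (hbij γ) :
        Equiv.Perm (Option (Fin l))) ^ k) i))) = 0
  rw [hsum, h2 A c]
  apply hc
  rw [h3 hfix]
  have hpow : ((γ ^ r : Gamma0 N) : SL(2, ℤ)) = (γ : SL(2, ℤ)) ^ r := SubgroupClass.coe_pow γ r
  rw [hpow]
  exact hT (γ : SL(2, ℤ)) hγ r

/-- (TCOH-LAM) `perTcohLam` is the restriction of `perTcoh`. -/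
theorem perTcohPar_lam (hPar : PERTcohParStatement) : PERTcohLamStatement := by
  intro N l _ hl hlN p c
  have h : ∀ c : Additive (Gamma0 N) →+ ZMod p, IsParabolicHom (Gamma0 N) c →
      IsParabolicHom (Gamma0 N) (perTcoh N l (ZMod p) c) := hPar N l hl hlN (ZMod p)
  unfold perTcohLam
  rw [dif_pos h]
  rfl

end Fermat.Agent.S42
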