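import Mathlib
import Fermat.Agent.S42.PERInterfaces
import Fermat.Agent.S42.PERInterfaces2

/-
S42 moonshot — block PER, package PERTensor (second, independent worker; names carry a `B`).
Assembly lemmas:
* `perTensorB_main`    : (COMPARE-INJ) + (COMPARE-SURJ) + (COMPARE-HECKE) ⟹ (TENSOR);
* `perTensorB_compare` : (COMPARE-INJ) + (COMPARE-SURJ) + (COMPARE-HECKE) ⟹ (COMPARE);
* `perTensorB_final`   : (PERIOD-EIGEN) + (PERIOD-NE) + (INTEGRAL) + (REDUCE) + (TCOH-NAT) + (TENSOR)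
                         ⟹ (PER-MAIN).
-/

set_option autoImplicit false

open UpperHalfPlane CongruenceSubgroup ModularCurve ModularCurve.Period
open scoped MatrixGroups ModularForm TensorProduct

namespace Fermat.Agent.S42

/-- (TENSOR) from injectivity, surjectivity onto parabolic homomorphisms and Hecke-equivariance of
the comparison map. -/
theorem perTensorB_main (hI : PERCompareInjStatement) (hSu : PERCompareSurjStatement)
    (hH : PERCompareHeckeStatement) : PERTensorStatement := by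
  intro N _ p _ K _ _ c' hc' hpar
  obtain ⟨v, hv⟩ := hSu N p K c' hpar
  refine ⟨v, ?_, ?_⟩
  · rintro rfl
    apply hc'
    rw [← hv, map_zero]
  · intro l hl hlN b hb
    apply hI N p K
    rw [hH N p K l hl hlN v, hv, map_smul, hv, hb]

/-- (COMPARE) is the conjunction of its three parts. -/
theorem perTensorB_compare (hI : PERCompareInjStatement) (hSu : PERCompareSurjStatement)
    (hH : PERCompareHeckeStatement) : PERCompareStatement := by
  intro N _ p _ K _ _
  exact ⟨hI N p K, hSu N p K, hH N p K⟩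

/-- A ring homomorphism from `ℤ̄` to a field `K` killing a maximal ideal `𝔪` induces an injective
ring homomorphism `ℤ̄ ⧸ 𝔪 → K`. -/
theorem perTensorB_lift_injective (𝔪 : Ideal (integralClosure ℤ ℂ)) (h𝔪 : 𝔪.IsMaximal)
    (K : Type) [Field K] (ψ : integralClosure ℤ ℂ →+* K) (hψ : 𝔪 ≤ RingHom.ker ψ) :
    Function.Injective
      (Ideal.Quotient.lift 𝔪 ψ (fun _ hx => RingHom.mem_ker.mp (hψ hx))) := by
  let _ : Field (integralClosure ℤ ℂ ⧸ 𝔪) := Ideal.Quotient.field 𝔪
  exact RingHom.injective _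

/-- (PER-MAIN): assembly of the output of the block. -/
theorem perTensorB_final (hPE : PERPeriodEigenStatement) (hNe : PERPeriodNeZeroStatement)
    (hInt : PERIntegralStatement) (hRed : PERReduceStatement) (hNat : PERTcohNatStatement)
    (hTen : PERTensorStatement) : PERMainStatement := by
  classical
  intro N _ p _ g hg 𝔪 h𝔪 K _ _ ψ hψ
  -- the complex period eigenvector
  obtain ⟨hc0, hcpar⟩ := hNe N g hg
  -- the integral eigenvalues
  set a : ℕ → integralClosure ℤ ℂ := fun l =>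
    if h : l.Prime ∧ ¬ l ∣ N then ⟨ModularFormClass.qCoeff ⇑g l, hInt N g hg l h.1 h.2⟩ else 0
    with ha
  have ha_coe : ∀ l : ℕ, l.Prime → ¬ l ∣ N →
      ((a l : integralClosure ℤ ℂ) : ℂ) = ModularFormClass.qCoeff ⇑g l := by
    intro l hl hlN
    simp only [ha, dif_pos (And.intro hl hlN)]
  -- reduction modulo `𝔪`
  obtain ⟨c₁, hc₁0, hc₁par, hc₁eig⟩ :=
    hRed N (periodMap N g) hc0 hcpar {l : ℕ | l.Prime ∧ ¬ l ∣ N} (fun l hl => hl) a
      (fun l hl => by rw [ha_coe l hl.1 hl.2]; exact hPE N g hg l hl.1 hl.2) 𝔪 h𝔪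
  -- transport along `ψ̄ : ℤ̄ ⧸ 𝔪 → K`
  set ψ' : (integralClosure ℤ ℂ ⧸ 𝔪) →+* K :=
    Ideal.Quotient.lift 𝔪 ψ (fun _ hx => RingHom.mem_ker.mp (hψ hx)) with hψ'
  have hψ'inj : Function.Injective ψ' := perTensorB_lift_injective 𝔪 h𝔪 K ψ hψ
  have hψ'mk : ∀ x : integralClosure ℤ ℂ, ψ' (Ideal.Quotient.mk 𝔪 x) = ψ x := fun x =>
    Ideal.Quotient.lift_mk 𝔪 ψ _
  set c' : Additive (Gamma0 N) →+ K := (ψ' : (integralClosure ℤ ℂ ⧸ 𝔪) →+ K).comp c₁ with hc'
  have hc'apply : ∀ γ : Additive (Gamma0 N), c' γ = ψ' (c₁ γ) := fun γ => rfl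
  have hc'0 : c' ≠ 0 := by
    intro h
    apply hc₁0
    refine AddMonoidHom.ext (fun γ => ?_)
    apply hψ'inj
    rw [← hc'apply, h, AddMonoidHom.zero_apply, AddMonoidHom.zero_apply, map_zero]
  have hc'par : IsParabolicHom (Gamma0 N) c' := by
    intro γ hγ
    rw [hc'apply, hc₁par γ hγ, map_zero]
  have hc'eig : ∀ l : ℕ, l.Prime → ¬ l ∣ N → perTcoh N l K c' = ψ (a l) • c' := by
    intro l hl hlN
    rw [hc', hNat N l hl hlN _ _ (ψ' : (integralClosure ℤ ℂ ⧸ 𝔪) →+ K) c₁,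
      hc₁eig l ⟨hl, hlN⟩]
    refine AddMonoidHom.ext (fun γ => ?_)
    simp [hψ'mk]
  -- the eigenvector in the tensor product
  obtain ⟨v, hv0, hveig⟩ := hTen N p K c' hc'0 hc'par
  refine ⟨v, hv0, ?_⟩
  intro l hl hlN a₀ ha₀
  have : a₀ = a l := Subtype.ext (by rw [ha₀, ha_coe l hl hlN])
  rw [this]
  exact hveig l hl hlN (ψ (a l)) (hc'eig l hl hlN)

end Fermat.Agent.S42
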