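/-
S42 moonshot — block PER, package PERTracePow.
Powers of parabolic elements (`trace ^ 2 = 4`) of `SL(2, ℤ)` are parabolic.
-/
import Mathlib
import Fermat.Agent.S42.PERInterfaces2

set_option autoImplicit false

open scoped MatrixGroups

namespace Fermat.Agent.S42

/-- Cayley–Hamilton for a `2 × 2` integer matrix of determinant one: `A * A = tr(A) • A - 1`. -/
theorem perTracePow_sq (A : Matrix (Fin 2) (Fin 2) ℤ) (hA : A.det = 1) :
    A * A = A.trace • A - 1 := by
  rw [Matrix.det_fin_two] at hA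
  ext i j
  fin_cases i <;> fin_cases j <;>
    simp only [Matrix.mul_apply, Fin.sum_univ_two, Matrix.trace_fin_two, Matrix.sub_apply,
      Matrix.smul_apply, Matrix.one_apply, smul_eq_mul, Fin.zero_eta, Fin.mk_one, Fin.isValue,
      one_ne_zero, zero_ne_one, if_true, if_false] <;>
    first
      | ring1
      | linear_combination (-1 : ℤ) * hA

/-- The trace recursion `tr(A^(r+2)) = tr(A) * tr(A^(r+1)) - tr(A^r)`. -/
theorem perTracePow_rec (A : Matrix (Fin 2) (Fin 2) ℤ) (hA : A.det = 1) (r : ℕ) :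
    (A ^ (r + 2)).trace = A.trace * (A ^ (r + 1)).trace - (A ^ r).trace := by
  have h : A ^ (r + 2) = A.trace • A ^ (r + 1) - A ^ r := by
    rw [pow_add, pow_two, perTracePow_sq A hA, mul_sub, mul_one, Matrix.mul_smul, pow_succ]
  rw [h, Matrix.trace_sub, Matrix.trace_smul, smul_eq_mul]

/-- Both `tr(A^r)` and `tr(A^(r+1))` equal `2` when `tr(A) = 2`. -/
theorem perTracePow_two (A : Matrix (Fin 2) (Fin 2) ℤ) (hA : A.det = 1) (ht : A.trace = 2)
    (r : ℕ) : (A ^ r).trace = 2 ∧ (A ^ (r + 1)).trace = 2 := by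
  induction r with
  | zero =>
    refine ⟨?_, ?_⟩
    · simp
    · simpa using ht
  | succ n ih =>
    refine ⟨ih.2, ?_⟩
    rw [perTracePow_rec A hA n, ht, ih.1, ih.2]
    norm_num

/-- `tr(A^r) = 2 * (-1)^r` (and the same for `r + 1`) when `tr(A) = -2`. -/
theorem perTracePow_negTwo (A : Matrix (Fin 2) (Fin 2) ℤ) (hA : A.det = 1) (ht : A.trace = -2)
    (r : ℕ) : (A ^ r).trace = 2 * (-1) ^ r ∧ (A ^ (r + 1)).trace = 2 * (-1) ^ (r + 1) := by
  induction r with
  | zero =>
    refine ⟨?_, ?_⟩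
    · simp
    · simpa using ht
  | succ n ih =>
    refine ⟨ih.2, ?_⟩
    rw [perTracePow_rec A hA n, ht, ih.1, ih.2]
    ring

/-- Matrix version: if `det A = 1` and `tr(A)^2 = 4` then `tr(A^r)^2 = 4`. -/
theorem perTracePow_matrix (A : Matrix (Fin 2) (Fin 2) ℤ) (hA : A.det = 1)
    (ht : A.trace ^ 2 = 4) (r : ℕ) : (A ^ r).trace ^ 2 = 4 := by
  have h2 : A.trace = 2 ∨ A.trace = -2 := by
    have h : (A.trace - 2) * (A.trace + 2) = 0 := by linear_combination ht
    rcases mul_eq_zero.mp h with h | h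
    · left; linarith
    · right; linarith
  rcases h2 with h | h
  · rw [(perTracePow_two A hA h r).1]
    norm_num
  · rw [(perTracePow_negTwo A hA h r).1, mul_pow, ← pow_mul, mul_comm r 2, pow_mul]
    norm_num

theorem perTracePow_main : PERTracePowStatement := by
  intro γ ht r
  rw [Matrix.SpecialLinearGroup.coe_pow]
  exact perTracePow_matrix (γ : Matrix (Fin 2) (Fin 2) ℤ) γ.det_coe ht r

end Fermat.Agent.S42
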