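/-
S42 moonshot — block PER: FINAL ASSEMBLY.  Hypothesis-free versions of all PER statements.
-/
import Fermat.Agent.S42.PERCosetEx
import Fermat.Agent.S42.PERCosetUniq
import Fermat.Agent.S42.PERSig
import Fermat.Agent.S42.PERTcohApply
import Fermat.Agent.S42.PERAction
import Fermat.Agent.S42.PEROrbitSumA
import Fermat.Agent.S42.PERTracePow
import Fermat.Agent.S42.PERPow
import Fermat.Agent.S42.PERTcohPar
import Fermat.Agent.S42.PERPrimHeckeA
import Fermat.Agent.S42.PEREigen
import Fermat.Agent.S42.PERIntegralB
import Fermat.Agent.S42.PERPeriodEigenA
import Fermat.Agent.S42.PERFG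
import Fermat.Agent.S42.PERResidueA
import Fermat.Agent.S42.PERScaleA
import Fermat.Agent.S42.PERFunctional
import Fermat.Agent.S42.PERReduceA
import Fermat.Agent.S42.PERCompareInjA
import Fermat.Agent.S42.PERCompareSurjA
import Fermat.Agent.S42.PERCompareHecke
import Fermat.Agent.S42.PERTensorB

set_option autoImplicit false

namespace Fermat.Agent.S42

/-- (COSET), hypothesis-free. -/
theorem per_coset : PERCosetStatement :=
  fun N l _ hl hlN => ⟨perCosetEx_main N l hl hlN, perCosetUniq_main N l hl hlN⟩

/-- (SIG), hypothesis-free. -/
theorem per_sig : PERSigStatement := perSig_main per_coset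

/-- (TCOH-APPLY), hypothesis-free. -/
theorem per_tcohApply : PERTcohApplyStatement := perTcohApply_main per_sig

/-- (TCOH-NAT), hypothesis-free. -/
theorem per_tcohNat : PERTcohNatStatement := perTcohApply_nat per_sig

/-- (ACTION), hypothesis-free. -/
theorem per_action : PERActionStatement := perAction_main per_sig

/-- (POW), hypothesis-free. -/
theorem per_pow : PERPowStatement := perPow_main per_coset per_sig

/-- (TCOH-PAR), hypothesis-free. -/
theorem per_tcohPar : PERTcohParStatement :=
  perTcohPar_main per_sig per_tcohApply perOrbitSumA_main perTracePow_main per_pow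

/-- (TCOH-LAM), hypothesis-free. -/
theorem per_tcohLam : PERTcohLamStatement := perTcohPar_lam per_tcohPar

/-- (PRIM-HECKE), hypothesis-free. -/
theorem per_primHecke : PERPrimHeckeStatement := perPrimHeckeA_main

/-- (EIGEN), hypothesis-free. -/
theorem per_eigen : PEREigenStatement := perEigen_main

/-- (INTEGRAL), hypothesis-free. -/
theorem per_integral : PERIntegralStatement := perIntegralB_main per_eigen

/-- (PERIOD-EIGEN), hypothesis-free. -/
theorem per_periodEigen : PERPeriodEigenStatement :=
  perPeriodEigenA_main per_sig per_tcohApply per_action per_primHecke per_eigen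

/-- (PERIOD-NE), hypothesis-free. -/
theorem per_periodNe : PERPeriodNeZeroStatement := perPeriodEigenA_ne

/-- (REDUCE), hypothesis-free. -/
theorem per_reduce : PERReduceStatement :=
  perReduceA_main perFG_main perResidueA_main perScaleA_main perFunctional_main per_tcohNat

/-- (COMPARE-HECKE), hypothesis-free. -/
theorem per_compareHecke : PERCompareHeckeStatement :=
  perCompareHecke_main perCompareInjA_tmul per_tcohApply per_tcohLam

/-- (COMPARE-SURJ), hypothesis-free. -/
theorem per_compareSurj : PERCompareSurjStatement :=
  perCompareSurjA_main perFG_main perCompareInjA_tmul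

/-- (TENSOR), hypothesis-free. -/
theorem per_tensor : PERTensorStatement :=
  perTensorB_main perCompareInjA_main per_compareSurj per_compareHecke

/-- (PER-MAIN), hypothesis-free: the output of the PER block. -/
theorem per_main : PERMainStatement :=
  perTensorB_final per_periodEigen per_periodNe per_integral per_reduce per_tcohNat per_tensor

end Fermat.Agent.S42
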