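/-
S42, package ES (twin A): the Eichler–Shimura relation on `p`-power torsion of `J₀(N)` for every
Frobenius element, from the S37 block statements.  Purely formal (pattern of `asmb_core`).
Prefix `esa_`.
-/
import Fermat.Agent.S42.Interfaces
import Fermat.Agent.S37.ASMB

set_option autoImplicit false
set_option synthInstance.maxHeartbeats 400000

open ModularCurve AlgebraicCurve

namespace Fermat.Agent.S42

open Fermat.Agent.S37 Fermat.Agent.S18

noncomputable section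

/-- **(ES')** the Eichler–Shimura relation on `p`-power torsion, for every Frobenius element. -/
theorem esa_main : Fermat.Agent.S37.RSpecStatement → Fermat.Agent.S37.R1Statement →
    Fermat.Agent.S37.R2Statement → Fermat.Agent.S37.R4Statement → Fermat.Agent.S37.HIStatement →
    Fermat.Agent.S37.DatumExistsStatement → ESStatement := by
  intro hR h1 h2 h4 hI hDE N p _ ℓ hℓ hNp A hA σ hσ x hx
  obtain ⟨n, hn⟩ := hx
  have : Fact ℓ.Prime := ⟨hℓ⟩
  have : NeZero ℓ := ⟨hℓ.ne_zero⟩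
  have hN : ¬ ℓ ∣ N := fun h => hNp (Dvd.dvd.mul_right h p)
  have hp : ¬ ℓ ∣ p := fun h => hNp (Dvd.dvd.mul_left h N)
  have hpn : ¬ ℓ ∣ p ^ n := fun h => hp (hℓ.dvd_of_dvd_pow h)
  obtain ⟨r, hS⟩ := hR N ℓ hN A hA
  obtain ⟨hac, hchar, -⟩ := hDE N ℓ hN A hA
  have := hac
  have := hchar
  have hsurj : Function.Surjective (frobenius (kA A) ℓ) := by
    intro y
    obtain ⟨z, hz⟩ := IsAlgClosed.exists_pow_nat_eq y hℓ.pos
    exact ⟨z, hz⟩
  have hΦ : ∀ P : Place Qb ↥(FL Qb N),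
      r (arithmeticGalois (modularFunctionFieldFull N) σ • P)
        = MulAction.toPerm (coeffAut (kA A) N
            (RingEquiv.ofBijective (frobenius (kA A) ℓ) ⟨frobenius_inj (kA A) ℓ, hsurj⟩)) (r P) :=
    fun P => asmb_r_frob N ℓ A r (h2 N ℓ hN A hA r hS) _ (fun x => rfl) σ hσ P
  have hmem := asmb_special r ℓ hℓ σ _ hΦ (hI N ℓ hℓ)
    (fun P => h4 N ℓ hN A hA r hS (hI N ℓ hℓ) _ (fun x => rfl) P) x
  refine asmb_torsion r (p ^ n) (h1 N ℓ hN A hA r hS (p ^ n) hpn) _ hmem ?_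
  have e1 : p ^ n • (σ • σ • x) = 0 := by
    rw [smul_comm (p ^ n) σ (σ • x), smul_comm (p ^ n) σ x, hn, smul_zero, smul_zero]
  have e2 : p ^ n • (heckeOperatorBar N ⟨ℓ, hℓ⟩ (σ • x)) = 0 := by
    rw [← map_nsmul, smul_comm (p ^ n) σ x, hn, smul_zero, map_zero]
  have e3 : p ^ n • (ℓ • x) = 0 := by
    rw [smul_comm (p ^ n) ℓ x, hn, smul_zero]
  rw [nsmul_add, nsmul_sub, e1, e2, e3, sub_zero, add_zero]
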