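/-
S42 moonshot — block ES', assembly (helper26): `es_main : ESStatement`, from the landed S37
specialisation machinery.
-/
import Fermat.Agent.S42.ESA
import Fermat.Agent.S37

set_option autoImplicit false

namespace Fermat.Agent.S42

open Fermat.Agent.S37 in
/-- (ES') the Eichler–Shimura relation on `p`-power torsion, for every Frobenius element. -/
theorem es_main : ESStatement :=
  esa_main r_spec cn_main (galb_main r_specUnique r_datumExists r_inChart) s37final_r4
    hi_main r_datumExists

end Fermat.Agent.S42
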