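/-
S42, package `FreyKerB`: the mod-`p` representation of the Frey curve factors through a finite
extension of `ℚ` inside `ℚ̄` (the field generated by the coordinates of the `p`-torsion points).
-/
import Mathlib
import Fermat.Prelude.Def_FreyPackage_EigenformResidualAttachment
import Fermat.Agent.S13.Defs
import Fermat.Agent.S13.DivExistsB
import Fermat.Agent.S13.Spec
import Fermat.Agent.S13.CountA
import Fermat.Agent.S13.KumExtra
import Fermat.Agent.S13.FreyCard
import Fermat.Agent.S13.Mink

set_option autoImplicit false

open WeierstrassCurve WeierstrassCurve.Affine.Point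
open scoped CongruenceSubgroup

namespace Fermat.Agent.S42

attribute [local instance] FreyPackage.instDecEqQbarCongruenceRecovery

/-- The action on the `p`-torsion of the Frey curve factors through the stabiliser of a finite
set (unconditional form of the S13 statement). -/
theorem frkb_freyOpen : Fermat.Agent.S13.FreyOpenStatement :=
  Fermat.Agent.S13.frc_open
    (Fermat.Agent.S13.frc_card Fermat.Agent.S13.kxt_kumExtra
      (Fermat.Agent.S13.cta_count Fermat.Agent.S13.deb_divExists Fermat.Agent.S13.spc_spec))

theorem frkb_main (P : FreyPackage) :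
    ∃ FE : IntermediateField ℚ (AlgebraicClosure ℚ), FiniteDimensional ℚ FE ∧
      FE.fixingSubgroup ≤ (WeierstrassCurve.Affine.Point.galoisRepModuleEnd (S := ℚ) (K := AlgebraicClosure ℚ) P.freyCurve P.p).ker := by
  obtain ⟨S, hS⟩ := frkb_freyOpen P
  refine ⟨IntermediateField.adjoin ℚ (S : Set (AlgebraicClosure ℚ)),
    Fermat.Agent.S13.mnk_finite_adjoin S, ?_⟩
  refine Fermat.Agent.S13.mnk_fixing_le _ S ?_
  intro σ hσ
  rw [MonoidHom.mem_ker]
  apply LinearMap.ext
  intro v
  have h := hS σ hσ v
  rw [Module.End.one_apply]
  exact h
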