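/-
S42 moonshot — block GH (helper26): Galois commutes with the Hecke correspondences.
Statement-`Prop`s only.
-/
import Fermat.Agent.S42.Interfaces

set_option autoImplicit false

open ModularCurve AlgebraicCurve CongruenceSubgroup

namespace Fermat.Agent.S42

noncomputable section

/-- (GH-PULL) pullback of divisors along `φ` is equivariant for intertwined semilinear
automorphisms. -/
def GHPullStatement : Prop :=
  ∀ (K F F' : Type) [Field K] [Field F] [Field F'] [Algebra K F] [Algebra K F']
    [HasPrincipalDivisors K F'] (φ : F →ₐ[K] F') (hφ : φ.toRingHom.IsIntegral)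
    (g : SemilinearAut K F) (g' : SemilinearAut K F'),
    SemilinearAut.IntertwinesAlong φ.toRingHom g g' →
    ∀ D : Divisor K F, Divisor.pullbackAlong φ hφ (g • D) = g' • Divisor.pullbackAlong φ hφ D

/-- (GH-PUSH) pushforward of divisors along `φ` is equivariant for intertwined semilinear
automorphisms. -/
def GHPushStatement : Prop :=
  ∀ (K F F' : Type) [Field K] [Field F] [Field F'] [Algebra K F] [Algebra K F']
    (φ : F →ₐ[K] F') (hφ : φ.toRingHom.IsIntegral)
    (g : SemilinearAut K F) (g' : SemilinearAut K F'),
    SemilinearAut.IntertwinesAlong φ.toRingHom g g' →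
    ∀ D' : Divisor K F', Divisor.pushforwardAlong φ hφ (g' • D') = g • Divisor.pushforwardAlong φ hφ D'

/-- (GH-DIV) the Hecke correspondence on divisors commutes with the arithmetic Galois action. -/
def GHDivStatement : Prop :=
  ∀ (N ℓ : ℕ) [NeZero N] [NeZero ℓ] (hI : HeckeInputsAlong Qbar N ℓ) (σ : Qbar ≃ₐ[ℚ] Qbar)
    (D : Divisor Qbar (FN N)),
    (haveI := hI.snd.snd.fst; heckeDivBar hI.fst hI.snd.fst
        (arithmeticGalois (modularFunctionFieldFull N) σ • D))
      = arithmeticGalois (modularFunctionFieldFull N) σ •
          (haveI := hI.snd.snd.fst; heckeDivBar hI.fst hI.snd.fst D)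

end

end Fermat.Agent.S42
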