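/-
S42 moonshot — package GHASM (twin B): Galois commutes with the Hecke operators on `J₀(N)`,
from the equivariance of pullback and pushforward of divisors.  Prefix `ghab_`.
-/
import Fermat.Agent.S42.GHInterfaces

set_option autoImplicit false

open ModularCurve AlgebraicCurve CongruenceSubgroup

namespace Fermat.Agent.S42

noncomputable section

/-- Coefficient maps commute with `q ↦ q ^ n`. -/
theorem ghab_coeffMap_qExpand {R S : Type*} [CommRing R] [CommRing S] (f : R →+* S) (n : ℕ)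
    [NeZero n] (x : LaurentSeries R) : coeffMap f (qExpand R n x) = qExpand S n (coeffMap f x) := by
  ext k
  by_cases hk : (n : ℤ) ∣ k
  · obtain ⟨m, rfl⟩ := hk
    rw [coeffMap_coeff, qExpand_coeff_mul, qExpand_coeff_mul, coeffMap_coeff]
  · rw [coeffMap_coeff, qExpand_coeff_of_not_dvd n _ hk, qExpand_coeff_of_not_dvd n _ hk,
      map_zero]

/-- The inclusion `F_N ⊆ F_{Nℓ}` intertwines the arithmetic Galois actions. -/
theorem ghab_intertwines_alpha (N ℓ : ℕ) [NeZero N] [NeZero ℓ] (σ : Qbar ≃ₐ[ℚ] Qbar) :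
    SemilinearAut.IntertwinesAlong (heckeAlphaBar Qbar N ℓ).toRingHom
      (arithmeticGalois (modularFunctionFieldFull N) σ)
      (arithmeticGalois (modularFunctionFieldFull (N * ℓ)) σ) := by
  intro x
  apply Subtype.ext
  show coeffMap (σ : Qbar →+* Qbar) ((heckeAlphaBar Qbar N ℓ x : FN (N * ℓ)) : LaurentSeries Qbar)
    = ((heckeAlphaBar Qbar N ℓ (arithmeticGalois (modularFunctionFieldFull N) σ • x) : FN (N * ℓ)) :
        LaurentSeries Qbar)
  rw [coe_heckeAlphaBar, coe_heckeAlphaBar, coe_arithmeticGalois_smul]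

/-- The map `q ↦ q ^ ℓ` intertwines the arithmetic Galois actions. -/
theorem ghab_intertwines_beta (N ℓ : ℕ) [NeZero N] [NeZero ℓ] (σ : Qbar ≃ₐ[ℚ] Qbar) :
    SemilinearAut.IntertwinesAlong (heckeBetaBar Qbar N ℓ).toRingHom
      (arithmeticGalois (modularFunctionFieldFull N) σ)
      (arithmeticGalois (modularFunctionFieldFull (N * ℓ)) σ) := by
  intro x
  apply Subtype.ext
  show coeffMap (σ : Qbar →+* Qbar) ((heckeBetaBar Qbar N ℓ x : FN (N * ℓ)) : LaurentSeries Qbar)
    = ((heckeBetaBar Qbar N ℓ (arithmeticGalois (modularFunctionFieldFull N) σ • x) : FN (N * ℓ)) :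
        LaurentSeries Qbar)
  rw [coe_heckeBetaBar, coe_heckeBetaBar, coe_arithmeticGalois_smul, ghab_coeffMap_qExpand]

/-- (GH-DIV) the Hecke correspondence on divisors commutes with the arithmetic Galois action. -/
theorem ghab_div (hpull : GHPullStatement) (hpush : GHPushStatement) : GHDivStatement := by
  intro N ℓ _ _ hI σ D
  have := hI.snd.snd.fst
  show Divisor.pushforwardAlong (heckeAlphaBar Qbar N ℓ) hI.fst
      (Divisor.pullbackAlong (heckeBetaBar Qbar N ℓ) hI.snd.fst
        (arithmeticGalois (modularFunctionFieldFull N) σ • D))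
    = arithmeticGalois (modularFunctionFieldFull N) σ •
      Divisor.pushforwardAlong (heckeAlphaBar Qbar N ℓ) hI.fst
        (Divisor.pullbackAlong (heckeBetaBar Qbar N ℓ) hI.snd.fst D)
  rw [hpull Qbar (FN N) (FN (N * ℓ)) (heckeBetaBar Qbar N ℓ) hI.snd.fst _ _
      (ghab_intertwines_beta N ℓ σ) D,
    hpush Qbar (FN N) (FN (N * ℓ)) (heckeAlphaBar Qbar N ℓ) hI.fst _ _
      (ghab_intertwines_alpha N ℓ σ)]

/-- The Hecke operator on the class of a divisor. -/
theorem ghab_heckeOperatorAlong_mk {N : ℕ} [NeZero N] (q : ℕ) [NeZero q]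
    (h : HeckeInputsAlong Qbar N q)
    (D : Divisor Qbar (FN N)) (hD : D ∈ Divisor.degZero (K := Qbar) (F := FN N)) :
    ∃ hD' : (haveI := h.snd.snd.fst; heckeDivBar h.fst h.snd.fst D)
        ∈ Divisor.degZero (K := Qbar) (F := FN N),
      heckeOperatorAlong Qbar N q (Pic0.mk ⟨D, hD⟩ : JZero N) = Pic0.mk ⟨_, hD'⟩ := by
  have := h.snd.snd.fst
  refine ⟨Divisor.correspondence_mem_degZero _ _ h.snd.fst h.fst h.snd.snd.snd.snd.1 hD, ?_⟩
  rw [heckeOperatorAlong, dif_pos h]
  rfl

/-- The Galois action on the class of a divisor. -/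
theorem ghab_galois_smul_mk {N : ℕ} (σ : Qbar ≃ₐ[ℚ] Qbar) (D : Divisor Qbar (FN N))
    (hD : D ∈ Divisor.degZero (K := Qbar) (F := FN N)) :
    σ • (Pic0.mk ⟨D, hD⟩ : JZero N) =
      Pic0.mk ⟨arithmeticGalois (modularFunctionFieldFull N) σ • D,
        SemilinearAut.smul_mem_degZero _ hD⟩ :=
  rfl

/-- (GH) Galois commutes with the Hecke operators on `J₀(N)`. -/
theorem ghab_main : GHPullStatement → GHPushStatement → GHStatement := by
  intro hpull hpush N _ ℓ σ x
  have : NeZero (ℓ : ℕ) := ⟨ℓ.2.ne_zero⟩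
  rw [heckeOperatorBar_apply, heckeOperatorBar_apply]
  by_cases h : HeckeInputsAlong Qbar N ℓ
  · obtain ⟨⟨D, hD⟩, rfl⟩ := Pic0.mk_surjective x
    rw [ghab_galois_smul_mk]
    obtain ⟨hD1, e1⟩ := ghab_heckeOperatorAlong_mk (ℓ : ℕ) h
      (arithmeticGalois (modularFunctionFieldFull N) σ • D)
      (SemilinearAut.smul_mem_degZero _ hD)
    obtain ⟨hD2, e2⟩ := ghab_heckeOperatorAlong_mk (ℓ : ℕ) h D hD
    rw [e1, e2, ghab_galois_smul_mk]
    congr 1
    exact Subtype.ext (ghab_div hpull hpush N ℓ h σ D)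
  · rw [heckeOperatorAlong_of_not h]
    simp only [AddMonoidHom.zero_apply, smul_zero]

end

end Fermat.Agent.S42
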