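/-
S42 moonshot — package GHPULL (file A): pullback of divisors along `φ` is equivariant for
intertwined semilinear automorphisms.
-/
import Fermat.Agent.S42.GHInterfaces

set_option autoImplicit false

namespace Fermat.Agent.S42

noncomputable section

section

variable {K F F' : Type} [Field K] [Field F] [Field F'] [Algebra K F] [Algebra K F']

open AlgebraicCurve in
/-- Restriction of places along `φ` is equivariant. -/
theorem ghpa_restrictAlong_smul (φ : F →ₐ[K] F') (hφ : φ.toRingHom.IsIntegral)
    (g : SemilinearAut K F) (g' : SemilinearAut K F')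
    (h : SemilinearAut.IntertwinesAlong φ.toRingHom g g') (w : Place K F') :
    (g' • w).restrictAlong φ hφ = g • (w.restrictAlong φ hφ) := by
  have hinv := h.inv
  apply Place.ext
  ext x
  rw [SemilinearAut.smul_toValuationSubring,
    ValuationSubring.mem_pointwise_smul_iff_inv_smul_mem]
  show φ.toRingHom x ∈ (g' • w).toValuationSubring ↔
    φ.toRingHom (g⁻¹ • x) ∈ w.toValuationSubring
  rw [SemilinearAut.smul_toValuationSubring,
    ValuationSubring.mem_pointwise_smul_iff_inv_smul_mem, hinv x]

open AlgebraicCurve in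
/-- The ramification index along `φ` is invariant. -/
theorem ghpa_ramificationIndexAlong_smul (φ : F →ₐ[K] F')
    (g : SemilinearAut K F) (g' : SemilinearAut K F')
    (h : SemilinearAut.IntertwinesAlong φ.toRingHom g g') (w : Place K F') :
    Place.ramificationIndexAlong φ (g' • w) = Place.ramificationIndexAlong φ w := by
  have hinv := h.inv
  show sInf {n : ℕ | 0 < n ∧ ∃ f : F, f ≠ 0 ∧ (g' • w).ord (φ.toRingHom f) = n}
    = sInf {n : ℕ | 0 < n ∧ ∃ f : F, f ≠ 0 ∧ w.ord (φ.toRingHom f) = n}
  congr 1
  ext n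
  constructor
  · rintro ⟨hn, f, hf, hfn⟩
    refine ⟨hn, g⁻¹ • f, ?_, ?_⟩
    · simpa using hf
    · rw [← hinv f, ← hfn]
      have := SemilinearAut.ord_smul g' w (g'⁻¹ • φ.toRingHom f)
      rw [smul_inv_smul] at this
      exact this.symm
  · rintro ⟨hn, f, hf, hfn⟩
    refine ⟨hn, g • f, ?_, ?_⟩
    · simpa using hf
    · rw [← h f, ← hfn]
      exact SemilinearAut.ord_smul g' w (φ.toRingHom f)

end

open AlgebraicCurve in
theorem ghpa_main : GHPullStatement := by
  intro K F F' _ _ _ _ _ _ φ hφ g g' h D
  ext w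
  rw [Divisor.pullbackAlong_apply, SemilinearAut.divisor_smul_apply,
    SemilinearAut.divisor_smul_apply, Divisor.pullbackAlong_apply,
    ghpa_restrictAlong_smul φ hφ g⁻¹ g'⁻¹ h.inv w,
    ghpa_ramificationIndexAlong_smul φ g⁻¹ g'⁻¹ h.inv w]

end

end Fermat.Agent.S42
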