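/-
S42 moonshot, block GH, package GHPUSH (twin B): pushforward of divisors along an integral
`K`-algebra map is equivariant for intertwined semilinear automorphisms.
-/
import Fermat.Agent.S42.GHInterfaces

set_option autoImplicit false

open AlgebraicCurve

namespace Fermat.Agent.S42

noncomputable section

open scoped Pointwise

section Tower

variable {K F F' : Type*} [Field K] [Field F] [Field F']
  [Algebra K F] [Algebra K F'] [Algebra F F'] [IsScalarTower K F F']
  [Algebra.IsIntegral F F']

/-- membership in the translated restricted place. -/
theorem ghqb_mem_restrict_smul (g : SemilinearAut K F) (g' : SemilinearAut K F')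
    (h : ∀ x : F, g' • algebraMap F F' x = algebraMap F F' (g • x)) (w : Place K F') (x : F) :
    x ∈ ((g' • w).restrict F).toValuationSubring ↔
      x ∈ (g • (w.restrict F)).toValuationSubring := by
  have hinv : ∀ y : F, g'⁻¹ • algebraMap F F' y = algebraMap F F' (g⁻¹ • y) := fun y => by
    have hy := h (g⁻¹ • y)
    rw [smul_inv_smul] at hy
    rw [← hy, inv_smul_smul]
  rw [Place.mem_restrict_iff, SemilinearAut.smul_toValuationSubring,
    SemilinearAut.smul_toValuationSubring,
    ValuationSubring.mem_pointwise_smul_iff_inv_smul_mem,
    ValuationSubring.mem_pointwise_smul_iff_inv_smul_mem, Place.mem_restrict_iff, hinv x]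

/-- restriction of places is equivariant. -/
theorem ghqb_restrict_smul (g : SemilinearAut K F) (g' : SemilinearAut K F')
    (h : ∀ x : F, g' • algebraMap F F' x = algebraMap F F' (g • x)) (w : Place K F') :
    (g' • w).restrict F = g • (w.restrict F) := by
  ext1
  exact SetLike.ext fun x => ghqb_mem_restrict_smul g g' h w x

/-- the ring isomorphism between the valuation rings of `w.restrict F` and
`(g' • w).restrict F` induced by `g`. -/
def ghqb_restrictEquiv (g : SemilinearAut K F) (g' : SemilinearAut K F')
    (h : ∀ x : F, g' • algebraMap F F' x = algebraMap F F' (g • x)) (w : Place K F') :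
    (w.restrict F).toValuationSubring ≃+* ((g' • w).restrict F).toValuationSubring where
  toFun a := ⟨g • (a : F), by
    rw [ghqb_mem_restrict_smul g g' h w, SemilinearAut.smul_toValuationSubring]
    exact ValuationSubring.smul_mem_pointwise_smul g (a : F) _ a.2⟩
  invFun b := ⟨g⁻¹ • (b : F), by
    have hb := (ghqb_mem_restrict_smul g g' h w (b : F)).mp b.2
    rw [SemilinearAut.smul_toValuationSubring,
      ValuationSubring.mem_pointwise_smul_iff_inv_smul_mem] at hb
    exact hb⟩
  left_inv a := by ext; simp
  right_inv b := by ext; simp
  map_mul' a b := Subtype.ext (smul_mul' g (a : F) (b : F))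
  map_add' a b := Subtype.ext (smul_add g (a : F) (b : F))

/-- the inertia degree is invariant. -/
theorem ghqb_inertiaDeg_smul (g : SemilinearAut K F) (g' : SemilinearAut K F')
    (h : ∀ x : F, g' • algebraMap F F' x = algebraMap F F' (g • x)) (w : Place K F') :
    (g' • w).inertiaDeg F = w.inertiaDeg F := by
  unfold Place.inertiaDeg
  refine (Algebra.finrank_eq_of_equiv_equiv
    (R₀ := (w.restrict F).ResidueField) (S₀ := w.ResidueField)
    (R₁ := ((g' • w).restrict F).ResidueField) (S₁ := (g' • w).ResidueField)
    (IsLocalRing.ResidueField.mapEquiv (ghqb_restrictEquiv g g' h w))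
    (SemilinearAut.smulResidueRingEquiv g' w) ?_).symm
  refine RingHom.ext fun x => ?_
  obtain ⟨a, rfl⟩ := IsLocalRing.residue_surjective x
  show Place.restrictResidueMap F (g' • w)
      (IsLocalRing.ResidueField.map _ (IsLocalRing.residue _ a))
    = IsLocalRing.ResidueField.map
        (SemilinearAut.smulValuationSubringEquiv g' w.toValuationSubring : _ →+* _)
      (Place.restrictResidueMap F w (IsLocalRing.residue _ a))
  rw [IsLocalRing.ResidueField.map_residue, Place.restrictResidueMap_residue,
    Place.restrictResidueMap_residue, IsLocalRing.ResidueField.map_residue]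
  refine congrArg _ (Subtype.ext ?_)
  exact (h (a : F)).symm

end Tower

/-- (GH-PUSH) -/
theorem ghqb_main : GHPushStatement := by
  intro K F F' _ _ _ _ _ φ hφ g g' hI D'
  have hrestr : ∀ w : Place K F', (g' • w).restrictAlong φ hφ = g • (w.restrictAlong φ hφ) := by
    intro w
    let _ := algebraAlong φ
    have := isScalarTower_along φ
    have := isIntegral_along φ hφ
    exact ghqb_restrict_smul g g' hI w
  have hinert : ∀ w : Place K F', (g' • w).inertiaDegAlong φ hφ = w.inertiaDegAlong φ hφ := by
    intro w
    let _ := algebraAlong φ
    have := isScalarTower_along φ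
    have := isIntegral_along φ hφ
    exact ghqb_inertiaDeg_smul g g' hI w
  induction D' using Finsupp.induction with
  | zero => simp
  | single_add w n D _ _ ih =>
    rw [smul_add, map_add, map_add, smul_add, ih, SemilinearAut.smul_single,
      Divisor.pushforwardAlong_single, Divisor.pushforwardAlong_single,
      SemilinearAut.smul_single, hrestr, hinert]

end

end Fermat.Agent.S42
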