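/-
S42 moonshot — block GH, assembly (helper26): `gh_main : GHStatement`.
-/
import Fermat.Agent.S42.GHPullA
import Fermat.Agent.S42.GHPushB
import Fermat.Agent.S42.GHAsmB

set_option autoImplicit false

namespace Fermat.Agent.S42

/-- (GH) Galois commutes with the Hecke operators on `J₀(N)`. -/
theorem gh_main : GHStatement :=
  ghab_main ghpa_main ghqb_main

end Fermat.Agent.S42
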