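/-
S42 moonshot — block OPEN (helper26): every point of `J₀(N)` has an open stabiliser.
-/
import Fermat.Agent.S42.Interfaces

set_option autoImplicit false

open ModularCurve AlgebraicCurve CongruenceSubgroup

namespace Fermat.Agent.S42

noncomputable section

/-- (OPEN-ELT) every element of `F_N` is fixed by an open subgroup. -/
def OpenEltStatement : Prop :=
  ∀ (N : ℕ) [NeZero N] (f : FN N),
    ∃ E : IntermediateField ℚ Qbar, FiniteDimensional ℚ E ∧
      ∀ σ : Qbar ≃ₐ[ℚ] Qbar, σ ∈ E.fixingSubgroup →
        arithmeticGalois (modularFunctionFieldFull N) σ • f = f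

/-- (OPEN-PLACE) every place of `F_N` is fixed by an open subgroup. -/
def OpenPlaceStatement : Prop :=
  ∀ (N : ℕ) [NeZero N] (P : Place Qbar (FN N)),
    ∃ E : IntermediateField ℚ Qbar, FiniteDimensional ℚ E ∧
      ∀ σ : Qbar ≃ₐ[ℚ] Qbar, σ ∈ E.fixingSubgroup →
        arithmeticGalois (modularFunctionFieldFull N) σ • P = P

end

end Fermat.Agent.S42
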