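/-
S42 moonshot — package OPENASM (helper651): every point of `J₀(N)` has an open stabiliser,
assuming every place of `F_N` has one.
-/
import Fermat.Agent.S42.OpenInterfaces

set_option autoImplicit false

open ModularCurve AlgebraicCurve CongruenceSubgroup

namespace Fermat.Agent.S42

noncomputable section

/-- A finite set of places of `F_N` is fixed pointwise by an open subgroup. -/
theorem opaa_finset (h : OpenPlaceStatement) (N : ℕ) [NeZero N]
    (s : Finset (Place Qbar (FN N))) :
    ∃ E : IntermediateField ℚ Qbar, FiniteDimensional ℚ E ∧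
      ∀ σ : Qbar ≃ₐ[ℚ] Qbar, σ ∈ E.fixingSubgroup →
        ∀ P ∈ s, arithmeticGalois (modularFunctionFieldFull N) σ • P = P := by
  classical
  induction s using Finset.induction_on with
  | empty =>
    exact ⟨⊥, inferInstance, fun _ _ P hP => absurd hP (Finset.notMem_empty P)⟩
  | insert a s _ ih =>
    obtain ⟨E₁, hE₁, h₁⟩ := ih
    obtain ⟨E₂, hE₂, h₂⟩ := h N a
    refine ⟨E₁ ⊔ E₂, IntermediateField.finiteDimensional_sup E₁ E₂, fun σ hσ P hP => ?_⟩
    have hσ₁ : σ ∈ E₁.fixingSubgroup :=
      IntermediateField.fixingSubgroup_le (le_sup_left : E₁ ≤ E₁ ⊔ E₂) hσ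
    have hσ₂ : σ ∈ E₂.fixingSubgroup :=
      IntermediateField.fixingSubgroup_le (le_sup_right : E₂ ≤ E₁ ⊔ E₂) hσ
    rcases Finset.mem_insert.mp hP with rfl | hP
    · exact h₂ σ hσ₂
    · exact h₁ σ hσ₁ P hP

/-- (OPEN) every point of `J₀(N)` is fixed by an open subgroup, given the same for places. -/
theorem opaa_main : OpenPlaceStatement → OpenStabStatement := by
  intro h N _ x
  obtain ⟨⟨D, hD⟩, rfl⟩ := Pic0.mk_surjective x
  obtain ⟨E, hE, hfix⟩ := opaa_finset h N D.support
  refine ⟨E, hE, fun σ hσ => ?_⟩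
  have hsmul : arithmeticGalois (modularFunctionFieldFull N) σ • D = D := by
    rw [SemilinearAut.divisor_smul_def]
    have := Finsupp.mapDomain_congr (v := D)
      (f := fun P => arithmeticGalois (modularFunctionFieldFull N) σ • P) (g := id)
      (fun P hP => hfix σ hσ P hP)
    rw [this, Finsupp.mapDomain_id]
  show (Pic0.mk ⟨arithmeticGalois (modularFunctionFieldFull N) σ • D,
        SemilinearAut.smul_mem_degZero _ hD⟩ : JZero N) = Pic0.mk ⟨D, hD⟩
  congr 1
  exact Subtype.ext hsmul

end

end Fermat.Agent.S42
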