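/-
S42 moonshot — block OPEN, package OPENELT (twin A): every element of `F_N` is fixed by an
open subgroup of `Gal(Qbar/ℚ)`.
-/
import Fermat.Agent.S42.OpenInterfaces

set_option autoImplicit false

open ModularCurve AlgebraicCurve

namespace Fermat.Agent.S42

noncomputable section

/-- General form over any algebraic extension `L/ℚ`: every element of the base change is fixed
(coefficientwise) by the fixing subgroup of a finite-dimensional subextension. -/
theorem opea_general {L : Type*} [Field L] [Algebra ℚ L] [Algebra.IsAlgebraic ℚ L]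
    (F₀ : IntermediateField ℚ (LaurentSeries ℚ)) {x : LaurentSeries L}
    (hx : x ∈ laurentBaseChange L F₀) :
    ∃ E : IntermediateField ℚ L, FiniteDimensional ℚ E ∧
      ∀ σ : L ≃ₐ[ℚ] L, σ ∈ E.fixingSubgroup → coeffMap (σ : L →+* L) x = x := by
  rw [mem_laurentBaseChange_iff] at hx
  induction hx using Subfield.closure_induction with
  | mem y hy =>
      rcases hy with ⟨a, rfl⟩ | ⟨z, hz, rfl⟩
      · refine ⟨IntermediateField.adjoin ℚ {a},
          IntermediateField.adjoin.finiteDimensional (Algebra.IsIntegral.isIntegral a), ?_⟩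
        intro σ hσ
        rw [coeffMap_algebraMap]
        congr 1
        exact (IntermediateField.mem_fixingSubgroup_iff _ σ).1 hσ a
          (IntermediateField.mem_adjoin_simple_self ℚ a)
      · exact ⟨⊥, inferInstance, fun σ _ => coeffMap_coeffEmb σ z⟩
  | one => exact ⟨⊥, inferInstance, fun σ _ => map_one _⟩
  | add x y _ _ hx hy =>
      obtain ⟨E₁, h₁, hE₁⟩ := hx
      obtain ⟨E₂, h₂, hE₂⟩ := hy
      refine ⟨E₁ ⊔ E₂, IntermediateField.finiteDimensional_sup E₁ E₂, fun σ hσ => ?_⟩
      rw [map_add, hE₁ σ (IntermediateField.fixingSubgroup_le le_sup_left hσ),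
        hE₂ σ (IntermediateField.fixingSubgroup_le le_sup_right hσ)]
  | neg x _ hx =>
      obtain ⟨E, h, hE⟩ := hx
      exact ⟨E, h, fun σ hσ => by rw [map_neg, hE σ hσ]⟩
  | inv x _ hx =>
      obtain ⟨E, h, hE⟩ := hx
      exact ⟨E, h, fun σ hσ => by rw [map_inv₀, hE σ hσ]⟩
  | mul x y _ _ hx hy =>
      obtain ⟨E₁, h₁, hE₁⟩ := hx
      obtain ⟨E₂, h₂, hE₂⟩ := hy
      refine ⟨E₁ ⊔ E₂, IntermediateField.finiteDimensional_sup E₁ E₂, fun σ hσ => ?_⟩
      rw [map_mul, hE₁ σ (IntermediateField.fixingSubgroup_le le_sup_left hσ),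
        hE₂ σ (IntermediateField.fixingSubgroup_le le_sup_right hσ)]

/-- (OPEN-ELT) every element of `F_N` is fixed by an open subgroup. -/
theorem opea_main : OpenEltStatement := by
  intro N _ f
  have hcl : IsAlgClosure ℚ Qbar := by
    have h : (AlgebraicClosure.instAlgebra ℚ : Algebra ℚ (AlgebraicClosure ℚ)) =
        DivisionRing.toRatAlgebra := Subsingleton.elim _ _
    first
      | infer_instance
      | (rw [← h]; infer_instance)
  have halg : Algebra.IsAlgebraic ℚ Qbar := IsAlgClosure.isAlgebraic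
  obtain ⟨E, hE, hfix⟩ := opea_general (L := Qbar) (modularFunctionFieldFull N) f.2
  refine ⟨E, hE, fun σ hσ => Subtype.ext ?_⟩
  rw [coe_arithmeticGalois_smul]
  exact hfix σ hσ

end

end Fermat.Agent.S42
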