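/-
S42 moonshot — block OPEN, package OPENPLACE: every place of `F_N` is fixed by the fixing subgroup
of a finite extension of `ℚ` (given the same statement for elements of `F_N`, and finiteness of
zeros of a nonzero function).
-/
import Fermat.Agent.S42.OpenInterfaces
import Fermat.Agent.S24.GalAuxOrd
import Fermat.Agent.S37.HIInterfaces

set_option autoImplicit false

open ModularCurve AlgebraicCurve CongruenceSubgroup

namespace Fermat.Agent.S42

noncomputable section

/-- Abstract core: a semilinear automorphism fixing `x` and `y`, where `0 < P.ord x`,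
`0 < P.ord y` and `y` has order zero at all other zeros of `x`, fixes `P`. -/
theorem oppa_fix_of_elts {K F : Type*} [Field K] [Field F] [Algebra K F]
    (P : Place K F) (x y : F) (hx : 0 < P.ord x) (hy : 0 < P.ord y)
    (hxy : ∀ Q : Place K F, 0 < Q.ord x → Q ≠ P → Q.ord y = 0)
    (g : SemilinearAut K F) (gx : g • x = x) (gy : g • y = y) : g • P = P := by
  have h1 : (g • P).ord x = P.ord x := by
    have := SemilinearAut.ord_smul g P x
    rwa [gx] at this
  have h2 : (g • P).ord y = P.ord y := by
    have := SemilinearAut.ord_smul g P y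
    rwa [gy] at this
  by_contra hne
  have h3 := hxy (g • P) (by rw [h1]; exact hx) hne
  rw [h2] at h3
  omega

/-- Abstract weak-approximation step. -/
theorem oppa_exists_elts {K F : Type*} [Field K] [Field F] [Algebra K F]
    [HasPrincipalDivisors K F] (P : Place K F) :
    ∃ x y : F, 0 < P.ord x ∧ 0 < P.ord y ∧
      ∀ Q : Place K F, 0 < Q.ord x → Q ≠ P → Q.ord y = 0 := by
  classical
  obtain ⟨x, hx⟩ := Fermat.Agent.S24.Gal.exists_ord_pos P
  have hx0 : x ≠ 0 := Fermat.Agent.S24.Gal.ne_zero_of_ord_ne_zero P hx.ne'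
  obtain ⟨D, hD, -⟩ := HasPrincipalDivisors.exists_divisor (K := K) x hx0
  obtain ⟨y, hy, hyT⟩ := Fermat.Agent.S24.Gal.exists_ord_pos_forall_ord_eq_zero P
    (D.support.erase P) (by simp)
  refine ⟨x, y, hx, hy, fun Q hQ hne => hyT Q ?_⟩
  rw [Finset.mem_erase]
  refine ⟨hne, ?_⟩
  rw [Finsupp.mem_support_iff, hD Q]
  exact hQ.ne'

theorem oppa_main :
    OpenEltStatement → Fermat.Agent.S37.hi_PrincipalStatement → OpenPlaceStatement := by
  intro hElt hPr N _ P
  have : HasPrincipalDivisors Qbar (FN N) := hPr N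
  obtain ⟨x, y, hx, hy, hxy⟩ := oppa_exists_elts (K := Qbar) (F := FN N) P
  obtain ⟨Ex, hExfin, hEx⟩ := hElt N x
  obtain ⟨Ey, hEyfin, hEy⟩ := hElt N y
  have := hExfin
  have := hEyfin
  refine ⟨Ex ⊔ Ey, IntermediateField.finiteDimensional_sup Ex Ey, fun σ hσ => ?_⟩
  have hσx : σ ∈ Ex.fixingSubgroup :=
    IntermediateField.fixingSubgroup_antitone le_sup_left hσ
  have hσy : σ ∈ Ey.fixingSubgroup :=
    IntermediateField.fixingSubgroup_antitone le_sup_right hσ
  exact oppa_fix_of_elts P x y hx hy hxy _ (hEx σ hσx) (hEy σ hσy)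

end

end Fermat.Agent.S42
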