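/-
S42 moonshot — block OPEN, assembly (helper26): `open_main : OpenStabStatement`.
-/
import Fermat.Agent.S42.OpenEltA
import Fermat.Agent.S42.OpenPlaceA
import Fermat.Agent.S42.OpenAsmA
import Fermat.Agent.S37.HIMain

set_option autoImplicit false

namespace Fermat.Agent.S42

/-- (OPEN) every point of `J₀(N)` has an open stabiliser. -/
theorem open_main : OpenStabStatement :=
  opaa_main (oppa_main opea_main Fermat.Agent.S37.hi_principal)

end Fermat.Agent.S42
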