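/-
S42 moonshot — package CONST: a nonzero function of `F_N` without zeros and poles is a
constant (`ConstStatement`).

Proof: if `f` is not a constant then `f` is transcendental over the algebraically closed field
`Qbar`; as `F_N` is finite over `Qbar(j)` (S24 degree computation) it is finite over `Qbar(f)`,
and the S24 fundamental identity at the value `0` says that the sum of the orders of the zeros
of `f` is `[F_N : Qbar(f)] > 0`; so `f` has a zero.
-/
import Fermat.Agent.S42.ThetaInterfaces
import Fermat.Agent.S24.ModelCounts
import Fermat.Agent.S24.JSurj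
import Fermat.Agent.S24.Conj
import Fermat.Agent.S24.JLocal
import Fermat.Agent.S24.LemmaP
import Fermat.Agent.S24.PointVal
import Fermat.Agent.S24.Places
import Fermat.Agent.S24.Zeros
import Fermat.Agent.S24.GalB
import Fermat.Agent.S24.FormalQ
import Fermat.Agent.S24.Qexp
import Fermat.Agent.S24.PreModelBuild
import Fermat.Agent.S24.ModelAlg

set_option autoImplicit false

open ModularCurve AlgebraicCurve IntermediateField

namespace Fermat.Agent.S42

/-- The S24 degree computation (`j` is transcendental and `F_N` is finite over `Qbar(j)`). -/
theorem cstc_modelCounts : Fermat.Agent.S24.ModelCountsStatement := by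
  have hZeros : Fermat.Agent.S24.ZerosStatement := Fermat.Agent.S24.Zeros.zerosStatement
  have hPoles : Fermat.Agent.S24.PolesStatement := Fermat.Agent.S24.Zeros.polesStatement
  have hG : Fermat.Agent.S24.GalStatement := Fermat.Agent.S24.GalB.galStatement hZeros hPoles
  have hQexp : Fermat.Agent.S24.QexpStatement := Fermat.Agent.S24.Qexp.qexpStatement
  have hJB : Fermat.Agent.S24.JBasicStatement := Fermat.Agent.S24.JLocal.jBasicStatement
  have hJO : Fermat.Agent.S24.JOrdersStatement := Fermat.Agent.S24.JLocal.jOrdersStatement
  have hJQ : Fermat.Agent.S24.JQexpStatement := Fermat.Agent.S24.FormalQ.jQexpStatement hQexp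
  have hLP : Fermat.Agent.S24.LemmaPStatement :=
    Fermat.Agent.S24.LemmaP.lemmaPStatement hJB hJQ hQexp
  have hCj : Fermat.Agent.S24.ConjStatement := Fermat.Agent.S24.Conj.conjStatement hJB hJQ hQexp
  have hJS : Fermat.Agent.S24.JSurjStatement := Fermat.Agent.S24.JSurj.jSurjStatement hJB
  have hPV : Fermat.Agent.S24.PointValStatement := Fermat.Agent.S24.PointVal.pointValStatement
  have hPM : Fermat.Agent.S24.PreModelStatement :=
    Fermat.Agent.S24.PreModelBuild.preModelStatement hJB hJO hJS hJQ hQexp hLP hCj hPV
  have hMM : Fermat.Agent.S24.ModularModelStatement :=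
    Fermat.Agent.S24.ModelAlg.modularModelStatement hPM
      Fermat.Agent.S24.Places.valuationPlaceStatement
  exact Fermat.Agent.S24.ModelCounts.modelCountsStatement hG hZeros hMM

/-- Abstract form: in a function field of one variable over an algebraically closed field of
characteristic zero, a function without zeros is a constant. -/
theorem cstc_const_of_no_zero {K F : Type} [Field K] [Field F] [Algebra K F] [IsAlgClosed K]
    [CharZero K] (t : F) (ht : Transcendental K t) (hfin : FiniteDimensional K⟮t⟯ F) (f : F)
    (hord : ∀ P : Place K F, P.ord f ≤ 0) : ∃ a : K, f = algebraMap K F a := by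
  by_contra hcon
  have htr : Transcendental K f := by
    intro halg
    obtain ⟨c, hc⟩ := Fermat.Agent.S24.Places.exists_algebraMap_eq_of_isAlgebraic halg
    exact hcon ⟨c, hc.symm⟩
  have hfd : FiniteDimensional K⟮f⟯ F :=
    Fermat.Agent.S24.Places.finiteDimensional_adjoin_of_transcendental ht hfin htr
  have h := (Fermat.Agent.S24.Zeros.zerosStatement K F f htr hfd 0).2
  have hset : {w : Place K F | 0 < w.ord (f - algebraMap K F 0)} = ∅ := by
    refine Set.eq_empty_iff_forall_notMem.mpr fun w hw => ?_
    have h1 : 0 < w.ord (f - algebraMap K F 0) := hw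
    rw [map_zero, sub_zero] at h1
    exact absurd (hord w) (not_le.mpr h1)
  rw [hset] at h
  simp only [Set.mem_empty_iff_false, finsum_false, finsum_zero] at h
  have hpos : 0 < Module.finrank K⟮f⟯ F := Module.finrank_pos
  omega

/-- (CONST) a nonzero function of `F_N` without zeros and poles is a constant. -/
theorem cstc_main : ConstStatement := by
  intro N _ f _ hord
  obtain ⟨htrj, hfdj, -⟩ := cstc_modelCounts N
  exact cstc_const_of_no_zero (Fermat.Agent.S24.jBar N) htrj hfdj f (fun P => (hord P).le)

end Fermat.Agent.S42
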