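/-
S42 moonshot — package ALW (twin C): the Atkin–Lehner swap of `F_{Nℓ}`.

Deliverable: `alwc_main : Fermat.Agent.S37.kr_SInfStatement → AtkinLehnerStatement`.

Sketch.  `s : F_{Nℓ} → Ω` with `s (β f) = f(q^ℓ)`, `s (α g) = g(q^{ℓ²})`; `τ : F_{Nℓ} → Ω`,
`τ y = y(q^ℓ)` is injective with `τ (α f) = s (β f)`, `τ (β g) = s (α g)`.  Since `F_{Nℓ}` is
generated as a field by `range α ∪ range β`, the image of `s` is contained in the image of `τ`,
so `w = τ⁻¹ ∘ s` is a ring endomorphism swapping `α` and `β`; `w ∘ w` fixes the generators, hence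
is the identity.
-/
import Fermat.Agent.S42.HeckeRootInterfaces

set_option autoImplicit false

open ModularCurve AlgebraicCurve

namespace Fermat.Agent.S42

noncomputable section

/-- `coeffEmb Qbar (j(q^d)) = j(q^d)`. -/
theorem alwc_coeffEmb_qExpand (d : ℕ) [NeZero d] :
    coeffEmb Qbar (qExpand ℚ d jq) = qExpand Qbar d (jqModC Qbar) := by
  rw [coeffEmb, coeffMap_qExpand, ← jqModC_rat, coeffMap_jqModC]

/-- `coeffEmb Qbar` maps `ℚ(j(q^d) : d ∣ M)` into `Qbar(j(q^d) : d ∣ M)`. -/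
theorem alwc_coeffEmb_mem (M : ℕ) (x : LaurentSeries ℚ)
    (hx : x ∈ IntermediateField.adjoin ℚ (divisorExpansions M)) :
    coeffEmb Qbar x ∈ modularFunctionFieldFullC Qbar M := by
  induction hx using IntermediateField.adjoin_induction with
  | mem y hy =>
    obtain ⟨d, hd0, hd, rfl⟩ := hy
    have := hd0
    rw [alwc_coeffEmb_qExpand]
    exact jqModCd_mem_full Qbar M hd
  | algebraMap c =>
    rw [algebraMap_laurentSeries_eq_single, coeffEmb, coeffMap_single,
      ← algebraMap_laurentSeries_eq_single]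
    exact (modularFunctionFieldFullC Qbar M).algebraMap_mem _
  | add y z _ _ hy hz => rw [map_add]; exact add_mem hy hz
  | inv y _ hy => rw [map_inv₀]; exact inv_mem hy
  | mul y z _ _ hy hz => rw [map_mul]; exact mul_mem hy hz

theorem alwc_le (M : ℕ) : modularFunctionFieldBar M ≤ modularFunctionFieldFullC Qbar M := by
  show IntermediateField.adjoin Qbar
    (⇑(coeffEmb Qbar) '' (modularFunctionFieldFull M : Set (LaurentSeries ℚ))) ≤ _
  rw [IntermediateField.adjoin_le_iff]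
  rintro _ ⟨x, hx, rfl⟩
  exact alwc_coeffEmb_mem M x hx

/-- `j(q^d)` lies in `F_M` for `d ∣ M`. -/
theorem alwc_mem (M d : ℕ) [NeZero d] (hd : d ∣ M) :
    qExpand Qbar d (jqModC Qbar) ∈ modularFunctionFieldBar M := by
  rw [← alwc_coeffEmb_qExpand]
  exact coeffEmb_mem_laurentBaseChange _ (jqd_mem_full M hd)

theorem alwc_ge (M : ℕ) : modularFunctionFieldFullC Qbar M ≤ modularFunctionFieldBar M := by
  rw [modularFunctionFieldFullC, IntermediateField.adjoin_le_iff]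
  rintro _ ⟨d, hd0, hd, rfl⟩
  have := hd0
  exact alwc_mem M d hd

/-- Induction on the generation of `F_M` by the constants and the series `j(q^d)`, `d ∣ M`. -/
theorem alwc_induction (M : ℕ) (P : FN M → Prop)
    (hc : ∀ c : Qbar, P (algebraMap Qbar (FN M) c))
    (hd : ∀ (d : ℕ) [NeZero d] (_ : d ∣ M)
      (hmem : qExpand Qbar d (jqModC Qbar) ∈ modularFunctionFieldBar M), P ⟨_, hmem⟩)
    (hadd : ∀ x y : FN M, P x → P y → P (x + y))
    (hmul : ∀ x y : FN M, P x → P y → P (x * y))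
    (hinv : ∀ x : FN M, P x → P x⁻¹) : ∀ x : FN M, P x := by
  have hle : ∀ z : LaurentSeries Qbar,
      z ∈ IntermediateField.adjoin Qbar (divisorExpansionsC Qbar M) →
        z ∈ modularFunctionFieldBar M := fun z hz => alwc_ge M hz
  have key : ∀ (z : LaurentSeries Qbar)
      (_ : z ∈ IntermediateField.adjoin Qbar (divisorExpansionsC Qbar M))
      (hz' : z ∈ modularFunctionFieldBar M), P ⟨z, hz'⟩ := by
    intro z hz
    induction hz using IntermediateField.adjoin_induction with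
    | mem y hy =>
      obtain ⟨d, hd0, hdN, rfl⟩ := hy
      intro hz'
      have := hd0
      exact hd d hdN hz'
    | algebraMap c =>
      intro hz'
      exact hc c
    | add y z hy hz ihy ihz =>
      intro h
      have e : (⟨y + z, h⟩ : FN M) = ⟨y, hle y hy⟩ + ⟨z, hle z hz⟩ := rfl
      rw [e]
      exact hadd _ _ (ihy _) (ihz _)
    | inv y hy ih =>
      intro h
      have e : (⟨y⁻¹, h⟩ : FN M) = (⟨y, hle y hy⟩)⁻¹ := rfl
      rw [e]
      exact hinv _ (ih _)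
    | mul y z hy hz ihy ihz =>
      intro h
      have e : (⟨y * z, h⟩ : FN M) = ⟨y, hle y hy⟩ * ⟨z, hle z hz⟩ := rfl
      rw [e]
      exact hmul _ _ (ihy _) (ihz _)
  intro x
  exact key x (alwc_le M x.2) x.2

/-- Every generator `j(q^d)`, `d ∣ Nℓ`, of `F_{Nℓ}` lies in `range α ∪ range β`. -/
theorem alwc_gen (N ℓ : ℕ) [NeZero N] [NeZero ℓ] (hℓ : ℓ.Prime) (d : ℕ) [NeZero d]
    (hd : d ∣ N * ℓ) (hmem : qExpand Qbar d (jqModC Qbar) ∈ modularFunctionFieldBar (N * ℓ)) :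
    ∃ g : FN N, (⟨_, hmem⟩ : FN (N * ℓ)) = heckeAlphaBar Qbar N ℓ g ∨
      (⟨_, hmem⟩ : FN (N * ℓ)) = heckeBetaBar Qbar N ℓ g := by
  by_cases h : ℓ ∣ d
  · obtain ⟨d', hd'⟩ := h
    have hd'0 : d' ≠ 0 := by
      rintro rfl
      exact NeZero.ne d (by rw [hd', mul_zero])
    have : NeZero d' := ⟨hd'0⟩
    have hd'N : d' ∣ N := by
      rw [hd', mul_comm N ℓ] at hd
      exact Nat.dvd_of_mul_dvd_mul_left hℓ.pos hd
    refine ⟨⟨_, alwc_mem N d' hd'N⟩, Or.inr ?_⟩
    apply Subtype.ext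
    rw [coe_heckeBetaBar]
    show qExpand Qbar d (jqModC Qbar) = qExpand Qbar ℓ (qExpand Qbar d' (jqModC Qbar))
    rw [qExpand_qExpand]
    exact qExpand_congr hd' _
  · have hcop : Nat.Coprime d ℓ := ((Nat.Prime.coprime_iff_not_dvd hℓ).mpr h).symm
    have hdN : d ∣ N := hcop.dvd_of_dvd_mul_right hd
    refine ⟨⟨_, alwc_mem N d hdN⟩, Or.inl ?_⟩
    apply Subtype.ext
    rw [coe_heckeAlphaBar]

theorem alwc_main : Fermat.Agent.S37.kr_SInfStatement → AtkinLehnerStatement := by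
  intro hS N ℓ _ _ hℓ hN
  obtain ⟨s, hsβ, hsα⟩ := hS N ℓ hℓ hN
  let τ : FN (N * ℓ) →+* LaurentSeries Qbar :=
    (qExpand Qbar ℓ).comp (algebraMap (FN (N * ℓ)) (LaurentSeries Qbar))
  have hτinj : Function.Injective τ := fun a b hab =>
    Subtype.ext (qExpand_injective (R := Qbar) (N := ℓ) hab)
  have hτα : ∀ f : FN N, τ (heckeAlphaBar Qbar N ℓ f) = s (heckeBetaBar Qbar N ℓ f) := by
    intro f
    rw [hsβ]
    show qExpand Qbar ℓ ((heckeAlphaBar Qbar N ℓ f : FN (N * ℓ)) : LaurentSeries Qbar) = _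
    rw [coe_heckeAlphaBar]
  have hτβ : ∀ g : FN N, τ (heckeBetaBar Qbar N ℓ g) = s (heckeAlphaBar Qbar N ℓ g) := by
    intro g
    rw [hsα]
    show qExpand Qbar ℓ ((heckeBetaBar Qbar N ℓ g : FN (N * ℓ)) : LaurentSeries Qbar) = _
    rw [coe_heckeBetaBar, qExpand_qExpand]
  have hex : ∀ y : FN (N * ℓ), ∃ y' : FN (N * ℓ), τ y' = s y := by
    apply alwc_induction (N * ℓ)
    · intro c
      refine ⟨heckeBetaBar Qbar N ℓ (algebraMap Qbar (FN N) c), ?_⟩
      rw [hτβ, AlgHom.commutes]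
    · intro d _ hd hmem
      obtain ⟨g, hg | hg⟩ := alwc_gen N ℓ hℓ d hd hmem
      · exact ⟨heckeBetaBar Qbar N ℓ g, by rw [hτβ, hg]⟩
      · exact ⟨heckeAlphaBar Qbar N ℓ g, by rw [hτα, hg]⟩
    · rintro x y ⟨a, ha⟩ ⟨b, hb⟩
      exact ⟨a + b, by rw [map_add, map_add, ha, hb]⟩
    · rintro x y ⟨a, ha⟩ ⟨b, hb⟩
      exact ⟨a * b, by rw [map_mul, map_mul, ha, hb]⟩
    · rintro x ⟨a, ha⟩
      exact ⟨a⁻¹, by rw [map_inv₀, map_inv₀, ha]⟩
  choose wf hwf using hex
  let w : FN (N * ℓ) →+* FN (N * ℓ) :=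
    { toFun := wf
      map_one' := hτinj (by rw [hwf, map_one, map_one])
      map_mul' := fun x y => hτinj (by rw [hwf, map_mul, map_mul, hwf, hwf])
      map_zero' := hτinj (by rw [hwf, map_zero, map_zero])
      map_add' := fun x y => hτinj (by rw [hwf, map_add, map_add, hwf, hwf]) }
  have hw : ∀ y, τ (w y) = s y := hwf
  have hwα : ∀ g : FN N, w (heckeAlphaBar Qbar N ℓ g) = heckeBetaBar Qbar N ℓ g := fun g =>
    hτinj (by rw [hw, hτβ])
  have hwβ : ∀ f : FN N, w (heckeBetaBar Qbar N ℓ f) = heckeAlphaBar Qbar N ℓ f := fun f =>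
    hτinj (by rw [hw, hτα])
  have hww : ∀ y : FN (N * ℓ), w (w y) = y := by
    apply alwc_induction (N * ℓ)
    · intro c
      rw [← (heckeAlphaBar Qbar N ℓ).commutes c, hwα, hwβ]
    · intro d _ hd hmem
      obtain ⟨g, hg | hg⟩ := alwc_gen N ℓ hℓ d hd hmem
      · rw [hg, hwα, hwβ]
      · rw [hg, hwβ, hwα]
    · intro x y hx hy
      rw [map_add, map_add, hx, hy]
    · intro x y hx hy
      rw [map_mul, map_mul, hx, hy]
    · intro x hx
      rw [map_inv₀, map_inv₀, hx]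
  exact ⟨RingEquiv.ofRingHom w w (RingHom.ext hww) (RingHom.ext hww), hwα, hwβ⟩

end

end Fermat.Agent.S42
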