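/-
S42 moonshot — package EVALMUL (block HECKE-ROOT): evaluation of formal Laurent series is
multiplicative; `HasQExp` in terms of `HasEval`; `HasQExp` is multiplicative.
-/
import Fermat.Agent.S42.HeckeRootInterfaces

set_option autoImplicit false

open ModularCurve AlgebraicCurve CongruenceSubgroup
open UpperHalfPlane

namespace Fermat.Agent.S42

noncomputable section

/-- The shear `(k, m) ↦ (m, k - m)` of `ℤ × ℤ`. -/
def evma_shear : ℤ × ℤ ≃ ℤ × ℤ where
  toFun q := (q.2, q.1 - q.2)
  invFun q := (q.1 + q.2, q.1)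
  left_inv q := by ext <;> simp
  right_inv q := by ext <;> simp

/-- The inner (finite) sum. -/
theorem evma_inner (g h : LaurentSeries Qbar) (w : ℂ) (hw : w ≠ 0) (k : ℤ) :
    HasSum (fun m : ℤ => (embC (g.coeff m) * w ^ m) * (embC (h.coeff (k - m)) * w ^ (k - m)))
      (embC ((g * h).coeff k) * w ^ k) := by
  classical
  set A := Finset.antidiagonal g.isPWO_support h.isPWO_support k with hA
  have hinj : Set.InjOn (Prod.fst : ℤ × ℤ → ℤ) (A : Set (ℤ × ℤ)) := by
    intro x hx y hy hxy
    have hx' := (Finset.mem_antidiagonal.1 hx).2.2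
    have hy' := (Finset.mem_antidiagonal.1 hy).2.2
    ext
    · exact hxy
    · have : x.1 = y.1 := hxy
      omega
  have hval : embC ((g * h).coeff k) * w ^ k
      = ∑ m ∈ A.image Prod.fst,
          (embC (g.coeff m) * w ^ m) * (embC (h.coeff (k - m)) * w ^ (k - m)) := by
    rw [Finset.sum_image hinj, HahnSeries.coeff_mul, map_sum, Finset.sum_mul]
    refine Finset.sum_congr rfl ?_
    intro x hx
    have hx' := (Finset.mem_antidiagonal.1 hx).2.2
    have h2 : k - x.1 = x.2 := by omega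
    rw [h2, map_mul, ← hx', zpow_add₀ hw]
    ring
  rw [hval]
  refine hasSum_sum_of_ne_finset_zero ?_
  intro m hm
  by_contra hne
  apply hm
  have hg : g.coeff m ≠ 0 := by
    intro h0
    apply hne
    simp [h0]
  have hh : h.coeff (k - m) ≠ 0 := by
    intro h0
    apply hne
    simp [h0]
  refine Finset.mem_image.2 ⟨(m, k - m), ?_, rfl⟩
  refine Finset.mem_antidiagonal.2 ⟨hg, hh, ?_⟩
  simp

theorem evma_evalMul : EvalMulStatement := by
  intro g h w u v hw hu hv
  unfold HasEval at hu hv ⊢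
  have hun : Summable fun n : ℤ => ‖embC (g.coeff n) * w ^ n‖ := summable_norm_iff.2 hu.summable
  have hvn : Summable fun n : ℤ => ‖embC (h.coeff n) * w ^ n‖ := summable_norm_iff.2 hv.summable
  have hprod : HasSum (fun z : ℤ × ℤ =>
      (embC (g.coeff z.1) * w ^ z.1) * (embC (h.coeff z.2) * w ^ z.2)) (u * v) := by
    have hs := summable_mul_of_summable_norm hun hvn
    have := tsum_mul_tsum_of_summable_norm hun hvn
    rw [hu.tsum_eq, hv.tsum_eq] at this
    rw [this]
    exact hs.hasSum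
  have hshear : HasSum (fun q : ℤ × ℤ =>
      (embC (g.coeff q.2) * w ^ q.2) * (embC (h.coeff (q.1 - q.2)) * w ^ (q.1 - q.2))) (u * v) :=
    (evma_shear.hasSum_iff (f := fun z : ℤ × ℤ =>
      (embC (g.coeff z.1) * w ^ z.1) * (embC (h.coeff z.2) * w ^ z.2))).2 hprod
  exact hshear.prod_fiberwise (fun k => evma_inner g h w hw k)

theorem evma_term (c : ℂ) (n : ℤ) (τ : ℂ) :
    c * Complex.exp (2 * Real.pi * Complex.I * (n : ℂ) * τ)
      = c * Complex.exp (2 * Real.pi * Complex.I * τ) ^ n := by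
  rw [← Complex.exp_int_mul]
  congr 2
  ring

theorem evma_qExpIff : QExpIffStatement := by
  intro N f F
  unfold HasQExp HasEval
  refine exists_congr fun B => forall_congr' fun τ => imp_congr_right fun _ => ?_
  have : (fun n : ℤ => embC ((f : LaurentSeries Qbar).coeff n)
      * Complex.exp (2 * Real.pi * Complex.I * (n : ℂ) * (τ : ℂ)))
      = fun n : ℤ => embC ((f : LaurentSeries Qbar).coeff n)
      * Complex.exp (2 * Real.pi * Complex.I * (τ : ℂ)) ^ n := by
    funext n
    exact evma_term _ n _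
  rw [this]

theorem evma_qExpMul : QExpMulStatement := by
  intro N _ f f' F F' hF hF'
  rw [evma_qExpIff] at hF hF' ⊢
  obtain ⟨B₁, h₁⟩ := hF
  obtain ⟨B₂, h₂⟩ := hF'
  refine ⟨max B₁ B₂, fun τ hτ => ?_⟩
  have hmul : ((f * f' : FN N) : LaurentSeries Qbar)
      = (f : LaurentSeries Qbar) * (f' : LaurentSeries Qbar) := rfl
  rw [hmul]
  exact evma_evalMul _ _ _ _ _ (Complex.exp_ne_zero _)
    (h₁ τ (lt_of_le_of_lt (le_max_left _ _) hτ)) (h₂ τ (lt_of_le_of_lt (le_max_right _ _) hτ))

/-- (EVAL-MUL), (QEXP-IFF), (QEXP-MUL). -/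
theorem evma_main : EvalMulStatement ∧ QExpIffStatement ∧ QExpMulStatement :=
  ⟨evma_evalMul, evma_qExpIff, evma_qExpMul⟩

end

end Fermat.Agent.S42
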