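/-
S42 moonshot — package EVALSUB (block HECKE-ROOT): evaluation of formal Laurent series versus the
substitutions `q ↦ q^m` and `q ↦ ζ q`.
-/
import Fermat.Agent.S42.HeckeRootInterfaces

set_option autoImplicit false

open ModularCurve
open Fermat.Agent.S28 (scale)

namespace Fermat.Agent.S42

noncomputable section

/-- (EVAL-SCALE). -/
theorem evsa_scale : EvalScaleStatement := by
  intro ζ g w v _ _
  unfold HasEval
  have h : (fun n : ℤ => embC ((scale ζ g).coeff n) * w ^ n)
      = fun n : ℤ => embC (g.coeff n) * (embC ζ * w) ^ n := by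
    funext n
    rw [Fermat.Agent.S28.scale_coeff, map_mul, map_zpow₀, mul_zpow]
    ring
  rw [h]

/-- (EVAL-EXPAND). -/
theorem evsa_expand : EvalExpandStatement := by
  intro m _ g w v _
  unfold HasEval
  have hm : (m : ℤ) ≠ 0 := by exact_mod_cast NeZero.ne m
  have hinj : Function.Injective (fun k : ℤ => (m : ℤ) * k) := mul_right_injective₀ hm
  have hzero : ∀ n : ℤ, n ∉ Set.range (fun k : ℤ => (m : ℤ) * k) →
      embC ((qExpand Qbar m g).coeff n) * w ^ n = 0 := by
    intro n hn
    have hnd : ¬ (m : ℤ) ∣ n := by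
      rintro ⟨k, rfl⟩
      exact hn ⟨k, rfl⟩
    rw [qExpand_coeff_of_not_dvd m g hnd, map_zero, zero_mul]
  rw [← hinj.hasSum_iff hzero]
  have h : ((fun n : ℤ => embC ((qExpand Qbar m g).coeff n) * w ^ n) ∘ fun k : ℤ => (m : ℤ) * k)
      = fun k : ℤ => embC (g.coeff k) * (w ^ m) ^ k := by
    funext k
    simp only [Function.comp_apply]
    rw [qExpand_coeff_mul, zpow_mul, zpow_natCast]
  rw [h]

/-- Main theorem of the package. -/
theorem evsa_main : EvalExpandStatement ∧ EvalScaleStatement :=
  ⟨evsa_expand, evsa_scale⟩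

end

end Fermat.Agent.S42
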