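/-
S42 moonshot — package HANASM (helper681 for helper26): assembly of the Hecke statement (N5).
* `hasa_an`   : HeckeAnTrans + HeckeAnQExp ⟹ HeckeAn.
* `hasa_root_ne_zero` : a root function is nonzero (identity theorem on the upper half plane).
* `hasa_main` : HeckeNormId + HeckeNormDiv + HeckeAn ⟹ HeckeRootStatement.
-/
import Mathlib
import Fermat.Agent.S42.HeckeRootInterfaces

set_option autoImplicit false

open ModularCurve AlgebraicCurve CongruenceSubgroup
open UpperHalfPlane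
open scoped TensorProduct MatrixGroups Manifold

namespace Fermat.Agent.S42

noncomputable section

/-- `heckeProd` commutes with `p`-th powers. -/
theorem hasa_heckeProd_pow (ℓ p : ℕ) (s : ℍ → ℂ) :
    heckeProd ℓ (fun τ => s τ ^ p) = fun τ => heckeProd ℓ s τ ^ p := by
  funext τ
  simp only [heckeProd]
  exact Finset.prod_pow _ _ _

/-- (HECKE-AN) from its two halves. -/
theorem hasa_an : HeckeAnTransStatement → HeckeAnQExpStatement → HeckeAnStatement := by
  intro hT hQ N p ℓ _ _ _ hℓ hℓN ζ hζ c f f' hroot hNI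
  obtain ⟨s, hs, hne, htr, hq⟩ := hroot
  obtain ⟨h1, h2, h3⟩ := hT N p ℓ hℓ hℓN c s hs hne htr
  refine ⟨heckeProd ℓ s, h1, h2, h3, ?_⟩
  have h4 := hQ N ℓ hℓ ζ hζ f f' (fun τ => s τ ^ p) hq hNI
  rw [hasa_heckeProd_pow] at h4
  exact h4

/-- A holomorphic function on `ℍ` vanishing for `Im τ > B` vanishes identically. -/
theorem hasa_eq_zero_of_im_gt (s : ℍ → ℂ) (hs : MDifferentiable 𝓘(ℂ) 𝓘(ℂ) s) (B : ℝ)
    (h : ∀ τ : ℍ, B < τ.im → s τ = 0) : s = 0 := by
  rw [UpperHalfPlane.mdifferentiable_iff] at hs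
  have han := hs.analyticOnNhd isOpen_upperHalfPlaneSet
  have hz0 : (0 : ℝ) < ((max B 0 + 1 : ℝ) * Complex.I : ℂ).im := by
    simp
    positivity
  have hpre : IsPreconnected {z : ℂ | 0 < z.im} :=
    (Complex.isConnected_of_upperHalfPlane subset_rfl (by grind)).isPreconnected
  have hev : (s ∘ ofComplex) =ᶠ[nhds ((max B 0 + 1 : ℝ) * Complex.I : ℂ)] 0 := by
    have hopen : IsOpen {z : ℂ | max B 0 < z.im} :=
      isOpen_lt continuous_const Complex.continuous_im
    have him : ((max B 0 + 1 : ℝ) * Complex.I : ℂ).im = max B 0 + 1 := by simp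
    have hmem : ((max B 0 + 1 : ℝ) * Complex.I : ℂ) ∈ {z : ℂ | max B 0 < z.im} := by
      show max B 0 < ((max B 0 + 1 : ℝ) * Complex.I : ℂ).im
      rw [him]
      linarith
    filter_upwards [hopen.mem_nhds hmem] with z hz
    have hz' : max B 0 < z.im := hz
    have hzpos : 0 < z.im := lt_of_le_of_lt (le_max_right B 0) hz'
    have hzB : B < z.im := lt_of_le_of_lt (le_max_left B 0) hz'
    simp only [Function.comp_apply, Pi.zero_apply]
    apply h
    rw [ofComplex_apply_of_im_pos hzpos]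
    exact hzB
  have key := han.eqOn_zero_of_preconnected_of_eventuallyEq_zero hpre hz0 hev
  funext w
  have := key w.im_pos
  simpa [Function.comp_apply, ofComplex_apply] using this

/-- (RNZ) a root function is nonzero. -/
theorem hasa_root_ne_zero : RootNeZeroStatement := by
  intro N p _ _ c f hroot hf
  obtain ⟨s, hs, ⟨τ₀, hτ₀⟩, -, B, hq⟩ := hroot
  have hp : p ≠ 0 := (Fact.out : p.Prime).ne_zero
  have hzero : s = 0 := by
    apply hasa_eq_zero_of_im_gt s hs B
    intro τ hτ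
    have h1 := hq τ hτ
    subst hf
    have h2 : (fun n : ℤ => embC (((0 : FN N) : LaurentSeries Qbar).coeff n)
        * Complex.exp (2 * Real.pi * Complex.I * (n : ℂ) * (τ : ℂ))) = fun _ => (0 : ℂ) := by
      funext n
      simp
    rw [h2] at h1
    have h3 : s τ ^ p = 0 := h1.unique hasSum_zero
    exact pow_eq_zero_iff hp |>.mp h3
  exact hτ₀ (by rw [hzero]; rfl)

/-- (N5: HECKE) assembly. -/
theorem hasa_main :
    HeckeNormIdStatement → HeckeNormDivStatement → HeckeAnStatement → HeckeRootStatement := by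
  intro hId hDiv hAn N p ℓ _ _ _ _ hℓ hℓNp hI c f hroot
  have hℓN : ¬ ℓ ∣ N := fun h => hℓNp (Dvd.dvd.mul_right h p)
  obtain ⟨ζ, hζ⟩ := HasEnoughRootsOfUnity.exists_primitiveRoot Qbar ℓ
  have hf : f ≠ 0 :=
    hasa_root_ne_zero N p (c : Additive ↥(Gamma0 N) →+ ZMod p) f hroot
  obtain ⟨-, hdiv⟩ := hDiv N ℓ hI f hf
  exact ⟨normAlpha N ℓ f, hAn N p ℓ hℓ hℓN ζ hζ c f _ hroot (hId N ℓ hℓ hℓN ζ hζ f), hdiv⟩

end

end Fermat.Agent.S42
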