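/-
S42 moonshot — package HANQEXP (twin A): the `q`-expansion of the Hecke product.
-/
import Fermat.Agent.S42.HeckeRootInterfaces

set_option autoImplicit false

open ModularCurve AlgebraicCurve CongruenceSubgroup
open UpperHalfPlane
open scoped TensorProduct MatrixGroups Manifold
open Fermat.Agent.S28 (scale)

namespace Fermat.Agent.S42

noncomputable section

/-- Evaluation of `1`. -/
theorem haqa_eval_one (w : ℂ) : HasEval (1 : LaurentSeries Qbar) w 1 := by
  unfold HasEval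
  have h : (fun n : ℤ => embC ((1 : LaurentSeries Qbar).coeff n) * w ^ n)
      = fun n : ℤ => if n = 0 then (1 : ℂ) else 0 := by
    funext n
    rw [HahnSeries.coeff_one]
    split_ifs with hn
    · subst hn; simp
    · simp
  rw [h]
  exact hasSum_ite_eq 0 1

/-- Evaluation of finite products. -/
theorem haqa_eval_prod (hMul : EvalMulStatement) {ι : Type} (s : Finset ι)
    (g : ι → LaurentSeries Qbar) (v : ι → ℂ) (w : ℂ) (hw : w ≠ 0)
    (h : ∀ i ∈ s, HasEval (g i) w (v i)) :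
    HasEval (∏ i ∈ s, g i) w (∏ i ∈ s, v i) := by
  classical
  induction s using Finset.induction_on with
  | empty => simpa using haqa_eval_one w
  | insert a s ha ih =>
    rw [Finset.prod_insert ha, Finset.prod_insert ha]
    exact hMul _ _ w _ _ hw (h a (Finset.mem_insert_self a s))
      (ih fun i hi => h i (Finset.mem_insert_of_mem hi))

/-- Reindexing a product over `range ℓ` along `b ↦ k * b % ℓ` for `k` coprime to `ℓ`. -/
theorem haqa_prod_reindex (ℓ k : ℕ) (hℓ : 0 < ℓ) (hk : k.Coprime ℓ) (G : ℕ → ℂ) :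
    ∏ b ∈ Finset.range ℓ, G (k * b % ℓ) = ∏ j ∈ Finset.range ℓ, G j := by
  have hinj : Set.InjOn (fun b => k * b % ℓ) (Finset.range ℓ : Set ℕ) := by
    intro a ha b hb hab
    simp only [Finset.coe_range, Set.mem_Iio] at ha hb
    have h1 : k * a ≡ k * b [MOD ℓ] := hab
    have h2 : a ≡ b [MOD ℓ] := Nat.ModEq.cancel_left_of_coprime (Nat.coprime_comm.mp hk) h1
    exact Nat.ModEq.eq_of_lt_of_lt h2 ha hb
  have himg : (Finset.range ℓ).image (fun b => k * b % ℓ) = Finset.range ℓ := by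
    apply Finset.eq_of_subset_of_card_le
    · intro x hx
      rcases Finset.mem_image.mp hx with ⟨b, -, rfl⟩
      exact Finset.mem_range.mpr (Nat.mod_lt _ hℓ)
    · rw [Finset.card_image_of_injOn hinj]
  conv_rhs => rw [← himg]
  rw [Finset.prod_image hinj]

theorem haqa_main : EvalMulStatement → EvalExpandStatement → EvalScaleStatement →
    QExpIffStatement → HeckeAnQExpStatement := by
  intro hMul hExp hScale hIff N ℓ _ _ hℓ ζ hζ f f' F hF hN
  have hℓ0 : ℓ ≠ 0 := hℓ.ne_zero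
  have hℓpos : (0 : ℝ) < ℓ := by exact_mod_cast hℓ.pos
  have hℓC : (ℓ : ℂ) ≠ 0 := by exact_mod_cast hℓ0
  obtain ⟨B, hB⟩ := (hIff N f F).mp hF
  refine (hIff N f' (heckeProd ℓ F)).mpr ⟨ℓ * max B 0, fun τ hτ => ?_⟩
  -- the primitive root `embC ζ`
  have hζC : IsPrimitiveRoot (embC ζ) ℓ := hζ.map_of_injective embC.injective
  obtain ⟨k, hkℓ, hkcop, hk⟩ := (Complex.isPrimitiveRoot_iff (embC ζ) ℓ hℓ0).mp hζC
  have hζ0 : ζ ≠ 0 := hζ.ne_zero hℓ0
  set w : ℂ := Complex.exp (2 * Real.pi * Complex.I * (τ : ℂ) / ℓ) with hwdef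
  have hw : w ≠ 0 := Complex.exp_ne_zero _
  have hτB : B * ℓ < τ.im := by
    have h1 : B ≤ max B 0 := le_max_left _ _
    nlinarith [mul_le_mul_of_nonneg_left h1 hℓpos.le]
  have hτB' : B < ℓ * τ.im := by
    have h1 : B ≤ max B 0 := le_max_left _ _
    have h2 : (0 : ℝ) ≤ max B 0 := le_max_right _ _
    have h3 : (1 : ℝ) ≤ ℓ := by exact_mod_cast hℓ.one_le
    have h4 : 0 < τ.im := τ.im_pos
    nlinarith
  -- the diagonal term
  have h0 : HasEval (qExpand Qbar (ℓ * ℓ) (f : LaurentSeries Qbar)) w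
      (F (ModularForm.heckeDiagMatrix ℓ • τ)) := by
    rw [hExp (ℓ * ℓ) _ w _ hw]
    have him : B < (ModularForm.heckeDiagMatrix ℓ • τ).im := by
      rw [← UpperHalfPlane.coe_im, ModularForm.coe_heckeDiagMatrix_smul hℓ0]
      simpa using hτB'
    have := hB _ him
    rw [ModularForm.coe_heckeDiagMatrix_smul hℓ0] at this
    convert this using 1
    rw [hwdef, ← Complex.exp_nat_mul]
    congr 1
    push_cast
    field_simp
  -- the other terms
  have hb : ∀ b ∈ Finset.range ℓ, HasEval (scale (ζ ^ b) (f : LaurentSeries Qbar)) w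
      (F (ModularForm.heckeMatrix ℓ (k * b % ℓ) • τ)) := by
    intro b _
    rw [hScale (ζ ^ b) _ w _ hw (pow_ne_zero _ hζ0)]
    have him : B < (ModularForm.heckeMatrix ℓ (k * b % ℓ) • τ).im := by
      rw [← UpperHalfPlane.coe_im, ModularForm.coe_heckeMatrix_smul hℓ0]
      have : (((τ : ℂ) + ((k * b % ℓ : ℕ) : ℂ)) / (ℓ : ℂ)).im = τ.im / ℓ := by
        simp [Complex.div_natCast_im]
      rw [this, lt_div_iff₀ hℓpos]
      exact hτB
    have := hB _ him
    rw [ModularForm.coe_heckeMatrix_smul hℓ0] at this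
    convert this using 1
    rw [map_pow, ← hk, hwdef, ← Complex.exp_nat_mul, ← Complex.exp_add]
    have hdiv : ((k * b : ℕ) : ℂ) = ((k * b % ℓ : ℕ) : ℂ) + (ℓ : ℂ) * ((k * b / ℓ : ℕ) : ℂ) := by
      have := Nat.mod_add_div (k * b) ℓ
      exact_mod_cast this.symm
    have hper : Complex.exp (2 * Real.pi * Complex.I * (((τ : ℂ) + ((k * b % ℓ : ℕ) : ℂ)) / (ℓ : ℂ))
        + ((k * b / ℓ : ℕ) : ℂ) * (2 * Real.pi * Complex.I))
        = Complex.exp (2 * Real.pi * Complex.I * (((τ : ℂ) + ((k * b % ℓ : ℕ) : ℂ)) / (ℓ : ℂ))) := by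
      rw [Complex.exp_add, Complex.exp_nat_mul_two_pi_mul_I, mul_one]
    rw [← hper]
    congr 1
    push_cast at hdiv ⊢
    field_simp
    linear_combination hdiv
  have hprod := hMul _ _ w _ _ hw h0
    (haqa_eval_prod hMul (Finset.range ℓ) (fun b => scale (ζ ^ b) (f : LaurentSeries Qbar))
      (fun b => F (ModularForm.heckeMatrix ℓ (k * b % ℓ) • τ)) w hw hb)
  have hN' : qExpand Qbar ℓ (f' : LaurentSeries Qbar)
      = qExpand Qbar (ℓ * ℓ) (f : LaurentSeries Qbar)
        * ∏ b ∈ Finset.range ℓ, scale (ζ ^ b) (f : LaurentSeries Qbar) := hN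
  rw [← hN', hExp ℓ _ w _ hw] at hprod
  have hwℓ : w ^ ℓ = Complex.exp (2 * Real.pi * Complex.I * (τ : ℂ)) := by
    rw [hwdef, ← Complex.exp_nat_mul]
    congr 1
    field_simp
  have hval : heckeProd ℓ F τ = F (ModularForm.heckeDiagMatrix ℓ • τ)
      * ∏ b ∈ Finset.range ℓ, F (ModularForm.heckeMatrix ℓ (k * b % ℓ) • τ) := by
    unfold heckeProd
    rw [Fintype.prod_option]
    simp only [perAlpha]
    rw [haqa_prod_reindex ℓ k hℓ.pos hkcop (fun j => F (ModularForm.heckeMatrix ℓ j • τ)),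
      Fin.prod_univ_eq_prod_range (fun j => F (ModularForm.heckeMatrix ℓ j • τ)) ℓ]
  rw [hval, ← hwℓ]
  exact hprod

end

end Fermat.Agent.S42
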