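/-
S42 moonshot — package HANTRANS (twin B): the Hecke product of an automorphic root is holomorphic,
not identically zero, and transforms by the character of `perTcohLam N ℓ p c`.
-/
import Fermat.Agent.S42.HeckeRootInterfaces

set_option autoImplicit false

open ModularCurve AlgebraicCurve CongruenceSubgroup
open UpperHalfPlane
open scoped TensorProduct MatrixGroups Manifold

namespace Fermat.Agent.S42

noncomputable section

/-- The representatives `perAlpha ℓ i` have positive determinant. -/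
theorem hatb_det_pos (ℓ : ℕ) (i : Option (Fin ℓ)) : 0 < ((perAlpha ℓ i).det : ℝ) := by
  cases i with
  | none => exact ModularForm.det_heckeDiagMatrix_pos ℓ
  | some j => exact ModularForm.det_heckeMatrix_pos ℓ j

/-- `chiOf` is the standard additive character of `ZMod p` composed with `c`. -/
theorem hatb_chiOf_eq (N p : ℕ) [NeZero p] (c : Additive ↥(Gamma0 N) →+ ZMod p)
    (γ : ↥(Gamma0 N)) :
    chiOf N p c γ = ((ZMod.toCircle (c (Additive.ofMul γ)) : Circle) : ℂ) := by
  rw [ZMod.toCircle_apply]; rfl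

/-- The standard character turns finite sums into products. -/
theorem hatb_toCircle_sum (p : ℕ) [NeZero p] {ι : Type*} (t : Finset ι) (a : ι → ZMod p) :
    ((ZMod.toCircle (∑ i ∈ t, a i) : Circle) : ℂ) = ∏ i ∈ t, ((ZMod.toCircle (a i) : Circle) : ℂ) := by
  classical
  induction t using Finset.induction_on with
  | empty => simp
  | insert i t hi ih =>
    rw [Finset.sum_insert hi, Finset.prod_insert hi, AddChar.map_add_eq_mul, Circle.coe_mul, ih]

/-- Each translate `τ ↦ s (α_i τ)` is holomorphic. -/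
theorem hatb_mdiff_factor (ℓ : ℕ) (s : ℍ → ℂ) (hs : MDifferentiable 𝓘(ℂ) 𝓘(ℂ) s)
    (i : Option (Fin ℓ)) :
    MDifferentiable 𝓘(ℂ) 𝓘(ℂ) (fun τ : ℍ => s (perAlpha ℓ i • τ)) :=
  hs.comp (UpperHalfPlane.mdifferentiable_smul (hatb_det_pos ℓ i))

theorem hatb_heckeProd_eq (ℓ : ℕ) (s : ℍ → ℂ) :
    heckeProd ℓ s = ∏ i : Option (Fin ℓ), (fun τ : ℍ => s (perAlpha ℓ i • τ)) := by
  funext τ
  simp [heckeProd, Finset.prod_apply]

theorem hatb_main :
    PERSigStatement → PERTcohApplyStatement → PERTcohLamStatement → HeckeAnTransStatement := by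
  intro hSig hApply hLam N p ℓ _ _ _ hℓ hℓN c s hs hne htr
  have : NeZero p := ⟨(Fact.out : p.Prime).ne_zero⟩
  obtain ⟨hRel, hBij, -, -⟩ := hSig N ℓ hℓ hℓN
  refine ⟨?_, ?_, ?_⟩
  · rw [hatb_heckeProd_eq]
    exact MDifferentiable.prod fun i _ => hatb_mdiff_factor ℓ s hs i
  · by_contra hcon
    push Not at hcon
    have h0 : ∏ i : Option (Fin ℓ), (fun τ : ℍ => s (perAlpha ℓ i • τ)) = 0 := by
      rw [← hatb_heckeProd_eq]; funext τ; exact hcon τ
    rw [UpperHalfPlane.prod_eq_zero_iff (fun i _ => hatb_mdiff_factor ℓ s hs i)] at h0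
    obtain ⟨i, -, hi⟩ := h0
    obtain ⟨τ₀, hτ₀⟩ := hne
    apply hτ₀
    have := congrFun hi ((perAlpha ℓ i)⁻¹ • τ₀)
    simpa [smul_smul] using this
  · intro γ τ
    have key : ∀ i : Option (Fin ℓ),
        s (perAlpha ℓ i • ((γ : SL(2, ℤ)) • τ))
          = chiOf N p (c : Additive ↥(Gamma0 N) →+ ZMod p) (perGam N ℓ γ i)
            * s (perAlpha ℓ (perSig N ℓ γ i) • τ) := by
      intro i
      have h1 : perAlpha ℓ i • ((γ : SL(2, ℤ)) • τ)
          = ((perGam N ℓ γ i : ↥(Gamma0 N)) : SL(2, ℤ)) • (perAlpha ℓ (perSig N ℓ γ i) • τ) := by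
        have hr := hRel γ i
        unfold PERRel at hr
        change perAlpha ℓ i • (Matrix.SpecialLinearGroup.mapGL ℝ (γ : SL(2, ℤ)) • τ)
          = Matrix.SpecialLinearGroup.mapGL ℝ ((perGam N ℓ γ i : ↥(Gamma0 N)) : SL(2, ℤ))
            • (perAlpha ℓ (perSig N ℓ γ i) • τ)
        rw [smul_smul, smul_smul, hr]
      rw [h1, htr]
    have hsum : (perTcohLam N ℓ p c : Additive ↥(Gamma0 N) →+ ZMod p) (Additive.ofMul γ)
        = ∑ i : Option (Fin ℓ),
            (c : Additive ↥(Gamma0 N) →+ ZMod p) (Additive.ofMul (perGam N ℓ γ i)) := by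
      have h2 := hLam N ℓ hℓ hℓN p c
      have h3 := hApply N ℓ hℓ hℓN (ZMod p) (c : Additive ↥(Gamma0 N) →+ ZMod p) γ
      rw [← h3]
      exact congrArg (fun φ : Additive ↥(Gamma0 N) →+ ZMod p => φ (Additive.ofMul γ)) h2
    have hchi : chiOf N p (perTcohLam N ℓ p c : Additive ↥(Gamma0 N) →+ ZMod p) γ
        = ∏ i : Option (Fin ℓ),
            chiOf N p (c : Additive ↥(Gamma0 N) →+ ZMod p) (perGam N ℓ γ i) := by
      rw [hatb_chiOf_eq, hsum, hatb_toCircle_sum]
      exact Finset.prod_congr rfl fun i _ => (hatb_chiOf_eq N p _ _).symm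
    unfold heckeProd
    rw [Finset.prod_congr rfl fun i _ => key i, Finset.prod_mul_distrib, ← hchi,
      (hBij γ).prod_comp (fun i => s (perAlpha ℓ i • τ))]
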