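/-
S42 moonshot — package HNDIV (twin B): the Hecke correspondence maps `div f` to
`div (normAlpha f)`.
-/
import Fermat.Agent.S42.HeckeRootInterfaces

set_option autoImplicit false

open ModularCurve AlgebraicCurve

namespace Fermat.Agent.S42

noncomputable section

/-- Abstract form: the correspondence `ψ_* ∘ φ^*` maps the principal divisor of `f` to the principal
divisor of the norm along `ψ` of `φ f`. -/
theorem hndb_correspondence {K F F' : Type*} [Field K] [Field F] [Field F'] [Algebra K F]
    [Algebra K F'] [HasPrincipalDivisors K F'] (φ ψ : F →ₐ[K] F')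
    (hφ : φ.toRingHom.IsIntegral) (hψ : ψ.toRingHom.IsIntegral)
    (hfin : FiniteAlong K ψ) (hN : NormFormulaAlong K ψ hfin) (f : F) (hf : f ≠ 0) :
    (letI := algebraAlong ψ; Algebra.norm F (φ f)) ≠ 0 ∧
    ∀ D : Divisor K F, (∀ P : Place K F, D P = P.ord f) →
      ∀ P : Place K F,
        Divisor.correspondence φ ψ hφ hψ D P
          = P.ord (letI := algebraAlong ψ; Algebra.norm F (φ f)) := by
  let _ := algebraAlong ψ
  have := isScalarTower_along ψ
  have := isIntegral_along ψ hψ
  have : Module.Finite F F' := hfin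
  have hφf : φ f ≠ 0 := by simpa using hf
  refine ⟨Algebra.norm_ne_zero_iff.mpr hφf, ?_⟩
  intro D hD P
  have hpull : ∀ w : Place K F', Divisor.pullbackAlong φ hφ D w = w.ord (φ f) := by
    intro w
    rw [Divisor.pullbackAlong_apply, hD, ← Place.ord_restrictAlong]
  rw [Divisor.correspondence_apply]
  exact hN (φ f) hφf _ hpull P

theorem hndb_main : HeckeNormDivStatement := by
  intro N ℓ _ _ hI f hf
  have := hI.snd.snd.fst
  exact hndb_correspondence (heckeBetaBar Qbar N ℓ) (heckeAlphaBar Qbar N ℓ) hI.snd.fst hI.fst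
    hI.snd.snd.snd.fst hI.snd.snd.snd.snd.2 f hf

end

end Fermat.Agent.S42
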