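/-
S42 moonshot — package HNID (twin B): the norm along `α` of `β f` satisfies the formal norm
identity `N(f)(q^ℓ) = f(q^{ℓ²}) ∏_{b<ℓ} f(ζ^b q)`.
-/
import Fermat.Agent.S42.HeckeRootInterfaces

set_option autoImplicit false

open ModularCurve AlgebraicCurve Polynomial
open Fermat.Agent.S28 (scale)

namespace Fermat.Agent.S42

noncomputable section

/-- Norms are transported by a ring automorphism of the top field intertwining the two structure
maps. -/
theorem hnib_norm_transport {E L : Type} [Field E] [Field L] (a b : E →+* L) (w : L ≃+* L)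
    (hw : ∀ e, w (a e) = b e) (x : L) :
    @Algebra.norm E L _ _ a.toAlgebra x = @Algebra.norm E L _ _ b.toAlgebra (w x) := by
  let algA : Algebra E L := a.toAlgebra
  let algB : Algebra E L := b.toAlgebra
  let e : @AlgEquiv E L L _ _ _ algA algB :=
    @AlgEquiv.mk E L L _ _ _ algA algB w.toEquiv w.map_mul w.map_add (fun r => hw r)
  exact (@Algebra.norm_eq_of_algEquiv E L L _ _ algA _ algB e x).symm

/-- The norm is the constant coefficient of the characteristic polynomial, up to sign. -/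
theorem hnib_norm_eq_coeff {K F F' : Type} [Field K] [Field F] [Field F'] [Algebra K F]
    [Algebra K F'] (φ : F →ₐ[K] F') (hfin : FiniteAlong K φ) (h : F') :
    @Algebra.norm F F' _ _ (algebraAlong φ) h
      = (-1) ^ finrankAlong K φ * (Fermat.Agent.S37.hi_charpolyAlong φ hfin h).coeff 0 := by
  let _ := algebraAlong φ
  have : Module.Finite F F' := hfin
  show LinearMap.det (LinearMap.mulLeft F h) = _
  rw [LinearMap.det_eq_sign_charpoly_coeff]
  rfl

/-- The constant coefficient of `(X - C y) * ∏ (X - C (z b))`. -/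
theorem hnib_coeff_zero {R : Type} [CommRing R] (n : ℕ) (y : R) (z : ℕ → R) :
    ((X - C y) * ∏ b ∈ Finset.range n, (X - C (z b))).coeff 0
      = (-1) ^ (n + 1) * (y * ∏ b ∈ Finset.range n, z b) := by
  rw [coeff_zero_eq_eval_zero, eval_mul, eval_prod]
  simp only [eval_sub, eval_X, eval_C, zero_sub]
  rw [Finset.prod_neg, Finset.card_range]
  ring

theorem hnib_main : AtkinLehnerStatement → Fermat.Agent.S37.kr_CharpolyStatement →
    Fermat.Agent.S37.kr_FinrankStatement → Fermat.Agent.S37.hi_FinStatement →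
    HeckeNormIdStatement := by
  intro hAL hCP hFR hFin N ℓ _ _ hℓ hN ζ hζ f
  obtain ⟨w, hwα, hwβ⟩ := hAL N ℓ hℓ hN
  have hfin : FiniteAlong Qbar (heckeBetaBar Qbar N ℓ) := (hFin N ℓ).2.2.2
  have h1 : normAlpha N ℓ f
      = @Algebra.norm (FN N) (FN (N * ℓ)) _ _ (algebraAlong (heckeBetaBar Qbar N ℓ))
          (heckeAlphaBar Qbar N ℓ f) := by
    have := hnib_norm_transport (heckeAlphaBar Qbar N ℓ).toRingHom
      (heckeBetaBar Qbar N ℓ).toRingHom w (fun e => hwα e) (heckeBetaBar Qbar N ℓ f)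
    rw [hwβ] at this
    exact this
  have h2 := hnib_norm_eq_coeff (heckeBetaBar Qbar N ℓ) hfin (heckeAlphaBar Qbar N ℓ f)
  rw [hFR N ℓ hℓ hN] at h2
  have h3 := hCP N ℓ hℓ hN hfin ζ hζ f
  have h4 := congrArg (fun P => P.coeff 0) h3
  simp only [coeff_map] at h4
  rw [hnib_coeff_zero] at h4
  unfold NormIdentity
  rw [h1, h2]
  have h5 : ∀ x : FN N, qExpand Qbar ℓ ((x : FN N) : LaurentSeries Qbar)
      = ((qExpand Qbar ℓ).comp (algebraMap (FN N) (LaurentSeries Qbar))) x := fun x => rfl
  rw [h5, map_mul, h4, map_pow, map_neg, map_one, ← mul_assoc, ← pow_add]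
  rw [Even.neg_one_pow ⟨ℓ + 1, rfl⟩, one_mul]

end

end Fermat.Agent.S42
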