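/-
S42 moonshot — block HECKE-ROOT (N5), assembly (helper26): `HeckeRootStatement` from the coset
calculus statements of block PER.
-/
import Fermat.Agent.S42.AlwC
import Fermat.Agent.S42.HnidB
import Fermat.Agent.S42.HndivB
import Fermat.Agent.S42.HanTransB
import Fermat.Agent.S42.HanQExpA
import Fermat.Agent.S42.HanAsmA
import Fermat.Agent.S42.EvalMulA
import Fermat.Agent.S42.EvalSubA
import Fermat.Agent.S37.KRMain
import Fermat.Agent.S37.HIMain

set_option autoImplicit false

namespace Fermat.Agent.S42

/-- The Atkin–Lehner swap. -/
theorem hr_atkinLehner : AtkinLehnerStatement := alwc_main Fermat.Agent.S37.kr_sInf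

/-- The Hecke norm identity. -/
theorem hr_normId : HeckeNormIdStatement :=
  hnib_main hr_atkinLehner Fermat.Agent.S37.kr_charpoly Fermat.Agent.S37.kr_finrank
    Fermat.Agent.S37.hi_fin

/-- The `q`-expansion part of the analytic Hecke statement. -/
theorem hr_anQExp : HeckeAnQExpStatement :=
  haqa_main evma_main.1 evsa_main.1 evsa_main.2 evma_main.2.1

/-- (N5) from the coset calculus. -/
theorem hr_main (hSig : PERSigStatement) (hApply : PERTcohApplyStatement)
    (hLam : PERTcohLamStatement) : HeckeRootStatement :=
  hasa_main hr_normId hndb_main (hasa_an (hatb_main hSig hApply hLam) hr_anQExp)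

end Fermat.Agent.S42
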