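/-
S42 moonshot — package RMUL (file B): root functions multiply, characters add.
Main theorem: `rmub_main : QExpMulStatement → RootMulStatement`.
-/
import Fermat.Agent.S42.HeckeRootInterfaces

set_option autoImplicit false

open ModularCurve AlgebraicCurve CongruenceSubgroup
open UpperHalfPlane
open scoped TensorProduct MatrixGroups Manifold

namespace Fermat.Agent.S42

noncomputable section

/-- `exp(2π i a.val / p)` is additive in `a : ZMod p`. -/
theorem rmub_exp_val_add (p : ℕ) [NeZero p] (a b : ZMod p) :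
    Complex.exp (2 * Real.pi * Complex.I * (((a + b).val : ℕ) : ℂ) / (p : ℂ))
      = Complex.exp (2 * Real.pi * Complex.I * ((a.val : ℕ) : ℂ) / (p : ℂ))
        * Complex.exp (2 * Real.pi * Complex.I * ((b.val : ℕ) : ℂ) / (p : ℂ)) := by
  have hp : (p : ℂ) ≠ 0 := Nat.cast_ne_zero.mpr (NeZero.ne p)
  have hval : (a + b).val + p * ((a.val + b.val) / p) = a.val + b.val := by
    rw [ZMod.val_add]
    exact Nat.mod_add_div _ _
  have hC : (((a + b).val : ℕ) : ℂ) + (p : ℂ) * (((a.val + b.val) / p : ℕ) : ℂ)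
      = ((a.val : ℕ) : ℂ) + ((b.val : ℕ) : ℂ) := by
    exact_mod_cast congrArg (Nat.cast : ℕ → ℂ) hval
  rw [← Complex.exp_add]
  have key : 2 * Real.pi * Complex.I * ((a.val : ℕ) : ℂ) / (p : ℂ)
      + 2 * Real.pi * Complex.I * ((b.val : ℕ) : ℂ) / (p : ℂ)
      = 2 * Real.pi * Complex.I * (((a + b).val : ℕ) : ℂ) / (p : ℂ)
        + (((a.val + b.val) / p : ℕ) : ℂ) * (2 * Real.pi * Complex.I) := by
    rw [← add_div, ← mul_add, ← hC]
    field_simp
  rw [key, Complex.exp_add, Complex.exp_nat_mul_two_pi_mul_I, mul_one]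

/-- Characters multiply when the homomorphisms add. -/
theorem rmub_chiOf_add (N p : ℕ) [NeZero p] (c c' : Additive ↥(Gamma0 N) →+ ZMod p)
    (γ : ↥(Gamma0 N)) :
    chiOf N p (c + c') γ = chiOf N p c γ * chiOf N p c' γ := by
  unfold chiOf
  rw [AddMonoidHom.add_apply]
  exact rmub_exp_val_add p _ _

/-- The product of two not identically zero holomorphic functions on `ℍ` is not identically
zero. -/
theorem rmub_mul_ne_zero (s s' : ℍ → ℂ) (hs : MDifferentiable 𝓘(ℂ) 𝓘(ℂ) s)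
    (hs' : MDifferentiable 𝓘(ℂ) 𝓘(ℂ) s') (h0 : ∃ τ : ℍ, s τ ≠ 0) (h0' : ∃ τ : ℍ, s' τ ≠ 0) :
    ∃ τ : ℍ, s τ * s' τ ≠ 0 := by
  by_contra hcon
  push Not at hcon
  rw [UpperHalfPlane.mdifferentiable_iff] at hs hs'
  have ha := hs.analyticOnNhd isOpen_upperHalfPlaneSet
  have ha' := hs'.analyticOnNhd isOpen_upperHalfPlaneSet
  have hU : IsPreconnected {z : ℂ | 0 < z.im} := (convex_halfSpace_im_gt 0).isPreconnected
  have hmul : ∀ z ∈ {z : ℂ | 0 < z.im}, (s ∘ ofComplex) z * (s' ∘ ofComplex) z = 0 := by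
    intro z hz
    exact hcon (ofComplex z)
  rcases AnalyticOnNhd.eq_zero_or_eq_zero_of_mul_eq_zero ha ha' hmul hU with h | h
  · obtain ⟨τ, hτ⟩ := h0
    apply hτ
    have := h (τ : ℂ) τ.im_pos
    simpa [Function.comp_apply, ofComplex_apply] using this
  · obtain ⟨τ, hτ⟩ := h0'
    apply hτ
    have := h (τ : ℂ) τ.im_pos
    simpa [Function.comp_apply, ofComplex_apply] using this

/-- (RMUL) root functions multiply, characters add. -/
theorem rmub_main : QExpMulStatement → RootMulStatement := by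
  intro hQ N p _ _ c c' f f' hf hf'
  obtain ⟨s, hs, hs0, hsγ, hsq⟩ := hf
  obtain ⟨s', hs', hs0', hsγ', hsq'⟩ := hf'
  have hp : NeZero p := ⟨(Fact.out : p.Prime).ne_zero⟩
  refine ⟨fun τ => s τ * s' τ, hs.mul hs', rmub_mul_ne_zero s s' hs hs' hs0 hs0', ?_, ?_⟩
  · intro γ τ
    show s ((γ : SL(2, ℤ)) • τ) * s' ((γ : SL(2, ℤ)) • τ) = chiOf N p (c + c') γ * (s τ * s' τ)
    rw [hsγ γ τ, hsγ' γ τ, rmub_chiOf_add]
    ring
  · have h := hQ N f f' _ _ hsq hsq'
    have he : (fun τ => (s τ * s' τ) ^ p) = fun τ => s τ ^ p * s' τ ^ p := by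
      funext τ
      exact mul_pow _ _ _
    rw [he]
    exact h

end

end Fermat.Agent.S42
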