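/-
S42 moonshot — package RNZ (twin B): a root function is nonzero.
-/
import Mathlib
import Fermat.Agent.S42.ThetaInterfaces

set_option autoImplicit false

open ModularCurve AlgebraicCurve CongruenceSubgroup
open UpperHalfPlane
open scoped TensorProduct MatrixGroups Manifold Topology

namespace Fermat.Agent.S42

/-- (RNZ) a root function is nonzero. -/
theorem rnzb_main : RootNeZeroStatement := by
  intro N p _ _ c f hroot hf
  obtain ⟨s, hs, ⟨τ0, hτ0⟩, _, B, hB⟩ := hroot
  subst hf
  apply hτ0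
  have hp : p ≠ 0 := (Fact.out : p.Prime).ne_zero
  have hzero : ∀ τ : ℍ, B < τ.im → s τ = 0 := by
    intro τ hτ
    have h1 := hB τ hτ
    have h2 : (fun n : ℤ => embC ((((0 : FN N) : LaurentSeries Qbar)).coeff n)
        * Complex.exp (2 * Real.pi * Complex.I * (n : ℂ) * (τ : ℂ))) = fun _ => 0 := by
      funext n
      simp
    rw [h2] at h1
    have h3 := h1.unique hasSum_zero
    exact (pow_eq_zero_iff hp).mp h3
  have hd : DifferentiableOn ℂ (s ∘ ofComplex) {z | 0 < z.im} :=
    UpperHalfPlane.mdifferentiable_iff.mp hs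
  have hopen : IsOpen {z : ℂ | 0 < z.im} := isOpen_lt continuous_const Complex.continuous_im
  have han : AnalyticOnNhd ℂ (s ∘ ofComplex) {z | 0 < z.im} := hd.analyticOnNhd hopen
  have hconv : IsPreconnected {z : ℂ | 0 < z.im} := (convex_halfSpace_im_gt 0).isPreconnected
  have hz0 : (⟨0, max B 0 + 1⟩ : ℂ) ∈ {z : ℂ | 0 < z.im} := by
    show (0 : ℝ) < max B 0 + 1
    have := le_max_right B 0
    linarith
  have hev : (s ∘ ofComplex) =ᶠ[𝓝 (⟨0, max B 0 + 1⟩ : ℂ)] 0 := by
    have hmem : {z : ℂ | max B 0 < z.im} ∈ 𝓝 (⟨0, max B 0 + 1⟩ : ℂ) :=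
      (isOpen_lt continuous_const Complex.continuous_im).mem_nhds
        (by show max B 0 < max B 0 + 1; linarith)
    filter_upwards [hmem] with z hz
    have hz' : max B 0 < z.im := hz
    have hzpos : 0 < z.im := lt_of_le_of_lt (le_max_right B 0) hz'
    have hB' : B < z.im := lt_of_le_of_lt (le_max_left B 0) hz'
    show s (ofComplex z) = 0
    apply hzero
    rw [ofComplex_apply_of_im_pos hzpos]
    exact hB'
  have h4 := han.eqOn_zero_of_preconnected_of_eventuallyEq_zero hconv hz0 hev τ0.2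
  have h5 : s (ofComplex (τ0 : ℂ)) = 0 := h4
  rwa [ofComplex_apply] at h5

end Fermat.Agent.S42
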