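/-
S42 moonshot — package THETA (twin A): formal construction of the injective Hecke-equivariant map
`Θ : Lam N p → J₀(N)` from the BRIDGE statements.  Prefix `thea_`.
-/
import Fermat.Agent.S42.ThetaInterfaces
import Fermat.Agent.S37.ASMB
import Fermat.Agent.S37.HIInterfaces

set_option autoImplicit false

open ModularCurve AlgebraicCurve CongruenceSubgroup
open UpperHalfPlane
open scoped TensorProduct MatrixGroups Manifold

namespace Fermat.Agent.S42

noncomputable section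

section General

variable {K F : Type} [Field K] [Field F] [Algebra K F]

/-- A nonzero constant has order zero at every place. -/
theorem thea_ord_const (P : Place K F) (a : K) (ha : a ≠ 0) : P.ord (algebraMap K F a) = 0 := by
  have h1 := P.algebraMap_mem' a
  have h2 := P.algebraMap_mem' a⁻¹
  let u : P.toValuationSubringˣ :=
    ⟨⟨algebraMap K F a, h1⟩, ⟨algebraMap K F a⁻¹, h2⟩,
      Subtype.ext (by
        show algebraMap K F a * algebraMap K F a⁻¹ = 1
        rw [← map_mul, mul_inv_cancel₀ ha, map_one]),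
      Subtype.ext (by
        show algebraMap K F a⁻¹ * algebraMap K F a = 1
        rw [← map_mul, inv_mul_cancel₀ ha, map_one])⟩
  exact P.ord_coe_unit u

theorem thea_ord_pow (P : Place K F) (h : F) (n : ℕ) : P.ord (h ^ n) = n * P.ord h := by
  have := P.ord_zpow h n
  simpa using this

/-- The `p`-th part of a principal divisor all of whose coefficients are divisible by `p`. -/
theorem thea_exists_Dp [HasPrincipalDivisors K F] (p : ℕ) (hp : p ≠ 0) (f : F) (hf : f ≠ 0)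
    (hdiv : ∀ P : Place K F, (p : ℤ) ∣ P.ord f) :
    ∃ D : Divisor K F, D ∈ Divisor.degZero (K := K) (F := F) ∧
      ∀ P : Place K F, (p : ℤ) * D P = P.ord f := by
  obtain ⟨E, hE, hdeg⟩ := HasPrincipalDivisors.exists_divisor (K := K) f hf
  have h0 : (0 : ℤ) / (p : ℤ) = 0 := Int.zero_ediv _
  have key : ∀ P : Place K F,
      (p : ℤ) * (Finsupp.mapRange (fun n : ℤ => n / (p : ℤ)) h0 E) P = P.ord f := by
    intro P
    rw [Finsupp.mapRange_apply, hE]
    exact Int.mul_ediv_cancel' (hdiv P)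
  refine ⟨Finsupp.mapRange (fun n : ℤ => n / (p : ℤ)) h0 E, ?_, key⟩
  have e : (p : ℤ) • Finsupp.mapRange (fun n : ℤ => n / (p : ℤ)) h0 E = E := by
    ext P
    rw [Finsupp.smul_apply, smul_eq_mul, key, hE]
  rw [Divisor.mem_degZero]
  have h2 : (p : ℤ) * Divisor.degree (Finsupp.mapRange (fun n : ℤ => n / (p : ℤ)) h0 E) = 0 := by
    rw [← smul_eq_mul, ← map_zsmul, e, hdeg]
  rcases mul_eq_zero.mp h2 with h | h
  · exact absurd (Int.natCast_eq_zero.mp h) hp
  · exact h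

theorem thea_mk_eq (D E : Divisor K F) (hD : D ∈ Divisor.degZero (K := K) (F := F))
    (hE : E ∈ Divisor.degZero (K := K) (F := F))
    (h : D - E ∈ Divisor.principal (K := K) (F := F)) :
    (Pic0.mk ⟨D, hD⟩ : Pic0 K F) = Pic0.mk ⟨E, hE⟩ := by
  have h0 : (QuotientAddGroup.mk ((⟨D, hD⟩ : Divisor.degZero (K := K) (F := F)) - ⟨E, hE⟩) :
      Pic0 K F) = 0 :=
    (QuotientAddGroup.eq_zero_iff _).mpr (AddSubgroup.mem_addSubgroupOf.mpr h)
  have h1 : (Pic0.mk ⟨D, hD⟩ : Pic0 K F) - Pic0.mk ⟨E, hE⟩ = 0 := h0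
  exact sub_eq_zero.mp h1

theorem thea_mk_eq_zero (D : Divisor K F) (hD : D ∈ Divisor.degZero (K := K) (F := F))
    (h : (Pic0.mk ⟨D, hD⟩ : Pic0 K F) = 0) : D ∈ Divisor.principal (K := K) (F := F) := by
  have h' := (QuotientAddGroup.eq_zero_iff _).mp h
  rw [AddSubgroup.mem_addSubgroupOf] at h'
  exact h'

end General

/-- Two root functions for the same character have `p`-th parts of divisors differing by a
principal divisor. -/
theorem thea_same (hSC : SameCharStatement) (hNZ : RootNeZeroStatement) (N p : ℕ) [NeZero N]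
    [Fact p.Prime] (hp5 : 5 ≤ p) (c : ↥(Lam N p)) (f f' : FN N)
    (hf : RootProp N p (c : Additive ↥(Gamma0 N) →+ ZMod p) f)
    (hf' : RootProp N p (c : Additive ↥(Gamma0 N) →+ ZMod p) f')
    (D D' : Divisor Qbar (FN N)) (hD : ∀ P : Place Qbar (FN N), (p : ℤ) * D P = P.ord f)
    (hD' : ∀ P : Place Qbar (FN N), (p : ℤ) * D' P = P.ord f') :
    D' - D ∈ Divisor.principal (K := Qbar) (F := FN N) := by
  obtain ⟨a, h, ha, hh, e⟩ := hSC N p hp5 c f f' hf hf'
  refine ⟨h, hh, fun P => ?_⟩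
  have hf0 := hNZ N p c f hf
  have hp0 : (p : ℤ) ≠ 0 := Int.natCast_ne_zero.mpr (Fact.out : p.Prime).ne_zero
  have ha0 : algebraMap Qbar (FN N) a ≠ 0 := fun h0 =>
    ha ((map_eq_zero (algebraMap Qbar (FN N))).mp h0)
  have key : (p : ℤ) * (D' - D) P = p * P.ord h := by
    rw [Finsupp.sub_apply, mul_sub, hD, hD', e,
      P.ord_mul (mul_ne_zero ha0 (pow_ne_zero p hh)) hf0,
      P.ord_mul ha0 (pow_ne_zero p hh), thea_ord_const P a ha, thea_ord_pow]
    ring
  exact mul_left_cancel₀ hp0 key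

theorem thea_main : ExistRootStatement → DivByPStatement → SameCharStatement →
    TrivCharStatement → HeckeRootStatement → RootNeZeroStatement → RootMulStatement →
    ConstStatement → Fermat.Agent.S37.hi_PrincipalStatement → Fermat.Agent.S37.HIStatement →
    PERTcohLamStatement → ThetaStatement := by
  intro hER hDP hSC hTC hHR hNZ hRM hC hPr hHI _ N p _ _ hp5
  have : HasPrincipalDivisors Qbar (FN N) := hPr N
  have hpP : p.Prime := Fact.out
  have hp0 : (p : ℤ) ≠ 0 := Int.natCast_ne_zero.mpr hpP.ne_zero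
  have hex : ∀ c : ↥(Lam N p), ∃ (f : FN N) (D : Divisor Qbar (FN N)),
      RootProp N p (c : Additive ↥(Gamma0 N) →+ ZMod p) f ∧
      D ∈ Divisor.degZero (K := Qbar) (F := FN N) ∧
      ∀ P : Place Qbar (FN N), (p : ℤ) * D P = P.ord f := by
    intro c
    obtain ⟨f, hf⟩ := hER N p hp5 c
    obtain ⟨D, hD0, hD⟩ := thea_exists_Dp (K := Qbar) p hpP.ne_zero f (hNZ N p c f hf)
      (hDP N p hp5 c f hf)
    exact ⟨f, D, hf, hD0, hD⟩
  choose fc Dc hfc hDc0 hDc using hex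
  have hadd : ∀ c c' : ↥(Lam N p),
      (Pic0.mk ⟨Dc (c + c'), hDc0 (c + c')⟩ : JZero N) =
        Pic0.mk ⟨Dc c, hDc0 c⟩ + Pic0.mk ⟨Dc c', hDc0 c'⟩ := by
    intro c c'
    have h1 : RootProp N p ((c + c' : ↥(Lam N p)) : Additive ↥(Gamma0 N) →+ ZMod p)
        (fc c * fc c') := hRM N p c c' (fc c) (fc c') (hfc c) (hfc c')
    have h2 : ∀ P : Place Qbar (FN N), (p : ℤ) * (Dc c + Dc c') P = P.ord (fc c * fc c') := by
      intro P
      rw [Finsupp.add_apply, mul_add, hDc, hDc,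
        P.ord_mul (hNZ N p c (fc c) (hfc c)) (hNZ N p c' (fc c') (hfc c'))]
    have h3 := thea_same hSC hNZ N p hp5 (c + c') (fc c * fc c') (fc (c + c')) h1
      (hfc (c + c')) (Dc c + Dc c') (Dc (c + c')) h2 (hDc (c + c'))
    exact thea_mk_eq (Dc (c + c')) (Dc c + Dc c') (hDc0 (c + c'))
      (add_mem (hDc0 c) (hDc0 c')) h3
  refine ⟨AddMonoidHom.mk' (fun c => (Pic0.mk ⟨Dc c, hDc0 c⟩ : JZero N)) hadd, ?_, ?_⟩
  · rw [injective_iff_map_eq_zero]
    intro c hc
    have hc' : (Pic0.mk ⟨Dc c, hDc0 c⟩ : JZero N) = 0 := hc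
    obtain ⟨h, hh, hD⟩ := thea_mk_eq_zero (Dc c) (hDc0 c) hc'
    have hf0 := hNZ N p c (fc c) (hfc c)
    have hhp : h ^ p ≠ 0 := pow_ne_zero p hh
    have hord : ∀ P : Place Qbar (FN N), P.ord (fc c * (h ^ p)⁻¹) = 0 := by
      intro P
      rw [P.ord_mul hf0 (inv_ne_zero hhp), P.ord_inv, thea_ord_pow, ← hDc, hD]
      ring
    obtain ⟨a, ha⟩ := hC N (fc c * (h ^ p)⁻¹) (mul_ne_zero hf0 (inv_ne_zero hhp)) hord
    have hfa : fc c = algebraMap Qbar (FN N) a * h ^ p := by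
      rw [← ha, mul_assoc, inv_mul_cancel₀ hhp, mul_one]
    have hroot := hfc c
    rw [hfa] at hroot
    exact hTC N p hp5 c a h hroot
  · intro ℓ hℓ c
    have : NeZero (ℓ : ℕ) := ⟨ℓ.2.ne_zero⟩
    have hI : HeckeInputsAlong Qbar N ℓ := hHI N ℓ ℓ.2
    have := hI.snd.snd.fst
    obtain ⟨f', hf', H⟩ := hHR N p ℓ hp5 ℓ.2 hℓ hI c (fc c) (hfc c)
    obtain ⟨E, hE, -⟩ := HasPrincipalDivisors.exists_divisor (K := Qbar) (fc c)
      (hNZ N p c (fc c) (hfc c))
    have hEe : E = (p : ℤ) • Dc c := by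
      ext P
      rw [Finsupp.smul_apply, smul_eq_mul, hDc, hE]
    have h2 : ∀ P : Place Qbar (FN N),
        (p : ℤ) * (heckeDivBar hI.fst hI.snd.fst (Dc c)) P = P.ord f' := by
      intro P
      have := H E hE P
      rw [hEe, map_zsmul, Finsupp.smul_apply, smul_eq_mul] at this
      exact this
    have h3 := thea_same hSC hNZ N p hp5 (perTcohLam N ℓ p c) f' (fc (perTcohLam N ℓ p c)) hf'
      (hfc (perTcohLam N ℓ p c)) _ (Dc (perTcohLam N ℓ p c)) h2 (hDc (perTcohLam N ℓ p c))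
    obtain ⟨hD', e⟩ := Fermat.Agent.S37.asmb_heckeOperatorAlong_mk (ℓ : ℕ) hI (Dc c) (hDc0 c)
    show (Pic0.mk ⟨Dc (perTcohLam N ℓ p c), hDc0 (perTcohLam N ℓ p c)⟩ : JZero N) =
      heckeOperatorBar N ℓ (Pic0.mk ⟨Dc c, hDc0 c⟩)
    rw [heckeOperatorBar_apply, e]
    exact thea_mk_eq _ _ (hDc0 (perTcohLam N ℓ p c)) hD' h3

end

end Fermat.Agent.S42
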