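/-
S42 moonshot — block THETA, assembly (helper26): `ThetaStatement` from N1–N4 (blocks
DICT/ROOT/DESC/EIS) and the coset calculus of block PER.
-/
import Fermat.Agent.S42.HeckeRootMain
import Fermat.Agent.S42.ThetaA
import Fermat.Agent.S42.RnzB
import Fermat.Agent.S42.RmulB
import Fermat.Agent.S42.ConstC

set_option autoImplicit false

namespace Fermat.Agent.S42

/-- (THETA) from N1–N4 and the coset calculus. -/
theorem theta_main_of (h1 : ExistRootStatement) (h2 : DivByPStatement) (h3 : SameCharStatement)
    (h4 : TrivCharStatement) (hSig : PERSigStatement) (hApply : PERTcohApplyStatement)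
    (hLam : PERTcohLamStatement) : ThetaStatement :=
  thea_main h1 h2 h3 h4 (hr_main hSig hApply hLam) rnzb_main (rmub_main evma_main.2.2) cstc_main
    Fermat.Agent.S37.hi_principal Fermat.Agent.S37.hi_main hLam

end Fermat.Agent.S42
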