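/-
S42 moonshot — the lead's `S42InputsStatement` from the remaining external statements
(N1–N4 of helper22, PER statements of helper19).  (helper26)
-/
import Fermat.Agent.S42.FinalGlue
import Fermat.Agent.S42.ThetaMain
import Fermat.Agent.S42.ESMain
import Fermat.Agent.S42.GHMain
import Fermat.Agent.S42.OpenMain
import Fermat.Agent.S42.FreyKerB

set_option autoImplicit false

namespace Fermat.Agent.S42

/-- All modular-curve inputs of S42, from N1–N4 and the PER statements. -/
theorem s42_inputs_of (h1 : ExistRootStatement) (h2 : DivByPStatement) (h3 : SameCharStatement)
    (h4 : TrivCharStatement) (hSig : PERSigStatement) (hApply : PERTcohApplyStatement)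
    (hLam : PERTcohLamStatement) (hPer : PERMainStatement) (hInt : PERIntegralStatement) :
    S42InputsStatement :=
  fg_inputs (theta_main_of h1 h2 h3 h4 hSig hApply hLam) es_main gh_main open_main hPer hInt
    frkb_main

end Fermat.Agent.S42
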