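/-
S42 moonshot — everything except N1–N4 (helper26): the frozen statement S42 from the four
BRIDGE statements `ExistRootStatement`, `DivByPStatement`, `SameCharStatement`,
`TrivCharStatement`.
-/
import Fermat.Agent.S42.InputsMain
import Fermat.Agent.S42.PERFinal

set_option autoImplicit false

namespace Fermat.Agent.S42

/-- S42 from N1–N4. -/
theorem s42_of_kum (h1 : ExistRootStatement) (h2 : DivByPStatement) (h3 : SameCharStatement)
    (h4 : TrivCharStatement) (P : FreyPackage) :
    ∀ M : ℕ, 0 < M → P.EigenformResidualAttachmentAt M :=
  fw_result_of_inputs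
    (s42_inputs_of h1 h2 h3 h4 per_sig per_tcohApply per_tcohLam per_main per_integral) P

end Fermat.Agent.S42
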