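/-
S42 moonshot — helper22's blocks: N1–N4 from the five dictionary/descent statements
(`desc_Statement`, `dict_ImgStatement`, `dict_RepStatement`, `dict_PlacePointStatement`,
`dict_CuspPlaceStatement`); EIS and KUM blocks plugged in.
-/
import Fermat.Agent.S42.KumMain
import Fermat.Agent.S42.EISFinal

set_option autoImplicit false

namespace Fermat.Agent.S42

theorem h22_N1_of (hD : desc_Statement) (hI : dict_ImgStatement) : ExistRootStatement :=
  kumN1_main eis_main eis_periodic eis_char hD hI

theorem h22_N2_of (hR : dict_RepStatement) (hPP : dict_PlacePointStatement)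
    (hCP : dict_CuspPlaceStatement) : DivByPStatement :=
  kumN2_main hR hPP hCP

theorem h22_N3_of (hR : dict_RepStatement) (hI : dict_ImgStatement) : SameCharStatement :=
  kumN3_main hR hI

theorem h22_N4_of (hR : dict_RepStatement) : TrivCharStatement :=
  kumN4_main hR

end Fermat.Agent.S42
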