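/-
S42 moonshot — helper22's blocks: N1–N4 from the statements of block DC (dictionary over `ℂ`) and
the two place statements DQ3/DQ4; blocks EIS, KUM, DESC, ROOT, AL, DQ1, DQ2 plugged in.
-/
import Fermat.Agent.S42.H22Cond
import Fermat.Agent.S42.ALMain
import Fermat.Agent.S42.DescMain
import Fermat.Agent.S42.DQMain

set_option autoImplicit false

namespace Fermat.Agent.S42

/-- DESC from block DC. -/
theorem h22_desc_of (hFinC : dict_FinCStatement) (hDC1 : dict_FieldCStatement)
    (hIntC : dict_IntCStatement) (hIntC' : dict_IntC'Statement)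
    (hIntPl : dict_IntPlacesCStatement) (hDC4 : dict_PointPlaceCStatement)
    (hDC5 : dict_PlacePointCStatement) : desc_Statement :=
  desc_main root_main descAlg_main descFin_main hFinC hDC1 hIntC hIntC' hIntPl hDC4 hDC5
    al_RootUnity al_Ord al_CuspRoot al_CuspGrowth

/-- (N1) from block DC. -/
theorem h22_N1_of_dc (hFinC : dict_FinCStatement) (hDC1 : dict_FieldCStatement)
    (hIntC : dict_IntCStatement) (hIntC' : dict_IntC'Statement)
    (hIntPl : dict_IntPlacesCStatement) (hDC4 : dict_PointPlaceCStatement)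
    (hDC5 : dict_PlacePointCStatement) : ExistRootStatement :=
  h22_N1_of (h22_desc_of hFinC hDC1 hIntC hIntC' hIntPl hDC4 hDC5) (dqImg_main hDC1)

/-- (N2) from DQ3, DQ4. -/
theorem h22_N2_of_dq (hPP : dict_PlacePointStatement) (hCP : dict_CuspPlaceStatement) :
    DivByPStatement :=
  h22_N2_of dqRep_main hPP hCP

/-- (N3) from DC1. -/
theorem h22_N3_of_dc (hDC1 : dict_FieldCStatement) : SameCharStatement :=
  h22_N3_of dqRep_main (dqImg_main hDC1)

/-- (N4), hypothesis-free. -/
theorem h22_N4 : TrivCharStatement := h22_N4_of dqRep_main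

end Fermat.Agent.S42
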