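/-
S42 moonshot — helper22's blocks: N3, N4 hypothesis-free; N1 from DC5; N2 from DQ3/DQ4.
-/
import Fermat.Agent.S42.H22Cond2
import Fermat.Agent.S42.DCMain

set_option autoImplicit false

namespace Fermat.Agent.S42

/-- (N1) from DC5 (`dict_PlacePointCStatement`). -/
theorem h22_N1_of_dc5 (hDC5 : dict_PlacePointCStatement) : ExistRootStatement :=
  h22_N1_of_dc dcFin_main dcField_main dcInt_main dcInt'_main dcIntPlaces_main dcPointPlace_main
    hDC5

/-- (N3), hypothesis-free. -/
theorem h22_N3 : SameCharStatement := h22_N3_of_dc dcField_main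

end Fermat.Agent.S42
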