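/-
S42 moonshot — helper22's blocks: N1, N3, N4 hypothesis-free; N2 from DQ3/DQ4.
-/
import Fermat.Agent.S42.H22Cond3

set_option autoImplicit false

namespace Fermat.Agent.S42

/-- (N1), hypothesis-free. -/
theorem h22_N1 : ExistRootStatement := h22_N1_of_dc5 dcPlacePoint_main

end Fermat.Agent.S42
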