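/-
S42 moonshot — helper22's blocks (DICT / ROOT / DESC / KUM): FINAL.
The four cross-block deliverables N1–N4 of `Interfaces.lean`, hypothesis-free.
-/
import Fermat.Agent.S42.H22Cond4

set_option autoImplicit false

namespace Fermat.Agent.S42

/-- (N2), hypothesis-free: the divisor of a root function is divisible by `p`. -/
theorem h22_N2 : DivByPStatement := h22_N2_of_dq dqPlacePoint_main dqCuspPlace_main

/-- All four deliverables at once. -/
theorem h22_all :
    ExistRootStatement ∧ DivByPStatement ∧ SameCharStatement ∧ TrivCharStatement :=
  ⟨h22_N1, h22_N2, h22_N3, h22_N4⟩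

end Fermat.Agent.S42
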