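/-
S42, block ALG, package ALG-Asm (twin A): the assembly of the seven package statements into
`alg_MainStatement`.

Plan.  (1) Every `h : G` satisfies a quadratic `ρW h ^ 2 - b • ρW h + χ h = 0` (covering family and
`alg_PowStatement`).  (2) `alg_SimpleStatement` gives a minimal nonzero invariant subspace `W0`;
the restricted representation `ρ0` on `W0` is irreducible, trivial on `H` and inherits the
quadratic relations.  (3) Burnside, Anti and Dim give `finrank W0 ≤ 2`.  (4) If `finrank W0 = 2`,
`alg_TwoStatement` concludes; (5) if `finrank W0 = 1`, `alg_OneStatement` concludes.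
-/
import Mathlib
import Fermat.Agent.S42.AlgInterfaces

set_option autoImplicit false

namespace Fermat.Agent.S42

/-- The restriction of a representation to an invariant subspace. -/
def algasma_restrict {K G W : Type} [Field K] [Group G] [AddCommGroup W] [Module K W]
    (ρW : Representation K G W) (W0 : Submodule K W)
    (hinv : ∀ g : G, ∀ w ∈ W0, ρW g w ∈ W0) : Representation K G ↥W0 where
  toFun g := (ρW g).restrict (hinv g)
  map_one' := by
    ext w
    simp
  map_mul' g h := by
    ext w
    simp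

theorem algasma_restrict_coe {K G W : Type} [Field K] [Group G] [AddCommGroup W] [Module K W]
    (ρW : Representation K G W) (W0 : Submodule K W)
    (hinv : ∀ g : G, ∀ w ∈ W0, ρW g w ∈ W0) (g : G) (v : ↥W0) :
    ((algasma_restrict ρW W0 hinv g v : ↥W0) : W) = ρW g (v : W) := rfl

/-- A quadratic relation for `ρW h` restricts to the invariant subspace. -/
theorem algasma_restrict_quad {K G W : Type} [Field K] [Group G] [AddCommGroup W] [Module K W]
    (ρW : Representation K G W) (W0 : Submodule K W)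
    (hinv : ∀ g : G, ∀ w ∈ W0, ρW g w ∈ W0) (h : G) (b c : K)
    (hrel : ρW h * ρW h - b • ρW h + c • (1 : W →ₗ[K] W) = 0) :
    algasma_restrict ρW W0 hinv h * algasma_restrict ρW W0 hinv h
      - b • algasma_restrict ρW W0 hinv h + c • (1 : ↥W0 →ₗ[K] ↥W0) = 0 := by
  refine LinearMap.ext fun v => Subtype.ext ?_
  have h1 := LinearMap.congr_fun hrel (v : W)
  simp only [LinearMap.add_apply, LinearMap.sub_apply, Module.End.mul_apply, LinearMap.smul_apply,
    Module.End.one_apply, LinearMap.zero_apply] at h1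
  simp only [LinearMap.add_apply, LinearMap.sub_apply, Module.End.mul_apply, LinearMap.smul_apply,
    Module.End.one_apply, LinearMap.zero_apply, Submodule.coe_add, Submodule.coe_sub,
    Submodule.coe_smul, Submodule.coe_zero, algasma_restrict_coe]
  exact h1

/-- The restriction to a minimal invariant subspace is irreducible. -/
theorem algasma_restrict_irred {K G W : Type} [Field K] [Group G] [AddCommGroup W] [Module K W]
    (ρW : Representation K G W) (W0 : Submodule K W)
    (hinv : ∀ g : G, ∀ w ∈ W0, ρW g w ∈ W0)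
    (hmin : ∀ U : Submodule K W, U ≤ W0 → (∀ g : G, ∀ u ∈ U, ρW g u ∈ U) → U = ⊥ ∨ U = W0)
    (U : Submodule K ↥W0) (hU : ∀ g : G, ∀ u ∈ U, algasma_restrict ρW W0 hinv g u ∈ U) :
    U = ⊥ ∨ U = ⊤ := by
  have hinv' : ∀ g : G, ∀ u ∈ U.map W0.subtype, ρW g u ∈ U.map W0.subtype := by
    rintro g _ ⟨u, hu, rfl⟩
    exact ⟨algasma_restrict ρW W0 hinv g u, hU g u hu, rfl⟩
  rcases hmin (U.map W0.subtype) (Submodule.map_subtype_le W0 U) hinv' with h | h
  · left
    rw [Submodule.eq_bot_iff]
    intro u hu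
    have h0 : (u : W) ∈ U.map W0.subtype := ⟨u, hu, rfl⟩
    rw [h, Submodule.mem_bot] at h0
    exact Subtype.ext h0
  · right
    rw [Submodule.eq_top_iff']
    intro v
    have hv : (v : W) ∈ U.map W0.subtype := by
      rw [h]
      exact v.2
    obtain ⟨u, hu, huv⟩ := hv
    have : u = v := Subtype.ext huv
    rw [← this]
    exact hu

/-- (ALG-Asm). -/
theorem algasma_main : alg_AsmStatement := by
  intro hPow hSimple hBurn hAnti hDim hTwo hOne K G ι _ _ _ W _ _ _ _ ρW χ H _ hH hχ g a hquad
    hcov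
  -- (1) every element satisfies a quadratic
  have h1 : ∀ h : G, ∃ b : K,
      ρW h * ρW h - b • ρW h + ((χ h : Kˣ) : K) • (1 : W →ₗ[K] W) = 0 := by
    intro h
    obtain ⟨i, n, hη⟩ := hcov h
    have hg : g i ^ n = h * (h⁻¹ * g i ^ n) := by group
    have hρ : ρW (g i) ^ n = ρW h := by
      rw [← map_pow, hg, map_mul, hH _ hη, mul_one]
    have hχn : ((χ (g i) : Kˣ) : K) ^ n = ((χ h : Kˣ) : K) := by
      rw [← Units.val_pow_eq_pow_val, ← map_pow, hg, map_mul, hχ _ hη, mul_one]
    obtain ⟨b, hb⟩ := hPow K W (ρW (g i)) (a i) ((χ (g i) : Kˣ) : K) (hquad i) n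
    rw [hρ, hχn] at hb
    exact ⟨b, hb⟩
  -- (2) a minimal invariant subspace and the restricted representation
  obtain ⟨W0, hW0, hinv, hmin⟩ := hSimple K G W ρW
  have : Nontrivial ↥W0 := Submodule.nontrivial_iff_ne_bot.mpr hW0
  have hirr : ∀ U : Submodule K ↥W0,
      (∀ g : G, ∀ u ∈ U, algasma_restrict ρW W0 hinv g u ∈ U) → U = ⊥ ∨ U = ⊤ :=
    fun U hU => algasma_restrict_irred ρW W0 hinv hmin U hU
  have hH0 : ∀ h ∈ H, algasma_restrict ρW W0 hinv h = 1 := by
    intro h hh
    refine LinearMap.ext fun v => Subtype.ext ?_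
    rw [algasma_restrict_coe, hH h hh]
    rfl
  have hquad0 : ∀ i, algasma_restrict ρW W0 hinv (g i) * algasma_restrict ρW W0 hinv (g i)
      - a i • algasma_restrict ρW W0 hinv (g i)
      + ((χ (g i) : Kˣ) : K) • (1 : ↥W0 →ₗ[K] ↥W0) = 0 :=
    fun i => algasma_restrict_quad ρW W0 hinv (g i) (a i) _ (hquad i)
  choose b hb using h1
  have hb0 : ∀ h : G, algasma_restrict ρW W0 hinv h * algasma_restrict ρW W0 hinv h
      - b h • algasma_restrict ρW W0 hinv h + ((χ h : Kˣ) : K) • (1 : ↥W0 →ₗ[K] ↥W0) = 0 :=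
    fun h => algasma_restrict_quad ρW W0 hinv h (b h) _ (hb h)
  -- (3) the dimension is `1` or `2`
  have hspan := hBurn K G ↥W0 (algasma_restrict ρW W0 hinv) hirr
  have hanti := hAnti K G ↥W0 (algasma_restrict ρW W0 hinv) χ b hspan hb0
  have hle : Module.finrank K ↥W0 ≤ 2 := hDim K ↥W0 hanti
  have hpos : 0 < Module.finrank K ↥W0 := Module.finrank_pos
  rcases (by omega : Module.finrank K ↥W0 = 2 ∨ Module.finrank K ↥W0 = 1) with h2 | h1'
  · -- (4) dimension two
    exact ⟨↥W0, inferInstance, inferInstance, algasma_restrict ρW W0 hinv, h2, hH0,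
      fun i => hTwo K G ↥W0 (algasma_restrict ρW W0 hinv) χ h2 hirr
        (fun h => ⟨b h, hb0 h⟩) (g i) (a i) (hquad0 i)⟩
  · -- (5) dimension one
    exact hOne K G ι ↥W0 (algasma_restrict ρW W0 hinv) χ H g a h1' hH0 hχ hquad0

end Fermat.Agent.S42
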