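/-
S42, block CHEB, package CHEB-EulerAsm (twin B): assembly of the Euler product of the ideal sum
`∑_I N(I)^{-s}` over the rational primes, from the multiplicativity of the ideal counts
(`cheb_MultStatement`) and the local generating series (`cheb_LocalStatement`).
Namespace `Fermat.Agent.S42`, prefix `chebeulerb_`.
-/
import Mathlib
import Fermat.Agent.S42.ChebInterfaces
import Fermat.Agent.S14.ZMainPole

set_option autoImplicit false

open NumberField

namespace Fermat.Agent.S42

noncomputable section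

/-- The Dirichlet coefficients of the ideal sum: `f n = #{I | N(I) = n} * n^{-s}`. -/
def chebeulerb_f (M : Type) [Field M] [NumberField M] (s : ℝ) (n : ℕ) : ℝ :=
  (Nat.card {I : Ideal (𝓞 M) // Ideal.absNorm I = n} : ℝ) * (n : ℝ) ^ (-s)

theorem chebeulerb_card_one (M : Type) [Field M] [NumberField M] :
    Nat.card {I : Ideal (𝓞 M) // Ideal.absNorm I = 1} = 1 := by
  rw [Nat.card_eq_one_iff_unique]
  refine ⟨⟨fun a b => Subtype.ext ?_⟩, ⟨⟨⊤, Ideal.absNorm_top⟩⟩⟩
  rw [Ideal.absNorm_eq_one_iff.1 a.2, Ideal.absNorm_eq_one_iff.1 b.2]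

theorem chebeulerb_f_one (M : Type) [Field M] [NumberField M] (s : ℝ) :
    chebeulerb_f M s 1 = 1 := by
  unfold chebeulerb_f
  rw [chebeulerb_card_one, Nat.cast_one, Real.one_rpow, mul_one]

theorem chebeulerb_f_zero (M : Type) [Field M] [NumberField M] (s : ℝ) (hs : s ≠ 0) :
    chebeulerb_f M s 0 = 0 := by
  unfold chebeulerb_f
  rw [Nat.cast_zero, Real.zero_rpow (neg_ne_zero.mpr hs), mul_zero]

theorem chebeulerb_f_nonneg (M : Type) [Field M] [NumberField M] (s : ℝ) (n : ℕ) :
    0 ≤ chebeulerb_f M s n :=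
  mul_nonneg (Nat.cast_nonneg _) (Real.rpow_nonneg (Nat.cast_nonneg _) _)

theorem chebeulerb_f_mul (hMult : cheb_MultStatement) (M : Type) [Field M] [NumberField M] (s : ℝ)
    {m n : ℕ} (hmn : m.Coprime n) :
    chebeulerb_f M s (m * n) = chebeulerb_f M s m * chebeulerb_f M s n := by
  unfold chebeulerb_f
  rw [hMult M m n hmn, Nat.cast_mul, Nat.cast_mul,
    Real.mul_rpow (Nat.cast_nonneg m) (Nat.cast_nonneg n)]
  ring

theorem chebeulerb_summable (M : Type) [Field M] [NumberField M] (s : ℝ) (hs : 1 < s) :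
    Summable (chebeulerb_f M s) := by
  have hs0 : s ≠ 0 := by linarith
  have hL := Fermat.Agent.S14.z_pole_lsummable M s hs
  rw [LSeriesSummable, funext (Fermat.Agent.S14.z_pole_term M s hs0)] at hL
  exact Complex.summable_ofReal.mp hL

theorem chebeulerb_summable_norm (M : Type) [Field M] [NumberField M] (s : ℝ) (hs : 1 < s) :
    Summable (fun n : ℕ => ‖chebeulerb_f M s n‖) := by
  have h : (fun n : ℕ => ‖chebeulerb_f M s n‖) = chebeulerb_f M s := by
    funext n
    rw [Real.norm_eq_abs, abs_of_nonneg (chebeulerb_f_nonneg M s n)]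
  rw [h]
  exact chebeulerb_summable M s hs

theorem chebeulerb_tsum (M : Type) [Field M] [NumberField M] (s : ℝ) (hs : 1 < s) :
    ∑' n : ℕ, chebeulerb_f M s n = cheb_zeta M s := by
  have hs0 : s ≠ 0 := by linarith
  have h := (Fermat.Agent.S14.z_pole_sum M s hs).2
  have h2 : dedekindZeta M (s : ℂ) = ((∑' n : ℕ, chebeulerb_f M s n : ℝ) : ℂ) := by
    rw [Complex.ofReal_tsum]
    unfold dedekindZeta LSeries
    exact tsum_congr (fun n => Fermat.Agent.S14.z_pole_term M s hs0 n)
  rw [h] at h2
  exact (Complex.ofReal_injective h2).symm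

/-- (CHEB-EulerAsm) Assembly of the Euler product. -/
theorem chebeulerb_main : cheb_EulerAsmStatement := by
  intro hMult hLocal M _ _ s hs
  have hs0 : 0 < s := by linarith
  have h := EulerProduct.eulerProduct_hasProd (f := chebeulerb_f M s) (chebeulerb_f_one M s)
    (fun {m n} hmn => chebeulerb_f_mul hMult M s hmn) (chebeulerb_summable_norm M s hs)
    (chebeulerb_f_zero M s hs0.ne')
  rw [chebeulerb_tsum M s hs] at h
  have hfun : (fun p : Nat.Primes => ∑' e : ℕ, chebeulerb_f M s ((p : ℕ) ^ e)) =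
      fun p : Nat.Primes => cheb_zloc M (p : ℕ) s := by
    funext p
    exact (hLocal M p p.prop s hs0).2
  rw [hfun] at h
  exact h

end

end Fermat.Agent.S42
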