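/-
S42 moonshot — block DQ, package IMG (DQ1 assembly), twin A.
An integral modular function of level `Γ₀(N)` with `ℚ̄`-rational `q`-expansion is the realisation
of an element of `FNbar N` (from (DC1) and linear disjointness (LD)).
-/
import Fermat.Agent.S42.DQInterfaces

set_option autoImplicit false

open UpperHalfPlane ModularForm Complex CongruenceSubgroup ModularGroup AlgebraicCurve
open IntermediateField
open scoped MatrixGroups Manifold Real

namespace Fermat.Agent.S42

open Fermat.Agent.S24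

noncomputable section

/-- A function invariant under `T` is `1`-periodic (as a function on `ℂ` via `ofComplex`). -/
theorem dqimga_periodic (f : ℍ → ℂ) (hinv : ∀ τ : ℍ, f (T • τ) = f τ) :
    Function.Periodic (f ∘ ofComplex) ((1 : ℝ) : ℂ) := by
  intro z
  show f (ofComplex (z + ((1 : ℝ) : ℂ))) = f (ofComplex z)
  by_cases hz : 0 < z.im
  · have hz' : 0 < (z + ((1 : ℝ) : ℂ)).im := by simpa using hz
    rw [ofComplex_apply_of_im_pos hz, ofComplex_apply_of_im_pos hz', ← hinv ⟨z, hz⟩,
      modular_T_smul]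
    congr 1
    apply UpperHalfPlane.ext
    rw [coe_vadd]
    show z + ((1 : ℝ) : ℂ) = ((1 : ℝ) : ℂ) + z
    ring
  · have hz1 : z.im ≤ 0 := not_lt.mp hz
    have hz' : (z + ((1 : ℝ) : ℂ)).im ≤ 0 := by simpa using hz1
    rw [ofComplex_apply_of_im_nonpos hz1, ofComplex_apply_of_im_nonpos hz']

/-- `T ∈ Γ₀(N)`. -/
theorem dqimga_T_mem (N : ℕ) : T ∈ Gamma0 N := by
  rw [Gamma0_mem]
  simp [ModularGroup.T]

/-- An integral modular function of level `Γ₀(N)` is `1`-periodic and meromorphic at `∞`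
with respect to `q = q_1`. -/
theorem dqimga_cusp1 : ∀ (N : ℕ) [NeZero N] (φ : ℍ → ℂ), dict_ModFun N φ → IsCuspMer 1 φ := by
  intro N _ φ hφ
  have hN : IsCuspMer N φ := by
    have h1 := hφ.2 1
    simpa only [one_smul] using h1
  have hper : Function.Periodic (φ ∘ ofComplex) ((1 : ℝ) : ℂ) :=
    dqimga_periodic φ (fun τ => hφ.1 T (dqimga_T_mem N) τ)
  exact dq_hQ.2.2.2.2.2.2.1 N φ hN hper

/-- (DQ1) from (DC1) and (LD). -/
theorem dqimga_main : dict_FieldCStatement → dq_LDStatement → dict_ImgStatement := by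
  intro hF hLD N _ φ hφ hrat
  obtain ⟨f, hf, hfx⟩ := hLD N (Qexp 1 φ) (hF N φ hφ) hrat
  exact ⟨⟨f, hf⟩, dqimga_cusp1 N φ hφ, hfx.symm⟩

end

end Fermat.Agent.S42
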