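/-
S42 moonshot — block DESC, package DIF (twin B): the difference lemma `desc_DiffStatement`.
-/
import Fermat.Agent.S42.DescInterfaces
import Fermat.Agent.S42.ALInterfaces
import Fermat.Agent.S24.Qexp
import Fermat.Agent.S24.OrdBasic

set_option autoImplicit false

open UpperHalfPlane ModularForm Complex CongruenceSubgroup ModularGroup AlgebraicCurve
open scoped MatrixGroups Manifold Real

namespace Fermat.Agent.S42

open Fermat.Agent.S24

noncomputable section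

/-- `Qexp 1` commutes with powers. -/
theorem descDifB_qexp_pow (f : ℍ → ℂ) (hf : IsCuspMer 1 f) (k : ℕ) :
    IsCuspMer 1 (fun z : ℍ => f z ^ k) ∧ Qexp 1 (fun z : ℍ => f z ^ k) = Qexp 1 f ^ k := by
  obtain ⟨hc, hsp, -⟩ := Fermat.Agent.S24.Qexp.qexpStatement
  induction k with
  | zero =>
    have h1 := hc 1 (1 : ℂ)
    simp only [pow_zero]
    exact ⟨⟨0, h1.1⟩, by rw [h1.2, map_one]⟩
  | succ k ih =>
    obtain ⟨h1, h2⟩ := ih
    obtain ⟨-, h3, -, h4⟩ := hsp 1 _ _ h1 hf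
    have e : (fun z : ℍ => f z ^ (k + 1)) = (fun z : ℍ => f z ^ k) * f := by
      funext z
      simp [pow_succ]
    rw [e]
    exact ⟨h3, by rw [h4, h2, pow_succ]⟩

/-- The leading coefficient of a power. -/
theorem descDifB_leadingCoeff_pow (x : LaurentSeries ℂ) (k : ℕ) :
    (x ^ k).leadingCoeff = x.leadingCoeff ^ k := by
  induction k with
  | zero => simp
  | succ k ih => rw [pow_succ, HahnSeries.leadingCoeff_mul, ih, pow_succ]

/-- Order and leading coefficient of a `p`-th root of `x₂ x₁^(p-1)`. -/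
theorem descDifB_series1 (x₁ x₂ ω : LaurentSeries ℂ) (p : ℕ) (hp : 0 < p)
    (hord : x₁.order = x₂.order) (hl₁ : x₁.leadingCoeff = 1) (hl₂ : x₂.leadingCoeff = 1)
    (hω : ω ^ p = x₂ * x₁ ^ (p - 1)) :
    ω.order = x₁.order ∧ ω.leadingCoeff ^ p = 1 := by
  have hx₁ : x₁ ≠ 0 := by
    rw [← HahnSeries.leadingCoeff_ne_zero, hl₁]
    exact one_ne_zero
  have hx₂ : x₂ ≠ 0 := by
    rw [← HahnSeries.leadingCoeff_ne_zero, hl₂]
    exact one_ne_zero
  constructor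
  · have h1 := congrArg HahnSeries.order hω
    rw [HahnSeries.order_pow, HahnSeries.order_mul hx₂ (pow_ne_zero _ hx₁),
      HahnSeries.order_pow, ← hord] at h1
    simp only [nsmul_eq_mul] at h1
    have h2 : ((p - 1 : ℕ) : ℤ) = (p : ℤ) - 1 := by
      rw [Nat.cast_sub hp]
      simp
    rw [h2] at h1
    have h3 : (p : ℤ) * ω.order = (p : ℤ) * x₁.order := by
      rw [h1]
      ring
    have hp' : (p : ℤ) ≠ 0 := by exact_mod_cast hp.ne'
    exact mul_left_cancel₀ hp' h3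
  · have h1 := congrArg HahnSeries.leadingCoeff hω
    rw [descDifB_leadingCoeff_pow, HahnSeries.leadingCoeff_mul, descDifB_leadingCoeff_pow,
      hl₁, hl₂, one_pow, mul_one] at h1
    exact h1

/-- The order of `y` with `y x₁^(p-1) = (c x₁ - ω)^p` is larger than the order of `x₁`. -/
theorem descDifB_series2 (x₁ ω y : LaurentSeries ℂ) (p : ℕ) (hp : 0 < p)
    (hl₁ : x₁.leadingCoeff = 1) (hωo : ω.order = x₁.order) (hy : y ≠ 0)
    (hyx : y * x₁ ^ (p - 1) = (HahnSeries.C ω.leadingCoeff * x₁ - ω) ^ p) :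
    x₁.order < y.order := by
  have hx₁ : x₁ ≠ 0 := by
    rw [← HahnSeries.leadingCoeff_ne_zero, hl₁]
    exact one_ne_zero
  have hd : HahnSeries.C ω.leadingCoeff * x₁ - ω ≠ 0 := by
    intro h0
    rw [h0, zero_pow hp.ne'] at hyx
    exact mul_ne_zero hy (pow_ne_zero _ hx₁) hyx
  have hcoeff : ∀ i : ℤ, i ≤ x₁.order →
      (HahnSeries.C ω.leadingCoeff * x₁ - ω).coeff i = 0 := by
    intro i hi
    rw [HahnSeries.C_mul_eq_smul, HahnSeries.coeff_sub, HahnSeries.coeff_smul]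
    rcases lt_or_eq_of_le hi with hlt | heq
    · rw [HahnSeries.coeff_eq_zero_of_lt_order hlt,
        HahnSeries.coeff_eq_zero_of_lt_order (hωo ▸ hlt)]
      simp
    · have e1 : x₁.coeff i = 1 := by
        rw [heq, ← HahnSeries.leadingCoeff_eq, hl₁]
      have e2 : ω.coeff i = ω.leadingCoeff := by
        rw [heq, ← hωo, ← HahnSeries.leadingCoeff_eq]
      rw [e1, e2]
      simp
  have hdo : x₁.order < (HahnSeries.C ω.leadingCoeff * x₁ - ω).order := by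
    by_contra hcon
    have h1 := hcoeff _ (not_lt.mp hcon)
    rw [← HahnSeries.leadingCoeff_eq] at h1
    exact HahnSeries.leadingCoeff_ne_zero.mpr hd h1
  have h1 := congrArg HahnSeries.order hyx
  rw [HahnSeries.order_pow, HahnSeries.order_mul hy (pow_ne_zero _ hx₁),
    HahnSeries.order_pow] at h1
  simp only [nsmul_eq_mul] at h1
  have h2 : ((p - 1 : ℕ) : ℤ) = (p : ℤ) - 1 := by
    rw [Nat.cast_sub hp]
    simp
  rw [h2] at h1
  have hp' : (1 : ℤ) ≤ (p : ℤ) := by exact_mod_cast hp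
  have h3 : (p : ℤ) * (x₁.order + 1) ≤
      (p : ℤ) * (HahnSeries.C ω.leadingCoeff * x₁ - ω).order :=
    mul_le_mul_of_nonneg_left hdo (by linarith)
  nlinarith

/-- The pointwise identity `s^p (s₁^p)^(p-1) = (c s₁^p - s₂ s₁^(p-1))^p` for `s = c s₁ - s₂`. -/
theorem descDifB_fun_id (c a b : ℂ) (p : ℕ) (hp : 0 < p) :
    (c * a - b) ^ p * (a ^ p) ^ (p - 1) = (c * a ^ p + -1 * (b * a ^ (p - 1))) ^ p := by
  obtain ⟨k, rfl⟩ : ∃ k, p = k + 1 := Nat.exists_eq_succ_of_ne_zero hp.ne'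
  simp only [Nat.add_sub_cancel]
  have e : c * a ^ (k + 1) + -1 * (b * a ^ k) = (c * a - b) * a ^ k := by
    ring
  rw [e, mul_pow]
  ring

/-- Constants of `ℂ((q))`. -/
theorem descDifB_algebraMap_eq_C (c : ℂ) :
    algebraMap ℂ (LaurentSeries ℂ) c = HahnSeries.C c := by
  have h1 : algebraMap ℂ (PowerSeries ℂ) c = PowerSeries.C c := by
    simp
  rw [HahnSeries.algebraMap_apply', h1, HahnSeries.ofPowerSeries_C]

/-- The pole bound at a place. -/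
theorem descDifB_place {K F : Type*} [Field K] [Field F] [Algebra K F] (P : Place K F)
    (p : ℕ) (hp : 0 < p) (c : K) (hc : c ≠ 0) (X₁ X₂ Ω Y : F) (hX₁ : X₁ ≠ 0) (hX₂ : X₂ ≠ 0)
    (hY : Y ≠ 0) (hΩ : Ω ^ p = X₂ * X₁ ^ (p - 1))
    (hYX : Y * X₁ ^ (p - 1) = (c • X₁ - Ω) ^ p) (b : ℤ) (hb₁ : b ≤ P.ord X₁)
    (hb₂ : b ≤ P.ord X₂) : b ≤ P.ord Y := by
  have hD : c • X₁ - Ω ≠ 0 := by
    intro h0
    rw [h0, zero_pow hp.ne'] at hYX
    exact mul_ne_zero hY (pow_ne_zero _ hX₁) hYX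
  have h2 : ((p - 1 : ℕ) : ℤ) = (p : ℤ) - 1 := by
    rw [Nat.cast_sub hp]
    simp
  have e1 := congrArg P.ord hΩ
  rw [OrdBasic.ord_pow, P.ord_mul hX₂ (pow_ne_zero _ hX₁), OrdBasic.ord_pow, h2] at e1
  have e2 := congrArg P.ord hYX
  rw [OrdBasic.ord_pow, P.ord_mul hY (pow_ne_zero _ hX₁), OrdBasic.ord_pow, h2] at e2
  have e3 := OrdBasic.ord_sub_ge P hD
  rw [OrdBasic.ord_smul P c hc] at e3
  have hp' : (1 : ℤ) ≤ (p : ℤ) := by exact_mod_cast hp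
  rcases le_total (P.ord X₁) (P.ord Ω) with hle | hle
  · rw [min_eq_left hle] at e3
    have h3 : (p : ℤ) * P.ord X₁ ≤ (p : ℤ) * P.ord (c • X₁ - Ω) :=
      mul_le_mul_of_nonneg_left e3 (by linarith)
    nlinarith
  · rw [min_eq_right hle] at e3
    have h3 : (p : ℤ) * P.ord Ω ≤ (p : ℤ) * P.ord (c • X₁ - Ω) :=
      mul_le_mul_of_nonneg_left e3 (by linarith)
    nlinarith

/-- (DIF) The difference lemma. -/
theorem descDifB_main : desc_BasStatement → desc_WStatement → desc_AddStatement →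
    dict_FieldCStatement → desc_DiffStatement := by
  intro hBas hW hAdd hField N _ p χ n x₁ x₂ hp hx₁ hx₂ hord hl₁ hl₂
  obtain ⟨⟨s₁, hs₁, hc₁, hq₁⟩, hF₁, hb₁⟩ := hx₁
  obtain ⟨⟨s₂, hs₂, hc₂, hq₂⟩, hF₂, hb₂⟩ := hx₂
  obtain ⟨hqc, hqsp, -⟩ := Fermat.Agent.S24.Qexp.qexpStatement
  have hx₁0 : x₁ ≠ 0 := by
    rw [← HahnSeries.leadingCoeff_ne_zero, hl₁]
    exact one_ne_zero
  have hx₂0 : x₂ ≠ 0 := by
    rw [← HahnSeries.leadingCoeff_ne_zero, hl₂]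
    exact one_ne_zero
  -- the function `w = s₂ s₁^(p-1)`
  obtain ⟨hwM, hwC, hwQ⟩ := hW N p χ s₂ s₁ hp hs₂ hs₁
  rw [hq₁, hq₂] at hwQ
  have hωF : Qexp 1 (fun z : ℍ => s₂ z * s₁ z ^ (p - 1)) ∈ FNC N := hField N _ hwM
  obtain ⟨hωo, hcp⟩ := descDifB_series1 x₁ x₂ _ p hp hord hl₁ hl₂ hwQ
  have hc0 : (Qexp 1 (fun z : ℍ => s₂ z * s₁ z ^ (p - 1))).leadingCoeff ≠ 0 := by
    intro h0
    rw [h0, zero_pow hp.ne'] at hcp
    exact zero_ne_one hcp
  by_cases hs0 : (fun z : ℍ =>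
      (Qexp 1 (fun z : ℍ => s₂ z * s₁ z ^ (p - 1))).leadingCoeff * s₁ z - s₂ z) = 0
  · left
    have h1 : (fun z : ℍ => s₂ z ^ p) = (fun z : ℍ => s₁ z ^ p) := by
      funext z
      have h2 := congrFun hs0 z
      simp only [Pi.zero_apply] at h2
      rw [← sub_eq_zero.mp h2, mul_pow, hcp, one_mul]
    rw [← hq₁, ← hq₂, h1]
  · right
    have hs := hAdd N p χ s₁ s₂ _ hp hs₁ hs₂ hs0
    obtain ⟨hyM, hyC, hy0⟩ := hBas N p χ _ hp hs
    have hyF := hField N _ hyM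
    -- the identity `y x₁^(p-1) = (c x₁ - ω)^p`
    obtain ⟨hgC, hgQ⟩ := descDifB_qexp_pow (fun z : ℍ => s₁ z ^ p) hc₁ (p - 1)
    rw [hq₁] at hgQ
    have hcC : IsCuspMer 1 (fun _ : ℍ =>
        (Qexp 1 (fun z : ℍ => s₂ z * s₁ z ^ (p - 1))).leadingCoeff) := ⟨0, (hqc 1 _).1⟩
    have hmC : IsCuspMer 1 (fun _ : ℍ => (-1 : ℂ)) := ⟨0, (hqc 1 _).1⟩
    obtain ⟨-, ht1C, -, ht1Q⟩ := hqsp 1 _ _ hcC hc₁
    obtain ⟨-, ht2C, -, ht2Q⟩ := hqsp 1 _ _ hmC hwC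
    obtain ⟨huC, -, huQ, -⟩ := hqsp 1 _ _ ht1C ht2C
    rw [ht1Q, ht2Q, (hqc 1 _).2, (hqc 1 _).2, hq₁] at huQ
    obtain ⟨hupC, hupQ⟩ := descDifB_qexp_pow _ huC p
    rw [huQ] at hupQ
    obtain ⟨-, -, -, hprodQ⟩ := hqsp 1 _ _ hyC hgC
    rw [hgQ] at hprodQ
    have hfun : ((fun z : ℍ => ((Qexp 1 (fun z : ℍ => s₂ z * s₁ z ^ (p - 1))).leadingCoeff
          * s₁ z - s₂ z) ^ p) * fun z : ℍ => (s₁ z ^ p) ^ (p - 1)) =
        (fun z : ℍ => (((fun _ : ℍ =>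
          (Qexp 1 (fun z : ℍ => s₂ z * s₁ z ^ (p - 1))).leadingCoeff) *
            fun z : ℍ => s₁ z ^ p) +
          (fun _ : ℍ => (-1 : ℂ)) * fun z : ℍ => s₂ z * s₁ z ^ (p - 1)) z ^ p) := by
      funext z
      exact descDifB_fun_id _ (s₁ z) (s₂ z) p hp
    rw [hfun, hupQ] at hprodQ
    have hyx : Qexp 1 (fun z : ℍ =>
          ((Qexp 1 (fun z : ℍ => s₂ z * s₁ z ^ (p - 1))).leadingCoeff * s₁ z - s₂ z) ^ p) *
          x₁ ^ (p - 1) =
        (HahnSeries.C (Qexp 1 (fun z : ℍ => s₂ z * s₁ z ^ (p - 1))).leadingCoeff * x₁ -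
          Qexp 1 (fun z : ℍ => s₂ z * s₁ z ^ (p - 1))) ^ p := by
      rw [← hprodQ]
      congr 1
      rw [map_neg, map_one]
      ring
    have hlt := descDifB_series2 x₁ _ _ p hp hl₁ hωo hy0 hyx
    refine ⟨_, ⟨⟨_, hs, hyC, rfl⟩, hyF, fun P hP => ?_⟩, hlt⟩
    refine descDifB_place P p hp _ hc0 ⟨x₁, hF₁⟩ ⟨x₂, hF₂⟩ ⟨_, hωF⟩ _ ?_ ?_ ?_ ?_ ?_ _
      (hb₁ P hP) (hb₂ P hP)
    · intro h0
      exact hx₁0 (congrArg Subtype.val h0)
    · intro h0
      exact hx₂0 (congrArg Subtype.val h0)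
    · intro h0
      exact hy0 (congrArg Subtype.val h0)
    · apply Subtype.ext
      exact hwQ
    · apply Subtype.ext
      rw [IntermediateField.coe_mul, IntermediateField.coe_pow, IntermediateField.coe_pow,
        AddSubgroupClass.coe_sub, IntermediateField.coe_smul, Algebra.smul_def,
        descDifB_algebraMap_eq_C]
      exact hyx

end

end Fermat.Agent.S42
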