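/-
S42 moonshot — block KUM, package K2 (twin A): the divisor of a Kummer generator is divisible
by `p`.

At a finite place the order of `f` is (up to a factor `m ∈ {1, 2, 3}`) the order of vanishing of
`s ^ p` at a point of `ℍ`, which is `p * ord s`; at an infinite place it is (up to the factor
`N / h`) the `q_N`-order of `(s ∘ γ) ^ p`, and `s ∘ γ` is itself `h`-periodic and meromorphic at
`∞`, so its `q_N`-order is divisible by `N / h`.
-/
import Mathlib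
import Fermat.Agent.S42.KumInner
import Fermat.Agent.S24.Qexp
import Fermat.Agent.S24.PointVal

set_option autoImplicit false

open UpperHalfPlane ModularForm Complex CongruenceSubgroup ModularGroup AlgebraicCurve
open scoped MatrixGroups Manifold Real

namespace Fermat.Agent.S42

open Fermat.Agent.S24

noncomputable section

/-- Powers of a nonzero function are nonzero functions. -/
theorem kumk2a_pow_ne_zero (s : ℍ → ℂ) (hs : s ≠ 0) (n : ℕ) : (fun z : ℍ => s z ^ n) ≠ 0 := by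
  obtain ⟨z₀, hz₀⟩ := Function.ne_iff.mp hs
  intro h
  have h1 : s z₀ ^ n = 0 := congrFun h z₀
  have h2 : s z₀ ≠ 0 := by simpa using hz₀
  exact pow_ne_zero n h2 h1

/-- Powers of a holomorphic function are holomorphic. -/
theorem kumk2a_hol_pow (s : ℍ → ℂ) (hs : MDifferentiable 𝓘(ℂ) 𝓘(ℂ) s) (n : ℕ) :
    MDifferentiable 𝓘(ℂ) 𝓘(ℂ) (fun z : ℍ => s z ^ n) :=
  hs.pow n

/-- `ord_z (s ^ n) = n * ord_z s`. -/
theorem kumk2a_ordAt_pow (s : ℍ → ℂ) (hs : MDifferentiable 𝓘(ℂ) 𝓘(ℂ) s) (hs0 : s ≠ 0) (z : ℍ)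
    (n : ℕ) : ordAt z (fun w : ℍ => s w ^ n) = n * ordAt z s := by
  induction n with
  | zero =>
    obtain ⟨-, -, -, h4, -⟩ := PointVal.pointValStatement
    rw [h4 z _ (kumk2a_hol_pow s hs 0) (by simp), Nat.zero_mul]
  | succ n ih =>
    have e : (fun w : ℍ => s w ^ (n + 1)) = (fun w : ℍ => s w ^ n) * s := by
      funext w
      simp [pow_succ]
    rw [e, PointVal.ordAt_mul z (kumk2a_hol_pow s hs n) hs (kumk2a_pow_ne_zero s hs0 n) hs0, ih]
    ring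

/-- Translation by `n` is the action of `T ^ n`. -/
theorem kumk2a_vadd_eq (n : ℕ) (z : ℍ) : (((n : ℕ) : ℝ) +ᵥ z : ℍ) = (T ^ n : SL(2, ℤ)) • z := by
  apply UpperHalfPlane.ext
  have h := ModularGroup.coe_T_zpow_smul_eq (z := z) (n := (n : ℤ))
  rw [zpow_natCast] at h
  rw [h, UpperHalfPlane.coe_vadd]
  push_cast
  ring

/-- A conjugate of `T ^ n` has trace `2`. -/
theorem kumk2a_trace_conj (γ : SL(2, ℤ)) (n : ℕ) :
    ((γ * T ^ n * γ⁻¹ : SL(2, ℤ)) : Matrix (Fin 2) (Fin 2) ℤ).trace ^ 2 = 4 := by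
  have h1 : ((γ * T ^ n * γ⁻¹ : SL(2, ℤ)) : Matrix (Fin 2) (Fin 2) ℤ) =
      (γ : Matrix (Fin 2) (Fin 2) ℤ) * ((T ^ n : SL(2, ℤ)) : Matrix (Fin 2) (Fin 2) ℤ) *
        ((γ⁻¹ : SL(2, ℤ)) : Matrix (Fin 2) (Fin 2) ℤ) := by
    simp only [Matrix.SpecialLinearGroup.coe_mul]
  have h2 : ((T ^ n : SL(2, ℤ)) : Matrix (Fin 2) (Fin 2) ℤ) = !![1, (n : ℤ); 0, 1] := by
    have h := ModularGroup.coe_T_zpow (n : ℤ)
    rwa [zpow_natCast] at h
  rw [h1, Matrix.trace_mul_cycle, ← Matrix.SpecialLinearGroup.coe_mul, inv_mul_cancel,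
    Matrix.SpecialLinearGroup.coe_one, one_mul, h2, Matrix.trace_fin_two_of]
  norm_num

/-- `Qexp` of a power. -/
theorem kumk2a_qexp_pow (N : ℕ) [NeZero N] (t : ℍ → ℂ) (ht : IsCuspMer N t) (n : ℕ) :
    IsCuspMer N (fun z : ℍ => t z ^ n) ∧ Qexp N (fun z : ℍ => t z ^ n) = Qexp N t ^ n := by
  obtain ⟨hconst, hmul, -⟩ := Qexp.qexpStatement
  induction n with
  | zero =>
    have e : (fun z : ℍ => t z ^ 0) = fun _ : ℍ => (1 : ℂ) := by
      funext z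
      simp
    rw [e]
    obtain ⟨h1, h2⟩ := hconst N 1
    exact ⟨⟨0, h1⟩, by rw [h2, map_one, pow_zero]⟩
  | succ n ih =>
    have e : (fun z : ℍ => t z ^ (n + 1)) = (fun z : ℍ => t z ^ n) * t := by
      funext z
      simp [pow_succ]
    rw [e]
    obtain ⟨-, h2, -, h4⟩ := hmul N _ _ ih.1 ht
    exact ⟨h2, by rw [h4, ih.2, pow_succ]⟩

/-- (K2, twin A) The divisor of a Kummer generator is divisible by `p`. -/
theorem kumk2a_main : dict_PlacePointStatement → dict_CuspPlaceStatement → kumL_KL1Statement →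
    kumL_KL2Statement → kum_DivStatement := by
  intro hDQ3 hDQ4 hKL1 hKL2 N _ p hp hp5 χ s f hPar hRoot hAn P
  obtain ⟨hs, hs0, hχ, hcusp⟩ := hRoot
  obtain ⟨-, -, hinj, -⟩ := Qexp.qexpStatement
  have hMod : dict_ModFun N (fun z : ℍ => s z ^ p) := by
    refine ⟨?_, hcusp⟩
    intro γ hγ z
    obtain ⟨h1, h2⟩ := hχ ⟨γ, hγ⟩
    show s (γ • z) ^ p = s z ^ p
    rw [show s (γ • z) = χ ⟨γ, hγ⟩ * s z from h2 z, mul_pow, h1, one_mul]
  have hf0 : f ≠ 0 := by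
    rintro rfl
    obtain ⟨hcm, hq⟩ := hAn
    have hq0 : Qexp 1 (fun z : ℍ => s z ^ p) = 0 := by
      rw [hq]
      simp
    exact kumk2a_pow_ne_zero s hs0 p (hinj 1 _ hcm hq0)
  by_cases hfin : 0 ≤ P.ord (jBar N)
  · obtain ⟨z, m, hm, H⟩ := hDQ3 N P hfin
    have h1 := H f _ hf0 hAn hMod
    rw [kumk2a_ordAt_pow s hs hs0 z p] at h1
    have hdvd : (p : ℤ) ∣ (m : ℤ) * P.ord f := ⟨(ordAt z s : ℤ), by rw [← h1]; push_cast; ring⟩
    rcases Int.Prime.dvd_mul' hp hdvd with h | h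
    · exfalso
      have h' : p ∣ m := Int.natCast_dvd_natCast.mp h
      have hm0 : 0 < m := by rcases hm with rfl | rfl | rfl <;> norm_num
      have hle := Nat.le_of_dvd hm0 h'
      rcases hm with rfl | rfl | rfl <;> omega
    · exact h
  · have hinf : P.ord (jBar N) < 0 := not_le.mp hfin
    obtain ⟨γ, h, hh, hhN, hconj, H⟩ := hDQ4 N P hinf
    have h1 := H f _ hf0 hAn hMod
    have htHol : Hol (fun z : ℍ => s (γ • z)) := PointVal.mdifferentiable_comp_smul γ hs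
    have hper : ∀ n : ℕ, γ * T ^ n * γ⁻¹ ∈ Gamma0 N → ∀ z : ℍ,
        (fun z : ℍ => s (γ • z)) (((n : ℕ) : ℝ) +ᵥ z) = (fun z : ℍ => s (γ • z)) z := by
      intro n hn z
      show s (γ • (((n : ℕ) : ℝ) +ᵥ z)) = s (γ • z)
      have e : γ • (((n : ℕ) : ℝ) +ᵥ z : ℍ) = (γ * T ^ n * γ⁻¹) • (γ • z) := by
        rw [kumk2a_vadd_eq, mul_smul, mul_smul, inv_smul_smul]
      obtain ⟨-, h2⟩ := hχ ⟨γ * T ^ n * γ⁻¹, hn⟩
      rw [e, show s ((γ * T ^ n * γ⁻¹) • (γ • z)) = χ ⟨γ * T ^ n * γ⁻¹, hn⟩ * s (γ • z) from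
        h2 (γ • z), hPar ⟨γ * T ^ n * γ⁻¹, hn⟩ (kumk2a_trace_conj γ n), one_mul]
    have hconjN : γ * T ^ N * γ⁻¹ ∈ Gamma0 N := by
      obtain ⟨k, hk⟩ := hhN
      have e : γ * T ^ N * γ⁻¹ = (γ * T ^ h * γ⁻¹) ^ k := by
        rw [conj_pow, ← pow_mul, ← hk]
      rw [e]
      exact Subgroup.pow_mem _ hconj k
    have hcmp : IsCuspMer N (fun z : ℍ => (fun z : ℍ => s (γ • z)) z ^ p) := hcusp γ
    have hcmt : IsCuspMer N (fun z : ℍ => s (γ • z)) :=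
      hKL1 N p _ hp.pos htHol (hper N hconjN) hcmp
    have hpow := kumk2a_qexp_pow N _ hcmt p
    obtain ⟨a, ha⟩ := hKL2 N h _ hh hhN hcmt (hper h hconj)
    have h2 : (Qexp N (fun z : ℍ => (fun z : ℍ => s (γ • z)) z ^ p)).order =
        ((N / h : ℕ) : ℤ) * P.ord f := h1
    rw [hpow.2, HahnSeries.order_pow, ha] at h2
    have hNh : ((N / h : ℕ) : ℤ) ≠ 0 := by
      have h3 : 0 < N / h :=
        Nat.div_pos (Nat.le_of_dvd (Nat.pos_of_ne_zero (NeZero.ne N)) hhN) hh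
      exact_mod_cast h3.ne'
    refine ⟨a, ?_⟩
    apply mul_left_cancel₀ hNh
    rw [← h2, nsmul_eq_mul]
    ring

end

end Fermat.Agent.S42
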