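/-
S42 moonshot — block PER, package PERFG: `Γ₀(N)` is finitely generated.

`SL(2, ℤ)` is generated by `S` and `T` (Mathlib `SL2Z_generators`), `Γ₀(N)` has finite index in
`SL(2, ℤ)` for `N ≠ 0`, and a finite-index subgroup of a finitely generated group is finitely
generated (Schreier's lemma).
-/
import Mathlib
import Fermat.Agent.S42.PERInterfaces

set_option autoImplicit false

open CongruenceSubgroup
open scoped MatrixGroups

namespace Fermat.Agent.S42

/-- `SL(2, ℤ)` is finitely generated (by `S` and `T`). -/
theorem perFG_SL2Z : Group.FG SL(2, ℤ) :=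
  Group.fg_iff.mpr
    ⟨{ModularGroup.S, ModularGroup.T}, _root_.SpecialLinearGroup.SL2Z_generators,
      (Set.finite_singleton _).insert _⟩

/-- (FG) `Γ₀(N)` is finitely generated. -/
theorem perFG_main : PERFGStatement := by
  intro N _
  have : Group.FG SL(2, ℤ) := perFG_SL2Z
  exact Subgroup.fg_of_index_ne_zero (Gamma0 N)

end Fermat.Agent.S42
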