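/-
S42 moonshot, package ROOT (twin A): a nonzero holomorphic function on the upper half plane all of
whose orders of vanishing are divisible by `p` is a `p`-th power of a holomorphic function.
-/
import Fermat.Agent.S42.DictInterfaces

set_option autoImplicit false

open UpperHalfPlane Complex Metric Set Filter Topology

namespace Fermat.Agent.S42

open Fermat.Agent.S24

noncomputable section

/-- A nonvanishing holomorphic function on a disc has a holomorphic `p`-th root. -/
theorem rootA_nonvanishing (p : ℕ) (hp : 0 < p) (c : ℂ) (r : ℝ) (u : ℂ → ℂ)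
    (hu : DifferentiableOn ℂ u (ball c r)) (hne : ∀ z ∈ ball c r, u z ≠ 0) :
    ∃ G : ℂ → ℂ, DifferentiableOn ℂ G (ball c r) ∧ ∀ z ∈ ball c r, G z ^ p = u z := by
  by_cases hc : c ∈ ball c r
  swap
  · have hempty : ball c r = ∅ := by
      by_contra hne'
      obtain ⟨z, hz⟩ := Set.nonempty_iff_ne_empty.mpr hne'
      exact hc (mem_ball_self (pos_of_mem_ball hz))
    refine ⟨fun _ => 0, differentiableOn_const _, fun z hz => ?_⟩
    rw [hempty] at hz
    exact absurd hz (Set.notMem_empty z)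
  have hdu : DifferentiableOn ℂ (fun z => deriv u z / u z) (ball c r) :=
    (hu.deriv isOpen_ball).div hu hne
  obtain ⟨L, hL⟩ := hdu.isExactOn_ball
  have hLd : DifferentiableOn ℂ L (ball c r) := fun z hz =>
    (hL z hz).differentiableAt.differentiableWithinAt
  set φ : ℂ → ℂ := fun z => u z * Complex.exp (-L z) with hφ
  have hφd : ∀ z ∈ ball c r, HasDerivAt φ 0 z := by
    intro z hz
    have h1 : HasDerivAt u (deriv u z) z :=
      (hu.differentiableAt (isOpen_ball.mem_nhds hz)).hasDerivAt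
    have h2 : HasDerivAt (fun z => Complex.exp (-L z))
        (Complex.exp (-L z) * (-(deriv u z / u z))) z := ((hL z hz).neg).cexp
    have h3 := h1.mul h2
    have h4 : deriv u z * Complex.exp (-L z) +
        u z * (Complex.exp (-L z) * (-(deriv u z / u z))) = 0 := by
      have := hne z hz
      field_simp
      ring
    rw [h4] at h3
    exact h3
  have hconst : ∀ z ∈ ball c r, φ z = φ c := by
    intro z hz
    refine isOpen_ball.is_const_of_deriv_eq_zero (convex_ball c r).isPreconnected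
      (fun w hw => (hφd w hw).differentiableAt.differentiableWithinAt)
      (fun w hw => (hφd w hw).deriv) hz hc
  have hK : φ c ≠ 0 := mul_ne_zero (hne c hc) (Complex.exp_ne_zero _)
  refine ⟨fun z => Complex.exp ((Complex.log (φ c) + L z) / p), ?_, fun z hz => ?_⟩
  · exact (((differentiableOn_const _).add hLd).div_const _).cexp
  · have hp' : (p : ℂ) ≠ 0 := Nat.cast_ne_zero.mpr hp.ne'
    rw [← Complex.exp_nat_mul, mul_div_cancel₀ _ hp', Complex.exp_add, Complex.exp_log hK,
      ← hconst z hz, hφ]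
    simp only
    rw [mul_assoc, ← Complex.exp_add, neg_add_cancel, Complex.exp_zero, mul_one]

/-- Root on a disc, given a finite set containing all zeros in the disc (induction on the set). -/
theorem rootA_finset (p : ℕ) (hp : 0 < p) (c : ℂ) (r : ℝ) (s : Finset ℂ) :
    ∀ F : ℂ → ℂ, DifferentiableOn ℂ F (ball c r) →
      (∀ z ∈ ball c r, analyticOrderAt F z ≠ ⊤ ∧ p ∣ (analyticOrderAt F z).toNat) →
      (∀ z ∈ ball c r, F z = 0 → z ∈ s) →
      ∃ G : ℂ → ℂ, DifferentiableOn ℂ G (ball c r) ∧ ∀ z ∈ ball c r, G z ^ p = F z := by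
  classical
  induction s using Finset.induction_on with
  | empty =>
    intro F hF _ hz
    exact rootA_nonvanishing p hp c r F hF fun z hzB h0 => by simpa using hz z hzB h0
  | insert a s ha ih =>
    intro F hF hord hz
    by_cases haz : a ∈ ball c r ∧ F a = 0
    swap
    · refine ih F hF hord fun z hzB h0 => ?_
      rcases Finset.mem_insert.mp (hz z hzB h0) with rfl | h
      · exact absurd ⟨hzB, h0⟩ haz
      · exact h
    obtain ⟨haB, hFa⟩ := haz
    have hFan : AnalyticOnNhd ℂ F (ball c r) := hF.analyticOnNhd isOpen_ball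
    obtain ⟨hfin, k, hk⟩ := hord a haB
    have hm : analyticOrderAt F a = ((p * k : ℕ) : ℕ∞) := by
      rw [← hk]
      exact (ENat.natCast_toNat hfin).symm
    obtain ⟨g₀, hg₀an, hg₀ne, hg₀eq⟩ := ((hFan a haB).analyticOrderAt_eq_natCast).mp hm
    set u : ℂ → ℂ := fun z => if z = a then g₀ a else F z / (z - a) ^ (p * k) with hu
    have hua : u a = g₀ a := by simp [hu]
    have hune : ∀ z, z ≠ a → u z = F z / (z - a) ^ (p * k) := fun z hza => by simp [hu, hza]
    have hu_ev : u =ᶠ[𝓝 a] g₀ := by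
      filter_upwards [hg₀eq] with z hz'
      by_cases hza : z = a
      · rw [hza, hua]
      · rw [hune z hza, hz', smul_eq_mul, mul_div_assoc, mul_comm,
          div_mul_cancel₀ _ (pow_ne_zero _ (sub_ne_zero.mpr hza))]
    have hFu : ∀ z, F z = (z - a) ^ (p * k) * u z := by
      intro z
      by_cases hza : z = a
      · rw [hza, hua]
        simpa using hg₀eq.self_of_nhds
      · rw [hune z hza, mul_div_cancel₀ _ (pow_ne_zero _ (sub_ne_zero.mpr hza))]
    have hud : DifferentiableOn ℂ u (ball c r) := by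
      intro z hzB
      by_cases hza : z = a
      · rw [hza]
        exact (hu_ev.differentiableAt_iff.mpr hg₀an.differentiableAt).differentiableWithinAt
      · have hev : u =ᶠ[𝓝 z] fun w => F w / (w - a) ^ (p * k) := by
          filter_upwards [isOpen_compl_singleton.mem_nhds hza] with w hw
          exact hune w hw
        refine (hev.differentiableAt_iff.mpr ?_).differentiableWithinAt
        exact (hF.differentiableAt (isOpen_ball.mem_nhds hzB)).div
          ((differentiableAt_id.sub_const a).pow _) (pow_ne_zero _ (sub_ne_zero.mpr hza))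
    have huan : AnalyticOnNhd ℂ u (ball c r) := hud.analyticOnNhd isOpen_ball
    have hu_ord : ∀ z ∈ ball c r, analyticOrderAt u z ≠ ⊤ ∧ p ∣ (analyticOrderAt u z).toNat := by
      intro z hzB
      by_cases hza : z = a
      · have h0 : analyticOrderAt u z = 0 := by
          rw [(huan z hzB).analyticOrderAt_eq_zero, hza, hua]
          exact hg₀ne
        rw [h0]
        exact ⟨by simp, by simp⟩
      · have hpoly : AnalyticAt ℂ (fun w : ℂ => (w - a) ^ (p * k)) z := by fun_prop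
        have h0 : analyticOrderAt (fun w : ℂ => (w - a) ^ (p * k)) z = 0 := by
          rw [hpoly.analyticOrderAt_eq_zero]
          exact pow_ne_zero _ (sub_ne_zero.mpr hza)
        have h1 : analyticOrderAt F z = analyticOrderAt u z := by
          have h2 : F = (fun w : ℂ => (w - a) ^ (p * k)) * u := funext hFu
          rw [h2, analyticOrderAt_mul hpoly (huan z hzB), h0, zero_add]
        rw [← h1]
        exact hord z hzB
    obtain ⟨Gu, hGud, hGu⟩ := ih u hud hu_ord (fun z hzB h0 => by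
      have hFz : F z = 0 := by rw [hFu z, h0, mul_zero]
      rcases Finset.mem_insert.mp (hz z hzB hFz) with rfl | h
      · rw [hua] at h0
        exact absurd h0 hg₀ne
      · exact h)
    refine ⟨fun z => (z - a) ^ k * Gu z, ?_, fun z hzB => ?_⟩
    · exact ((differentiableOn_id.sub_const a).pow k).mul hGud
    · rw [mul_pow, hGu z hzB, ← pow_mul, hFu z, mul_comm k p]

/-- Root on a disc whose closure lies in an open set where `F` is holomorphic with finite orders
divisible by `p`. -/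
theorem rootA_disc (p : ℕ) (hp : 0 < p) (U : Set ℂ) (hU : IsOpen U) (F : ℂ → ℂ)
    (hF : DifferentiableOn ℂ F U)
    (hord : ∀ z ∈ U, analyticOrderAt F z ≠ ⊤ ∧ p ∣ (analyticOrderAt F z).toNat)
    (c : ℂ) (r : ℝ) (hcr : closedBall c r ⊆ U) :
    ∃ G : ℂ → ℂ, DifferentiableOn ℂ G (ball c r) ∧ ∀ z ∈ ball c r, G z ^ p = F z := by
  have hFan : AnalyticOnNhd ℂ F U := hF.analyticOnNhd hU
  have hfin : {z | z ∈ closedBall c r ∧ F z = 0}.Finite := by
    by_contra hinf
    obtain ⟨x, hxK, hacc⟩ := Set.Infinite.exists_accPt_of_subset_isCompact hinf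
      (isCompact_closedBall c r) (fun z hz => hz.1)
    rw [accPt_iff_frequently_nhdsNE] at hacc
    have hfreq : ∃ᶠ z in 𝓝[≠] x, F z = 0 := hacc.mono fun z hz => hz.2
    have hev := (hFan x (hcr hxK)).frequently_zero_iff_eventually_zero.mp hfreq
    exact (hord x (hcr hxK)).1 (analyticOrderAt_eq_top.mpr hev)
  have hsub : ball c r ⊆ U := ball_subset_closedBall.trans hcr
  exact rootA_finset p hp c r hfin.toFinset F (hF.mono hsub) (fun z hz => hord z (hsub hz))
    (fun z hz h0 => hfin.mem_toFinset.mpr ⟨ball_subset_closedBall hz, h0⟩)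

/-- Two holomorphic `p`-th roots on a disc which agree at a point where they do not vanish are
equal. -/
theorem rootA_unique (p : ℕ) (hp : 0 < p) (c : ℂ) (r : ℝ) (G₁ G₂ : ℂ → ℂ)
    (h₁ : DifferentiableOn ℂ G₁ (ball c r)) (h₂ : DifferentiableOn ℂ G₂ (ball c r))
    (hpow : ∀ z ∈ ball c r, G₁ z ^ p = G₂ z ^ p) (z₀ : ℂ) (hz₀ : z₀ ∈ ball c r)
    (hne : G₂ z₀ ≠ 0) (heq : G₁ z₀ = G₂ z₀) : EqOn G₁ G₂ (ball c r) := by
  refine (h₁.analyticOnNhd isOpen_ball).eqOn_of_preconnected_of_eventuallyEq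
    (h₂.analyticOnNhd isOpen_ball) (convex_ball c r).isPreconnected hz₀ ?_
  -- the set of nontrivial `p`-th roots of unity is closed
  have hT : ({ζ : ℂ | ζ ^ p = 1 ∧ ζ ≠ 1}).Finite :=
    (Polynomial.nthRootsFinset p (1 : ℂ)).finite_toSet.subset fun ζ hζ =>
      Finset.mem_coe.mpr ((Polynomial.mem_nthRootsFinset hp (1 : ℂ)).mpr hζ.1)
  have hV : {ζ : ℂ | ζ ^ p = 1 ∧ ζ ≠ 1}ᶜ ∈ 𝓝 (1 : ℂ) :=
    hT.isClosed.isOpen_compl.mem_nhds (fun h => h.2 rfl)
  have hc₁ : ContinuousAt G₁ z₀ := (h₁.differentiableAt (isOpen_ball.mem_nhds hz₀)).continuousAt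
  have hc₂ : ContinuousAt G₂ z₀ := (h₂.differentiableAt (isOpen_ball.mem_nhds hz₀)).continuousAt
  have hq : ContinuousAt (fun z => G₁ z / G₂ z) z₀ := hc₁.div hc₂ hne
  have hq1 : G₁ z₀ / G₂ z₀ = 1 := by rw [heq, div_self hne]
  have hpre : ∀ᶠ z in 𝓝 z₀, G₁ z / G₂ z ∈ {ζ : ℂ | ζ ^ p = 1 ∧ ζ ≠ 1}ᶜ := by
    have := hq.tendsto
    rw [hq1] at this
    exact this hV
  filter_upwards [hpre, hc₂.eventually_ne hne, isOpen_ball.mem_nhds hz₀] with z hz hz2 hzB
  by_contra hzne
  apply hz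
  refine ⟨?_, fun h1 => hzne ?_⟩
  · rw [div_pow, hpow z hzB, div_self (pow_ne_zero _ hz2)]
  · rw [div_eq_one_iff_eq hz2] at h1
    exact h1

/-! ### Exhaustion of the upper half plane by discs -/

/-- Centre of the `n`-th disc. -/
def rootA_ctr (n : ℕ) : ℂ := (((n : ℝ) + 1 : ℝ) : ℂ) * Complex.I

/-- Radius of the `n`-th disc. -/
def rootA_rad (n : ℕ) : ℝ := ((n : ℝ) + 1) - 1 / ((n : ℝ) + 1)

theorem rootA_closedBall_subset (n : ℕ) :
    closedBall (rootA_ctr n) (rootA_rad n) ⊆ {z : ℂ | 0 < z.im} := by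
  intro z hz
  rw [mem_closedBall, dist_eq_norm] at hz
  have h1 := (abs_le.mp ((Complex.abs_im_le_norm (z - rootA_ctr n)).trans hz)).1
  have h2 : (z - rootA_ctr n).im = z.im - ((n : ℝ) + 1) := by
    simp [rootA_ctr]
  have h3 : (0 : ℝ) < 1 / ((n : ℝ) + 1) := by positivity
  rw [h2, rootA_rad] at h1
  show 0 < z.im
  linarith

theorem rootA_ball_succ (n : ℕ) :
    ball (rootA_ctr n) (rootA_rad n) ⊆ ball (rootA_ctr (n + 1)) (rootA_rad (n + 1)) := by
  apply ball_subset_ball'
  have hd : dist (rootA_ctr n) (rootA_ctr (n + 1)) = 1 := by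
    rw [dist_eq_norm]
    have : rootA_ctr n - rootA_ctr (n + 1) = -Complex.I := by
      simp only [rootA_ctr]
      push_cast
      ring
    rw [this, norm_neg, Complex.norm_I]
  rw [hd, rootA_rad, rootA_rad]
  have h1 : 1 / (((n + 1 : ℕ) : ℝ) + 1) ≤ 1 / ((n : ℝ) + 1) := by
    apply one_div_le_one_div_of_le (by positivity)
    push_cast
    linarith
  push_cast at h1 ⊢
  linarith

theorem rootA_ball_mono {n m : ℕ} (h : n ≤ m) :
    ball (rootA_ctr n) (rootA_rad n) ⊆ ball (rootA_ctr m) (rootA_rad m) := by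
  induction h with
  | refl => exact subset_rfl
  | step _ ih => exact ih.trans (rootA_ball_succ _)

theorem rootA_mem_ball (z : ℂ) (hz : 0 < z.im) : ∃ n : ℕ, z ∈ ball (rootA_ctr n) (rootA_rad n) := by
  obtain ⟨n, hn⟩ := exists_nat_gt ((z.re ^ 2 + z.im ^ 2 + 2) / (2 * z.im))
  refine ⟨n, ?_⟩
  rw [mem_ball, dist_eq_norm]
  have ht : (1 : ℝ) ≤ (n : ℝ) + 1 := by
    have : (0 : ℝ) ≤ (n : ℝ) := Nat.cast_nonneg n
    linarith
  set t : ℝ := (n : ℝ) + 1 with htdef
  have hkey : z.re ^ 2 + z.im ^ 2 + 2 < 2 * z.im * t := by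
    have h1 := (div_lt_iff₀ (by linarith : (0 : ℝ) < 2 * z.im)).mp hn
    nlinarith
  have hrad : (0 : ℝ) ≤ t - 1 / t := by
    have : 1 / t ≤ 1 := by
      rw [div_le_one (by linarith)]
      exact ht
    linarith
  have hre : (z - rootA_ctr n).re = z.re := by simp [rootA_ctr]
  have him : (z - rootA_ctr n).im = z.im - t := by simp [rootA_ctr, htdef]
  have hsq : ‖z - rootA_ctr n‖ ^ 2 < (t - 1 / t) ^ 2 := by
    rw [Complex.sq_norm, Complex.normSq_apply, hre, him]
    have h2 : (t - 1 / t) ^ 2 = t ^ 2 - 2 + (1 / t) ^ 2 := by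
      field_simp
      ring
    rw [h2]
    nlinarith [sq_nonneg (1 / t)]
  have := lt_of_pow_lt_pow_left₀ 2 hrad hsq
  simpa [rootA_rad, htdef] using this

/-- Identity theorem: a nonzero holomorphic function on `ℍ` has finite order at every point. -/
theorem rootA_order_ne_top {f : ℍ → ℂ} (hf : Hol f) (hne : f ≠ 0) (τ : ℍ) :
    analyticOrderAt (f ∘ ofComplex) (τ : ℂ) ≠ ⊤ := by
  intro htop
  apply hne
  rw [analyticOrderAt_eq_top] at htop
  have han := (UpperHalfPlane.mdifferentiable_iff.mp hf).analyticOnNhd isOpen_upperHalfPlaneSet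
  have hpre : IsPreconnected {z : ℂ | 0 < z.im} :=
    (convex_halfSpace_im_gt 0).isPreconnected
  have hzero := han.eqOn_zero_of_preconnected_of_eventuallyEq_zero hpre τ.im_pos htop
  funext w
  have := hzero w.im_pos
  simpa using this

/-- (ROOT) A nonzero holomorphic function on `ℍ` all of whose orders of vanishing are divisible
by `p` is the `p`-th power of a holomorphic function. -/
theorem rootA_main : root_Statement := by
  intro p f hp hf hne hdiv
  set U : Set ℂ := {z : ℂ | 0 < z.im} with hUdef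
  have hUo : IsOpen U := isOpen_upperHalfPlaneSet
  set F : ℂ → ℂ := f ∘ ofComplex with hFdef
  have hF : DifferentiableOn ℂ F U := UpperHalfPlane.mdifferentiable_iff.mp hf
  have hord : ∀ z ∈ U, analyticOrderAt F z ≠ ⊤ ∧ p ∣ (analyticOrderAt F z).toNat := by
    intro z hz
    exact ⟨rootA_order_ne_top hf hne ⟨z, hz⟩, hdiv ⟨z, hz⟩⟩
  obtain ⟨τ₀, hτ₀⟩ : ∃ τ : ℍ, f τ ≠ 0 := by
    by_contra h
    exact hne (funext fun τ => not_not.mp fun hτ => h ⟨τ, hτ⟩)
  have hFτ₀ : F (τ₀ : ℂ) ≠ 0 := by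
    simpa [hFdef, ofComplex_apply] using hτ₀
  obtain ⟨n₀, hn₀⟩ := rootA_mem_ball (τ₀ : ℂ) τ₀.im_pos
  set D : ℕ → Set ℂ := fun n => ball (rootA_ctr (n₀ + n)) (rootA_rad (n₀ + n)) with hD
  have hmono : ∀ n m, n ≤ m → D n ⊆ D m := fun n m hnm =>
    rootA_ball_mono (Nat.add_le_add_left hnm n₀)
  have hz₀ : ∀ n, (τ₀ : ℂ) ∈ D n := fun n => rootA_ball_mono (Nat.le_add_right n₀ n) hn₀
  obtain ⟨w₀, hw₀⟩ : ∃ w : ℂ, w ^ p = F (τ₀ : ℂ) := IsAlgClosed.exists_pow_nat_eq _ hp
  have hw₀ne : w₀ ≠ 0 := by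
    rintro rfl
    rw [zero_pow hp.ne'] at hw₀
    exact hFτ₀ hw₀.symm
  have hex : ∀ n, ∃ G : ℂ → ℂ, DifferentiableOn ℂ G (D n) ∧ (∀ z ∈ D n, G z ^ p = F z) ∧
      G (τ₀ : ℂ) = w₀ := by
    intro n
    obtain ⟨G, hGd, hG⟩ := rootA_disc p hp U hUo F hF hord _ _ (rootA_closedBall_subset (n₀ + n))
    have hGz : G (τ₀ : ℂ) ≠ 0 := fun h => hFτ₀ (by rw [← hG _ (hz₀ n), h, zero_pow hp.ne'])
    refine ⟨fun z => (w₀ / G (τ₀ : ℂ)) * G z, hGd.const_mul _, fun z hz => ?_, ?_⟩
    · rw [mul_pow, div_pow, hw₀, hG _ (hz₀ n), div_self hFτ₀, one_mul, hG z hz]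
    · exact div_mul_cancel₀ _ hGz
  choose G hGd hG hGτ using hex
  have hcons : ∀ n m, n ≤ m → EqOn (G n) (G m) (D n) := by
    intro n m hnm
    refine rootA_unique p hp _ _ (G n) (G m) (hGd n) ((hGd m).mono (hmono n m hnm))
      (fun z hz => by rw [hG n z hz, hG m z (hmono n m hnm hz)]) (τ₀ : ℂ) (hz₀ n)
      (by rw [hGτ]; exact hw₀ne) (by rw [hGτ, hGτ])
  have hcover : ∀ z ∈ U, ∃ n, z ∈ D n := by
    intro z hz
    obtain ⟨n, hn⟩ := rootA_mem_ball z hz
    exact ⟨n, rootA_ball_mono (Nat.le_add_left n n₀) hn⟩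
  classical
  set Gf : ℂ → ℂ := fun z => if h : ∃ n, z ∈ D n then G (Nat.find h) z else 0 with hGfdef
  have hGf : ∀ n, EqOn Gf (G n) (D n) := by
    intro n z hz
    have h : ∃ n, z ∈ D n := ⟨n, hz⟩
    simp only [hGfdef, dif_pos h]
    exact hcons _ _ (Nat.find_min' h hz) (Nat.find_spec h)
  refine ⟨fun τ : ℍ => Gf (τ : ℂ), ?_, fun τ => ?_⟩
  · rw [Hol, UpperHalfPlane.mdifferentiable_iff]
    intro z hz
    obtain ⟨n, hn⟩ := hcover z hz
    have hd : DifferentiableAt ℂ Gf z :=
      ((hGf n).eventuallyEq_of_mem (isOpen_ball.mem_nhds hn)).differentiableAt_iff.mpr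
        ((hGd n).differentiableAt (isOpen_ball.mem_nhds hn))
    have hev : ((fun τ : ℍ => Gf (τ : ℂ)) ∘ ofComplex) =ᶠ[𝓝 z] Gf := by
      filter_upwards [hUo.mem_nhds hz] with w hw
      simp [ofComplex_apply_of_im_pos hw]
    exact (hev.differentiableAt_iff.mpr hd).differentiableWithinAt
  · obtain ⟨n, hn⟩ := hcover (τ : ℂ) τ.im_pos
    show Gf (τ : ℂ) ^ p = f τ
    rw [hGf n hn, hG n _ hn, hFdef]
    simp [ofComplex_apply]

end

end Fermat.Agent.S42
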